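import Fermat.Agent.CFT.Idele.Model

/-!
# The local fields of a subfield and the values of its ideles

The completion of `g L` inside `ℚ̄_q` is `ℚ_q(ι(g L))`; ideles of `L` take their values at `g`
there, every such value occurs, and `ι(g L)` is dense in it.
-/

set_option autoImplicit false

noncomputable section

namespace Fermat.Agent.CFT.Idele

open ExtCitation Fermat.Agent.Arith IntermediateField

local instance factPrime' (q : Nat.Primes) : Fact (q : ℕ).Prime := ⟨q.2⟩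

/-- `ℚ_q(ι(g L))`. -/
def fieldAt (q : Nat.Primes) (L : IntermediateField ℚ QBar) (g : GQ) :
    IntermediateField ℚ_[(q : ℕ)] (Ω q) :=
  IntermediateField.adjoin ℚ_[(q : ℕ)] ((fun x => emb q (g x)) '' (L : Set QBar))

variable {q : Nat.Primes} {L : IntermediateField ℚ QBar}

/-- `x ↦ ι(g x)` on `L`. -/
def embAt (q : Nat.Primes) (L : IntermediateField ℚ QBar) (g : GQ) : L →ₗ[ℚ] Ω q :=
  ((emb q).comp (g.toAlgHom.comp L.val)).toLinearMap

theorem emb_mem_fieldAt (g : GQ) {x : QBar} (hx : x ∈ L) : emb q (g x) ∈ fieldAt q L g :=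
  IntermediateField.subset_adjoin _ _ ⟨x, hx, rfl⟩

theorem fieldAt_mono {K : IntermediateField ℚ QBar} (h : K ≤ L) (g : GQ) :
    fieldAt q K g ≤ fieldAt q L g :=
  IntermediateField.adjoin.mono _ _ _ (Set.image_mono h)

theorem fixes_fieldAt_iff (τ : Ω q ≃ₐ[ℚ_[(q : ℕ)]] Ω q) (g : GQ) :
    τ ∈ (fieldAt q L g).fixingSubgroup ↔ g⁻¹ * loc q τ * g ∈ L.fixingSubgroup := by
  rw [IntermediateField.mem_fixingSubgroup_iff, IntermediateField.mem_fixingSubgroup_iff]
  have key : ∀ x, (g⁻¹ * loc q τ * g) x = x ↔ τ (emb q (g x)) = emb q (g x) := fun x => by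
    have hid : (g * (g⁻¹ * loc q τ * g)) x = loc q τ (g x) := by
      rw [← mul_assoc, ← mul_assoc, mul_inv_cancel, one_mul]; rfl
    rw [← g.injective.eq_iff, ← emb_loc]
    refine ⟨fun h => ?_, fun h => ?_⟩
    · rw [show loc q τ (g x) = g x from hid.symm.trans h]
    · exact hid.trans ((emb q).injective h)
  refine ⟨fun h x hx => (key x).2 (h _ (emb_mem_fieldAt g hx)), fun h y hy => ?_⟩
  induction hy using IntermediateField.adjoin_induction with
  | mem y hy => obtain ⟨x, hx, rfl⟩ := hy; exact (key x).1 (h x hx)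
  | algebraMap r => exact τ.commutes r
  | add a b _ _ ha hb => rw [map_add, ha, hb]
  | inv a _ ha => rw [map_inv₀, ha]
  | mul a b _ _ ha hb => rw [map_mul, ha, hb]

instance isAlgClosure_Ω : IsAlgClosure ℚ_[(q : ℕ)] (Ω q) := ⟨inferInstance, inferInstance⟩

instance isGalois_Ω : IsGalois ℚ_[(q : ℕ)] (Ω q) := by
  have : Normal ℚ_[(q : ℕ)] (Ω q) := IsAlgClosure.normal ℚ_[(q : ℕ)] (Ω q)
  exact ⟨⟩

theorem value_mem_fieldAt {f : PreIdele} (hf : f ∈ idl L) (g : GQ) :
    ((f q g : (Ω q)ˣ) : Ω q) ∈ fieldAt q L g := by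
  rw [← InfiniteGalois.fixedField_fixingSubgroup (fieldAt q L g),
    IntermediateField.mem_fixedField_iff]
  intro τ hτ
  have hs := inv_mem ((fixes_fieldAt_iff τ g).1 hτ)
  have := apply_eq_of_rep hf q τ g hs
  rw [show loc q τ * g * (g⁻¹ * loc q τ * g)⁻¹ = g by simp [mul_assoc]] at this
  exact this.symm

/-- The span of `ι(g b)` for a basis `b` of `L` is the field `ℚ_q(ι(g L))`. -/
theorem mem_span_of_mem_fieldAt [FiniteDimensional ℚ L] (g : GQ) {y : Ω q}
    (hy : y ∈ fieldAt q L g) :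
    y ∈ Submodule.span ℚ_[(q : ℕ)]
      (Set.range fun i => emb q (g ((Module.finBasis ℚ L i : L) : QBar))) := by
  set S := (fun x => emb q (g x)) '' (L : Set QBar)
  set B := Set.range fun i => emb q (g ((Module.finBasis ℚ L i : L) : QBar))
  have hS : S ⊆ Submodule.span ℚ_[(q : ℕ)] B := by
    rintro _ ⟨x, hx, rfl⟩
    have h' : embAt q L g ⟨x, hx⟩ = embAt q L g (∑ i, _) :=
      congrArg (embAt q L g) ((Module.finBasis ℚ L).sum_repr ⟨x, hx⟩).symm
    show embAt q L g ⟨x, hx⟩ ∈ _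
    rw [h', map_sum]
    refine Submodule.sum_mem _ fun i _ => ?_
    rw [map_smul, ← Rat.cast_smul_eq_qsmul ℚ_[(q : ℕ)]]
    exact Submodule.smul_mem _ _ (Submodule.subset_span ⟨i, rfl⟩)
  have halg : (fieldAt q L g).toSubalgebra = Algebra.adjoin ℚ_[(q : ℕ)] S :=
    IntermediateField.adjoin_toSubalgebra_of_isAlgebraic fun x _ => Algebra.IsAlgebraic.isAlgebraic x
  have hy' : y ∈ Algebra.adjoin ℚ_[(q : ℕ)] S := halg ▸ hy
  have hsub : (Algebra.adjoin ℚ_[(q : ℕ)] S).toSubmodule ≤ Submodule.span ℚ_[(q : ℕ)] B := by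
    rw [Algebra.adjoin_eq_span]
    refine Submodule.span_le.2 fun z hz => hS ?_
    have hclosed : ∀ z ∈ Submonoid.closure S, z ∈ S := fun z hz => by
      induction hz using Submonoid.closure_induction with
      | mem z h => exact h
      | one => exact ⟨1, one_mem L, by simp⟩
      | mul a b _ _ ha hb =>
        obtain ⟨x, hx, rfl⟩ := ha
        obtain ⟨y, hy, rfl⟩ := hb
        exact ⟨x * y, mul_mem hx hy, by simp⟩
    exact hclosed z hz
  exact hsub hy'

instance finiteDimensional_fieldAt [FiniteDimensional ℚ L] (g : GQ) :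
    FiniteDimensional ℚ_[(q : ℕ)] (fieldAt q L g) := by
  have : FiniteDimensional ℚ_[(q : ℕ)] (Submodule.span ℚ_[(q : ℕ)]
      (Set.range fun i => emb q (g ((Module.finBasis ℚ L i : L) : QBar)))) :=
    FiniteDimensional.span_of_finite _ (Set.finite_range _)
  exact Submodule.finiteDimensional_of_le
    (S₁ := (fieldAt q L g).toSubalgebra.toSubmodule) fun y hy => mem_span_of_mem_fieldAt g hy

/-- `ι(g L)` is dense in `ℚ_q(ι(g L))`. -/
theorem exists_emb_near [FiniteDimensional ℚ L] (g : GQ) {y : Ω q} (hy : y ∈ fieldAt q L g)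
    {ε : ℝ} (hε : 0 < ε) : ∃ x ∈ L, ‖y - emb q (g x)‖ < ε := by
  obtain ⟨c, hc⟩ := Submodule.mem_span_range_iff_exists_fun _ |>.1 (mem_span_of_mem_fieldAt g hy)
  set b := fun i => emb q (g ((Module.finBasis ℚ L i : L) : QBar)) with hb
  have happrox : ∀ i, ∃ r : ℚ, ‖c i - (r : ℚ_[(q : ℕ)])‖ * ‖b i‖ < ε := fun i => by
    rcases eq_or_ne ‖b i‖ 0 with h | h
    · exact ⟨0, by rw [h, mul_zero]; exact hε⟩
    · have hpos : 0 < ‖b i‖ := lt_of_le_of_ne (norm_nonneg _) (Ne.symm h)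
      obtain ⟨r, hr⟩ := Padic.rat_dense (q : ℕ) (c i) (div_pos hε hpos)
      exact ⟨r, (lt_div_iff₀ hpos).1 hr⟩
  choose r hr using happrox
  refine ⟨(∑ i, r i • Module.finBasis ℚ L i : L), SetLike.coe_mem _, ?_⟩
  have e : emb q (g ((∑ i, r i • Module.finBasis ℚ L i : L) : QBar)) =
      ∑ i, (r i : ℚ_[(q : ℕ)]) • b i := by
    show embAt q L g _ = _
    rw [map_sum]
    exact Finset.sum_congr rfl fun i _ => by
      rw [map_smul, Rat.cast_smul_eq_qsmul]; rfl
  rw [e, ← hc, ← Finset.sum_sub_distrib]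
  rcases isEmpty_or_nonempty (Fin (Module.finrank ℚ L)) with h | h
  · simpa using hε
  · obtain ⟨i, -, hi⟩ := IsUltrametricDist.exists_norm_finsetSum_le_of_nonempty
      (Finset.univ_nonempty (α := Fin (Module.finrank ℚ L)))
      (fun i => c i • b i - (r i : ℚ_[(q : ℕ)]) • b i)
    refine hi.trans_lt ?_
    rw [← sub_smul, norm_smul]
    exact hr i

theorem exists_emb_norm_eq [FiniteDimensional ℚ L] (g : GQ) {y : Ω q} (hy : y ∈ fieldAt q L g)
    (hy0 : y ≠ 0) : ∃ x ∈ L, x ≠ 0 ∧ ‖emb q (g x)‖ = ‖y‖ := by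
  obtain ⟨x, hx, hlt⟩ := exists_emb_near g hy (norm_pos_iff.2 hy0)
  refine ⟨x, hx, fun h0 => ?_, ?_⟩
  · rw [h0, map_zero, map_zero, sub_zero] at hlt; exact lt_irrefl _ hlt
  · have h' : ‖emb q (g x) - y‖ < ‖y‖ := by rwa [norm_sub_rev]
    have := IsUltrametricDist.norm_add_eq_max_of_norm_ne_norm h'.ne
    rw [sub_add_cancel, max_eq_right h'.le] at this
    exact this

/-- The idele with a given value at `g` and `1` outside `D g Γ_L`. -/
theorem exists_idl_single (g : GQ) (y : (Ω q)ˣ) (hy : (y : Ω q) ∈ fieldAt q L g) :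
    ∃ f ∈ idl L, f q g = y ∧ (∀ q', q' ≠ q → f q' = 1) ∧
      ∀ g', (∀ τ, ∀ s ∈ L.fixingSubgroup, g' ≠ loc q τ * g * s) → f q g' = 1 := by
  classical
  let P : GQ → (Ω q ≃ₐ[ℚ_[(q : ℕ)]] Ω q) → Prop := fun g' τ =>
    (loc q τ * g)⁻¹ * g' ∈ L.fixingSubgroup
  let u : GQ → (Ω q)ˣ := fun g' =>
    if h : ∃ τ, P g' τ then Units.map (h.choose : Ω q →* Ω q) y else 1
  have hwd : ∀ g' τ, P g' τ → ((u g' : (Ω q)ˣ) : Ω q) = τ (y : Ω q) := by
    intro g' τ hτ
    have hex : ∃ τ, P g' τ := ⟨τ, hτ⟩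
    simp only [u, dif_pos hex]
    have h0 : P g' hex.choose := hex.choose_spec
    set τ₀ := hex.choose
    show τ₀ (y : Ω q) = τ (y : Ω q)
    have hfix : τ⁻¹ * τ₀ ∈ (fieldAt q L g).fixingSubgroup := by
      rw [fixes_fieldAt_iff]
      have := mul_mem hτ (inv_mem h0)
      convert this using 1
      simp [mul_assoc]
    have := (IntermediateField.mem_fixingSubgroup_iff _ _).1 hfix _ hy
    exact (congrArg τ this).symm.trans (τ.apply_symm_apply _) |>.symm
  have hnot : ∀ g', (¬ ∃ τ, P g' τ) → u g' = 1 := fun g' h => dif_neg h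
  let f : PreIdele := Function.update 1 q u
  have hfq : f q = u := Function.update_self ..
  have hfo : ∀ q', q' ≠ q → f q' = 1 := fun q' h => Function.update_of_ne h ..
  refine ⟨f, mem_idl.2 ⟨?_, ⟨{q}, fun q' hq' g' => ?_⟩, ?_⟩, ?_, hfo, ?_⟩
  · intro q' σ g'
    rcases eq_or_ne q' q with rfl | hne
    · rw [hfq]
      by_cases h : ∃ τ, P g' τ
      · obtain ⟨τ, hτ⟩ := h
        rw [hwd g' τ hτ, hwd (loc q' σ * g') (σ * τ)]
        · rfl
        · show _ ∈ L.fixingSubgroup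
          convert hτ using 1
          simp [mul_assoc]
      · rw [hnot g' h, hnot (loc q' σ * g'), Units.val_one, map_one]
        rintro ⟨τ, hτ⟩
        refine h ⟨σ⁻¹ * τ, ?_⟩
        show _ ∈ L.fixingSubgroup
        convert hτ using 1
        simp [mul_assoc]
    · simp [hfo q' hne]
  · simp [hfo q' (by simpa using hq')]
  · intro s hs
    funext q' g'
    rw [transl_apply]
    rcases eq_or_ne q' q with rfl | hne
    · rw [hfq]
      by_cases h : ∃ τ, P g' τ
      · obtain ⟨τ, hτ⟩ := h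
        refine Units.ext ?_
        rw [hwd g' τ hτ, hwd (g' * s) τ]
        show _ ∈ L.fixingSubgroup
        rw [← mul_assoc]; exact mul_mem hτ hs
      · rw [hnot g' h, hnot]
        rintro ⟨τ, hτ⟩
        refine h ⟨τ, ?_⟩
        show _ ∈ L.fixingSubgroup
        have := mul_mem hτ (inv_mem hs)
        rwa [mul_assoc, mul_inv_cancel_right] at this
    · simp [hfo q' hne]
  · rw [hfq]
    refine Units.ext ((hwd g 1 ?_).trans rfl)
    show _ ∈ L.fixingSubgroup
    rw [map_one, one_mul, inv_mul_cancel]; exact one_mem _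
  · intro g' hg'
    rw [hfq]
    refine hnot g' ?_
    rintro ⟨τ, hτ⟩
    exact hg' τ _ hτ (by rw [mul_inv_cancel_left])

end Fermat.Agent.CFT.Idele
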