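import Fermat.Agent.CFT.Idele.Glue
import Fermat.Agent.CFT.Idele.Kummer
import Fermat.Agent.CFT.Idele.LocalPow

/-!
# Local norms in a Kummer extension of degree `p`

An idele of `K` which at every place either meets a split place of `b`, or is a `p`-th power, or is
a unit while `b` is a unit times a `p`-th power there (`q ≠ p`), is a norm from `K(b ^ (1 / p))`.
-/

set_option autoImplicit false
set_option synthInstance.maxHeartbeats 200000
set_option linter.style.haveILetI false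

noncomputable section

namespace Fermat.Agent.CFT.Idele

open ExtCitation Fermat.Agent.Arith IntermediateField

local instance factPrimeKummerNorm (q : Nat.Primes) : Fact (q : ℕ).Prime := ⟨q.2⟩

/-- `K(β)`. -/
def kumField (K : IntermediateField ℚ QBar) (β : QBar) : IntermediateField ℚ QBar :=
  K ⊔ IntermediateField.adjoin ℚ {β}

variable {K : IntermediateField ℚ QBar}

theorem le_kumField (β : QBar) : K ≤ kumField K β := le_sup_left

theorem mem_kumField (β : QBar) : β ∈ kumField K β :=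
  (le_sup_right : IntermediateField.adjoin ℚ {β} ≤ kumField K β)
    (IntermediateField.subset_adjoin _ _ (Set.mem_singleton β))

theorem mem_fixingSubgroup_kumField {β : QBar} {σ : GQ} :
    σ ∈ (kumField K β).fixingSubgroup ↔ σ ∈ K.fixingSubgroup ∧ σ β = β := by
  refine ⟨fun h => ⟨IntermediateField.fixingSubgroup_antitone (le_kumField β) h,
    (IntermediateField.mem_fixingSubgroup_iff _ _).mp h β (mem_kumField β)⟩, fun ⟨h1, h2⟩ => ?_⟩
  rw [IntermediateField.mem_fixingSubgroup_iff]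
  intro x hx
  have hle : kumField K β ≤ IntermediateField.fixedField (Subgroup.zpowers σ) := by
    refine sup_le (fun y hy => ?_) (IntermediateField.adjoin_le_iff.mpr ?_)
    · rw [IntermediateField.mem_fixedField_iff]
      exact fun t ht => Subgroup.zpowers_le.mpr
        (show σ ∈ MulAction.stabilizer GQ y from
          (IntermediateField.mem_fixingSubgroup_iff _ _).mp h1 y hy) ht
    · rintro y rfl
      rw [SetLike.mem_coe, IntermediateField.mem_fixedField_iff]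
      exact fun t ht => Subgroup.zpowers_le.mpr (show σ ∈ MulAction.stabilizer GQ y from h2) ht
  exact (IntermediateField.mem_fixedField_iff _ _).mp (hle hx) σ (Subgroup.mem_zpowers σ)

instance finiteDimensional_kumField [FiniteDimensional ℚ K] (β : QBar) :
    FiniteDimensional ℚ (kumField K β) := by
  haveI : FiniteDimensional ℚ (IntermediateField.adjoin ℚ ({β} : Set QBar)) :=
    IntermediateField.adjoin.finiteDimensional (Algebra.IsIntegral.isIntegral β)
  exact IntermediateField.finiteDimensional_sup K (IntermediateField.adjoin ℚ {β})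

variable {p : ℕ} [hp : Fact p.Prime]

/-- The norm of a step of degree `p`. -/
def normStep (p : ℕ) (g₀ : GQ) (f : PreIdele) : PreIdele := fun q g =>
  ∏ i ∈ Finset.range p, f q (g * g₀ ^ i)

omit hp in
theorem normStep_apply (g₀ : GQ) (f : PreIdele) (q : Nat.Primes) (g : GQ) :
    normStep p g₀ f q g = ∏ i ∈ Finset.range p, f q (g * g₀ ^ i) := rfl

omit hp in
theorem normStep_eq_prod (g₀ : GQ) (f : PreIdele) :
    normStep p g₀ f = ∏ i ∈ Finset.range p, transl (g₀ ^ i) f := by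
  funext q g
  rw [Finset.prod_apply, Finset.prod_apply]
  rfl

omit hp in
theorem normStep_mul (g₀ : GQ) (f f' : PreIdele) :
    normStep p g₀ (f * f') = normStep p g₀ f * normStep p g₀ f' := by
  funext q g
  exact Finset.prod_mul_distrib

omit hp in
theorem normStep_one (g₀ : GQ) : normStep p g₀ 1 = 1 := by
  funext q g
  exact Finset.prod_eq_one fun _ _ => rfl

variable {ζ : QBar} (hζ : IsPrimitiveRoot ζ p) (hζK : ζ ∈ K)
variable {b : QBar} (hbK : b ∈ K) (hb0 : b ≠ 0) {g₀ : GQ} (hg₀ : g₀ ∈ K.fixingSubgroup)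
  (hkum : kum hζ g₀ b = 1)

include hζK hbK hb0 hg₀ hkum in
theorem kum_pow (i : ℕ) : kum hζ (g₀ ^ i) b = i := by
  induction i with
  | zero =>
    rw [pow_zero, Nat.cast_zero]
    exact (kum_eq_zero_iff hζ hζK (one_mem _) hbK hb0 (rootP_pow b)).mpr rfl
  | succ i ih =>
    rw [pow_succ, kum_comp hζ hζK (pow_mem hg₀ i) hg₀ hbK hb0, ih, hkum, Nat.cast_succ]

include hζK hbK hb0 hg₀ hkum in
theorem inv_pow_mul_mem {σ : GQ} (hσ : σ ∈ K.fixingSubgroup) :
    (g₀ ^ (kum hζ σ b).val)⁻¹ * σ ∈ (kumField K (rootP p b)).fixingSubgroup := by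
  have hmem : g₀ ^ (kum hζ σ b).val ∈ K.fixingSubgroup := pow_mem hg₀ _
  have hσ' := mul_mem (inv_mem hmem) hσ
  refine mem_fixingSubgroup_kumField.mpr ⟨hσ',
    (kum_eq_zero_iff hζ hζK hσ' hbK hb0 (rootP_pow b)).mp ?_⟩
  have h := kum_comp hζ hζK hmem hσ' hbK hb0
  rw [mul_inv_cancel_left, kum_pow hζ hζK hbK hb0 hg₀ hkum, ZMod.natCast_zmod_val] at h
  exact left_eq_add.mp h

include hζK hbK hb0 hg₀ hkum in
theorem apply_mul_of_mem {y : PreIdele} (hy : y ∈ idl (kumField K (rootP p b))) (q : Nat.Primes)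
    (r : GQ) {σ : GQ} (hσ : σ ∈ K.fixingSubgroup) :
    y q (r * σ) = y q (r * g₀ ^ (kum hζ σ b).val) := by
  have h := congrFun (congrFun ((mem_idl.mp hy).2.2 _
    (inv_pow_mul_mem hζ hζK hbK hb0 hg₀ hkum hσ)) q) (r * g₀ ^ (kum hζ σ b).val)
  rwa [transl_apply, mul_assoc, mul_inv_cancel_left] at h

include hζK hbK hb0 hg₀ hkum in
/-- The value of a norm at `τ r s`. -/
theorem normStep_value {y : PreIdele} (hy : y ∈ idl (kumField K (rootP p b))) (q : Nat.Primes)
    (τ : Ω q ≃ₐ[ℚ_[(q : ℕ)]] Ω q) (r : GQ) {s : GQ} (hs : s ∈ K.fixingSubgroup) :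
    ((normStep p g₀ y q (loc q τ * r * s) : (Ω q)ˣ) : Ω q) =
      τ (∏ k : ZMod p, ((y q (r * g₀ ^ k.val) : (Ω q)ˣ) : Ω q)) := by
  have hi : ∀ i : ℕ, ((y q (loc q τ * r * s * g₀ ^ i) : (Ω q)ˣ) : Ω q) =
      τ ((y q (r * g₀ ^ ((kum hζ s b + (i : ZMod p)).val)) : (Ω q)ˣ) : Ω q) := fun i => by
    rw [show loc q τ * r * s * g₀ ^ i = loc q τ * (r * (s * g₀ ^ i)) by group,
      (mem_idl.mp hy).1 q τ, apply_mul_of_mem hζ hζK hbK hb0 hg₀ hkum hy q r
        (mul_mem hs (pow_mem hg₀ i)),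
      kum_comp hζ hζK hs (pow_mem hg₀ i) hbK hb0, kum_pow hζ hζK hbK hb0 hg₀ hkum]
  rw [normStep_apply, Units.coe_prod]
  simp only [hi]
  rw [← map_prod]
  congr 1
  rw [Finset.prod_range]
  refine Fintype.prod_bijective (fun i : Fin p => kum hζ s b + ((i : ℕ) : ZMod p))
    ((Fintype.bijective_iff_injective_and_card _).mpr ⟨fun i j h => ?_, ?_⟩) _ _ fun i => rfl
  · have h' := (ZMod.natCast_eq_natCast_iff _ _ _).mp (add_left_cancel h)
    exact Fin.ext (Nat.ModEq.eq_of_lt_of_lt h' i.2 j.2)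
  · rw [Fintype.card_fin, ZMod.card]

include hζK hbK hb0 hg₀ hkum in
theorem normStep_value_self {y : PreIdele} (hy : y ∈ idl (kumField K (rootP p b)))
    (q : Nat.Primes) (r : GQ) :
    ((normStep p g₀ y q r : (Ω q)ˣ) : Ω q) =
      ∏ k : ZMod p, ((y q (r * g₀ ^ k.val) : (Ω q)ˣ) : Ω q) := by
  have h := normStep_value hζ hζK hbK hb0 hg₀ hkum hy q 1 r (one_mem _)
  rw [map_one, one_mul, mul_one] at h
  exact h

include hζK hbK hb0 hg₀ hkum in
theorem normStep_mem_idl {y : PreIdele} (hy : y ∈ idl (kumField K (rootP p b))) :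
    normStep p g₀ y ∈ idl K := by
  obtain ⟨hye, ⟨T, hT⟩, -⟩ := mem_idl.mp hy
  refine mem_idl.mpr ⟨fun q τ g => ?_, ⟨T, fun q hq g => ?_⟩, fun s hs => ?_⟩
  · simp only [normStep_apply, Units.coe_prod, map_prod]
    exact Finset.prod_congr rfl fun i _ => by rw [mul_assoc, hye q τ]
  · rw [normStep_apply, Units.coe_prod, norm_prod]
    exact Finset.prod_eq_one fun i _ => hT q hq _
  · funext q g
    refine Units.ext ?_
    rw [transl_apply, normStep_value_self hζ hζK hbK hb0 hg₀ hkum hy q g]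
    have h := normStep_value hζ hζK hbK hb0 hg₀ hkum hy q 1 g hs
    rw [map_one, one_mul] at h
    exact h

/-- The local norm criterion at the place of `g`. -/
def LocNormCond (p : ℕ) (K : IntermediateField ℚ QBar) (b : QBar) (q : Nat.Primes) (g : GQ)
    (v : Ω q) : Prop :=
  (∃ y ∈ fieldAt q K g, y ^ p = emb q (g b)) ∨ (∃ y ∈ fieldAt q K g, y ^ p = v) ∨
    ((q : ℕ) ≠ p ∧ ‖v‖ = 1 ∧ ∃ c ∈ fieldAt q K g, c ≠ 0 ∧ ‖emb q (g b)‖ = ‖c‖ ^ p)

theorem prod_range_pow_eq_one (hp2 : p ≠ 2) {R : Type*} [CommMonoid R] {x : R} (hx : x ^ p = 1) :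
    ∏ i ∈ Finset.range p, x ^ i = 1 := by
  rw [Finset.prod_pow_eq_pow_sum, Finset.sum_range_id]
  obtain ⟨m, hm⟩ := hp.out.odd_of_ne_two hp2
  rw [show p * (p - 1) / 2 = p * m by
    rw [hm, Nat.add_sub_cancel, show (2 * m + 1) * (2 * m) = (2 * m + 1) * m * 2 by ring,
      Nat.mul_div_cancel _ two_pos], pow_mul, hx, one_pow]

theorem zmod_prod_pow_eq_one (hp2 : p ≠ 2) {R : Type*} [CommMonoid R] {x : R} (hx : x ^ p = 1) :
    ∏ k : ZMod p, x ^ k.val = 1 := by
  rw [← prod_range_pow_eq_one hp2 hx, Finset.prod_range]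
  refine (Fintype.prod_bijective (fun i : Fin p => ((i : ℕ) : ZMod p))
    ((Fintype.bijective_iff_injective_and_card _).mpr ⟨fun i j h => ?_, ?_⟩) _ _ fun i => ?_).symm
  · exact Fin.ext (Nat.ModEq.eq_of_lt_of_lt ((ZMod.natCast_eq_natCast_iff _ _ _).mp h) i.2 j.2)
  · rw [Fintype.card_fin, ZMod.card]
  · rw [ZMod.val_natCast, Nat.mod_eq_of_lt i.2]

omit hp in
theorem pow_norm_eq_one {q : Nat.Primes} {y : Ω q} (hp0 : p ≠ 0) (h : ‖y ^ p‖ = 1) : ‖y‖ = 1 := by
  rw [norm_pow] at h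
  exact (pow_eq_one_iff_of_nonneg (norm_nonneg _) hp0).mp h

/-- A unit of `F` is a power of a given non `p`-th power unit times a `p`-th power. -/
theorem exists_unit_eq (hp2 : p ≠ 2) {q : Nat.Primes} (hqp : (q : ℕ) ≠ p)
    (F : IntermediateField ℚ_[(q : ℕ)] (Ω q)) [FiniteDimensional ℚ_[(q : ℕ)] F] {ω u v : Ω q}
    (hω : IsPrimitiveRoot ω p) (hωF : ω ∈ F) (huF : u ∈ F) (hvF : v ∈ F) (hu : ‖u‖ = 1)
    (hv : ‖v‖ = 1) (hne : ∀ w : Ω q, w ∈ F → w ^ p ≠ u) :
    ∃ (k : ℕ) (w : Ω q), w ∈ F ∧ ‖w‖ = 1 ∧ v = u ^ k * w ^ p := by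
  have hu0 : (⟨u, huF⟩ : F) ≠ 0 := fun h => by
    rw [show u = 0 from congrArg Subtype.val h, norm_zero] at hu
    exact zero_ne_one hu
  have hv0 : (⟨v, hvF⟩ : F) ≠ 0 := fun h => by
    rw [show v = 0 from congrArg Subtype.val h, norm_zero] at hv
    exact zero_ne_one hv
  have hω' : IsPrimitiveRoot (⟨ω, hωF⟩ : F) p :=
    IsPrimitiveRoot.of_map_of_injective (f := F.val) hω F.val.injective
  obtain ⟨k, w, hw, e⟩ := Local.exists_eq_pow_mul_pow hp2 hqp hω' (u := Units.mk0 _ hv0)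
    (v := Units.mk0 _ hu0) ((Local.mem_unitGroup F).mpr hv) ((Local.mem_unitGroup F).mpr hu)
    fun w hw => hne _ (w : F).2 (congrArg (fun x : Fˣ => ((x : F) : Ω q)) hw)
  exact ⟨k, ((w : F) : Ω q), (w : F).2, (Local.mem_unitGroup F).mp hw,
    congrArg (fun x : Fˣ => ((x : F) : Ω q)) e⟩

variable [FiniteDimensional ℚ K] (hp2 : p ≠ 2)

include hζK hbK hb0 hp2 in
/-- The local step: a value for the extension with the prescribed norm. -/
theorem exists_local_solution {q : Nat.Primes} {r : GQ} {v : (Ω q)ˣ}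
    (hv : (v : Ω q) ∈ fieldAt q K r) (hc : LocNormCond p K b q r v) :
    ∃ z : (Ω q)ˣ, (z : Ω q) ∈ fieldAt q (kumField K (rootP p b)) r ∧
      (‖(v : Ω q)‖ = 1 → ‖(z : Ω q)‖ = 1) ∧
      ((∀ τ : Ω q ≃ₐ[ℚ_[(q : ℕ)]] Ω q, r⁻¹ * loc q τ * r ∈ K.fixingSubgroup →
          τ (emb q (r (rootP p b))) = emb q (r (rootP p b))) → z = v) ∧
      (∀ τ : Ω q ≃ₐ[ℚ_[(q : ℕ)]] Ω q, r⁻¹ * loc q τ * r ∈ K.fixingSubgroup →
        kum hζ (r⁻¹ * loc q τ * r) b = 1 →
          ∏ k : ZMod p, (τ ^ k.val) (z : Ω q) = v) := by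
  set β := rootP p b with hβ
  set M := kumField K β
  set B := emb q (r β) with hB
  have hBM : B ∈ fieldAt q M r := emb_mem_fieldAt r (mem_kumField β)
  have hKM : fieldAt q K r ≤ fieldAt q M r := fieldAt_mono (le_kumField β) r
  by_cases hsplit : ∀ τ : Ω q ≃ₐ[ℚ_[(q : ℕ)]] Ω q, r⁻¹ * loc q τ * r ∈ K.fixingSubgroup →
      τ B = B
  · refine ⟨v, hKM hv, id, fun _ => rfl, fun τ hτ h1 => ?_⟩
    have hβfix : (r⁻¹ * loc q τ * r) β = β := by
      have h2 := hsplit τ hτ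
      rw [hB, ← emb_loc] at h2
      rw [AlgEquiv.mul_apply, AlgEquiv.mul_apply, (emb q).toRingHom.injective h2]
      exact r.symm_apply_apply β
    rw [(kum_eq_zero_iff hζ hζK hτ hbK hb0 (rootP_pow b)).mpr hβfix] at h1
    exact absurd h1 zero_ne_one
  have hζp : IsPrimitiveRoot (emb q (r ζ)) p :=
    (hζ.map_of_injective r.injective).map_of_injective (emb q).toRingHom.injective
  have hζF : emb q (r ζ) ∈ fieldAt q K r := emb_mem_fieldAt r hζK
  have hb' : emb q (r b) ≠ 0 := (map_ne_zero _).mpr ((map_ne_zero _).mpr hb0)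
  have hBb : B ^ p = emb q (r b) := by rw [hB, ← map_pow, ← map_pow, hβ, rootP_pow]
  have hB0 : B ≠ 0 := fun h => hb' (by rw [← hBb, h, zero_pow hp.out.ne_zero])
  have hfix : ∀ (τ : Ω q ≃ₐ[ℚ_[(q : ℕ)]] Ω q), r⁻¹ * loc q τ * r ∈ K.fixingSubgroup →
      ∀ (n : ℕ) {y : Ω q}, y ∈ fieldAt q K r → (τ ^ n) y = y := fun τ hτ n y hy =>
    (IntermediateField.mem_fixingSubgroup_iff _ _).mp
      (pow_mem ((fixes_fieldAt_iff τ r).mpr hτ) n) y hy
  -- the root of `b` is not in the base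
  have hnot : ¬ ∃ y ∈ fieldAt q K r, y ^ p = emb q (r b) := by
    rintro ⟨y, hy, hyb⟩
    refine hsplit fun τ hτ => ?_
    have hy0 : y ≠ 0 := fun h => hb' (by rw [← hyb, h, zero_pow hp.out.ne_zero])
    obtain ⟨i, -, hi⟩ := hζp.eq_pow_of_pow_eq_one (ξ := B / y)
      (by rw [div_pow, hBb, hyb, div_self hb'])
    have e : B = emb q (r ζ) ^ i * y := by rw [hi, div_mul_cancel₀ _ hy0]
    have := hfix τ hτ 1 (mul_mem (pow_mem hζF i) hy)
    rw [pow_one, ← e] at this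
    exact this
  obtain ⟨z₀, hz₀, hn, hzv⟩ : ∃ z₀ : Ω q, z₀ ∈ fieldAt q M r ∧
      (‖(v : Ω q)‖ = 1 → ‖z₀‖ = 1) ∧
      ∀ τ : Ω q ≃ₐ[ℚ_[(q : ℕ)]] Ω q, r⁻¹ * loc q τ * r ∈ K.fixingSubgroup →
        kum hζ (r⁻¹ * loc q τ * r) b = 1 → ∏ k : ZMod p, (τ ^ k.val) z₀ = v := by
    rcases hc with hc | ⟨y, hy, hyv⟩ | ⟨hqp, hv1, c, hc, hc0, hnc⟩
    · exact absurd hc hnot
    · refine ⟨y, hKM hy, fun h1 => ?_, fun τ hτ _ => ?_⟩
      · rw [← hyv, norm_pow] at h1
        exact (pow_eq_one_iff_of_nonneg (norm_nonneg y) hp.out.ne_zero).mp h1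
      · rw [Finset.prod_congr rfl fun k _ => hfix τ hτ k.val hy, Finset.prod_const,
          Finset.card_univ, ZMod.card, hyv]
    -- the unit `b / c ^ p` generates the units modulo `p`-th powers
    set u₀ : Ω q := emb q (r b) / c ^ p with hu₀
    have hcF : c ^ p ≠ 0 := pow_ne_zero _ hc0
    have hu₀n : ‖u₀‖ = 1 := by
      rw [hu₀, norm_div, norm_pow, hnc,
        div_self (pow_ne_zero _ (norm_ne_zero_iff.mpr hc0))]
    obtain ⟨k, w, hwF, hw, e'⟩ := exists_unit_eq hp2 hqp (fieldAt q K r) hζp hζF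
      (div_mem (emb_mem_fieldAt r hbK) (pow_mem hc p)) hv hu₀n hv1 fun w hw hwe =>
        hnot ⟨c * w, mul_mem hc hw, by rw [mul_pow, hwe, mul_div_cancel₀ _ hcF]⟩
    refine ⟨(B / c) ^ k * w,
      mul_mem (pow_mem (div_mem hBM (hKM hc)) k) (hKM hwF), fun _ => ?_, fun τ hτ h1 => ?_⟩
    · have hBc : ‖B / c‖ = 1 := by
        refine (pow_eq_one_iff_of_nonneg (norm_nonneg _) hp.out.ne_zero).mp ?_
        rw [← norm_pow, div_pow, hBb]
        exact hu₀n
      rw [norm_mul, norm_pow, hBc, one_pow, one_mul]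
      exact hw
    · have hτB : τ B = emb q (r ζ) * B := by
        have h2 := kum_spec hζ hζK hτ hbK hb0 (rootP_pow (p := p) b)
        rw [h1, ZMod.val_one, pow_one] at h2
        rw [hB, ← emb_loc, show loc q τ (r β) = r ((r⁻¹ * loc q τ * r) β) from
          (r.apply_symm_apply _).symm, hβ, h2, map_mul, map_mul]
      have hτn : ∀ n : ℕ, (τ ^ n) B = emb q (r ζ) ^ n * B := fun n => by
        induction n with
        | zero => simp
        | succ n ih =>
          rw [pow_succ' τ, AlgEquiv.mul_apply, ih, map_mul, map_pow,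
            show τ (emb q (r ζ)) = emb q (r ζ) by simpa using hfix τ hτ 1 hζF, hτB, pow_succ]
          ring
      simp only [map_mul, map_pow, map_div₀, hτn, hfix τ hτ _ hc, hfix τ hτ _ hwF]
      rw [Finset.prod_mul_distrib, Finset.prod_const, Finset.prod_pow, Finset.prod_div_distrib,
        Finset.prod_mul_distrib, zmod_prod_pow_eq_one hp2 hζp.pow_eq_one, one_mul,
        Finset.prod_const, Finset.prod_const, Finset.card_univ, ZMod.card, hBb, e']
  have hz0 : z₀ ≠ 0 := by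
    intro h
    obtain ⟨τ, hτ, hτB⟩ : ∃ τ : Ω q ≃ₐ[ℚ_[(q : ℕ)]] Ω q,
        r⁻¹ * loc q τ * r ∈ K.fixingSubgroup ∧ τ B ≠ B := by
      simpa [not_forall] using hsplit
    set j := kum hζ (r⁻¹ * loc q τ * r) b
    have hj : j ≠ 0 := fun hj => hτB (by
      have h2 := (kum_eq_zero_iff hζ hζK hτ hbK hb0 (rootP_pow (p := p) b)).mp hj
      rw [hB, ← emb_loc, show loc q τ (r β) = r ((r⁻¹ * loc q τ * r) β) from
        (r.apply_symm_apply _).symm, hβ, h2])
    have hpow : ∀ n : ℕ, r⁻¹ * loc q (τ ^ n) * r = (r⁻¹ * loc q τ * r) ^ n := fun n => by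
      rw [map_pow]
      simpa using (conj_pow (i := n) (a := r⁻¹) (b := loc q τ)).symm
    have hk : ∀ n : ℕ, kum hζ ((r⁻¹ * loc q τ * r) ^ n) b = n * j := fun n => by
      induction n with
      | zero =>
        rw [pow_zero, Nat.cast_zero, zero_mul]
        exact (kum_eq_zero_iff hζ hζK (one_mem _) hbK hb0 (rootP_pow b)).mpr rfl
      | succ n ih =>
        rw [pow_succ, kum_comp hζ hζK (pow_mem hτ n) hτ hbK hb0, ih, Nat.cast_succ]
        ring
    have := hzv (τ ^ (j⁻¹).val) (by rw [hpow]; exact pow_mem hτ _)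
      (by rw [hpow, hk, ZMod.natCast_zmod_val, inv_mul_cancel₀ hj])
    rw [h] at this
    simp only [map_zero, Finset.prod_const, Finset.card_univ, ZMod.card,
      zero_pow hp.out.ne_zero] at this
    exact v.ne_zero this.symm
  exact ⟨Units.mk0 z₀ hz0, hz₀, hn, fun h => absurd h hsplit, hzv⟩

include hζK hbK hb0 hg₀ hkum hp2 in
/-- Ideles satisfying the local criterion everywhere are norms. -/
theorem exists_normStep_eq {f : PreIdele} (hf : f ∈ idl K)
    (h : ∀ q g, placeRep q K g = g → LocNormCond p K b q g (f q g : (Ω q)ˣ)) :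
    ∃ y ∈ idl (kumField K (rootP p b)), normStep p g₀ y = f := by
  classical
  set β := rootP p b with hβ
  set M := kumField K β
  have hsol : ∀ q g, ∃ z : (Ω q)ˣ, (z : Ω q) ∈ fieldAt q M g ∧
      (‖((f q g : (Ω q)ˣ) : Ω q)‖ = 1 → ‖(z : Ω q)‖ = 1) ∧
      (placeRep q K g = g →
      ((∀ τ : Ω q ≃ₐ[ℚ_[(q : ℕ)]] Ω q, g⁻¹ * loc q τ * g ∈ K.fixingSubgroup →
          τ (emb q (g β)) = emb q (g β)) → z = f q g) ∧
      (∀ τ : Ω q ≃ₐ[ℚ_[(q : ℕ)]] Ω q, g⁻¹ * loc q τ * g ∈ K.fixingSubgroup →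
        kum hζ (g⁻¹ * loc q τ * g) b = 1 →
          ∏ k : ZMod p, (τ ^ k.val) (z : Ω q) = (f q g : (Ω q)ˣ))) := by
    intro q g
    by_cases hg : placeRep q K g = g
    · obtain ⟨z, h1, h2, h3, h4⟩ := exists_local_solution hζ hζK hbK hb0 hp2
        (value_mem_fieldAt hf g) (h q g hg)
      exact ⟨z, h1, h2, fun _ => ⟨h3, h4⟩⟩
    · exact ⟨1, one_mem _, fun _ => by simp, fun h' => absurd h' hg⟩
  choose z hzM hzn hz using hsol
  obtain ⟨T, hT⟩ := (mem_idl.mp hf).2.1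
  set y := glue M (fun q => placeRep q K) z with hy
  have hyM : y ∈ idl M := glue_mem_idl
    (fun q τ g s hs => placeRep_mul (q := q) τ g
      (IntermediateField.fixingSubgroup_antitone (le_kumField β) hs))
    hzM T fun q hq g => hzn q g (hT q hq g)
  refine ⟨y, hyM, idl_ext (normStep_mem_idl hζ hζK hbK hb0 hg₀ hkum hyM) hf fun q g hg =>
    Units.ext ?_⟩
  rw [normStep_value_self hζ hζK hbK hb0 hg₀ hkum hyM]
  obtain ⟨hzs, hzi⟩ := hz q g hg
  have hrep : ∀ k : ℕ, placeRep q K (g * g₀ ^ k) = g := fun k => by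
    conv_rhs => rw [← hg]
    simpa using placeRep_mul (q := q) (1 : Ω q ≃ₐ[ℚ_[(q : ℕ)]] Ω q) g (pow_mem hg₀ k)
  by_cases hsplit : ∀ τ : Ω q ≃ₐ[ℚ_[(q : ℕ)]] Ω q, g⁻¹ * loc q τ * g ∈ K.fixingSubgroup →
      τ (emb q (g β)) = emb q (g β)
  · rw [Finset.prod_eq_single (0 : ZMod p)]
    · rw [ZMod.val_zero, pow_zero, mul_one, hy, glue_apply hzM (τ := 1) (by simp [hg])]
      simp [hg, hzs hsplit]
    · intro k _ hk
      rw [hy, glue_apply_eq_one, Units.val_one]
      intro τ hτ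
      rw [hrep] at hτ
      obtain ⟨hτK, hτβ⟩ := mem_fixingSubgroup_kumField.mp hτ
      have hconj : g⁻¹ * loc q τ * g ∈ K.fixingSubgroup := by
        have := mul_mem (pow_mem hg₀ k.val) (inv_mem hτK)
        convert this using 1
        group
      refine hk ?_
      have h0 : kum hζ (g⁻¹ * loc q τ * g) b = 0 := by
        refine (kum_eq_zero_iff hζ hζK hconj hbK hb0 (rootP_pow b)).mpr ?_
        have h2 := hsplit τ hconj
        rw [← emb_loc] at h2
        rw [AlgEquiv.mul_apply, AlgEquiv.mul_apply, (emb q).toRingHom.injective h2]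
        exact g.symm_apply_apply β
      have h1 := (kum_eq_zero_iff hζ hζK hτK hbK hb0 (rootP_pow b)).mpr hτβ
      have h2 := kum_comp hζ hζK hconj hτK hbK hb0
      rw [show g⁻¹ * loc q τ * g * ((loc q τ * g)⁻¹ * (g * g₀ ^ k.val)) = g₀ ^ k.val by group,
        kum_pow hζ hζK hbK hb0 hg₀ hkum, ZMod.natCast_zmod_val, h0, h1, add_zero] at h2
      exact h2
    · exact fun h0 => absurd (Finset.mem_univ _) h0
  · obtain ⟨τ₀, hτ₀, hτ₀B⟩ : ∃ τ : Ω q ≃ₐ[ℚ_[(q : ℕ)]] Ω q,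
        g⁻¹ * loc q τ * g ∈ K.fixingSubgroup ∧ τ (emb q (g β)) ≠ emb q (g β) := by
      simpa [not_forall] using hsplit
    set j := kum hζ (g⁻¹ * loc q τ₀ * g) b
    have hj : j ≠ 0 := fun hj => hτ₀B (by
      have h2 := (kum_eq_zero_iff hζ hζK hτ₀ hbK hb0 (rootP_pow (p := p) b)).mp hj
      rw [← emb_loc, show loc q τ₀ (g β) = g ((g⁻¹ * loc q τ₀ * g) β) from
        (g.apply_symm_apply _).symm, hβ, h2])
    have hpow : ∀ (τ : Ω q ≃ₐ[ℚ_[(q : ℕ)]] Ω q) (n : ℕ),
        g⁻¹ * loc q (τ ^ n) * g = (g⁻¹ * loc q τ * g) ^ n := fun τ n => by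
      rw [map_pow]
      simpa using (conj_pow (i := n) (a := g⁻¹) (b := loc q τ)).symm
    have hk : ∀ n : ℕ, kum hζ ((g⁻¹ * loc q τ₀ * g) ^ n) b = n * j := fun n => by
      induction n with
      | zero =>
        rw [pow_zero, Nat.cast_zero, zero_mul]
        exact (kum_eq_zero_iff hζ hζK (one_mem _) hbK hb0 (rootP_pow b)).mpr rfl
      | succ n ih =>
        rw [pow_succ, kum_comp hζ hζK (pow_mem hτ₀ n) hτ₀ hbK hb0, ih, Nat.cast_succ]
        ring
    set τ := τ₀ ^ (j⁻¹).val with hτdef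
    have hτ : g⁻¹ * loc q τ * g ∈ K.fixingSubgroup := by
      rw [hτdef, hpow]; exact pow_mem hτ₀ _
    have hτ1 : kum hζ (g⁻¹ * loc q τ * g) b = 1 := by
      rw [hτdef, hpow, hk, ZMod.natCast_zmod_val, inv_mul_cancel₀ hj]
    rw [← hzi τ hτ hτ1]
    refine Finset.prod_congr rfl fun k _ => ?_
    rw [hy, glue_apply hzM (τ := τ ^ k.val), hrep]
    rw [hrep]
    have hσ' := pow_mem hτ k.val
    have hk' : kum hζ ((g⁻¹ * loc q τ * g) ^ k.val) b = k := by
      have : ∀ n : ℕ, kum hζ ((g⁻¹ * loc q τ * g) ^ n) b = n := fun n => by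
        induction n with
        | zero =>
          rw [pow_zero, Nat.cast_zero]
          exact (kum_eq_zero_iff hζ hζK (one_mem _) hbK hb0 (rootP_pow b)).mpr rfl
        | succ n ih => rw [pow_succ, kum_comp hζ hζK (pow_mem hτ n) hτ hbK hb0, ih, hτ1,
            Nat.cast_succ]
      rw [this, ZMod.natCast_zmod_val]
    have := inv_mem (inv_pow_mul_mem hζ hζK hbK hb0 hg₀ hkum hσ')
    rw [hk', mul_inv_rev, inv_inv, ← hpow] at this
    convert this using 1
    group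

end Fermat.Agent.CFT.Idele
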