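import Fermat.Agent.CFT.Local.Global
import Fermat.Agent.CFT.Local.Residue
import Fermat.Agent.CFT.Idele.Values

/-!
# Decomposition groups at unramified primes are generated by Frobenius
-/

set_option autoImplicit false
set_option synthInstance.maxHeartbeats 200000
set_option linter.style.haveILetI false

noncomputable section

namespace Fermat.Agent.CFT.Idele

open Fermat.Agent.Arith

open scoped Pointwise

/-- If inertia at `padicPlace q` fixes `L` and `σ` is a Frobenius there, every local automorphism
acts on `L` as a power of `σ`. -/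
theorem exists_pow_restrict_eq {q : ℕ} [Fact q.Prime] (L : IntermediateField ℚ QBar)
    [Normal ℚ L] [FiniteDimensional ℚ L]
    (hin : ∀ g ∈ (padicPlace q).inertiaSubgroupIn ℚ, ∀ x : L, g (x : QBar) = (x : QBar))
    {σ : GQ} (hσ : (padicPlace q).IsFrobeniusAt σ q)
    (τ : PadicAlgCl q ≃ₐ[ℚ_[q]] PadicAlgCl q) :
    ∃ i : ℕ, AlgEquiv.restrictNormalHom L (localGaloisToGlobal q τ) =
      AlgEquiv.restrictNormalHom L σ ^ i := by
  set E := Local.localField q L with hE
  obtain ⟨hstab, hfr⟩ := isFrobeniusAt_iff_forall_mem.mp hσ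
  have hcomm : ∀ x : L, ((AlgEquiv.restrictNormalHom L σ x : L) : QBar) = σ (x : QBar) :=
    fun x => AlgEquiv.restrictNormal_commutes σ L x
  obtain ⟨s, hs⟩ := (Local.mem_range_toGlobal_iff q L (AlgEquiv.restrictNormalHom L σ)).mpr
    fun x hx => by rw [hcomm]; exact map_mem_of_mem_decomposition hstab hx
  -- `s` is the Frobenius of the residue field
  have hbar : ∀ y : Local.intRing E,
      Local.resMap E (Local.galInt s y) = Local.resMap E y ^ q := by
    intro y
    obtain ⟨x, hx⟩ := Local.localEmb_dense q L (y : E) one_pos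
    have hx1 : ‖Local.localEmb q L x‖ ≤ 1 := by
      rw [show Local.localEmb q L x = (y : E) + -((y : E) - Local.localEmb q L x) by ring]
      refine (IsUltrametricDist.norm_add_le_max _ _).trans (max_le y.2 ?_)
      rw [norm_neg]; exact hx.le
    have h1 : ‖s (Local.localEmb q L x) - Local.localEmb q L x ^ q‖ < 1 := by
      have h := (Local.mem_nonunits_padicPlace_iff q).mp
        (hfr x ((Local.mem_padicPlace_iff_norm q).mpr hx1))
      rw [← hcomm, map_sub, map_pow, ← hs, Local.padicEmbedding_toGlobal] at h
      exact h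
    have e1 : Local.resMap E y = Local.resMap E ⟨Local.localEmb q L x, hx1⟩ :=
      (Local.resMap_eq_iff E).mpr hx
    rw [e1, ← map_pow, ← Local.resAut_resMap s y, e1, Local.resAut_resMap, Local.resMap_eq_iff]
    exact h1
  have hfrob : Local.resAut E s =
      FiniteField.frobeniusAlgEquivOfAlgebraic (ZMod q) (Local.ResField E) := by
    refine AlgEquiv.ext fun c => ?_
    obtain ⟨y, rfl⟩ := Local.resMap_surjective E c
    rw [Local.resAut_resMap, hbar]
    simp [ZMod.card]
  have hinj : Function.Injective (Local.resAut E) := by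
    rw [← MonoidHom.ker_eq_bot_iff]
    exact (Local.inertia_eq_bot_iff q L).mpr hin
  set t := AlgEquiv.restrictNormalHom E τ with ht
  obtain ⟨i, hi⟩ := (FiniteField.bijective_frobeniusAlgEquivOfAlgebraic_pow (ZMod q)
    (Local.ResField E)).2 (Local.resAut E t)
  refine ⟨i, ?_⟩
  have hti : t = s ^ (i : ℕ) := hinj (by rw [map_pow, hfrob]; exact hi.symm)
  rw [← Local.toGlobal_restrict, ← ht, hti, map_pow, hs]

end Fermat.Agent.CFT.Idele
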