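import Fermat.Agent.Arith.Chebotarev.Crossing
import Fermat.Agent.CFT.Idele.Decomp
import Fermat.Agent.CFT.Idele.Kummer

/-!
# Degree one places realising a Kummer functional
-/

set_option autoImplicit false
set_option linter.style.haveILetI false

noncomputable section

namespace Fermat.Agent.CFT.Idele

open Fermat.Agent.Arith IntermediateField

open scoped Pointwise

local instance factPrimeRealise (q : Nat.Primes) : Fact (q : ℕ).Prime := ⟨q.2⟩

theorem restrict_eq_self_of_zpowers {L : IntermediateField ℚ QBar} [Normal ℚ L] {a b : GQ}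
    (h : AlgEquiv.restrictNormalHom L a ∈ Subgroup.zpowers (AlgEquiv.restrictNormalHom L b))
    {x : QBar} (hx : x ∈ L) (hb : b x = x) : a x = x := by
  have hmem : AlgEquiv.restrictNormalHom L b ∈ MulAction.stabilizer (L ≃ₐ[ℚ] L) (⟨x, hx⟩ : L) :=
    Subtype.ext ((AlgEquiv.restrictNormal_commutes b L ⟨x, hx⟩).trans hb)
  have ha := congrArg Subtype.val ((Subgroup.zpowers_le.mpr hmem) h)
  exact (AlgEquiv.restrictNormal_commutes a L ⟨x, hx⟩).symm.trans ha

/-- An element of `ℚ̄_q` fixed by every automorphism is `q`-adic. -/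
theorem mem_bot_of_forall_fixed {q : Nat.Primes} {y : Ω q}
    (h : ∀ τ : Ω q ≃ₐ[ℚ_[(q : ℕ)]] Ω q, τ y = y) :
    y ∈ (⊥ : IntermediateField ℚ_[(q : ℕ)] (Ω q)) := by
  rw [← InfiniteGalois.fixedField_fixingSubgroup (⊥ : IntermediateField ℚ_[(q : ℕ)] (Ω q)),
    IntermediateField.mem_fixedField_iff]
  exact fun τ _ => h τ

variable {p : ℕ} [hp : Fact p.Prime] {ζ : QBar} {K : IntermediateField ℚ QBar}
  [FiniteDimensional ℚ K] {U : Subgroup QBarˣ}

/-- For every functional `φ` on `U / U ^ p` there are degree one places, outside any finite set,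
at which exactly the kernel of `φ` consists of local `p`-th powers. -/
theorem exists_prime_realising (hζ : IsPrimitiveRoot ζ p) (hζK : ζ ∈ K) (hU : U ≤ unitsOf K)
    [Finite (ModP p U)] (hsat : ∀ x ∈ unitsOf K, x ^ p ∈ U → x ∈ U)
    (φ : Module.Dual (ZMod p) (ModP p U)) (S : Finset ℕ) :
    ∃ q : Nat.Primes, (q : ℕ) ∉ S ∧ ∃ g : GQ, fieldAt q K g = ⊥ ∧ ∀ x : U,
      ((∃ y ∈ fieldAt q K g, y ^ p = emb q (g ((x : QBarˣ) : QBar))) ↔ φ (modClass p x) = 0) := by
  classical
  obtain ⟨σ₀, hσ₀⟩ := exists_kumFun_eq hζ hζK hU hsat φ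
  choose rep hrep using modClass_surjective (p := p) (U := U)
  let R : Set QBar := Set.range fun v => rootP p ((rep v : QBarˣ) : QBar)
  haveI : Finite R := (Set.finite_range _).to_subtype
  haveI : FiniteDimensional ℚ (IntermediateField.adjoin ℚ R) :=
    IntermediateField.finiteDimensional_adjoin fun x _ => Algebra.IsIntegral.isIntegral x
  let L₀ : IntermediateField ℚ QBar := K ⊔ IntermediateField.adjoin ℚ R
  let L : IntermediateField ℚ QBar := IntermediateField.normalClosure ℚ L₀ QBar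
  haveI : Normal ℚ L := normalClosure.normal ℚ L₀ QBar
  haveI : IsGalois ℚ L := ⟨⟩
  haveI : NumberField L := ⟨⟩
  have hKL : K ≤ L := le_sup_left.trans L₀.le_normalClosure
  have hroot : ∀ x : U, rootP p ((x : QBarˣ) : QBar) ∈ L := by
    intro x
    obtain ⟨y, hy⟩ : ∃ y : U, y ^ p = (rep (modClass p x))⁻¹ * x := by
      rw [← modClass_eq_zero_iff, modClass_mul,
        show modClass p (rep (modClass p x))⁻¹ = -modClass p (rep (modClass p x)) from rfl, hrep,
        neg_add_cancel]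
    set r : QBar := rootP p ((rep (modClass p x) : QBarˣ) : QBar)
    have hval : ((x : QBarˣ) : QBar) = (r * ((y : QBarˣ) : QBar)) ^ p := by
      rw [mul_pow, rootP_pow, ← Units.val_pow_eq_pow_val, ← Units.val_mul, ← SubmonoidClass.coe_pow,
        hy, Subgroup.coe_mul, InvMemClass.coe_inv, mul_inv_cancel_left]
    obtain ⟨i, -, hi⟩ := exists_eq_zeta_pow_mul hζ
      (mul_ne_zero (rootP_ne_zero (Units.ne_zero _)) (Units.ne_zero _))
      ((rootP_pow ((x : QBarˣ) : QBar)).trans hval)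
    rw [hi]
    exact mul_mem (pow_mem (hKL hζK) i) (mul_mem ((le_sup_right.trans L₀.le_normalClosure :
      IntermediateField.adjoin ℚ R ≤ L) (IntermediateField.subset_adjoin _ _ ⟨_, rfl⟩))
      (hKL (hU y.2)))
  obtain ⟨B, hB⟩ := Density.exists_bound_good L
  obtain ⟨ℓ, hℓ, hℓS, A, hA, σ, hσ, hz⟩ :=
    Density.exists_frobenius_zpowers_eq L (σ₀ : GQ) (S ∪ Finset.range (B + 1))
  rw [Finset.mem_union, not_or, Finset.mem_range, not_lt] at hℓS
  haveI : Fact ℓ.Prime := ⟨hℓ⟩
  obtain ⟨g, hg⟩ := exists_smul_eq hA (Local.padicPlace_liesOverPrime ℓ) hℓ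
  have hσ' : (padicPlace ℓ).IsFrobeniusAt (g * σ * g⁻¹) ℓ := hg ▸ isFrobeniusAt_conj hσ
  have hin : ∀ t ∈ (padicPlace ℓ).inertiaSubgroupIn ℚ, ∀ x : L, t (x : QBar) = (x : QBar) :=
    fun t ht x => (Chebotarev.restrictNormalHom_eq_one_iff L).mp
      (Chebotarev.inertia_fixes_of_good L hℓ (hB ℓ hℓ (by omega))
        (Local.padicPlace_liesOverPrime ℓ) ht) x x.2
  let q : Nat.Primes := ⟨ℓ, hℓ⟩
  have hdec : ∀ τ : Ω q ≃ₐ[ℚ_[(q : ℕ)]] Ω q, AlgEquiv.restrictNormalHom L (g⁻¹ * loc q τ * g) ∈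
      Subgroup.zpowers (AlgEquiv.restrictNormalHom L (σ₀ : GQ)) := fun τ => by
    obtain ⟨i, hi⟩ := exists_pow_restrict_eq L hin hσ' τ
    rw [← hz, map_mul, map_mul, hi, ← map_pow, conj_pow, map_mul, map_mul, map_inv,
      show (AlgEquiv.restrictNormalHom L g)⁻¹ *
        (AlgEquiv.restrictNormalHom L g * AlgEquiv.restrictNormalHom L (σ ^ i) *
          (AlgEquiv.restrictNormalHom L g)⁻¹) * AlgEquiv.restrictNormalHom L g =
        AlgEquiv.restrictNormalHom L (σ ^ i) by group, map_pow]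
    exact Subgroup.npow_mem_zpowers _ i
  have hfixK : ∀ x ∈ K, (σ₀ : GQ) x = x := fun x hx =>
    (IntermediateField.mem_fixingSubgroup_iff _ _).mp σ₀.2 x hx
  refine ⟨q, hℓS.1, g, ?_, fun x => ?_⟩
  · refine eq_bot_iff.mpr fun y hy => mem_bot_of_forall_fixed fun τ => ?_
    have hτ : τ ∈ (fieldAt q K g).fixingSubgroup := by
      rw [fixes_fieldAt_iff, IntermediateField.mem_fixingSubgroup_iff]
      exact fun z hz' => restrict_eq_self_of_zpowers (hdec τ) (hKL hz') (hfixK z hz')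
    exact (IntermediateField.mem_fixingSubgroup_iff _ _).mp hτ y hy
  set b : QBar := ((x : QBarˣ) : QBar) with hb
  set β : QBar := rootP p b with hβ
  have hb0 : b ≠ 0 := Units.ne_zero _
  have hmul : ∀ τ : Ω q ≃ₐ[ℚ_[(q : ℕ)]] Ω q, τ (emb q (g β)) = emb q (g β) ↔
      (g⁻¹ * loc q τ * g) β = β := fun τ => by
    rw [AlgEquiv.mul_apply, AlgEquiv.mul_apply, ← emb_loc]
    constructor
    · intro h
      rw [(emb q).toRingHom.injective h]
      exact g.symm_apply_apply β
    · intro h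
      congr 1
      calc loc q τ (g β) = g ((g⁻¹ : GQ) (loc q τ (g β))) := (g.apply_symm_apply _).symm
        _ = g β := by rw [h]
  rw [← hσ₀, kumFun_modClass, kum_eq_zero_iff hζ hζK σ₀.2 (hU x.2) hb0 (rootP_pow b)]
  constructor
  · rintro ⟨y, hy, hyb⟩
    obtain ⟨y', hy', e⟩ : ∃ y' ∈ fieldAt q K g, emb q (g β) = y' := by
      have hgb : emb q (g β) ^ p = y ^ p := by
        rw [hyb, ← map_pow, ← map_pow, hβ, rootP_pow]
      have hy0 : y ≠ 0 := fun h0 => by
        rw [h0, zero_pow hp.out.ne_zero] at hyb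
        exact hb0 ((map_eq_zero _).mp ((map_eq_zero _).mp hyb.symm))
      have hζ' : IsPrimitiveRoot (emb q (g ζ)) p :=
        (hζ.map_of_injective g.injective).map_of_injective (emb q).toRingHom.injective
      obtain ⟨i, -, hi⟩ := hζ'.eq_pow_of_pow_eq_one (ξ := emb q (g β) / y)
        (by rw [div_pow, hgb, div_self (pow_ne_zero _ hy0)])
      exact ⟨emb q (g ζ) ^ i * y, mul_mem (pow_mem (emb_mem_fieldAt g hζK) i) hy,
        by rw [hi, div_mul_cancel₀ _ hy0]⟩
    obtain ⟨s, hs⟩ := (Local.mem_range_toGlobal_iff ℓ L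
      (AlgEquiv.restrictNormalHom L (g * σ * g⁻¹))).mpr fun z hz' => by
        have hstab := (isFrobeniusAt_iff_forall_mem.mp hσ').1
        rw [show ((AlgEquiv.restrictNormalHom L (g * σ * g⁻¹) z : L) : QBar) =
          (g * σ * g⁻¹) (z : QBar) from AlgEquiv.restrictNormal_commutes _ L z]
        exact map_mem_of_mem_decomposition hstab hz'
    set τ : Ω q ≃ₐ[ℚ_[(q : ℕ)]] Ω q := s.liftNormal (PadicAlgCl ℓ)
    have hτσ : AlgEquiv.restrictNormalHom L (g⁻¹ * loc q τ * g) =
        AlgEquiv.restrictNormalHom L σ := by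
      have e' : AlgEquiv.restrictNormalHom L (loc q τ) =
          AlgEquiv.restrictNormalHom L (g * σ * g⁻¹) := hs
      rw [map_mul, map_mul, e', map_mul, map_mul, map_inv]
      group
    have hτK : τ ∈ (fieldAt q K g).fixingSubgroup := by
      rw [fixes_fieldAt_iff, IntermediateField.mem_fixingSubgroup_iff]
      exact fun z hz' => restrict_eq_self_of_zpowers (hdec τ) (hKL hz') (hfixK z hz')
    have hτβ : (g⁻¹ * loc q τ * g) β = β := by
      rw [← hmul, e]
      exact (IntermediateField.mem_fixingSubgroup_iff _ _).mp hτK y' hy'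
    refine restrict_eq_self_of_zpowers ?_ (hroot x) hτβ
    rw [hτσ, hz]
    exact Subgroup.mem_zpowers _
  · intro h
    refine ⟨emb q (g β), ?_, by rw [← map_pow, ← map_pow, hβ, rootP_pow]⟩
    have hbot : emb q (g β) ∈ (⊥ : IntermediateField ℚ_[(q : ℕ)] (Ω q)) :=
      mem_bot_of_forall_fixed fun τ =>
        (hmul τ).mpr (restrict_eq_self_of_zpowers (hdec τ) (hroot x) h)
    exact (bot_le : (⊥ : IntermediateField ℚ_[(q : ℕ)] (Ω q)) ≤ fieldAt q K g) hbot

end Fermat.Agent.CFT.Idele
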