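import Fermat.Agent.CFT.Idele.Count
import Fermat.Agent.CFT.Idele.Realise
import Fermat.Agent.CFT.Idele.KummerNorm

/-!
# The index of `Kˣ E(S, T)`

For a good set `S` and degree one places `v₁, …, v_k` outside `S` with independent Kummer
functionals, `[J : Kˣ E] p ^ k = [U_S : U_S ^ p]`, granting the first inequality.
-/

set_option autoImplicit false
set_option synthInstance.maxHeartbeats 200000
set_option linter.style.haveILetI false

noncomputable section

namespace Fermat.Agent.CFT.Idele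

open ExtCitation Fermat.Agent.Arith IntermediateField

local instance factPrimeIndexLemma (q : Nat.Primes) : Fact (q : ℕ).Prime := ⟨q.2⟩

/-- The principal ideles of `K`. -/
def prinSub (K : IntermediateField ℚ QBar) : Subgroup PreIdele := (unitsOf K).map prin

/-- The `S`-units of `K`. -/
def sUnits (S : Finset Nat.Primes) (K : IntermediateField ℚ QBar) : Subgroup QBarˣ :=
  unitsOf K ⊓ (unitsOutside S K).comap prin

theorem mem_sUnits {S : Finset Nat.Primes} {K : IntermediateField ℚ QBar} {x : QBarˣ} :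
    x ∈ sUnits S K ↔ x ∈ unitsOf K ∧ ∀ q ∉ S, ∀ g : GQ, ‖emb q (g (x : QBar))‖ = 1 :=
  ⟨fun h => ⟨h.1, fun q hq g => h.2.2 q hq g⟩,
    fun h => ⟨h.1, prin_mem_idl_iff.mpr h.1, fun q hq g => h.2 q hq g⟩⟩

theorem sUnits_le (S : Finset Nat.Primes) (K : IntermediateField ℚ QBar) :
    sUnits S K ≤ unitsOf K := inf_le_left

variable {p : ℕ} [hp : Fact p.Prime] {K : IntermediateField ℚ QBar}

theorem sUnits_saturated (S : Finset Nat.Primes) :
    ∀ x ∈ unitsOf K, x ^ p ∈ sUnits S K → x ∈ sUnits S K := fun x hx h =>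
  mem_sUnits.mpr ⟨hx, fun q hq g => by
    have h' := (mem_sUnits.mp h).2 q hq g
    rw [Units.val_pow_eq_pow_val, map_pow, map_pow] at h'
    exact pow_norm_eq_one hp.out.ne_zero h'⟩

/-- A set of primes large enough for the index computation. -/
structure GoodSet (p : ℕ) [hp : Fact p.Prime] (S : Finset Nat.Primes)
    (K : IntermediateField ℚ QBar) : Prop where
  mem : (⟨p, hp.out⟩ : Nat.Primes) ∈ S
  gen : ∀ f ∈ idl K, ∃ c ∈ unitsOf K, f * prin c ∈ unitsOutside S K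
  card : Nat.card (ModP p (sUnits S K)) ≠ 0
  card_sq : (powAt p S K).relIndex (unitsOutside S K) = Nat.card (ModP p (sUnits S K)) ^ 2

/-- The first inequality for the Kummer extensions of `K`. -/
def FirstIneq (p : ℕ) [Fact p.Prime] (K : IntermediateField ℚ QBar) : Prop :=
  ∀ (ζ : QBar) (hζ : IsPrimitiveRoot ζ p), ζ ∈ K → ∀ b ∈ K, b ≠ 0 → rootP p b ∉ K →
    ∀ g₀ ∈ K.fixingSubgroup, kum hζ g₀ b = 1 →
      ∃ f ∈ idl K, ∀ y ∈ idl (kumField K (rootP p b)), ∀ c ∈ unitsOf K,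
        f ≠ normStep p g₀ y * prin c

theorem exists_kum_eq_one {ζ : QBar} (hζ : IsPrimitiveRoot ζ p) (hζK : ζ ∈ K) {b : QBar}
    (hbK : b ∈ K) (hb0 : b ≠ 0) (hr : rootP p b ∉ K) :
    ∃ g₀ ∈ K.fixingSubgroup, kum hζ g₀ b = 1 := by
  obtain ⟨σ, hσ, hσb⟩ : ∃ σ ∈ K.fixingSubgroup, σ (rootP p b) ≠ rootP p b := by
    by_contra hne
    push Not at hne
    refine hr ?_
    rw [← InfiniteGalois.fixedField_fixingSubgroup K, IntermediateField.mem_fixedField_iff]
    exact hne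
  set j := kum hζ σ b
  have hj : j ≠ 0 := fun h => hσb ((kum_eq_zero_iff hζ hζK hσ hbK hb0 (rootP_pow b)).mp h)
  have hk : ∀ n : ℕ, kum hζ (σ ^ n) b = n * j := fun n => by
    induction n with
    | zero =>
      rw [pow_zero, Nat.cast_zero, zero_mul]
      exact (kum_eq_zero_iff hζ hζK (one_mem _) hbK hb0 (rootP_pow b)).mpr rfl
    | succ n ih =>
      rw [pow_succ, kum_comp hζ hζK (pow_mem hσ n) hσ hbK hb0, ih, Nat.cast_succ]
      ring
  exact ⟨σ ^ (j⁻¹).val, pow_mem hσ _, by rw [hk, ZMod.natCast_zmod_val, inv_mul_cancel₀ hj]⟩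

/-- Independent functionals give a surjection. -/
theorem pi_surjective_of_linearIndependent {F V ι : Type*} [Field F] [AddCommGroup V] [Module F V]
    [Fintype ι] (φ : ι → Module.Dual F V) (h : LinearIndependent F φ) :
    Function.Surjective (LinearMap.pi φ) := by
  classical
  rw [← LinearMap.range_eq_top]
  by_contra hne
  obtain ⟨ψ, hψ, hψr⟩ := Submodule.exists_le_ker_of_lt_top _ (lt_top_iff_ne_top.mpr hne)
  refine hψ (LinearMap.ext fun w => ?_)
  have hsum : ∀ w : ι → F, ψ w = ∑ i, w i * ψ (Pi.single i 1) := fun w => by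
    conv_lhs => rw [pi_eq_sum_univ' w]
    simp [map_sum]
  have h0 := Fintype.linearIndependent_iff.mp h (fun i => ψ (Pi.single i 1))
    (LinearMap.ext fun v => by
      have hv : ψ (LinearMap.pi φ v) = 0 := LinearMap.mem_ker.mp (hψr ⟨v, rfl⟩)
      rw [hsum] at hv
      simpa [mul_comm] using hv)
  rw [hsum, LinearMap.zero_apply]
  simp [h0]

section Index

variable {S : Finset Nat.Primes} {ι : Type*} (ℓ : ι → Nat.Primes) (g : ι → GQ)

/-- Units outside `S` and the chosen places. -/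
def unitsOutsideT (S : Finset Nat.Primes) (ℓ : ι → Nat.Primes) (g : ι → GQ)
    (K : IntermediateField ℚ QBar) : Subgroup PreIdele where
  carrier := {f | f ∈ idl K ∧ ∀ q ∉ S, ∀ h, placeRep q K h = h →
    (∀ i, ℓ i = q → placeRep q K (g i) ≠ h) → ‖((f q h : (Ω q)ˣ) : Ω q)‖ = 1}
  one_mem' := ⟨one_mem _, fun q _ h _ _ => by simp⟩
  mul_mem' {f f'} hf hf' := ⟨mul_mem hf.1 hf'.1, fun q hq h hh ht => by
    simp [hf.2 q hq h hh ht, hf'.2 q hq h hh ht]⟩
  inv_mem' {f} hf := ⟨inv_mem hf.1, fun q hq h hh ht => by simp [hf.2 q hq h hh ht]⟩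

/-- `E(S, T)`: `p`-th powers at `S`, anything at the chosen places, units elsewhere. -/
def powAtT (p : ℕ) (S : Finset Nat.Primes) (ℓ : ι → Nat.Primes) (g : ι → GQ)
    (K : IntermediateField ℚ QBar) : Subgroup PreIdele where
  carrier := {f | f ∈ unitsOutsideT S ℓ g K ∧
    ∀ q ∈ S, ∀ h, placeRep q K h = h → ∃ y ∈ fieldAt q K h, y ^ p = (f q h : (Ω q)ˣ)}
  one_mem' := ⟨one_mem _, fun q _ h _ => ⟨1, one_mem _, by simp⟩⟩
  mul_mem' {f f'} hf hf' := ⟨mul_mem hf.1 hf'.1, fun q hq h hh => by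
    obtain ⟨y, hy, e⟩ := hf.2 q hq h hh
    obtain ⟨y', hy', e'⟩ := hf'.2 q hq h hh
    exact ⟨y * y', mul_mem hy hy', by simp [mul_pow, e, e']⟩⟩
  inv_mem' {f} hf := ⟨inv_mem hf.1, fun q hq h hh => by
    obtain ⟨y, hy, e⟩ := hf.2 q hq h hh
    exact ⟨y⁻¹, inv_mem hy, by simp [inv_pow, e]⟩⟩

theorem unitsOutside_le_unitsOutsideT :
    unitsOutside S K ≤ unitsOutsideT S ℓ g K :=
  fun _ hf => ⟨hf.1, fun q hq h _ _ => hf.2 q hq h⟩

omit hp in
theorem mem_unitsOutside_of_rep {f : PreIdele} (hf : f ∈ idl K)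
    (h : ∀ q ∉ S, ∀ h, placeRep q K h = h → ‖((f q h : (Ω q)ˣ) : Ω q)‖ = 1) :
    f ∈ unitsOutside S K :=
  ⟨hf, fun q hq g => by rw [norm_value_eq hf q g]; exact h q hq _ (placeRep_idem g)⟩

omit hp in
theorem unitsOutside_inf_powAtT :
    powAtT p S ℓ g K ⊓ unitsOutside S K = powAt p S K := by
  refine le_antisymm (fun f hf => ⟨hf.2, hf.1.2⟩) fun f hf => ?_
  exact ⟨⟨unitsOutside_le_unitsOutsideT ℓ g hf.1, hf.2⟩, hf.1⟩

open Classical in
omit hp in
theorem unitsOutsideT_le_sup :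
    unitsOutsideT S ℓ g K ≤ powAtT p S ℓ g K ⊔ unitsOutside S K := by
  intro f hf
  let z : (q : Nat.Primes) → GQ → (Ω q)ˣ := fun q h => if q ∈ S then f q h else 1
  have hz : ∀ q h, ((z q h : (Ω q)ˣ) : Ω q) ∈ fieldAt q K h := fun q h => by
    simp only [z]; split_ifs
    · exact value_mem_fieldAt hf.1 h
    · exact one_mem _
  have hzn : ∀ q ∉ S, ∀ h, ‖((z q h : (Ω q)ˣ) : Ω q)‖ = 1 := fun q hq h => by
    simp [z, hq]
  set j := glue K (fun q => placeRep q K) z with hj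
  have hjm : j ∈ idl K := glue_placeRep_mem_idl hz S hzn
  have hjv : ∀ q h, placeRep q K h = h → j q h = z q h := fun q h hh => glue_placeRep hz hh
  have hjS : j ∈ unitsOutside S K :=
    mem_unitsOutside_of_rep hjm fun q hq h hh => by rw [hjv q h hh]; exact hzn q hq h
  have hrest : f * j⁻¹ ∈ powAtT p S ℓ g K := by
    refine ⟨⟨mul_mem hf.1 (inv_mem hjm), fun q hq h hh ht => ?_⟩, fun q hq h hh => ?_⟩
    · rw [Pi.mul_apply, Pi.mul_apply, Pi.inv_apply, Pi.inv_apply, hjv q h hh]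
      simp [z, hq, hf.2 q hq h hh ht]
    · refine ⟨1, one_mem _, ?_⟩
      rw [Pi.mul_apply, Pi.mul_apply, Pi.inv_apply, Pi.inv_apply, hjv q h hh]
      simp [z, hq]
  rw [show f = f * j⁻¹ * j by rw [inv_mul_cancel_right]]
  exact Subgroup.mul_mem_sup hrest hjS

variable [FiniteDimensional ℚ K] [Fintype ι] {φ : ι → Module.Dual (ZMod p) (ModP p (sUnits S K))}
  (hℓ : Function.Injective ℓ) (hout : ∀ i, ℓ i ∉ S) (hbot : ∀ i, fieldAt (ℓ i) K (g i) = ⊥)
  (hφ : ∀ i, ∀ x : sUnits S K, ((∃ y ∈ fieldAt (ℓ i) K (g i),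
      y ^ p = emb (ℓ i) (g i ((x : QBarˣ) : QBar))) ↔ φ i (modClass p x) = 0))
  (hli : LinearIndependent (ZMod p) φ)
  {ζ : QBar} (hζ : IsPrimitiveRoot ζ p) (hζK : ζ ∈ K) (hp2 : p ≠ 2) (hS : GoodSet p S K)

omit [FiniteDimensional ℚ K] [Fintype ι] hp in
theorem value_at_rep {f : PreIdele} (hf : f ∈ idl K) (i : ι)
    (h : ∃ y ∈ fieldAt (ℓ i) K (g i), y ^ p = ((f (ℓ i) (g i) : (Ω (ℓ i))ˣ) : Ω (ℓ i))) :
    ∃ y ∈ fieldAt (ℓ i) K (placeRep (ℓ i) K (g i)),
      y ^ p = ((f (ℓ i) (placeRep (ℓ i) K (g i)) : (Ω (ℓ i))ˣ) : Ω (ℓ i)) := by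
  obtain ⟨y, hy, e⟩ := h
  obtain ⟨τ, s, hs, hg⟩ := placeRep_spec (q := ℓ i) (K := K) (g i)
  set r := placeRep (ℓ i) K (g i)
  have hfr : ((f (ℓ i) r : (Ω (ℓ i))ˣ) : Ω (ℓ i)) =
      τ⁻¹ ((f (ℓ i) (g i) : (Ω (ℓ i))ˣ) : Ω (ℓ i)) := by
    rw [hg, apply_eq_of_rep hf (ℓ i) τ _ hs]
    exact (τ.symm_apply_apply _).symm
  refine ⟨τ⁻¹ y, ?_, by rw [← map_pow, e, hfr]⟩
  rw [← InfiniteGalois.fixedField_fixingSubgroup (fieldAt (ℓ i) K r),
    IntermediateField.mem_fixedField_iff]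
  intro t ht
  have hc : τ * t * τ⁻¹ ∈ (fieldAt (ℓ i) K (g i)).fixingSubgroup := by
    rw [fixes_fieldAt_iff] at ht ⊢
    have h2 := mul_mem (mul_mem (inv_mem hs) ht) hs
    convert h2 using 1
    rw [hg, map_mul, map_mul, map_inv]
    group
  have h3 := (IntermediateField.mem_fixingSubgroup_iff _ _).mp hc y hy
  rw [AlgEquiv.mul_apply, AlgEquiv.mul_apply] at h3
  apply τ.injective
  rw [h3]
  exact (τ.apply_symm_apply y).symm

include hζ hζK hp2 hout hφ hli hS in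
/-- `S`-units hit every class of units modulo `p`-th powers at the chosen places. -/
theorem exists_sUnit_pow (v : ∀ i, Ω (ℓ i))
    (hv : ∀ i, v i ∈ fieldAt (ℓ i) K (g i)) (hv1 : ∀ i, ‖v i‖ = 1) :
    ∃ c : sUnits S K, ∀ i, ∃ y ∈ fieldAt (ℓ i) K (g i),
      y ^ p = v i * emb (ℓ i) (g i ((c : QBarˣ) : QBar)) := by
  classical
  haveI : Finite (ModP p (sUnits S K)) := Nat.finite_of_card_ne_zero hS.card
  have hsurj := pi_surjective_of_linearIndependent φ hli
  have hc : ∀ j, ∃ c : sUnits S K, ∀ i, φ i (modClass p c) = if i = j then 1 else 0 := fun j => by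
    obtain ⟨w, hw⟩ := hsurj fun i => if i = j then 1 else 0
    obtain ⟨c, rfl⟩ := modClass_surjective w
    exact ⟨c, fun i => congrFun hw i⟩
  choose c hc using hc
  have hk : ∀ j, ∃ (k : ℕ) (y : Ω (ℓ j)), y ∈ fieldAt (ℓ j) K (g j) ∧
      y ^ p = v j * emb (ℓ j) (g j ((c j : QBarˣ) : QBar)) ^ k := by
    intro j
    have hne : ¬∃ y ∈ fieldAt (ℓ j) K (g j),
        y ^ p = emb (ℓ j) (g j ((c j : QBarˣ) : QBar)) := by
      rw [hφ, hc, if_pos rfl]; exact one_ne_zero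
    have hqp : ((ℓ j : Nat.Primes) : ℕ) ≠ p := fun h => hout j (by
      rw [show ℓ j = ⟨p, hp.out⟩ from Subtype.ext h]; exact hS.mem)
    have hcK : ((c j : QBarˣ) : QBar) ∈ K := sUnits_le S K (c j).2
    obtain ⟨k, w, hw, hw1, e⟩ := exists_unit_eq hp2 hqp (fieldAt (ℓ j) K (g j))
      ((hζ.map_of_injective (g j).injective).map_of_injective (emb (ℓ j)).toRingHom.injective)
      (emb_mem_fieldAt (g j) hζK) (emb_mem_fieldAt (g j) hcK) (hv j)
      ((mem_sUnits.mp (c j).2).2 _ (hout j) (g j)) (hv1 j) fun w hw h => hne ⟨w, hw, h⟩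
    refine ⟨(p - 1) * k, emb (ℓ j) (g j ((c j : QBarˣ) : QBar)) ^ k * w,
      mul_mem (pow_mem (emb_mem_fieldAt (g j) hcK) k) hw, ?_⟩
    rw [e, mul_pow, ← pow_mul, mul_right_comm, ← pow_add]
    congr 2
    conv_lhs => rw [mul_comm, ← Nat.sub_add_cancel hp.out.one_le, add_mul, one_mul]
    rw [Nat.add_comm]
  choose k y hy hky using hk
  refine ⟨∏ j, c j ^ k j, fun i => ?_⟩
  have hrest : ∀ j, j ≠ i → ∃ z ∈ fieldAt (ℓ i) K (g i),
      z ^ p = emb (ℓ i) (g i ((c j : QBarˣ) : QBar)) := fun j hj => by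
    rw [hφ, hc, if_neg hj.symm]
  choose! z hz hzp using hrest
  refine ⟨y i * ∏ j ∈ Finset.univ.erase i, z j ^ k j,
    mul_mem (hy i) (prod_mem fun j hj => pow_mem (hz j (Finset.ne_of_mem_erase hj)) _), ?_⟩
  rw [mul_pow, hky, ← Finset.prod_pow, SubmonoidClass.coe_finsetProd, Units.coe_prod, map_prod,
    map_prod, ← Finset.mul_prod_erase Finset.univ _ (Finset.mem_univ i), mul_assoc]
  simp only [SubmonoidClass.coe_pow, Units.val_pow_eq_pow_val, map_pow]
  congr 1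
  congr 1
  refine Finset.prod_congr rfl fun j hj => ?_
  rw [← hzp j (Finset.ne_of_mem_erase hj), ← pow_mul, ← pow_mul, mul_comm]

variable (hFI : FirstIneq p K)

/-- The units of `K` at the places outside `S` and the chosen ones. -/
def stUnits (S : Finset Nat.Primes) (ℓ : ι → Nat.Primes) (g : ι → GQ)
    (K : IntermediateField ℚ QBar) : Subgroup QBarˣ :=
  unitsOf K ⊓ (unitsOutsideT S ℓ g K).comap prin

include hζ hζK hp2 hout hφ hli hS hFI in
/-- A unit outside `S ∪ T` which is a local `p`-th power at `S` is a `p`-th power. -/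
theorem exists_pow_eq_of_mem_powAtT {b : QBarˣ} (hb : b ∈ stUnits S ℓ g K)
    (hbE : prin b ∈ powAtT p S ℓ g K) : ∃ x ∈ stUnits S ℓ g K, x ^ p = b := by
  classical
  have hb0 : (b : QBar) ≠ 0 := b.ne_zero
  by_cases hr : rootP p (b : QBar) ∈ K
  · have hx : Units.mk0 _ (rootP_ne_zero (p := p) hb0) ^ p = b := Units.ext (by
      rw [Units.val_pow_eq_pow_val, Units.val_mk0, rootP_pow])
    refine ⟨_, ⟨hr, prin_mem_idl_iff.mpr hr, fun q hq h hh ht => ?_⟩, hx⟩
    have h' := hb.2.2 q hq h hh ht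
    rw [← hx, map_pow, Pi.pow_apply, Pi.pow_apply, Units.val_pow_eq_pow_val] at h'
    exact pow_norm_eq_one hp.out.ne_zero h'
  exfalso
  obtain ⟨g₀, hg₀, hkum⟩ := exists_kum_eq_one hζ hζK hb.1 hb0 hr
  obtain ⟨f, hf, hne⟩ := hFI ζ hζ hζK (b : QBar) hb.1 hb0 hr g₀ hg₀ hkum
  obtain ⟨c, hc, hfc⟩ := hS.gen f hf
  obtain ⟨c', hc'⟩ := exists_sUnit_pow ℓ g hout hφ hli hζ hζK hp2 hS
    (fun i => (((f * prin c) (ℓ i) (g i) : (Ω (ℓ i))ˣ) : Ω (ℓ i)))
    (fun i => value_mem_fieldAt hfc.1 (g i)) (fun i => hfc.2 _ (hout i) (g i))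
  set f' := f * prin c * prin (c' : QBarˣ) with hf'
  have hf'm : f' ∈ idl K := mul_mem hfc.1 (prin_mem_idl_iff.mpr (sUnits_le S K c'.2))
  obtain ⟨y, hy, he⟩ := exists_normStep_eq hζ hζK hb.1 hb0 hg₀ hkum hp2 hf'm fun q h hh => by
    by_cases hq : q ∈ S
    · exact Or.inl (hbE.2 q hq h hh)
    by_cases ht : ∃ i, ℓ i = q ∧ placeRep q K (g i) = h
    · obtain ⟨i, rfl, rfl⟩ := ht
      exact Or.inr (Or.inl (value_at_rep ℓ g hf'm i (hc' i)))
    · push Not at ht
      refine Or.inr (Or.inr ⟨fun h' => hq ?_, ?_, 1, one_mem _, one_ne_zero, ?_⟩)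
      · rw [show q = ⟨p, hp.out⟩ from Subtype.ext h']; exact hS.mem
      · rw [hf', Pi.mul_apply, Pi.mul_apply, Units.val_mul, norm_mul, hfc.2 q hq h, prin_val,
          (mem_sUnits.mp c'.2).2 q hq h, mul_one]
      · have := hb.2.2 q hq h hh ht
        rw [prin_val] at this
        rw [this, norm_one, one_pow]
  refine hne y hy (c * (c' : QBarˣ))⁻¹ (inv_mem (mul_mem hc (sUnits_le S K c'.2))) ?_
  rw [he, hf', map_inv, map_mul, mul_assoc f, mul_inv_cancel_right]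

omit [FiniteDimensional ℚ K] [Fintype ι] hp in
theorem map_prin_stUnits :
    prinSub K ⊓ unitsOutsideT S ℓ g K = (stUnits S ℓ g K).map prin := by
  ext f
  constructor
  · rintro ⟨⟨x, hx, rfl⟩, h⟩
    exact ⟨x, ⟨hx, h⟩, rfl⟩
  · rintro ⟨x, ⟨hx, h⟩, rfl⟩
    exact ⟨⟨x, hx, rfl⟩, h⟩

/-- The exponent of a norm, when it is a power of `q`. -/
def expAt (q : Nat.Primes) (r : ℝ) : ℤ :=
  open Classical in if h : ∃ n : ℤ, r = ((q : ℕ) : ℝ) ^ n then h.choose else 0

omit hp in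
theorem eq_pow_expAt {q : Nat.Primes} {r : ℝ} (h : ∃ n : ℤ, r = ((q : ℕ) : ℝ) ^ n) :
    r = ((q : ℕ) : ℝ) ^ expAt q r := by
  rw [expAt, dif_pos h]; exact h.choose_spec

omit hp in
theorem expAt_zpow (q : Nat.Primes) (n : ℤ) : expAt q (((q : ℕ) : ℝ) ^ n) = n :=
  (Local.zpow_inj_q (eq_pow_expAt ⟨n, rfl⟩)).symm

omit hp in
theorem norm_mem_bot {q : Nat.Primes} {y : Ω q}
    (hy : y ∈ (⊥ : IntermediateField ℚ_[(q : ℕ)] (Ω q))) (hy0 : y ≠ 0) :
    ∃ n : ℤ, ‖y‖ = ((q : ℕ) : ℝ) ^ n := by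
  obtain ⟨a, rfl⟩ := IntermediateField.mem_bot.mp hy
  have ha : a ≠ 0 := fun h => hy0 (by rw [h, map_zero])
  exact ⟨-a.valuation, by rw [norm_algebraMap', Padic.norm_eq_zpow_neg_valuation ha]⟩

include hℓ hout hbot hS in
omit [FiniteDimensional ℚ K] in
/-- `[U_{S ∪ T} : U_{S ∪ T} ^ p] = [U_S : U_S ^ p] p ^ k`. -/
theorem card_modP_stUnits :
    (powMonoidHom p : stUnits S ℓ g K →* stUnits S ℓ g K).range.index =
      Nat.card (ModP p (sUnits S K)) * p ^ Fintype.card ι := by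
  classical
  have hnorm : ∀ (i : ι) (x : stUnits S ℓ g K),
      ∃ n : ℤ, ‖emb (ℓ i) (g i ((x : QBarˣ) : QBar))‖ = ((ℓ i : ℕ) : ℝ) ^ n := fun i x =>
    norm_mem_bot (hbot i ▸ emb_mem_fieldAt (g i) x.2.1)
      ((map_ne_zero _).mpr ((map_ne_zero _).mpr (Units.ne_zero _)))
  let V : stUnits S ℓ g K →* (ι → Multiplicative ℤ) := MonoidHom.pi fun i =>
    { toFun := fun x => Multiplicative.ofAdd
        (expAt (ℓ i) ‖emb (ℓ i) (g i ((x : QBarˣ) : QBar))‖)
      map_one' := by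
        have h1 : expAt (ℓ i) (1 : ℝ) = 0 := by
          conv_lhs => rw [← zpow_zero ((ℓ i : ℕ) : ℝ)]
          exact expAt_zpow _ 0
        simp [h1]
      map_mul' := fun x y => by
        obtain ⟨a, ha⟩ := hnorm i x
        obtain ⟨b, hb⟩ := hnorm i y
        rw [← ofAdd_add, ha, hb, expAt_zpow, expAt_zpow]
        congr 1
        rw [Subgroup.coe_mul, Units.val_mul, map_mul, map_mul, norm_mul, ha, hb,
          ← zpow_add₀ (Nat.cast_ne_zero.mpr (ℓ i).2.ne_zero), expAt_zpow] }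
  have hVval : ∀ (x : stUnits S ℓ g K) (i : ι), V x i =
      Multiplicative.ofAdd (expAt (ℓ i) ‖emb (ℓ i) (g i ((x : QBarˣ) : QBar))‖) := fun _ _ => rfl
  -- surjective
  have hsurj : Function.Surjective V := by
    intro v
    let w : (q : Nat.Primes) → GQ → (Ω q)ˣ := fun q h =>
      if e : ∃ i, ℓ i = q ∧ placeRep q K (g i) = h then
        Units.mk0 (algebraMap ℚ_[(q : ℕ)] (Ω q)
            (((q : ℕ) : ℚ_[(q : ℕ)]) ^ Multiplicative.toAdd (v e.choose)))
          ((map_ne_zero _).mpr (zpow_ne_zero _ (Nat.cast_ne_zero.mpr q.2.ne_zero)))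
      else 1
    have hw : ∀ q h, ((w q h : (Ω q)ˣ) : Ω q) ∈ fieldAt q K h := fun q h => by
      simp only [w]; split_ifs
      · exact IntermediateField.algebraMap_mem _ _
      · exact one_mem _
    have hwn : ∀ q ∉ Finset.univ.image ℓ, ∀ h, ‖((w q h : (Ω q)ˣ) : Ω q)‖ = 1 := fun q hq h => by
      simp only [w]
      rw [dif_neg fun ⟨i, hi, _⟩ => hq (Finset.mem_image.mpr ⟨i, Finset.mem_univ _, hi⟩)]
      simp
    set f := glue K (fun q => placeRep q K) w
    have hfm : f ∈ idl K := glue_placeRep_mem_idl hw _ hwn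
    have hfv : ∀ q h, placeRep q K h = h → f q h = w q h := fun q h hh => glue_placeRep hw hh
    obtain ⟨c, hc, hfc⟩ := hS.gen f hfm
    have hnc : ∀ q ∉ S, ∀ h, placeRep q K h = h →
        ‖emb q (h (c : QBar))‖ = ‖((w q h : (Ω q)ˣ) : Ω q)‖⁻¹ := fun q hq h hh => by
      have h' := hfc.2 q hq h
      rw [Pi.mul_apply, Pi.mul_apply, Units.val_mul, norm_mul, hfv q h hh, prin_val] at h'
      exact eq_inv_of_mul_eq_one_right h'
    have hcT : c ∈ stUnits S ℓ g K := by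
      refine ⟨hc, prin_mem_idl_iff.mpr hc, fun q hq h hh ht => ?_⟩
      rw [prin_val, hnc q hq h hh]
      simp only [w]
      rw [dif_neg fun ⟨i, hi, hi'⟩ => ht i hi hi']
      simp
    refine ⟨⟨c, hcT⟩, funext fun i => ?_⟩
    rw [hVval]
    have hrepv : ‖emb (ℓ i) (g i (c : QBar))‖ =
        ‖emb (ℓ i) (placeRep (ℓ i) K (g i) (c : QBar))‖ :=
      norm_value_eq (prin_mem_idl_iff.mpr hc) (ℓ i) (g i)
    have hex : ∃ j, ℓ j = ℓ i ∧ placeRep (ℓ i) K (g j) = placeRep (ℓ i) K (g i) := ⟨i, rfl, rfl⟩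
    have hei : hex.choose = i := hℓ hex.choose_spec.1
    show Multiplicative.ofAdd (expAt (ℓ i) ‖emb (ℓ i) (g i (c : QBar))‖) = v i
    rw [hrepv, hnc _ (hout i) _ (placeRep_idem _)]
    simp only [w, dif_pos hex, hei, Units.val_mk0, norm_algebraMap', norm_zpow, Padic.norm_p,
      inv_zpow', neg_neg, ← zpow_neg]
    rw [expAt_zpow]
    exact congrArg Multiplicative.ofAdd rfl |>.trans (ofAdd_toAdd _)
  -- kernel
  have hker : V.ker = (sUnits S K).subgroupOf (stUnits S ℓ g K) := by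
    ext ⟨x, hx⟩
    rw [MonoidHom.mem_ker, Subgroup.mem_subgroupOf, funext_iff]
    constructor
    · intro h
      refine ⟨hx.1, mem_unitsOutside_of_rep (prin_mem_idl_iff.mpr hx.1) fun q hq r hr => ?_⟩
      by_cases ht : ∃ i, ℓ i = q ∧ placeRep q K (g i) = r
      · obtain ⟨i, rfl, rfl⟩ := ht
        rw [← norm_value_eq (prin_mem_idl_iff.mpr hx.1) (ℓ i) (g i), prin_val]
        obtain ⟨n, hn⟩ := hnorm i ⟨x, hx⟩
        have h0 := h i
        rw [hVval, hn, expAt_zpow] at h0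
        have hn0 : n = 0 := by simpa using h0
        simpa [hn0] using hn
      · push Not at ht
        exact hx.2.2 q hq r hr ht
    · intro h i
      rw [hVval, (mem_sUnits.mp h).2 _ (hout i) (g i)]
      conv_lhs => rw [← zpow_zero ((ℓ i : ℕ) : ℝ)]
      rw [expAt_zpow]
      rfl
  rw [Local.index_eq_relIndex_map_mul V, hker, MonoidHom.range_eq_top.mpr hsurj,
    Subgroup.relIndex_top_right, mul_comm (Nat.card _)]
  congr 1
  · have hmap : (powMonoidHom p : stUnits S ℓ g K →* stUnits S ℓ g K).range.map V =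
        Subgroup.pi Set.univ fun _ : ι =>
          (powMonoidHom p : Multiplicative ℤ →* Multiplicative ℤ).range := by
      ext t
      rw [Subgroup.mem_pi]
      constructor
      · rintro ⟨_, ⟨x, rfl⟩, rfl⟩ i -
        exact ⟨V x i, by rw [powMonoidHom_apply, powMonoidHom_apply, map_pow]; rfl⟩
      · intro h
        choose u hu using fun i => h i (Set.mem_univ i)
        obtain ⟨x, hx⟩ := hsurj u
        refine ⟨x ^ p, ⟨x, rfl⟩, ?_⟩
        rw [map_pow, hx]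
        exact funext hu
    rw [hmap, index_pi_dep, Finset.prod_const, Finset.card_univ,
      Local.relIndex_normHom_range.index_range_powMonoidHom_multiplicative_int]
  · have hle : sUnits S K ≤ stUnits S ℓ g K := fun x hx =>
      ⟨hx.1, unitsOutside_le_unitsOutsideT ℓ g hx.2⟩
    let e := Subgroup.subgroupOfEquivOfLe hle
    have hcomap : ((powMonoidHom p : stUnits S ℓ g K →* stUnits S ℓ g K).range ⊓
        (sUnits S K).subgroupOf (stUnits S ℓ g K)).subgroupOf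
          ((sUnits S K).subgroupOf (stUnits S ℓ g K)) =
        (powMonoidHom p : sUnits S K →* sUnits S K).range.comap e.toMonoidHom := by
      ext x
      rw [Subgroup.mem_subgroupOf, Subgroup.mem_inf, Subgroup.mem_comap]
      constructor
      · rintro ⟨⟨y, hy⟩, -⟩
        have hy' : (y : QBarˣ) ^ p = ((x : stUnits S ℓ g K) : QBarˣ) := congrArg Subtype.val hy
        have hmem : ((x : stUnits S ℓ g K) : QBarˣ) ∈ sUnits S K := x.2
        exact ⟨⟨y, sUnits_saturated S _ y.2.1 (hy' ▸ hmem)⟩, Subtype.ext hy'⟩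
      · rintro ⟨y, hy⟩
        exact ⟨⟨⟨y, hle y.2⟩, Subtype.ext (congrArg (fun z : sUnits S K => (z : QBarˣ)) hy)⟩, x.2⟩
    rw [Subgroup.relIndex, hcomap, Subgroup.index_comap_of_surjective _ e.surjective]
    rfl

include hζ hζK hp2 hℓ hout hbot hφ hli hS hFI in
/-- The index lemma. -/
theorem relIndex_prinSub_sup_powAtT :
    (prinSub K ⊔ powAtT p S ℓ g K).relIndex (idl K) * p ^ Fintype.card ι =
      Nat.card (ModP p (sUnits S K)) := by
  set P := prinSub K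
  set E := powAtT p S ℓ g K
  set A := unitsOutsideT S ℓ g K
  have hEA : E ≤ A := fun f hf => hf.1
  have hPA : P ⊔ A = idl K := by
    refine le_antisymm (sup_le ?_ fun f hf => hf.1) fun f hf => ?_
    · rintro _ ⟨x, hx, rfl⟩
      exact prin_mem_idl_iff.mpr hx
    obtain ⟨c, hc, hfc⟩ := hS.gen f hf
    rw [show f = prin c⁻¹ * (f * prin c) by rw [map_inv, mul_comm f, inv_mul_cancel_left]]
    exact Subgroup.mul_mem_sup ⟨c⁻¹, inv_mem hc, rfl⟩ (unitsOutside_le_unitsOutsideT ℓ g hfc)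
  have hEA' : E.relIndex A = Nat.card (ModP p (sUnits S K)) ^ 2 := by
    rw [← hS.card_sq, ← unitsOutside_inf_powAtT (p := p) ℓ g, Subgroup.inf_relIndex_right]
    rw [show A = unitsOutside S K ⊔ E from le_antisymm
      (sup_comm E (unitsOutside S K) ▸ unitsOutsideT_le_sup ℓ g)
      (sup_le (unitsOutside_le_unitsOutsideT ℓ g) hEA), Subgroup.relIndex_sup_right]
  have hmid : (P ⊔ E).relIndex (P ⊔ A) = (P ⊓ A ⊔ E).relIndex A := by
    have e1 : P ⊔ A = A ⊔ (P ⊔ E) :=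
      le_antisymm (sup_le (le_sup_left.trans le_sup_right) le_sup_left)
        (sup_le le_sup_right (sup_le_sup_left hEA P))
    have e2 : (P ⊔ E) ⊓ A = P ⊓ A ⊔ E := by
      refine le_antisymm ?_ (le_inf (sup_le_sup_right inf_le_left E) (sup_le inf_le_right hEA))
      rintro x ⟨hx, hxA⟩
      obtain ⟨a, ha, b, hb, rfl⟩ := Subgroup.mem_sup.mp hx
      exact Subgroup.mul_mem_sup ⟨ha, (Subgroup.mul_mem_cancel_right A (hEA hb)).mp hxA⟩ hb
    rw [e1, Subgroup.relIndex_sup_right, ← Subgroup.inf_relIndex_right, e2]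
  have hlow : E.relIndex (P ⊓ A ⊔ E) = Nat.card (ModP p (sUnits S K)) * p ^ Fintype.card ι := by
    rw [Subgroup.relIndex_sup_right, ← card_modP_stUnits ℓ g hℓ hout hbot hS,
      show P ⊓ A = (stUnits S ℓ g K).map prin from map_prin_stUnits ℓ g, ← Subgroup.relIndex_comap,
      Subgroup.relIndex]
    congr 1
    ext x
    rw [Subgroup.mem_subgroupOf, Subgroup.mem_comap]
    constructor
    · intro h
      obtain ⟨y, hy, e⟩ := exists_pow_eq_of_mem_powAtT ℓ g hout hφ hli hζ hζK hp2 hS hFI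
        x.2 h
      exact ⟨⟨y, hy⟩, Subtype.ext e⟩
    · rintro ⟨y, rfl⟩
      refine ⟨?_, fun q _ h _ => ?_⟩
      · exact (map_pow prin (y : QBarˣ) p).symm ▸
          Subgroup.pow_mem _ (show prin (y : QBarˣ) ∈ unitsOutsideT S ℓ g K from y.2.2) p
      exact ⟨emb q (h ((y : QBarˣ) : QBar)), emb_mem_fieldAt h y.2.1, by simp [prin_val]⟩
  have h := Subgroup.relIndex_mul_relIndex E (P ⊓ A ⊔ E) A le_sup_right
    (sup_le inf_le_right hEA)
  rw [hlow, ← hmid, hPA, hEA', sq, mul_assoc, mul_comm (p ^ Fintype.card ι)] at h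
  exact mul_left_cancel₀ hS.card h

end Index

end Fermat.Agent.CFT.Idele
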