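import Fermat.Agent.CFT.Idele.FixedClasses
import Fermat.Agent.CFT.Idele.IndexLemma
import Mathlib.NumberTheory.NumberField.Units.DirichletTheorem

/-!
# `S`-units modulo `p`-th powers

For `ζ ∈ K` and a finite set of primes `S`, `[U_S : U_S ^ p] = p ^ (#places over S + [K : ℚ] / 2)`.
-/

set_option autoImplicit false
set_option synthInstance.maxHeartbeats 200000
set_option linter.style.haveILetI false

noncomputable section

namespace Fermat.Agent.CFT.Idele

open ExtCitation Fermat.Agent.Arith IntermediateField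
open scoped NumberField

local instance factPrimeSUnits (q : Nat.Primes) : Fact (q : ℕ).Prime := ⟨q.2⟩

/-- `[A : A ^ p] = p ^ #P [ker : ker ^ p]` for a homomorphism to `ℤ ^ P` of finite coindex. -/
theorem index_range_pow_of_hom {A P : Type*} [CommGroup A] [Fintype P] {p : ℕ} (hp : p ≠ 0)
    (f : A →* (P → Multiplicative ℤ)) (hf : f.range.index ≠ 0) :
    (powMonoidHom p : A →* A).range.index =
      p ^ Fintype.card P * (powMonoidHom p : f.ker →* f.ker).range.index := by
  rw [Local.index_eq_relIndex_map_mul f]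
  congr 1
  · set P' : (P → Multiplicative ℤ) →* (P → Multiplicative ℤ) := powMonoidHom p with hP'
    have hmap : (powMonoidHom p : A →* A).range.map f = f.range.map P' := by
      rw [MonoidHom.map_range, MonoidHom.map_range]
      congr 1
      ext a : 1
      exact map_pow f a p
    have hinj : Function.Injective P' := fun x y h => funext fun i =>
      pow_left_injective hp (congrFun h i)
    have hidx : P'.range.index = p ^ Fintype.card P := by
      have : P'.range = Subgroup.pi Set.univ fun _ : P =>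
          (powMonoidHom p : Multiplicative ℤ →* Multiplicative ℤ).range := by
        ext t
        rw [Subgroup.mem_pi]
        constructor
        · rintro ⟨u, rfl⟩ i -
          exact ⟨u i, rfl⟩
        · intro h
          choose u hu using fun i => h i (Set.mem_univ i)
          exact ⟨u, funext hu⟩
      rw [this, index_pi_dep, Finset.prod_const, Finset.card_univ,
        Local.relIndex_normHom_range.index_range_powMonoidHom_multiplicative_int]
    have hle : f.range.map P' ≤ f.range := by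
      rintro _ ⟨_, ⟨a, rfl⟩, rfl⟩
      exact ⟨a ^ p, map_pow f a p⟩
    have h1 := Subgroup.relIndex_mul_index hle
    rw [Subgroup.index_map_of_injective _ hinj, hidx, mul_comm f.range.index] at h1
    rw [hmap]
    exact mul_right_cancel₀ hf h1
  · rw [Subgroup.relIndex]
    congr 1
    ext x
    rw [Subgroup.mem_subgroupOf, Subgroup.mem_inf]
    constructor
    · rintro ⟨⟨y, hy⟩, hx⟩
      have hy' : y ^ p = (x : A) := hy
      refine ⟨⟨y, MonoidHom.mem_ker.mpr (funext fun i => pow_left_injective hp ?_)⟩, Subtype.ext hy'⟩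
      show f y i ^ p = (1 : Multiplicative ℤ) ^ p
      rw [one_pow, ← Pi.pow_apply, ← map_pow, hy', MonoidHom.mem_ker.mp hx]
      rfl
    · rintro ⟨y, rfl⟩
      exact ⟨⟨y, rfl⟩, (y ^ p).2⟩

/-- The units of a number field modulo torsion, through fundamental units. -/
theorem exists_hom_units (F : Type*) [Field F] [NumberField F] :
    ∃ f : (𝓞 F)ˣ →* (Fin (NumberField.Units.rank F) → Multiplicative ℤ),
      Function.Surjective f ∧ f.ker = NumberField.Units.torsion F := by
  choose ze hze huniq using NumberField.Units.exist_unique_eq_mul_prod F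
  set t := NumberField.Units.fundSystem F
  have hval : ∀ (z : NumberField.Units.torsion F) (e : Fin (NumberField.Units.rank F) → ℤ),
      ze ((z : (𝓞 F)ˣ) * ∏ i, t i ^ e i) = (z, e) := fun z e =>
    (huniq ((z : (𝓞 F)ˣ) * ∏ i, t i ^ e i) (z, e) rfl).symm
  have hprod : ∀ u v, ze (u * v) = ((ze u).1 * (ze v).1, (ze u).2 + (ze v).2) := fun u v => by
    conv_lhs => rw [hze u, hze v]
    rw [← hval, Subgroup.coe_mul]
    congr 1
    simp only [Pi.add_apply, zpow_add, Finset.prod_mul_distrib]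
    exact mul_mul_mul_comm _ _ _ _
  refine ⟨MonoidHom.mk' (fun u i => Multiplicative.ofAdd ((ze u).2 i))
    fun u v => funext fun i => by rw [hprod]; rfl,
    fun w => ⟨((1 : NumberField.Units.torsion F) : (𝓞 F)ˣ) *
      ∏ i, t i ^ Multiplicative.toAdd (w i), funext fun i => ?_⟩, ?_⟩
  · show Multiplicative.ofAdd ((ze _).2 i) = w i
    rw [hval]; rfl
  · ext u
    rw [MonoidHom.mem_ker]
    constructor
    · intro h
      have h0 : (ze u).2 = 0 := funext fun i => ofAdd_eq_one.mp (congrFun h i)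
      rw [hze u, h0]
      simp only [Pi.zero_apply, zpow_zero, Finset.prod_const_one, mul_one]
      exact (ze u).1.2
    · intro h
      have h0 : ze u = (⟨u, h⟩, 0) := by
        conv_rhs => rw [← hval]
        congr 1
        simp
      funext i
      show Multiplicative.ofAdd ((ze u).2 i) = 1
      rw [h0]; rfl

/-- A homomorphism to `ℤ ^ ι` hitting every axis has finite coindex. -/
theorem index_range_ne_zero_of_single {A ι : Type*} [CommGroup A] [Fintype ι]
    (V : A →* (ι → Multiplicative ℤ)) (h : ∀ i, ∃ x, V x i ≠ 1 ∧ ∀ j, j ≠ i → V x j = 1) :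
    V.range.index ≠ 0 := by
  classical
  choose x hx hxo using h
  set n := fun i => (Multiplicative.toAdd (V (x i) i)).natAbs
  have hn : ∀ i, (Pi.mulSingle i (Multiplicative.ofAdd (n i : ℤ)) : ι → Multiplicative ℤ) ∈
      V.range := by
    intro i
    have hmem : (Pi.mulSingle i (V (x i) i) : ι → Multiplicative ℤ) ∈ V.range :=
      ⟨x i, funext fun j => by
        rcases eq_or_ne j i with rfl | hj
        · rw [Pi.mulSingle_eq_same]
        · rw [Pi.mulSingle_eq_of_ne hj, hxo i j hj]⟩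
    rcases Int.natAbs_eq (Multiplicative.toAdd (V (x i) i)) with e | e
    · rw [← e, ofAdd_toAdd]; exact hmem
    · rw [eq_neg_iff_add_eq_zero, add_comm, ← eq_neg_iff_add_eq_zero] at e
      rw [e, ofAdd_neg, ofAdd_toAdd, Pi.mulSingle_inv]
      exact inv_mem hmem
  have hsub : (Subgroup.pi Set.univ fun i : ι =>
      (powMonoidHom (n i) : Multiplicative ℤ →* Multiplicative ℤ).range) ≤ V.range := by
    intro t ht
    rw [Subgroup.mem_pi] at ht
    choose u hu using fun i => ht i (Set.mem_univ i)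
    rw [← Finset.univ_prod_mulSingle t]
    refine Subgroup.prod_mem _ fun i _ => ?_
    have := Subgroup.zpow_mem _ (hn i) (Multiplicative.toAdd (u i))
    rw [← Pi.mulSingle_zpow] at this
    have e : t i = Multiplicative.ofAdd (n i : ℤ) ^ Multiplicative.toAdd (u i) := by
      rw [← hu i]
      apply Multiplicative.toAdd.injective
      rw [powMonoidHom_apply, toAdd_pow, toAdd_zpow, toAdd_ofAdd, nsmul_eq_mul, smul_eq_mul,
        mul_comm]
    rw [e]
    exact this
  intro h0
  have hd' := Subgroup.index_dvd_of_le hsub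
  rw [h0, zero_dvd_iff, index_pi_dep, Finset.prod_eq_zero_iff] at hd'
  obtain ⟨i, -, hi⟩ := hd'
  rw [Local.relIndex_normHom_range.index_range_powMonoidHom_multiplicative_int] at hi
  exact hx i (Multiplicative.toAdd.injective (Int.natAbs_eq_zero.mp hi))

variable {p : ℕ} [hp : Fact p.Prime] {ζ : QBar} {K : IntermediateField ℚ QBar}

omit hp in
/-- In a finite cyclic group with an element of order `p`, the `p`-th powers have index `p`. -/
theorem index_range_pow_finite {A : Type*} [CommGroup A] [Finite A] [IsCyclic A] {z : A}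
    (hz : orderOf z = p) : (powMonoidHom p : A →* A).range.index = p := by
  have hdvd : p ∣ Nat.card A := hz ▸ orderOf_dvd_natCard z
  rw [IsCyclic.index_powMonoidHom_range, Nat.gcd_eq_right hdvd]

/-- The units of `𝓞 K` in `ℚ̄`. -/
def intUnits (K : IntermediateField ℚ QBar) : (𝓞 K)ˣ →* QBarˣ :=
  Units.map (K.val.toRingHom.comp (algebraMap (𝓞 K) K)).toMonoidHom

theorem intUnits_injective : Function.Injective (intUnits K) := fun _ _ h =>
  Units.ext (NumberField.RingOfIntegers.ext (Subtype.ext (congrArg Units.val h)))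

variable [FiniteDimensional ℚ K]

omit [FiniteDimensional ℚ ↥K] in
theorem intUnits_mem (u : (𝓞 K)ˣ) : intUnits K u ∈ sUnits ∅ K := by
  refine mem_sUnits.mpr ⟨((u : 𝓞 K) : K).2, fun q _ g => ?_⟩
  have hint : ∀ v : (𝓞 K)ˣ, IsIntegral ℤ (g ((intUnits K v : QBarˣ) : QBar)) := fun v =>
    (((v : 𝓞 K).2 : IsIntegral ℤ ((v : 𝓞 K) : K)).map K.val.toRingHom.toIntAlgHom).map
      g.toRingHom.toIntAlgHom
  have h1 := norm_emb_le_one (hint u) q
  have h2 := norm_emb_le_one (hint u⁻¹) q
  refine le_antisymm h1 ?_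
  have h3 : emb q (g (intUnits K u : QBar)) * emb q (g (intUnits K u⁻¹ : QBar)) = 1 := by
    rw [← map_mul, ← map_mul, ← Units.val_mul, ← map_mul, mul_inv_cancel, map_one]; simp
  have h4 := congrArg norm h3
  rw [norm_mul, norm_one] at h4
  rw [← h4]
  exact mul_le_of_le_one_right (norm_nonneg _) h2

omit [FiniteDimensional ℚ ↥K] in
theorem exists_intUnits_eq {x : QBarˣ} (hx : x ∈ sUnits ∅ K) : ∃ u, intUnits K u = x := by
  have hxK : (x : QBar) ∈ K := (mem_sUnits.mp hx).1
  have key : ∀ y : K, (∀ (q : Nat.Primes) (g : GQ), ‖emb q (g (y : QBar))‖ ≤ 1) →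
      IsIntegral ℤ y := fun y h =>
    (isIntegral_algHom_iff K.val.toRingHom.toIntAlgHom K.val.injective).mp
      (isIntegral_of_norm_le_one h)
  have h1 := (mem_sUnits.mp hx).2
  have h2 := (mem_sUnits.mp (inv_mem hx)).2
  let a : 𝓞 K := ⟨⟨x, hxK⟩, key _ fun q g => (h1 q (by simp) g).le⟩
  let b : 𝓞 K := ⟨⟨((x⁻¹ : QBarˣ) : QBar), (mem_sUnits.mp (inv_mem hx)).1⟩,
    key _ fun q g => (h2 q (by simp) g).le⟩
  exact ⟨⟨a, b, NumberField.RingOfIntegers.ext (Subtype.ext x.mul_inv),
    NumberField.RingOfIntegers.ext (Subtype.ext x.inv_mul)⟩, Units.ext rfl⟩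

variable (hp2 : p ≠ 2) (hζ : IsPrimitiveRoot ζ p) (hζK : ζ ∈ K)

include hp2 hζ hζK in
/-- The units modulo `p`-th powers. -/
theorem index_range_pow_sUnits_empty :
    (powMonoidHom p : sUnits ∅ K →* sUnits ∅ K).range.index = p ^ (Module.finrank ℚ K / 2) := by
  classical
  haveI : NumberField K := ⟨⟩
  obtain ⟨f, hsurj, hker⟩ := exists_hom_units K
  -- `ζ` is a torsion unit
  have hζint : IsIntegral ℤ (⟨ζ, hζK⟩ : K) :=
    IsIntegral.of_pow hp.out.pos (by
      rw [show (⟨ζ, hζK⟩ : K) ^ p = 1 from Subtype.ext hζ.pow_eq_one]; exact isIntegral_one)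
  have hζO : IsPrimitiveRoot (⟨⟨ζ, hζK⟩, hζint⟩ : 𝓞 K) p :=
    IsPrimitiveRoot.of_map_of_injective
      (f := (K.val.toRingHom.comp (algebraMap (𝓞 K) K) : 𝓞 K →+* QBar)) hζ
      (K.val.injective.comp NumberField.RingOfIntegers.coe_injective)
  set zu : (𝓞 K)ˣ := (hζO.isUnit hp.out.ne_zero).unit
  have hzu : IsPrimitiveRoot zu p := hζO.isUnit_unit hp.out.ne_zero
  have hzmem : zu ∈ NumberField.Units.torsion K := by
    show IsOfFinOrder zu
    exact hzu.isOfFinOrder hp.out.ne_zero
  have htors : (powMonoidHom p : f.ker →* f.ker).range.index = p := by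
    rw [hker]
    exact index_range_pow_finite (z := (⟨zu, hzmem⟩ : NumberField.Units.torsion K))
      (by rw [← Subgroup.orderOf_coe]; exact hzu.eq_orderOf.symm)
  have hrange : f.range.index ≠ 0 := by
    rw [MonoidHom.range_eq_top.mpr hsurj, Subgroup.index_top]; exact one_ne_zero
  have h := index_range_pow_of_hom hp.out.ne_zero f hrange
  rw [htors, Fintype.card_fin, ← pow_succ] at h
  -- transport to `sUnits ∅ K`
  let e : (𝓞 K)ˣ ≃* sUnits ∅ K :=
    MulEquiv.ofBijective ((intUnits K).codRestrict _ intUnits_mem)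
      ⟨fun u v huv => intUnits_injective (congrArg Subtype.val huv),
        fun x => (exists_intUnits_eq x.2).imp fun u hu => Subtype.ext hu⟩
  have hcomap : (powMonoidHom p : (𝓞 K)ˣ →* (𝓞 K)ˣ).range =
      (powMonoidHom p : sUnits ∅ K →* sUnits ∅ K).range.comap e.toMonoidHom := by
    ext u
    constructor
    · rintro ⟨v, rfl⟩
      exact ⟨e v, (map_pow e v p).symm⟩
    · rintro ⟨w, hw⟩
      obtain ⟨v, rfl⟩ := e.surjective w
      exact ⟨v, e.injective ((map_pow e v p).trans hw)⟩
  rw [hcomap, Subgroup.index_comap_of_surjective _ (f := e.toMonoidHom) e.surjective] at h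
  rw [h]
  congr 1
  have h2 : 2 < p := lt_of_le_of_ne hp.out.two_le hp2.symm
  have hζ' : IsPrimitiveRoot (⟨ζ, hζK⟩ : K) p :=
    IsPrimitiveRoot.of_map_of_injective (f := K.val) hζ K.val.injective
  have hr0 := NumberField.InfinitePlace.IsPrimitiveRoot.nrRealPlaces_eq_zero_of_two_lt h2 hζ'
  have hn := NumberField.InfinitePlace.card_add_two_mul_card_eq_rank K
  have hc := NumberField.InfinitePlace.card_eq_nrRealPlaces_add_nrComplexPlaces K
  have hpos : 0 < Fintype.card (NumberField.InfinitePlace K) := Fintype.card_pos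
  rw [NumberField.Units.rank]
  omega

omit hp in
theorem exists_norm_emb_eq_pow (q : Nat.Primes) (c : PlaceOver q K) :
    ∃ x : QBarˣ, x ∈ unitsOf K ∧ ‖emb q (c.out (x : QBar))‖ ≠ 1 ∧
      ∀ q' g, placeRep q' K g = g → (∀ _h : q' = q, g ≠ c.out) →
        ‖emb q' (g (x : QBar))‖ = 1 := by
  classical
  let L : IntermediateField ℚ QBar := IntermediateField.normalClosure ℚ K QBar
  haveI : Normal ℚ L := normalClosure.normal ℚ K QBar
  haveI : IsGalois ℚ L := ⟨⟩
  have hKL : K ≤ L := K.le_normalClosure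
  -- the idele `q` at the place `c`
  let z : (q' : Nat.Primes) → GQ → (Ω q')ˣ := fun q' g =>
    if q' = q ∧ g = c.out then
      Units.mk0 ((q' : ℕ) : Ω q') (Nat.cast_ne_zero.mpr q'.2.ne_zero) else 1
  have hz : ∀ q' g, ((z q' g : (Ω q')ˣ) : Ω q') ∈ fieldAt q' K g := fun q' g => by
    simp only [z]; split_ifs
    · exact _root_.natCast_mem _ _
    · exact one_mem _
  have hzn : ∀ q' ∉ ({q} : Finset Nat.Primes), ∀ g, ‖((z q' g : (Ω q')ˣ) : Ω q')‖ = 1 :=
    fun q' hq' g => by simp [z, Finset.notMem_singleton.mp hq']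
  set f := glue K (fun q' => placeRep q' K) z
  have hfK : f ∈ idl K := glue_placeRep_mem_idl hz _ hzn
  haveI : Finite (idl L ⧸ (unitIdl L ⊔ (prinL L).range)) := finite_classes_mod_units
  set F : idl L := ⟨f, idl_mono hKL hfK⟩
  set m := orderOf (QuotientGroup.mk F : idl L ⧸ (unitIdl L ⊔ (prinL L).range)) with hm
  have hm0 : 0 < m := by rw [hm]; exact orderOf_pos (G := idl L ⧸ (unitIdl L ⊔ (prinL L).range)) _
  have hFm : F ^ m ∈ unitIdl L ⊔ (prinL L).range := by
    rw [← QuotientGroup.eq_one_iff, QuotientGroup.mk_pow, pow_orderOf_eq_one]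
  obtain ⟨u, hu, _, ⟨a, rfl⟩, hua⟩ := Subgroup.mem_sup.mp hFm
  have hna : ∀ q' g, ‖emb q' (g ((a : L) : QBar))‖ = ‖((f q' g : (Ω q')ˣ) : Ω q')‖ ^ m := by
    intro q' g
    have h1 := congrArg (fun x : idl L => (x : PreIdele) q' g) hua
    simp only [Subgroup.coe_mul, Pi.mul_apply, SubmonoidClass.coe_pow, Pi.pow_apply] at h1
    have hu1 : ‖((((u : idl L) : PreIdele) q' g : (Ω q')ˣ) : Ω q')‖ = 1 := by
      rw [← norm_val u q' (σ := res L g) rfl]
      exact (Local.mem_unitGroup _).mp (hu q' (res L g))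
    have h2 := congrArg (fun x : (Ω q')ˣ => ‖(x : Ω q')‖) h1
    simp only [Units.val_mul, norm_mul, hu1, one_mul, Units.val_pow_eq_pow_val, norm_pow] at h2
    exact h2
  -- the norm from `L` to `K`
  let H : Finset (L ≃ₐ[ℚ] L) :=
    Finset.univ.filter fun σ => ∀ x : L, (x : QBar) ∈ K → σ x = x
  have hH : ∀ σ ∈ H, ∀ τ ∈ H, σ * τ ∈ H := fun σ hσ τ hτ => by
    simp only [H, Finset.mem_filter, Finset.mem_univ, true_and] at hσ hτ ⊢
    intro x hx
    rw [AlgEquiv.mul_apply, hτ x hx, hσ x hx]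
  let N : L := ∏ σ ∈ H, σ (a : L)
  have hN0 : N ≠ 0 := Finset.prod_ne_zero_iff.mpr fun σ _ => (map_ne_zero σ).mpr a.ne_zero
  have hNK : (N : QBar) ∈ K := by
    rw [← InfiniteGalois.fixedField_fixingSubgroup K, IntermediateField.mem_fixedField_iff]
    intro s hs
    have hsH : res L s ∈ H := by
      simp only [H, Finset.mem_filter, Finset.mem_univ, true_and]
      exact fun x hx => Subtype.ext ((res_apply L s x).trans
        ((IntermediateField.mem_fixingSubgroup_iff _ _).mp hs x hx))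
    rw [← res_apply L s N]
    congr 1
    rw [map_prod]
    refine Finset.prod_bij (fun σ _ => res L s * σ) (fun σ hσ => hH _ hsH _ hσ)
      (fun σ _ τ _ e => mul_left_cancel e) (fun τ hτ => ⟨(res L s)⁻¹ * τ, ?_, ?_⟩) fun σ _ => rfl
    · simp only [H, Finset.mem_filter, Finset.mem_univ, true_and] at hτ ⊢
      intro x hx
      have hs' := (Finset.mem_filter.mp hsH).2 x hx
      rw [AlgEquiv.mul_apply, hτ x hx]
      conv_lhs => rw [← hs']
      exact (res L s).symm_apply_apply x
    · exact mul_inv_cancel_left _ _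
  have hnN : ∀ q' g, placeRep q' K g = g →
      ‖emb q' (g (N : QBar))‖ = ‖((z q' g : (Ω q')ˣ) : Ω q')‖ ^ (m * H.card) := by
    intro q' g hg
    show ‖((emb q').comp (g.toAlgHom.comp L.val)) N‖ = _
    rw [map_prod, norm_prod, pow_mul, ← Finset.prod_const]
    refine Finset.prod_congr rfl fun σ hσ => ?_
    show ‖emb q' (g ((σ (a : L) : L) : QBar))‖ = _
    rw [show ((σ (a : L) : L) : QBar) = lift L σ ((a : L) : QBar) by
      conv_lhs => rw [← res_lift L σ, res_apply], ← AlgEquiv.mul_apply, hna]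
    have hsK : lift L σ ∈ K.fixingSubgroup := by
      rw [IntermediateField.mem_fixingSubgroup_iff]
      intro x hx
      exact (res_apply L (lift L σ) ⟨x, hKL hx⟩).symm.trans (by
        rw [res_lift, (Finset.mem_filter.mp hσ).2 ⟨x, hKL hx⟩ hx])
    have h3 := congrFun (congrFun ((mem_idl.mp hfK).2.2 _ hsK) q') g
    rw [transl_apply] at h3
    rw [h3, show f q' g = z q' g from glue_placeRep hz hg]
  have hH0 : 0 < H.card := Finset.card_pos.mpr ⟨1, by simp [H]⟩
  refine ⟨Units.mk0 (N : QBar) fun h => hN0 (Subtype.ext h), hNK, ?_, fun q' g hg hne => ?_⟩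
  · rw [Units.val_mk0, hnN q c.out (placeRep_out c)]
    simp only [z, and_self, if_true, Units.val_mk0]
    rw [Ne, pow_eq_one_iff_of_nonneg (norm_nonneg _) (Nat.mul_pos hm0 hH0).ne',
      ← map_natCast (algebraMap ℚ_[(q : ℕ)] (Ω q)), norm_algebraMap', Padic.norm_p, inv_eq_one]
    exact_mod_cast q.2.ne_one
  · rw [Units.val_mk0, hnN q' g hg]
    simp only [z]
    rw [if_neg fun h => hne h.1 h.2, Units.val_one, norm_one, one_pow]

omit hp in
/-- The orders at the places over `S`. -/
theorem exists_ordHom (S : Finset Nat.Primes) (K : IntermediateField ℚ QBar)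
    [FiniteDimensional ℚ K] :
    ∃ V : sUnits S K →* (SPlace S K → Multiplicative ℤ), ∀ (x : sUnits S K) (i : SPlace S K),
      V x i = 1 ↔ ‖emb i.1 (i.2.out ((x : QBarˣ) : QBar))‖ = 1 := by
  let d : SPlace S K → ℕ := fun i =>
    Module.finrank ℚ_[((i.1 : Nat.Primes) : ℕ)] (placeField i)
  have hd : ∀ i, d i ≠ 0 := fun i => Module.finrank_pos.ne'
  have hex : ∀ (i : SPlace S K) (x : sUnits S K), ∃ n : ℤ,
      ‖emb i.1 (i.2.out ((x : QBarˣ) : QBar))‖ ^ d i = ((i.1 : Nat.Primes) : ℝ) ^ n := fun i x =>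
    Local.exists_norm_pow_eq_zpow (placeField i)
      ⟨_, emb_mem_fieldAt i.2.out (sUnits_le S K x.2)⟩ fun h =>
        (Units.ne_zero (x : QBarˣ)) ((map_eq_zero _).mp ((map_eq_zero _).mp (congrArg Subtype.val h)))
  let V : sUnits S K →* (SPlace S K → Multiplicative ℤ) := MonoidHom.pi fun i =>
    { toFun := fun x => Multiplicative.ofAdd
        (expAt i.1 (‖emb i.1 (i.2.out ((x : QBarˣ) : QBar))‖ ^ d i))
      map_one' := by
        have h1 : expAt (i.1 : Nat.Primes) (1 : ℝ) = 0 := by
          conv_lhs => rw [← zpow_zero (((i.1 : Nat.Primes) : ℕ) : ℝ)]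
          exact expAt_zpow _ 0
        simp [h1]
      map_mul' := fun x y => by
        obtain ⟨a, ha⟩ := hex i x
        obtain ⟨b, hb⟩ := hex i y
        rw [← ofAdd_add, ha, hb, expAt_zpow, expAt_zpow]
        congr 1
        rw [Subgroup.coe_mul, Units.val_mul, map_mul, map_mul, norm_mul, mul_pow, ha, hb,
          ← zpow_add₀ (Nat.cast_ne_zero.mpr (i.1 : Nat.Primes).2.ne_zero), expAt_zpow] }
  have hVval : ∀ (x : sUnits S K) (i : SPlace S K), V x i = Multiplicative.ofAdd
      (expAt i.1 (‖emb i.1 (i.2.out ((x : QBarˣ) : QBar))‖ ^ d i)) := fun _ _ => rfl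
  have hV1 : ∀ (x : sUnits S K) (i : SPlace S K),
      V x i = 1 ↔ ‖emb i.1 (i.2.out ((x : QBarˣ) : QBar))‖ = 1 := fun x i => by
    obtain ⟨n, hn⟩ := hex i x
    rw [hVval, hn, expAt_zpow, ofAdd_eq_one]
    constructor
    · rintro rfl
      rw [zpow_zero] at hn
      exact (pow_eq_one_iff_of_nonneg (norm_nonneg _) (hd i)).mp hn
    · intro h1
      rw [h1, one_pow, ← zpow_zero (((i.1 : Nat.Primes) : ℕ) : ℝ)] at hn
      exact (Local.zpow_inj_q hn).symm
  exact ⟨V, hV1⟩

include hp2 hζ hζK in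
/-- `[U_S : U_S ^ p] = p ^ (#S + [K : ℚ] / 2)`. -/
theorem card_modP_sUnits (S : Finset Nat.Primes) [∀ q, Fintype (PlaceOver q K)] :
    Nat.card (ModP p (sUnits S K)) =
      p ^ ((∑ q ∈ S, Fintype.card (PlaceOver q K)) + Module.finrank ℚ K / 2) := by
  classical
  obtain ⟨V, hV1⟩ := exists_ordHom S K
  have hrep : ∀ (x : QBarˣ), x ∈ unitsOf K → ∀ q g, ‖emb q (g (x : QBar))‖ =
      ‖emb q ((Quotient.mk (placeSetoid q K) g).out (x : QBar))‖ := fun x hx q g =>
    norm_value_eq (prin_mem_idl_iff.mpr hx) q g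
  have hker : V.ker = (sUnits ∅ K).subgroupOf (sUnits S K) := by
    ext x
    rw [MonoidHom.mem_ker, Subgroup.mem_subgroupOf, funext_iff]
    constructor
    · intro h
      refine mem_sUnits.mpr ⟨(mem_sUnits.mp x.2).1, fun q _ g => ?_⟩
      by_cases hq : q ∈ S
      · rw [hrep _ (mem_sUnits.mp x.2).1 q g]
        exact (hV1 x ⟨⟨q, hq⟩, _⟩).mp (h _)
      · exact (mem_sUnits.mp x.2).2 q hq g
    · exact fun h i => (hV1 x i).mpr ((mem_sUnits.mp h).2 _ (by simp) _)
  have hrange : V.range.index ≠ 0 := index_range_ne_zero_of_single V fun i => by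
    obtain ⟨x, hxK, hxne, hxo⟩ := exists_norm_emb_eq_pow (i.1 : Nat.Primes) i.2
    have hxS : x ∈ sUnits S K := mem_sUnits.mpr ⟨hxK, fun q hq g => by
      rw [hrep x hxK q g]
      exact hxo q _ (placeRep_out _) fun h _ => hq (h ▸ i.1.2)⟩
    have h1 := hV1 ⟨x, hxS⟩ i
    refine ⟨⟨x, hxS⟩, ?_, ?_⟩
    · intro h
      exact hxne (h1.mp h)
    intro j hj
    refine (hV1 ⟨x, hxS⟩ j).mpr ?_
    refine hxo _ _ (placeRep_out _) fun h e => hj ?_
    obtain ⟨⟨q, hq⟩, c⟩ := j
    obtain ⟨⟨q', hq'⟩, c'⟩ := i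
    obtain rfl : q = q' := h
    have hcc : c = c' := by rw [← c.out_eq, ← c'.out_eq]; exact congrArg _ e
    rw [hcc]
  have h := index_range_pow_of_hom hp.out.ne_zero V hrange
  have hk : (powMonoidHom p : V.ker →* V.ker).range.index = p ^ (Module.finrank ℚ K / 2) := by
    rw [hker, ← index_range_pow_sUnits_empty hp2 hζ hζK]
    have hle : sUnits ∅ K ≤ sUnits S K := fun x hx =>
      mem_sUnits.mpr ⟨(mem_sUnits.mp hx).1, fun q _ g => (mem_sUnits.mp hx).2 q (by simp) g⟩
    let e := Subgroup.subgroupOfEquivOfLe hle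
    rw [← Subgroup.index_comap_of_surjective (f := e.toMonoidHom) _ e.surjective]
    congr 1
    ext u
    constructor
    · rintro ⟨v, rfl⟩
      exact ⟨e v, (map_pow e v p).symm⟩
    · rintro ⟨w, hw⟩
      obtain ⟨v, rfl⟩ := e.surjective w
      exact ⟨v, e.injective ((map_pow e v p).trans hw)⟩
  have hcard : Fintype.card (SPlace S K) = ∑ q ∈ S, Fintype.card (PlaceOver q K) := by
    rw [Fintype.card_sigma, Finset.sum_coe_sort S fun q => Fintype.card (PlaceOver q K)]
  rw [hk, hcard, ← pow_add] at h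
  exact h

include hp2 hζ hζK in
/-- A set containing `p` and generating the ideles modulo units is good. -/
theorem goodSet_of_gen {S : Finset Nat.Primes} (hpS : (⟨p, hp.out⟩ : Nat.Primes) ∈ S)
    (hgen : ∀ f ∈ idl K, ∃ c ∈ unitsOf K, f * prin c ∈ unitsOutside S K) : GoodSet p S K := by
  haveI : ∀ q, Fintype (PlaceOver q K) := fun q => Fintype.ofFinite _
  haveI : NumberField K := ⟨⟩
  have h2 : 2 < p := lt_of_le_of_ne hp.out.two_le hp2.symm
  have hζ' : IsPrimitiveRoot (⟨ζ, hζK⟩ : K) p :=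
    IsPrimitiveRoot.of_map_of_injective (f := K.val) hζ K.val.injective
  have hr0 := NumberField.InfinitePlace.IsPrimitiveRoot.nrRealPlaces_eq_zero_of_two_lt h2 hζ'
  have hn := NumberField.InfinitePlace.card_add_two_mul_card_eq_rank K
  refine ⟨hpS, hgen, ?_, ?_⟩
  · rw [card_modP_sUnits hp2 hζ hζK]
    exact pow_ne_zero _ hp.out.ne_zero
  · rw [card_modP_sUnits hp2 hζ hζK, relIndex_powAt hp2 hζ hζK hpS, ← pow_mul]
    congr 1
    omega

include hp2 hζ hζK in
/-- Every finite set of primes is contained in a good one. -/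
theorem exists_goodSet (T₀ : Finset Nat.Primes) :
    ∃ S : Finset Nat.Primes, T₀ ⊆ S ∧ GoodSet p S K := by
  classical
  let L : IntermediateField ℚ QBar := IntermediateField.normalClosure ℚ K QBar
  haveI : Normal ℚ L := normalClosure.normal ℚ K QBar
  obtain ⟨T, hT, h⟩ := exists_finset_idl_classes (L := L) K.le_normalClosure
    (insert (⟨p, hp.out⟩ : Nat.Primes) T₀)
  refine ⟨T, fun q hq => hT (Finset.mem_insert_of_mem hq),
    goodSet_of_gen hp2 hζ hζK (hT (Finset.mem_insert_self _ _)) fun f hf => ?_⟩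
  obtain ⟨c, hc, hcT⟩ := h f hf
  exact ⟨c, hc, mul_mem hf (prin_mem_idl_iff.mpr hc), hcT⟩

end Fermat.Agent.CFT.Idele
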