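import Fermat.Agent.CFT.Idele.KummerStep
import Fermat.Agent.CFT.Idele.SUnits
import Fermat.Agent.CFT.Idele.ModQ
import Fermat.Agent.CFT.Idele.Classes

/-!
# Units which are local `p`-th powers

A `T`-unit which is a `p`-th power at every place over `T` is a `p`-th power, for `T` containing
`p` and generating the ideles modulo units.
-/

set_option autoImplicit false
set_option synthInstance.maxHeartbeats 200000
set_option linter.style.haveILetI false

noncomputable section

namespace Fermat.Agent.CFT.Idele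

open ExtCitation Fermat.Agent.Arith IntermediateField Fermat.Agent.CFT.Local

local instance factPrimeUnitsPow (q : Nat.Primes) : Fact (q : ℕ).Prime := ⟨q.2⟩

variable {p : ℕ} [hp : Fact p.Prime] {ζ : QBar} {K : IntermediateField ℚ QBar}
  [FiniteDimensional ℚ K]

/-- An `S`-unit which is a local `p`-th power at `S` is a `p`-th power. -/
theorem exists_pow_eq_of_powAt (hp2 : p ≠ 2) (hζ : IsPrimitiveRoot ζ p) (hζK : ζ ∈ K)
    {S : Finset Nat.Primes} (hS : GoodSet p S K) {b : QBarˣ} (hb : b ∈ sUnits S K)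
    (hE : prin b ∈ powAt p S K) : ∃ x ∈ unitsOf K, x ^ p = b := by
  obtain ⟨x, hx, e⟩ := exists_pow_eq_of_mem_powAtT (ι := Fin 0) (φ := Fin.elim0) (p := p) (K := K)
    (S := S) Fin.elim0 Fin.elim0 (fun i => i.elim0) (fun i => i.elim0)
    linearIndependent_empty_type hζ hζK hp2 hS (firstIneq hp2) (b := b)
    ⟨hb.1, unitsOutside_le_unitsOutsideT _ _ hb.2⟩
    ⟨unitsOutside_le_unitsOutsideT _ _ hE.1, hE.2⟩
  exact ⟨x, hx.1, e⟩

variable [Normal ℚ K] {T : Finset Nat.Primes}

/-- The generation hypothesis in terms of semilocal values gives a good set. -/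
theorem goodSet_of_hgen (hp2 : p ≠ 2) (hζ : IsPrimitiveRoot ζ p) (hζK : ζ ∈ K)
    (hpT : (⟨p, hp.out⟩ : Nat.Primes) ∈ T)
    (hgen : ∀ f : J K, ∃ a : Additive Kˣ, ∀ q ∉ T, ∀ σ,
      val (f + diag K a).toMul q σ ∈ unitGroup (E K q)) : GoodSet p T K := by
  refine goodSet_of_gen hp2 hζ hζK hpT fun f hf => ?_
  obtain ⟨a, ha⟩ := hgen (Additive.ofMul ⟨f, hf⟩)
  refine ⟨Units.map K.val.toRingHom.toMonoidHom a.toMul, (a.toMul : K).2,
    mul_mem hf (prin_mem_idl_iff.mpr (a.toMul : K).2), fun q hq g => ?_⟩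
  have h := (mem_unitGroup _).mp (ha q hq (res K g))
  rw [norm_val _ q (rfl : res K g = res K g)] at h
  exact h

/-- A `T`-unit which is a `p`-th power at every place over `T` is a `p`-th power. -/
theorem exists_pow_eq_of_tUnit (hp2 : p ≠ 2) (hζ : IsPrimitiveRoot ζ p) (hζK : ζ ∈ K)
    (hpT : (⟨p, hp.out⟩ : Nat.Primes) ∈ T)
    (hgen : ∀ f : J K, ∃ a : Additive Kˣ, ∀ q ∉ T, ∀ σ,
      val (f + diag K a).toMul q σ ∈ unitGroup (E K q))
    {x : Kˣ} (hx : ∀ q ∉ T, ∀ σ, val (prinL K x) q σ ∈ unitGroup (E K q))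
    (hpow : ∀ q ∈ T, ∀ σ, ∃ y, y ^ p = val (prinL K x) q σ) : ∃ z : Kˣ, z ^ p = x := by
  set b : QBarˣ := Units.map K.val.toRingHom.toMonoidHom x
  have hm : (prinL K x : PreIdele) ∈ unitsOutside T K := ⟨(prinL K x).2, fun q hq g => by
    have h := (mem_unitGroup _).mp (hx q hq (res K g))
    rw [norm_val _ q (rfl : res K g = res K g)] at h
    exact h⟩
  obtain ⟨w, hw, e⟩ := exists_pow_eq_of_powAt hp2 hζ hζK
    (goodSet_of_hgen hp2 hζ hζK hpT hgen) (b := b) ⟨(x : K).2, hm⟩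
    ⟨hm, fun q hq g _ => by
      obtain ⟨y, hy⟩ := hpow q hq (res K g)
      refine ⟨((y : E K q) : Ω q), by rw [fieldAt_eq K q g]; exact (y : E K q).2, ?_⟩
      have h := congrArg (fun u : (E K q)ˣ => ((u : E K q) : Ω q)) hy
      simp only [Units.val_pow_eq_pow_val, SubmonoidClass.coe_pow] at h
      rw [h, coe_val _ q (rfl : res K g = res K g)]
      rfl⟩
  refine ⟨Units.mk0 ⟨(w : QBar), hw⟩ fun h0 => w.ne_zero (congrArg Subtype.val h0),
    Units.ext (Subtype.ext ?_)⟩
  exact (Units.val_pow_eq_pow_val w p).symm.trans (congrArg Units.val e)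

end Fermat.Agent.CFT.Idele
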