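import Fermat.Agent.CFT.Idele.CycChar
import Fermat.Agent.Arith.Chebotarev.Main
import Mathlib.RingTheory.Norm.Basic
import Mathlib.NumberTheory.Padics.PadicVal.Basic

/-!
# Auxiliary primes at which a given prime generates

For an odd prime `p` there is a prime `r ≡ 1` modulo `p ^ k`, outside any finite set, modulo which
`q` is not a `p`-th power: the Frobenius at `q` generates the cyclic field of degree `p ^ k`.
-/

set_option autoImplicit false
set_option linter.style.haveILetI false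

noncomputable section

namespace Fermat.Agent.CFT.Idele

open ExtCitation Fermat.Agent.Arith IntermediateField

/-- A logarithm modulo a prime congruent to one. -/
theorem exists_zmod_log {r n : ℕ} (hr : r.Prime) (h : n ∣ r - 1) :
    ∃ log : (ZMod r)ˣ →* Multiplicative (ZMod n), Function.Surjective log ∧
      ∀ u, log u = 1 → u ^ ((r - 1) / n) = 1 := by
  haveI : Fact r.Prime := ⟨hr⟩
  have hc : Nat.card (ZMod r)ˣ = Nat.card (Multiplicative (ZMod (r - 1))) := by
    rw [Nat.card_congr Multiplicative.toAdd, Nat.card_zmod, Nat.card_eq_fintype_card,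
      ZMod.card_units]
  let e := mulEquivOfCyclicCardEq hc
  have hr1 : r - 1 ≠ 0 := by have := hr.two_le; omega
  haveI : NeZero (r - 1) := ⟨hr1⟩
  let c : Multiplicative (ZMod (r - 1)) →* Multiplicative (ZMod n) :=
    AddMonoidHom.toMultiplicative (ZMod.castHom h (ZMod n)).toAddMonoidHom
  have hsurj : Function.Surjective c := fun x => by
    obtain ⟨y, hy⟩ := ZMod.ringHom_surjective (ZMod.castHom h (ZMod n)) x.toAdd
    exact ⟨Multiplicative.ofAdd y, congrArg Multiplicative.ofAdd hy⟩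
  refine ⟨c.comp e.toMonoidHom, hsurj.comp e.surjective, fun u hu => ?_⟩
  · have hu' : ((Multiplicative.toAdd (e u)).val : ZMod n) = 0 := by
      rw [← map_natCast (ZMod.castHom h (ZMod n)), ZMod.natCast_zmod_val]
      exact congrArg Multiplicative.toAdd hu
    rw [ZMod.natCast_eq_zero_iff] at hu'
    obtain ⟨j, hj⟩ := hu'
    apply e.injective
    apply Multiplicative.toAdd.injective
    rw [map_pow, map_one, toAdd_one, toAdd_pow, nsmul_eq_mul,
      ← ZMod.natCast_zmod_val (Multiplicative.toAdd (e u)), hj, ← Nat.cast_mul,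
      ZMod.natCast_eq_zero_iff]
    exact ⟨j, by rw [← mul_assoc, Nat.div_mul_cancel h]⟩

variable {p : ℕ} [hp : Fact p.Prime]

/-- Some automorphism fixes the roots of unity of order `p ^ k` and moves a `p`-th root of `q`. -/
theorem exists_gal_move_root (hp2 : p ≠ 2) (q : Nat.Primes) (k : ℕ) (hk : 0 < k) {α ζ : QBar}
    (hα : α ^ p = ((q : ℕ) : QBar)) (hζ : IsPrimitiveRoot ζ (p ^ k)) :
    ∃ g : GQ, g ζ = ζ ∧ g α ≠ α := by
  have hα0 : α ≠ 0 := fun h => by
    rw [h, zero_pow hp.out.ne_zero] at hα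
    exact Nat.cast_ne_zero.2 q.2.ne_zero hα.symm
  obtain ⟨m, hm⟩ : p ∣ p ^ k := dvd_pow_self p hk.ne'
  obtain ⟨z, hzdef⟩ : ∃ z, z = ζ ^ m := ⟨_, rfl⟩
  have hz : IsPrimitiveRoot z p :=
    hzdef ▸ hζ.pow (pow_pos hp.out.pos k) (by rw [hm, mul_comm])
  haveI : NeZero p := ⟨hp.out.ne_zero⟩
  -- `z` is moved
  have hzbot : z ∉ (⊥ : IntermediateField ℚ QBar) := by
    rintro ⟨r, hr⟩
    have hr' : r ^ p = 1 := by
      apply (algebraMap ℚ QBar).injective
      rw [map_pow, map_one]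
      exact (congrArg (· ^ p) hr).trans hz.pow_eq_one
    have h1 : r = 1 := ((hp.out.odd_of_ne_two hp2).strictMono_pow (R := ℚ)).injective
      (by rw [hr', one_pow])
    exact hz.ne_one hp.out.one_lt (by rw [← hr, h1]; exact map_one (algebraMap ℚ QBar))
  obtain ⟨h, hh⟩ : ∃ h : GQ, h z ≠ z := by
    by_contra hne
    push Not at hne
    exact hzbot (by
      rw [← InfiniteGalois.fixedField_fixingSubgroup (⊥ : IntermediateField ℚ QBar),
        IntermediateField.mem_fixedField_iff]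
      exact fun g _ => hne g)
  -- `α` is not in `ℚ(z)`
  obtain ⟨g₀, hg₀z, hg₀α⟩ : ∃ g : GQ, g z = z ∧ g α ≠ α := by
    by_contra hne
    push Not at hne
    set K := IntermediateField.adjoin ℚ {z}
    have hint : IsIntegral ℚ z := Algebra.IsIntegral.isIntegral z
    haveI : FiniteDimensional ℚ K := IntermediateField.adjoin.finiteDimensional hint
    have hαK : α ∈ K := by
      rw [← InfiniteGalois.fixedField_fixingSubgroup K, IntermediateField.mem_fixedField_iff]
      exact fun g hg => hne g ((IntermediateField.mem_fixingSubgroup_iff _ _).1 hg z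
        (IntermediateField.mem_adjoin_simple_self ℚ z))
    have hd : Module.finrank ℚ K = p - 1 := by
      rw [IntermediateField.adjoin.finrank hint,
        ← Polynomial.cyclotomic_eq_minpoly_rat hz hp.out.pos,
        Polynomial.natDegree_cyclotomic, Nat.totient_prime hp.out]
    have hN : Algebra.norm ℚ (⟨α, hαK⟩ : K) ^ p = ((q : ℕ) : ℚ) ^ (p - 1) := by
      have e : (⟨α, hαK⟩ : K) ^ p = algebraMap ℚ K ((q : ℕ) : ℚ) := Subtype.ext (by
        rw [map_natCast, SubmonoidClass.coe_pow]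
        exact hα.trans (map_natCast K.val _).symm)
      rw [← map_pow, e, Algebra.norm_algebraMap, hd]
    haveI : Fact (q : ℕ).Prime := ⟨q.2⟩
    have hv := congrArg (padicValRat (q : ℕ)) hN
    rw [padicValRat.pow, padicValRat.pow, padicValRat.self q.2.one_lt, mul_one] at hv
    have hdvd : p ∣ p - 1 := Int.natCast_dvd_natCast.1 ⟨_, hv.symm⟩
    have := Nat.le_of_dvd (by have := hp.out.two_le; omega) hdvd
    have := hp.out.two_le
    omega
  by_contra hne
  push Not at hne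
  -- commutators fix `ζ`, hence `α`
  haveI : NeZero (p ^ k) := ⟨pow_ne_zero _ hp.out.ne_zero⟩
  obtain ⟨a, -, ha⟩ := hζ.eq_pow_of_pow_eq_one (ξ := g₀ ζ) (by rw [← map_pow, hζ.pow_eq_one, map_one])
  obtain ⟨b, -, hb⟩ := hζ.eq_pow_of_pow_eq_one (ξ := h ζ) (by rw [← map_pow, hζ.pow_eq_one, map_one])
  have hcomm : g₀ (h ζ) = h (g₀ ζ) := by
    rw [← hb, map_pow, ← ha, map_pow, ← hb, ← pow_mul, ← pow_mul, mul_comm]
  have hfixα : g₀ (h α) = h (g₀ α) := by
    have key := hne ((h * g₀)⁻¹ * (g₀ * h)) (by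
      rw [AlgEquiv.mul_apply, AlgEquiv.mul_apply, hcomm]
      exact (h * g₀).symm_apply_apply ζ)
    have := congrArg (h * g₀) key
    rw [← AlgEquiv.mul_apply, mul_inv_cancel_left] at this
    exact this
  obtain ⟨i, -, hi⟩ := hz.eq_pow_of_pow_eq_one (ξ := g₀ α / α) (by
    rw [div_pow, ← map_pow, hα, map_natCast, div_self (Nat.cast_ne_zero.2 q.2.ne_zero)])
  obtain ⟨c, -, hc⟩ := hz.eq_pow_of_pow_eq_one (ξ := h α / α) (by
    rw [div_pow, ← map_pow, hα, map_natCast, div_self (Nat.cast_ne_zero.2 q.2.ne_zero)])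
  rw [eq_div_iff hα0] at hi hc
  rw [← hc, ← hi, map_mul, map_mul, map_pow, map_pow, hg₀z, ← hi, ← hc, ← mul_assoc,
    mul_comm ((h z) ^ i), mul_assoc, mul_assoc] at hfixα
  have hzi : z ^ i = (h z) ^ i := by
    refine mul_right_cancel₀ (mul_ne_zero (pow_ne_zero c (hz.ne_zero hp.out.ne_zero)) hα0) ?_
    linear_combination hfixα
  have hpi : ¬ p ∣ i := fun hd => hg₀α (by rw [← hi, (hz.pow_eq_one_iff_dvd i).2 hd, one_mul])
  have hzi' : IsPrimitiveRoot (z ^ i) p :=
    hz.pow_of_coprime i ((hp.out.coprime_iff_not_dvd.2 hpi).symm)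
  obtain ⟨j, -, hj⟩ := hzi'.eq_pow_of_pow_eq_one hz.pow_eq_one
  exact hh (by rw [← hj, map_pow, map_pow, ← hzi])

/-- An auxiliary prime modulo which `q` generates. -/
theorem exists_aux_generator (hp2 : p ≠ 2) (q : Nat.Primes) (k : ℕ) (S : Finset Nat.Primes) :
    ∃ a : Aux (p ^ k), a.q ∉ S ∧ ∃ h : q ≠ a.q, ∀ c : Multiplicative (ZMod (p ^ k)),
      ∃ i : ℕ, a.log (a.unitOf (a.not_dvd_of_ne h)) ^ i = c := by
  classical
  haveI : NeZero (p ^ k) := ⟨pow_ne_zero _ hp.out.ne_zero⟩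
  rcases Nat.eq_zero_or_pos k with rfl | hk
  · obtain ⟨a, ha⟩ := exists_aux (p ^ 0) (insert q S)
    rw [Finset.mem_insert, not_or] at ha
    haveI : Subsingleton (Multiplicative (ZMod (p ^ 0))) := by
      rw [pow_zero]; exact Multiplicative.toAdd.subsingleton
    exact ⟨a, ha.2, fun h => ha.1 h.symm, fun c => ⟨0, Subsingleton.elim _ _⟩⟩
  obtain ⟨ζ, hζ⟩ := HasEnoughRootsOfUnity.exists_primitiveRoot QBar (p ^ k)
  obtain ⟨α, hα⟩ := IsAlgClosed.exists_pow_nat_eq ((q : ℕ) : QBar) hp.out.pos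
  obtain ⟨g, hgζ, hgα⟩ := exists_gal_move_root hp2 q k hk hα hζ
  set L : IntermediateField ℚ QBar :=
    IntermediateField.normalClosure ℚ (IntermediateField.adjoin ℚ {ζ, α}) QBar
  haveI : FiniteDimensional ℚ (IntermediateField.adjoin ℚ ({ζ, α} : Set QBar)) :=
    IntermediateField.finiteDimensional_adjoin fun x _ => Algebra.IsIntegral.isIntegral x
  haveI : Normal ℚ L := normalClosure.normal ℚ _ QBar
  haveI : IsGalois ℚ L := ⟨⟩
  obtain ⟨r, hr, hrS, A, hA, σ, hσ, hσg⟩ := Chebotarev.exists_frobenius_restrict_eq L g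
    (insert p (insert (q : ℕ) (S.image fun x : Nat.Primes => (x : ℕ))))
  rw [Finset.mem_insert, not_or, Finset.mem_insert, not_or, Finset.mem_image] at hrS
  obtain ⟨hrp, hrq, hrS⟩ := hrS
  have hag : ∀ x ∈ ({ζ, α} : Set QBar), σ x = g x := fun x hx => by
    have hxL : x ∈ L := (IntermediateField.le_normalClosure _) (IntermediateField.subset_adjoin _ _ hx)
    exact (AlgEquiv.restrictNormal_commutes σ L ⟨x, hxL⟩).symm.trans
      ((congrArg (fun e => ((e (⟨x, hxL⟩ : L) : L) : QBar)) hσg).trans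
        (AlgEquiv.restrictNormal_commutes g L ⟨x, hxL⟩))
  have hσζ : σ ζ = ζ := (hag ζ (by simp)).trans hgζ
  have hσα : σ α ≠ α := fun h => hgα ((hag α (by simp)).symm.trans h)
  have hrn : ¬ r ∣ p ^ k := fun hd =>
    hrp ((Nat.prime_dvd_prime_iff_eq hr hp.out).1 (hr.dvd_of_dvd_pow hd))
  -- `r ≡ 1`
  have hdvd : p ^ k ∣ r - 1 := by
    have e := (frobenius_root hA hr hσ hζ.pow_eq_one hrn).symm.trans hσζ
    refine hζ.dvd_of_pow_eq_one _ (mul_right_cancel₀ (hζ.ne_zero (pow_ne_zero _ hp.out.ne_zero)) ?_)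
    rw [one_mul, ← pow_succ, Nat.sub_add_cancel hr.one_le, e]
  obtain ⟨log, hsurj, hlog⟩ := exists_zmod_log hr hdvd
  set a : Aux (p ^ k) := ⟨⟨r, hr⟩, log, hsurj⟩
  have hne : q ≠ a.q := fun h => hrq (congrArg Subtype.val h).symm
  refine ⟨a, fun h => hrS ⟨_, h, rfl⟩, hne, fun c => ?_⟩
  haveI : Fact r.Prime := ⟨hr⟩
  have hpr : p ∣ r - 1 := (dvd_pow_self p hk.ne').trans hdvd
  -- `q` is not a `p`-th power modulo `r`
  have hqp : (a.unitOf (a.not_dvd_of_ne hne) : (ZMod r)ˣ) ^ ((r - 1) / p) ≠ 1 := by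
    intro he
    have he' := congrArg Units.val he
    rw [Units.val_pow_eq_pow_val, Units.val_one] at he'
    replace he' : (((q : ℕ) : ℤ) ^ ((r - 1) / p) : ZMod r) = ((1 : ℤ) : ZMod r) := by
      push_cast
      exact (congrArg (· ^ ((r - 1) / p)) (a.coe_unitOf (a.not_dvd_of_ne hne))).symm.trans he'
    rw [← Int.cast_pow, ZMod.intCast_eq_intCast_iff_dvd_sub, ← intCast_mem_nonunits_iff hA hr] at he'
    have hαi : IsIntegral ℤ α :=
      IsIntegral.of_pow hp.out.pos (by rw [hα]; exact (isIntegral_algebraMap (R := ℤ) (x := ((q : ℕ) : ℤ))))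
    have hfr := (isFrobeniusAt_iff hA hr).1 hσ α hαi
    have hαr : α ^ r = α * ((q : ℕ) : QBar) ^ ((r - 1) / p) := by
      rw [← hα, ← pow_mul, Nat.mul_div_cancel' hpr, ← pow_succ', Nat.sub_add_cancel hr.one_le]
    have hsub : σ α - α ∈ A.nonunits := by
      have := nonunits_sub hfr (nonunits_mul_left (mem_of_isIntegral A hαi) he')
      convert this using 1
      rw [hαr]
      push_cast
      ring
    obtain ⟨β, hβ⟩ : ∃ β : QBar, β = σ α / α := ⟨_, rfl⟩
    have hα0 : α ≠ 0 := fun h0 => hσα (by rw [h0, map_zero])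
    have hqA : ((q : ℕ) : QBar) ∉ A.nonunits := fun h => hrq
      ((Nat.prime_dvd_prime_iff_eq hr q.2).1 ((natCast_mem_nonunits_iff hA hr _).1 h))
    have hαn : α ∉ A.nonunits := fun h => hqA (by
      rw [← hα, ← Nat.sub_add_cancel hp.out.one_le, pow_succ]
      exact nonunits_mul_left (pow_mem (mem_of_isIntegral A hαi) _) h)
    have hβ1 : β - 1 ∈ A.nonunits := by
      have hinv := ((notMem_nonunits_iff (mem_of_isIntegral A hαi)).1 hαn).2
      rw [hβ, show σ α / α - 1 = α⁻¹ * (σ α - α) by field_simp]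
      exact nonunits_mul_left hinv hsub
    have hβp : β ^ p = 1 := by
      rw [hβ, div_pow, ← map_pow, hα, map_natCast, div_self (Nat.cast_ne_zero.2 q.2.ne_zero)]
    exact hσα (by
      have := root_eq_one_of_sub_one_mem_nonunits hA hr hβp
        (fun hd => hrp ((Nat.prime_dvd_prime_iff_eq hr hp.out).1 hd)) hβ1
      rwa [hβ, div_eq_one_iff_eq hα0] at this)
  -- so its logarithm generates
  set t := Multiplicative.toAdd (a.log (a.unitOf (a.not_dvd_of_ne hne)))
  have ht : ¬ p ∣ t.val := by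
    rintro ⟨v, hv⟩
    obtain ⟨w, hw⟩ := a.surj (Multiplicative.ofAdd (v : ZMod (p ^ k)))
    refine hqp ?_
    have h1 : a.log (a.unitOf (a.not_dvd_of_ne hne) / w ^ p) = 1 := by
      rw [map_div, map_pow, hw, div_eq_one, ← ofAdd_nsmul, nsmul_eq_mul, ← Nat.cast_mul, ← hv,
        ZMod.natCast_zmod_val, ofAdd_toAdd]
    have h2 := hlog _ h1
    have hm : (r - 1) / p = (r - 1) / (p ^ k) * p ^ (k - 1) := by
      obtain ⟨d, hd⟩ := hdvd
      rw [hd, Nat.mul_div_cancel_left _ (pow_pos hp.out.pos k),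
        show p ^ k = p * p ^ (k - 1) from (mul_pow_sub_one hk.ne' p).symm, mul_assoc,
        Nat.mul_div_cancel_left _ hp.out.pos, mul_comm]
    have h3 : (a.unitOf (a.not_dvd_of_ne hne) / w ^ p : (ZMod r)ˣ) ^ ((r - 1) / p) = 1 := by
      rw [hm, pow_mul, h2, one_pow]
    rwa [div_pow, ← pow_mul, Nat.mul_div_cancel' hpr, ZMod.units_pow_card_sub_one_eq_one r,
      div_one] at h3
  have hu : IsUnit t := by
    rw [← ZMod.natCast_zmod_val t, ZMod.isUnit_iff_coprime]
    exact Nat.Coprime.pow_right k ((hp.out.coprime_iff_not_dvd.2 ht).symm)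
  obtain ⟨u, hu⟩ := hu
  refine ⟨(Multiplicative.toAdd c * ↑u⁻¹ : ZMod (p ^ k)).val, Multiplicative.toAdd.injective ?_⟩
  rw [toAdd_pow, nsmul_eq_mul, ZMod.natCast_zmod_val, mul_assoc]
  show Multiplicative.toAdd c * ((↑u⁻¹ : ZMod (p ^ k)) * t) = _
  rw [← hu, Units.inv_mul, mul_one]

end Fermat.Agent.CFT.Idele
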