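import Fermat.Agent.CFT.Idele.NormGenerator
import Fermat.Agent.CFT.Idele.Axioms

/-!
# The second inequality and the class field axioms

A step `K < H` of index `p` with `ζ` fixed by `H` is cut out by a `p`-th root.
-/

set_option autoImplicit false
set_option synthInstance.maxHeartbeats 200000
set_option linter.style.haveILetI false

noncomputable section

namespace Fermat.Agent.CFT.Idele

open ExtCitation Fermat.Agent.Arith IntermediateField

local instance factPrimeSecondIneq (q : Nat.Primes) : Fact (q : ℕ).Prime := ⟨q.2⟩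

variable (L : IntermediateField ℚ QBar) [FiniteDimensional ℚ L] [Normal ℚ L]

/-- The subfield of `ℚ̄` fixed by `H`. -/
def fixedQ (H : Subgroup (L ≃ₐ[ℚ] L)) : IntermediateField ℚ QBar :=
  (IntermediateField.fixedField H).map L.val

variable {L}

omit [FiniteDimensional ℚ ↥L] [Normal ℚ ↥L] in
theorem fixedQ_le (H : Subgroup (L ≃ₐ[ℚ] L)) : fixedQ L H ≤ L := by
  rintro _ ⟨y, -, rfl⟩; exact y.2

instance finiteDimensional_fixedQ (H : Subgroup (L ≃ₐ[ℚ] L)) :
    FiniteDimensional ℚ (fixedQ L H) :=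
  FiniteDimensional.of_injective (IntermediateField.inclusion (fixedQ_le H)).toLinearMap
    (IntermediateField.inclusion (fixedQ_le H)).injective

omit [FiniteDimensional ℚ ↥L] [Normal ℚ ↥L] in
theorem mem_fixedQ {H : Subgroup (L ≃ₐ[ℚ] L)} (y : L) :
    (y : QBar) ∈ fixedQ L H ↔ ∀ h ∈ H, h y = y := by
  rw [← IntermediateField.mem_fixedField_iff]
  constructor
  · rintro ⟨z, hz, e⟩
    rwa [show y = z from Subtype.ext e.symm]
  · exact fun h => ⟨y, h, rfl⟩

theorem mem_fixingSubgroup_fixedQ {H : Subgroup (L ≃ₐ[ℚ] L)} {s : GQ} :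
    s ∈ (fixedQ L H).fixingSubgroup ↔ res L s ∈ H := by
  rw [IntermediateField.mem_fixingSubgroup_iff]
  constructor
  · intro h
    rw [← IntermediateField.fixingSubgroup_fixedField H, IntermediateField.mem_fixingSubgroup_iff]
    exact fun y hy => Subtype.ext ((res_apply L s y).trans (h _ ⟨y, hy, rfl⟩))
  · rintro h _ ⟨y, hy, rfl⟩
    exact (res_apply L s y).symm.trans
      (congrArg Subtype.val ((IntermediateField.mem_fixedField_iff _ _).mp hy _ h))

theorem map_fixingSubgroup_fixedQ (H : Subgroup (L ≃ₐ[ℚ] L)) :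
    (fixedQ L H).fixingSubgroup.map (res L) = H := by
  refine le_antisymm ?_ fun h hh => ?_
  · rintro _ ⟨s, hs, rfl⟩; exact mem_fixingSubgroup_fixedQ.mp hs
  · exact ⟨lift L h, mem_fixingSubgroup_fixedQ.mpr (by rwa [res_lift]), res_lift L h⟩

variable {p : ℕ} [hp : Fact p.Prime] {H K : Subgroup (L ≃ₐ[ℚ] L)} {g : L ≃ₐ[ℚ] L}

omit [Normal ℚ ↥L] in
/-- A Lagrange resolvent: an element of the fixed field of `K` which `g` multiplies by `ζ`. -/
theorem exists_resolvent (st : Step p H K g) {ζ : L} (hζ : IsPrimitiveRoot ζ p)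
    (hH : ∀ h ∈ H, h ζ = ζ) :
    ∃ a : L, a ≠ 0 ∧ (∀ k ∈ K, k a = a) ∧ g a = ζ * a := by
  classical
  obtain ⟨x, hx, hgx⟩ : ∃ x ∈ IntermediateField.fixedField K, g x ≠ x := by
    by_contra hne
    push Not at hne
    exact st.notMem (IntermediateField.fixingSubgroup_fixedField K ▸
      (IntermediateField.mem_fixingSubgroup_iff _ _).mpr hne)
  rw [IntermediateField.mem_fixedField_iff] at hx
  have hgζ : g ζ = ζ := hH g st.mem
  have hfix : ∀ (i : ℕ) (y : L), (∀ k ∈ K, k y = y) → ∀ k ∈ K, k ((g ^ i) y) = (g ^ i) y :=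
    fun i y hy k hk => by
      have hc := hy _ (st.pow_conj i k hk)
      conv_rhs => rw [← hc]
      rw [AlgEquiv.mul_apply, AlgEquiv.mul_apply]
      exact ((g ^ i).apply_symm_apply _).symm
  have hper : (g ^ p) x = x := hx _ st.pow_mem
  let f : ℕ → ℕ → L := fun j i => ζ ^ (i * j) * (g ^ i) x
  let R : ℕ → L := fun j => ∑ i ∈ Finset.range p, f j i
  have hperf : ∀ j, f j p = f j 0 := fun j => by
    simp only [f, hper, zero_mul, pow_zero, AlgEquiv.one_apply, one_mul]
    rw [pow_mul, hζ.pow_eq_one, one_pow, one_mul]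
  have hgR : ∀ j, ζ ^ j * g (R j) = R j := fun j => by
    have hshift : ∑ i ∈ Finset.range p, f j (i + 1) = ∑ i ∈ Finset.range p, f j i := by
      have e1 := Finset.sum_range_succ (f j) p
      rw [Finset.sum_range_succ', hperf] at e1
      exact add_right_cancel e1
    simp only [R]
    rw [map_sum, Finset.mul_sum]
    refine (Finset.sum_congr rfl fun i _ => ?_).trans hshift
    show ζ ^ j * g (ζ ^ (i * j) * (g ^ i) x) = ζ ^ ((i + 1) * j) * (g ^ (i + 1)) x
    rw [map_mul, map_pow, hgζ, pow_succ' g, AlgEquiv.mul_apply, add_mul, one_mul, pow_add]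
    ring
  have hRK : ∀ j, ∀ k ∈ K, k (R j) = R j := fun j k hk => by
    simp only [R, f, map_sum, map_mul, map_pow, hH k (st.le hk)]
    exact Finset.sum_congr rfl fun i _ => by rw [hfix i x hx k hk]
  obtain ⟨j, hjp, hj0, hRj⟩ : ∃ j, j < p ∧ j ≠ 0 ∧ R j ≠ 0 := by
    by_contra hne
    push Not at hne
    have hsum : ∑ j ∈ Finset.range p, R j = (p : L) * x := by
      simp only [R, f]
      rw [Finset.sum_comm, Finset.sum_eq_single 0]
      · simp
      · intro i hi hi0
        rw [← Finset.sum_mul]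
        simp only [pow_mul]
        rw [(hζ.pow_of_coprime i ((hp.out.coprime_iff_not_dvd.mpr fun hd =>
          hi0 (Nat.eq_zero_of_dvd_of_lt hd (Finset.mem_range.mp hi))).symm)).geom_sum_eq_zero
            hp.out.one_lt, zero_mul]
      · exact fun h => absurd (Finset.mem_range.mpr hp.out.pos) h
    rw [Finset.sum_eq_single 0 (fun j hj hj0 => hne j (Finset.mem_range.mp hj) hj0)
      (fun h => absurd (Finset.mem_range.mpr hp.out.pos) h)] at hsum
    have h0 := hgR 0
    rw [pow_zero, one_mul, hsum, map_mul, map_natCast] at h0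
    exact hgx (mul_left_cancel₀ (Nat.cast_ne_zero.mpr hp.out.ne_zero) h0)
  have hga : g (R j) = ζ ^ (p - j) * R j := by
    conv_rhs => rw [← hgR j, ← mul_assoc, ← pow_add, Nat.sub_add_cancel hjp.le, hζ.pow_eq_one,
      one_mul]
  have hk : (((p - j : ℕ) : ZMod p)) ≠ 0 := fun h => by
    rw [ZMod.natCast_eq_zero_iff] at h
    have := Nat.eq_zero_of_dvd_of_lt h (by omega)
    omega
  set m := (((p - j : ℕ) : ZMod p)⁻¹).val
  refine ⟨R j ^ m, pow_ne_zero _ hRj, fun k hk' => by rw [map_pow, hRK j k hk'], ?_⟩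
  rw [map_pow, hga, mul_pow, ← pow_mul]
  congr 1
  conv_rhs => rw [← pow_one ζ]
  rw [pow_eq_pow_mod _ hζ.pow_eq_one, pow_eq_pow_mod 1 hζ.pow_eq_one]
  congr 1
  rw [← ZMod.val_natCast, ← ZMod.val_natCast, Nat.cast_mul, ZMod.natCast_zmod_val,
    mul_inv_cancel₀ hk, Nat.cast_one]

variable (L) in
/-- The second inequality. -/
theorem secondIneq (hp2 : p ≠ 2) {ζ : L} (hζ : IsPrimitiveRoot ζ p) : SecondIneq L p := by
  intro H K g hs
  have st := step_of_isStep hs
  have hH := fixes_zeta hζ hs.isPGroup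
  obtain ⟨a, ha0, haK, hga⟩ := exists_resolvent st hζ hH
  set F := fixedQ L H
  set ζ' : QBar := (ζ : QBar)
  have hζ' : IsPrimitiveRoot ζ' p := hζ.map_of_injective (f := L.val) L.val.injective
  have hζF : ζ' ∈ F := (mem_fixedQ ζ).mpr hH
  set g₀ := lift L g
  have hg₀ : g₀ ∈ F.fixingSubgroup :=
    mem_fixingSubgroup_fixedQ.mpr (by rw [res_lift]; exact st.mem)
  have hg₀a : g₀ (a : QBar) = ζ' * (a : QBar) := by
    rw [← res_apply L g₀ a, res_lift, hga]; rfl
  set b : QBar := (a : QBar) ^ p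
  have hb0 : b ≠ 0 := pow_ne_zero _ fun h => ha0 (Subtype.ext h)
  have hbF : b ∈ F := by
    rw [← InfiniteGalois.fixedField_fixingSubgroup F, IntermediateField.mem_fixedField_iff]
    intro s hs'
    have hsH := mem_fixingSubgroup_fixedQ.mp hs'
    show s ((a : QBar) ^ p) = _
    rw [map_pow, ← res_apply L s a]
    obtain ⟨i, -, k, hk, hsk⟩ := st.exists_pow_mul hsH
    have hgp : g (a ^ p) = a ^ p := by rw [map_pow, hga, mul_pow, hζ.pow_eq_one, one_mul]
    have hgn : ∀ n : ℕ, (g ^ n) (a ^ p) = a ^ p := fun n => by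
      induction n with
      | zero => rfl
      | succ n ih => rw [pow_succ, AlgEquiv.mul_apply, hgp, ih]
    have h1 : (res L s a) ^ p = a ^ p := by
      rw [← map_pow, hsk, AlgEquiv.mul_apply, map_pow k, haK k hk, hgn]
    exact congrArg Subtype.val h1
  have hkum : kum hζ' g₀ b = 1 := by
    rw [kum_eq hζ' hζF hg₀ hbF hb0 rfl (i := 1) (by rw [pow_one, hg₀a]), Nat.cast_one]
  have hr : rootP p b ∉ F := fun h => by
    have := (kum_eq_zero_iff hζ' hζF hg₀ hbF hb0 (rootP_pow b)).mpr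
      ((IntermediateField.mem_fixingSubgroup_iff _ _).mp hg₀ _ h)
    exact one_ne_zero (hkum.symm.trans this)
  have hyfix : ∀ y : PreIdele, y ∈ idl (kumField F (rootP p b)) →
      ∃ y' ∈ fixedBy K (idl L), ((y' : idl L) : PreIdele) = y := by
    intro y hy
    obtain ⟨i, -, hi⟩ := exists_eq_zeta_pow_mul hζ' (fun h => ha0 (Subtype.ext h))
      (rootP_pow b : rootP p b ^ p = (a : QBar) ^ p)
    have hkK : kumField F (rootP p b) ≤ fixedQ L K := by
      refine sup_le ?_ (IntermediateField.adjoin_le_iff.mpr ?_)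
      · rintro _ ⟨z, hz, rfl⟩
        exact (mem_fixedQ z).mpr fun k hk =>
          (IntermediateField.mem_fixedField_iff _ _).mp hz k (st.le hk)
      · rintro _ rfl
        rw [SetLike.mem_coe, hi]
        exact mul_mem (pow_mem ((mem_fixedQ ζ).mpr fun k hk => hH k (st.le hk)) i)
          ((mem_fixedQ a).mpr haK)
    have hyK : y ∈ idl (fixedQ L K) := idl_mono hkK hy
    refine ⟨⟨y, idl_mono (fixedQ_le K) hyK⟩, ?_, rfl⟩
    have := (mem_fixedBy_idl_iff (K := fixedQ L K) L ⟨y, idl_mono (fixedQ_le K) hyK⟩).mpr hyK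
    rwa [map_fixingSubgroup_fixedQ] at this
  obtain ⟨x₀, hx₀, hgen⟩ := exists_norm_generator hp2 hζ' hζF hbF hb0 hr hg₀ hkum
  set X₀ : idl L := ⟨x₀, idl_mono (fixedQ_le H) hx₀⟩
  have hX₀ : X₀ ∈ fixedBy H (idl L) := by
    have := (mem_fixedBy_idl_iff (K := F) L X₀).mpr hx₀
    rwa [map_fixingSubgroup_fixedQ] at this
  refine ⟨QuotientGroup.mk X₀, fun h hh => (smul_mk L h X₀).trans
    (congrArg QuotientGroup.mk (hX₀ h hh)), fun x hx => ?_⟩
  obtain ⟨f, hf, rfl⟩ := exists_fixed_rep H hx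
  obtain ⟨m, y, hy, c, hc, e⟩ := hgen f (by
    rw [← map_fixingSubgroup_fixedQ H] at hf
    exact (mem_fixedBy_idl_iff L f).mp hf)
  obtain ⟨y', hy', rfl⟩ := hyfix y hy
  refine ⟨m, QuotientGroup.mk y', fun k hk => (smul_mk L k y').trans
    (congrArg QuotientGroup.mk (hy' k hk)), ?_⟩
  set c' : Lˣ := Units.mk0 ⟨(c : QBar), fixedQ_le H hc⟩ fun h =>
    c.ne_zero (congrArg Subtype.val h)
  have hf' : f = X₀ ^ m * (∏ i ∈ Finset.range p, g ^ i • y') * prinL L c' := by
    refine Subtype.ext ?_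
    have hg : g = res L g₀ := (res_lift L g).symm
    rw [hg, Subgroup.coe_mul, Subgroup.coe_mul, SubgroupClass.coe_zpow, coe_prod_smul, e]
    show _ * prin c = _ * prin (Units.map L.val.toRingHom.toMonoidHom c')
    rw [show Units.map L.val.toRingHom.toMonoidHom c' = c from Units.ext rfl]
  have hc1 : (QuotientGroup.mk (prinL L c') : ClassGrp L) = 1 :=
    (QuotientGroup.eq_one_iff _).mpr ⟨c', rfl⟩
  rw [hf', QuotientGroup.mk_mul, QuotientGroup.mk_mul, QuotientGroup.mk_zpow,
    hc1]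
  refine (mul_one (M := ClassGrp L) _).trans ?_
  congr 1
  show (QuotientGroup.mk' (prinL L).range) (∏ i ∈ Finset.range p, g ^ i • y') = _
  rw [map_prod]
  exact Finset.prod_congr rfl fun i _ => (smul_mk L _ _).symm

variable (L) in
/-- The class field axioms. -/
theorem stepAxioms (hp2 : p ≠ 2) {ζ : L} (hζ : IsPrimitiveRoot ζ p) :
    CFT.StepAxioms p (L ≃ₐ[ℚ] L) (C L) :=
  stepAxioms_of_secondIneq hp2 hζ (secondIneq L hp2 hζ)

end Fermat.Agent.CFT.Idele
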