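import Fermat.Agent.CFT.Idele.RelNorm
import Fermat.Agent.CFT.Idele.SecondIneq
import Mathlib.GroupTheory.Sylow

/-!
# The fundamental class

The carry class of a rational idele along an auxiliary cyclic field, descended to `L`.
-/

set_option autoImplicit false
set_option linter.style.haveILetI false

noncomputable section

namespace Fermat.Agent.CFT.Idele

open ExtCitation Fermat.Agent.Arith IntermediateField Fermat.Agent.CFT.Local groupCohomology

local instance factPrimeFund (q : Nat.Primes) : Fact (q : ℕ).Prime := ⟨q.2⟩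

/-- A surjection to a group of order `n` whose kernel contains `T` and with at most `n` classes
modulo `T` has kernel `T`. -/
theorem ker_le_of_reps {B Q : Type*} [CommGroup B] [CommGroup Q] {n : ℕ} [NeZero n] (Φ : B →* Q)
    (hΦ : Function.Surjective Φ) (hQ : Nat.card Q = n) (T : Subgroup B) (hT : T ≤ Φ.ker)
    (R : Fin n → B) (hR : ∀ b, ∃ j, b / R j ∈ T) : Φ.ker ≤ T := by
  choose j hj using hR
  choose y hy using hΦ
  have hdiv : ∀ b b', j b = j b' → b / b' ∈ T := fun b b' h => by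
    have := div_mem (hj b) (hj b')
    rwa [h, div_div_div_cancel_right] at this
  have hinj : Function.Injective fun c => j (y c) := fun c c' h => by
    have := hT (hdiv _ _ h)
    rwa [MonoidHom.mem_ker, map_div, hy, hy, div_eq_one] at this
  haveI : Finite Q := Nat.finite_of_card_ne_zero (hQ ▸ NeZero.ne n)
  have hbij := (Nat.bijective_iff_injective_and_card (fun c => j (y c))).2
    ⟨hinj, by rw [hQ, Nat.card_fin]⟩
  have key : ∀ b ∈ Φ.ker, j b = j (y 1) := fun b hb => by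
    obtain ⟨c, hc⟩ := hbij.2 (j b)
    have := hT (hdiv _ _ hc.symm)
    rw [MonoidHom.mem_ker, map_div, hy, MonoidHom.mem_ker.1 hb, div_eq_one] at this
    rw [← hc, this]
  intro b hb
  simpa using hdiv b 1 ((key b hb).trans (key 1 (one_mem _)).symm)

/-- Differences of norms are norms. -/
theorem add_norm_sub {M A : Type*} [Monoid M] [AddCommGroup A] [DistribMulAction M A] (g : M)
    (r w w' : A) (m : ℕ) :
    (r + ∑ i ∈ Finset.range m, g ^ i • w) - (r + ∑ i ∈ Finset.range m, g ^ i • w') =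
      ∑ i ∈ Finset.range m, g ^ i • (w - w') := by
  simp only [smul_sub, Finset.sum_sub_distrib]
  abel

/-- Coboundaries of the descended cocycle on `H` give coboundaries on the preimage of `H`. -/
theorem coboundary_of_descent {G Q A B : Type*} [Group G] [Group Q] [AddCommGroup A]
    [DistribMulAction G A] [AddCommGroup B] [DistribMulAction Q B] (π : G →* Q) (ι : B →+ A)
    (hinv : ∀ (g : G) (x : B), g • ι x = ι (π g • x)) (c : G × G → A) (c₀ : Q × Q → B)
    (b₀ : G → A)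
    (hb₀ : ∀ g h, g • b₀ h - b₀ (g * h) + b₀ g = (c - fun gh : G × G => ι (c₀ (π gh.1, π gh.2))) (g, h))
    (z : B) (k : ℤ) (H : Subgroup Q)
    (hk : IsCoboundary₂ fun gh : H × H =>
      k • (c₀ - CFT.dOne (fun _ : Q => z) : Q × Q → B) ((gh.1 : Q), (gh.2 : Q))) :
    IsCoboundary₂ fun gh : H.comap π × H.comap π => k • c ((gh.1 : G), (gh.2 : G)) := by
  obtain ⟨b, hb⟩ := hk
  refine ⟨fun g => ι (b ⟨π g, g.2⟩) + k • ι z + k • b₀ (g : G), fun g h => ?_⟩
  have e1 := hb ⟨π g, g.2⟩ ⟨π h, h.2⟩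
  have e2 := hb₀ (g : G) h
  simp only [Pi.sub_apply, CFT.dOne, eq_sub_iff_add_eq] at e1 e2
  have e3 := congrArg ι e1
  have e4 : (⟨π ((g * h : H.comap π) : G), (g * h).2⟩ : H) =
      ⟨π g, g.2⟩ * ⟨π h, h.2⟩ := Subtype.ext (map_mul π _ _)
  show (g : G) • _ - _ + _ = k • c ((g : G), (h : G))
  dsimp only
  rw [← e2, e4]
  rw [show (⟨π g, g.2⟩ : H) • b ⟨π h, h.2⟩ = π g • b ⟨π h, h.2⟩ from rfl] at e3
  simp only [smul_add, smul_sub, map_add, map_sub, map_zsmul, smul_comm (g : G) k, hinv,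
    Subgroup.coe_mul] at e3 ⊢
  linear_combination (norm := abel) e3

variable {n : ℕ} (a : Aux n) {L L' : IntermediateField ℚ QBar} [FiniteDimensional ℚ L] [Normal ℚ L]
  [FiniteDimensional ℚ L'] [Normal ℚ L'] (hL : L ≤ L') (hF : a.fixedChi ≤ L')

omit [FiniteDimensional ℚ L] [FiniteDimensional ℚ L'] in
theorem exists_gamma [NeZero n] (hsup : L' = L ⊔ a.fixedChi)
    (hsplit : ∀ c : Multiplicative (ZMod n), ∃ g : GQ, res L g = 1 ∧ a.chi g = c) :
    ∃ γ : L' ≃ₐ[ℚ] L', γ ∈ (resTo hL).ker ∧ chiUp a hF γ = Multiplicative.ofAdd 1 ∧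
      orderOf γ = n ∧ Subgroup.zpowers γ = (resTo hL).ker := by
  obtain ⟨g, hgL, hgc⟩ := hsplit (Multiplicative.ofAdd 1)
  have hγ : res L' g ∈ (resTo hL).ker := by rw [MonoidHom.mem_ker, resTo_res, hgL]
  have hχ : chiUp a hF (res L' g) = Multiplicative.ofAdd 1 := by rw [chiUp_res, hgc]
  have hinj : Function.Injective ((chiUp a hF).comp (resTo hL).ker.subtype) :=
    (injective_iff_map_eq_one _).2 fun x hx => Subtype.ext (eq_one_of_mem_kers a hL hF hsup x.2 hx)
  refine ⟨res L' g, hγ, hχ, ?_, ?_⟩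
  · rw [← Subgroup.orderOf_mk (H := (resTo hL).ker) (res L' g) hγ,
      ← orderOf_injective _ hinj ⟨res L' g, hγ⟩]
    show orderOf (chiUp a hF (res L' g)) = n
    rw [hχ, orderOf_ofAdd_eq_addOrderOf, ZMod.addOrderOf_one]
  · refine le_antisymm (Subgroup.zpowers_le.2 hγ) fun σ hσ => ?_
    refine ⟨(chiVal (chiUp a hF) σ : ℤ), ?_⟩
    show res L' g ^ ((chiVal (chiUp a hF) σ : ℕ) : ℤ) = σ
    rw [zpow_natCast, ← inv_mul_eq_one]
    exact eq_one_of_mem_kers a hL hF hsup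
      (MonoidHom.mem_ker.1 (mul_mem (inv_mem (pow_mem hγ _)) hσ))
      (inv_pow_chiVal_mul_mem_ker hχ σ)

variable (hn : Odd n)

include hF in
/-- Norms from `L'` are killed by the character. -/
theorem psiC_eq_one_of_norm (y : ClassGrp L) (w : ClassGrp L')
    (h : inclClass hL y = haveI := Fintype.ofFinite (resTo hL).ker
      ∏ η : (resTo hL).ker, (η : L' ≃ₐ[ℚ] L') • w) :
    psiC L a hn y = 1 := by
  obtain ⟨f, rfl⟩ := QuotientGroup.mk_surjective w
  obtain ⟨z, hz, hzN⟩ := exists_incl_prod_smul hL f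
  obtain ⟨zF, -, hzFN⟩ := exists_incl_prod_smul hF f
  have hy : y = QuotientGroup.mk z := inclClass_injective hL (by
    rw [inclClass_mk, hz, mk_prod, h]
    exact Finset.prod_congr rfl fun η _ => smul_mk L' _ f)
  rw [hy, psiC_mk, hzN, ← hzFN]
  exact psi_norm a zF _ (coe_normBot _ _)

variable {p : ℕ} [hp : Fact p.Prime]

include hF hn in
/-- A class of `L` killed by the character is a norm from `L'`. -/
theorem exists_norm_eq {k : ℕ} (hk : n = p ^ k) (hsup : L' = L ⊔ a.fixedChi)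
    (hsplit : ∀ c : Multiplicative (ZMod n), ∃ g : GQ, res L g = 1 ∧ a.chi g = c)
    (hax : CFT.StepAxioms p (L' ≃ₐ[ℚ] L') (C L')) {γ : L' ≃ₐ[ℚ] L'}
    (hγn : orderOf γ = n) (hγ : Subgroup.zpowers γ = (resTo hL).ker) (f₀ : idl L)
    (hf₀ : psi a (normBot L f₀) = 1) :
    ∃ w : C L', inclC hL (proj L (Additive.ofMul f₀)) =
      ∑ i ∈ Finset.range n, γ ^ i • w := by
  classical
  -- lets the nested searches for the groups of idele classes succeed at once
  set_option maxSynthPendingDepth 3 in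
  subst hk
  haveI : NeZero (p ^ k) := ⟨pow_ne_zero _ hp.out.ne_zero⟩
  letI : Fintype (resTo hL).ker := Fintype.ofFinite _
  have hnorm : ∀ w : C L', (∑ i ∈ Finset.range (p ^ k), γ ^ i • w) =
      Additive.ofMul (∏ η : (resTo hL).ker, (η : L' ≃ₐ[ℚ] L') • (w.toMul : ClassGrp L')) := by
    intro w
    letI : Fintype (Subgroup.zpowers γ) := Fintype.ofFinite _
    rw [← hγn, ← sum_range_orderOf_smul γ (isOfFinOrder_of_finite γ) w]
    show _ = ∑ η : (resTo hL).ker, Additive.ofMul ((η : L' ≃ₐ[ℚ] L') • (w.toMul : ClassGrp L'))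
    exact Fintype.sum_equiv (MulEquiv.subgroupCongr hγ).toEquiv _ _ fun η => rfl
  let T : Subgroup (ClassGrp L) := (MonoidHom.mk' (fun w : ClassGrp L' =>
      ∏ η : (resTo hL).ker, (η : L' ≃ₐ[ℚ] L') • w) fun w w' => by
    simp only [smul_mul', Finset.prod_mul_distrib]).range.comap (inclClass hL)
  have hT : ∀ {y}, y ∈ T ↔
      ∃ w : C L', inclC hL (Additive.ofMul y) = ∑ i ∈ Finset.range (p ^ k), γ ^ i • w := by
    intro y
    simp only [hnorm]
    exact ⟨fun ⟨w, hw⟩ => ⟨Additive.ofMul w, congrArg Additive.ofMul hw.symm⟩,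
      fun ⟨w, hw⟩ => ⟨w.toMul, (congrArg Additive.toMul hw).symm⟩⟩
  have hγπ : resTo hL γ = 1 := MonoidHom.mem_ker.1 (hγ ▸ Subgroup.mem_zpowers γ)
  obtain ⟨R, hR⟩ := exists_reps_cyclic hax k γ hγn
  have hfix : ∀ y : ClassGrp L, ∃ j w, inclC hL (Additive.ofMul y) =
      R j + ∑ i ∈ Finset.range (p ^ k), γ ^ i • w := fun y =>
    hR _ (by rw [inclC_smul, hγπ, one_smul])
  let R' : Fin (p ^ k) → ClassGrp L := fun j =>
    if h : ∃ y w, inclC hL (Additive.ofMul y) = R j + ∑ i ∈ Finset.range (p ^ k), γ ^ i • w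
    then h.choose else 1
  have hR' : ∀ b, ∃ j, b / R' j ∈ T := fun b => by
    obtain ⟨j, w, hw⟩ := hfix b
    refine ⟨j, ?_⟩
    have hex : ∃ y w, inclC hL (Additive.ofMul y) =
        R j + ∑ i ∈ Finset.range (p ^ k), γ ^ i • w := ⟨b, w, hw⟩
    obtain ⟨w', hw'⟩ := hex.choose_spec
    simp only [R', dif_pos hex]
    refine hT.2 ⟨w - w', ?_⟩
    rw [ofMul_div]
    refine (map_sub (inclC hL) _ _).trans ?_
    rw [hw, hw']
    exact add_norm_sub γ (R j) w w' (p ^ k)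
  have hTker : T ≤ (psiC L a hn).ker := fun y ⟨w, hw⟩ =>
    psiC_eq_one_of_norm a hL hF hn y w hw.symm
  have hsurj : Function.Surjective (psiC L a hn) := fun c => by
    obtain ⟨f, hf⟩ := exists_psi_generator L a hsplit
    refine ⟨QuotientGroup.mk f ^ (Multiplicative.toAdd c).val, ?_⟩
    rw [map_pow, psiC_mk, hf, ← ofAdd_nsmul, nsmul_one, ZMod.natCast_zmod_val, ofAdd_toAdd]
  exact hT.1 (ker_le_of_reps (psiC L a hn) hsurj
    (by rw [Nat.card_congr Multiplicative.toAdd, Nat.card_zmod]) T hTker R' hR' hf₀)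

/-- A rational idele, supported at `q`, with a generating value of the character. -/
theorem exists_psi_eq_one :
    ∃ P : idl (⊥ : IntermediateField ℚ QBar), psi a P = Multiplicative.ofAdd 1 := by
  obtain ⟨u, hu⟩ := a.surj (Multiplicative.ofAdd 1)
  have hu0 : ((((u : ZMod (a.q : ℕ)).val : ℤ)) : ℚ_[(a.q : ℕ)]) ≠ 0 := by
    rw [Int.cast_natCast, Nat.cast_ne_zero, Ne, ZMod.val_eq_zero]
    exact u.ne_zero
  obtain ⟨f, hf, hfq, hfne, -⟩ := exists_idl_single (q := a.q)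
    (L := (⊥ : IntermediateField ℚ QBar)) 1
    (Units.map (algebraMap ℚ_[(a.q : ℕ)] (Ω a.q)).toMonoidHom (Units.mk0 _ hu0))
    (IntermediateField.algebraMap_mem _ _)
  refine ⟨⟨f, hf⟩, ?_⟩
  have h1 : (botVal a.q ⟨f, hf⟩ : ℚ_[(a.q : ℕ)]) = (((u : ZMod (a.q : ℕ)).val : ℤ)) :=
    (algebraMap ℚ_[(a.q : ℕ)] (Ω a.q)).injective ((botVal_spec a.q ⟨f, hf⟩ 1).trans
      (congrArg Units.val hfq))
  rw [psi_of_units a fun l hl => ?_]
  · rw [show resUnit (botVal a.q ⟨f, hf⟩) = u from Units.ext ?_, hu]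
    rw [resUnit_intCast h1 fun hd => ?_, Int.cast_natCast, ZMod.natCast_zmod_val]
    rw [Int.natCast_dvd_natCast] at hd
    exact u.ne_zero ((ZMod.val_eq_zero _).1 (Nat.eq_zero_of_dvd_of_lt hd (ZMod.val_lt _)))
  · rw [norm_botVal l ⟨f, hf⟩ 1]
    show ‖((f l 1 : (Ω l)ˣ) : Ω l)‖ = 1
    rw [hfne l hl, Pi.one_apply, Units.val_one, norm_one]

include hF hn in
/-- The order of the class at the subgroup `H`. -/
theorem dvd_of_carry_coboundary [NeZero n] (hn1 : 1 < n) (hsup : L' = L ⊔ a.fixedChi)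
    {γ : L' ≃ₐ[ℚ] L'} (hγπ : γ ∈ (resTo hL).ker) (hγχ : chiUp a hF γ = Multiplicative.ofAdd 1)
    (H : Subgroup (L ≃ₐ[ℚ] L)) (hco : Nat.Coprime n H.index)
    (h1 : CFT.H1Zero ((chiUp a hF).ker ⊓ H.comap (resTo hL) : Subgroup (L' ≃ₐ[ℚ] L')) (C L'))
    (P : idl (⊥ : IntermediateField ℚ QBar)) (hP : psi a P = Multiplicative.ofAdd 1) (k : ℤ)
    (hk : IsCoboundary₂ fun gh : H.comap (resTo hL) × H.comap (resTo hL) =>
      k • carryN (chiUp a hF) (proj L' (Additive.ofMul (⟨P, idl_mono bot_le P.2⟩ : idl L')))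
        ((gh.1 : L' ≃ₐ[ℚ] L'), (gh.2 : L' ≃ₐ[ℚ] L'))) :
    (n : ℤ) ∣ k := by
  classical
  -- lets the nested searches for the groups of idele classes succeed at once
  set_option maxSynthPendingDepth 3 in
  set X : idl L := ⟨P, idl_mono bot_le P.2⟩
  letI : Fintype ((L ≃ₐ[ℚ] L) ⧸ H) := Fintype.ofFinite _
  have h := psi_relNorm_zpow a hL hF hn hn1 hsup hγπ hγχ H h1 X (fun σ _ => smul_of_bot P σ) k hk
    (P ^ H.index) (by
      rw [Finset.prod_congr rfl fun x _ => smul_of_bot P x.out, Finset.prod_const, Finset.card_univ,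
        ← Nat.card_eq_fintype_card]
      rfl)
  rw [map_pow, hP, ← ofAdd_nsmul, ← ofAdd_zsmul, ofAdd_eq_one, nsmul_one, zsmul_eq_mul,
    ← Int.cast_natCast H.index, ← Int.cast_mul, ZMod.intCast_zmod_eq_zero_iff_dvd] at h
  refine Int.dvd_of_dvd_mul_left_of_gcd_one h ?_
  exact hco

variable (L) in
/-- The fundamental class. -/
theorem exists_fundamental (hp2 : p ≠ 2) {ζ : L} (hζ : IsPrimitiveRoot ζ p) :
    ∃ u : CFT.NormCocycle (L ≃ₐ[ℚ] L) (C L), ∀ (P : Sylow p (L ≃ₐ[ℚ] L)) (k : ℤ),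
      IsCoboundary₂ (fun gh : ↥(P : Subgroup (L ≃ₐ[ℚ] L)) × ↥(P : Subgroup (L ≃ₐ[ℚ] L)) =>
        k • u.toFun ((gh.1 : L ≃ₐ[ℚ] L), (gh.2 : L ≃ₐ[ℚ] L))) →
      (Nat.card (P : Subgroup (L ≃ₐ[ℚ] L)) : ℤ) ∣ k := by
  classical
  -- lets the nested searches for the groups of idele classes succeed at once
  set_option maxSynthPendingDepth 3 in
  set k₀ := (Nat.card (L ≃ₐ[ℚ] L)).factorization p with hk₀
  rcases Nat.eq_zero_or_pos k₀ with h0 | hpos
  · refine ⟨⟨0, fun g h j => by simp, fun g => rfl⟩, fun P k _ => ?_⟩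
    rw [Sylow.card_eq_multiplicity, ← hk₀, h0, pow_zero, Nat.cast_one]
    exact one_dvd k
  set n := p ^ k₀
  haveI : NeZero n := ⟨pow_ne_zero _ hp.out.ne_zero⟩
  have hn : Odd n := (hp.out.odd_of_ne_two hp2).pow
  have hn1 : 1 < n := Nat.one_lt_pow hpos.ne' hp.out.one_lt
  obtain ⟨T, hT⟩ := exists_finset_unramified L
  obtain ⟨a, haT⟩ := exists_aux n T
  have hin := (inertia_eq_bot_iff (a.q : ℕ) L).1 (hT _ haT)
  have hsplit : ∀ c : Multiplicative (ZMod n), ∃ g : GQ, res L g = 1 ∧ a.chi g = c := fun c => by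
    obtain ⟨g, hg, hgc⟩ := a.exists_inertia c
    exact ⟨g, (res_eq_one_iff L).2 ((IntermediateField.mem_fixingSubgroup_iff _ _).2
      fun x hx => hin g hg ⟨x, hx⟩), hgc⟩
  set L' : IntermediateField ℚ QBar := L ⊔ a.fixedChi with hsup
  haveI : FiniteDimensional ℚ L' := IntermediateField.finiteDimensional_sup L a.fixedChi
  haveI : Normal ℚ L' := @IntermediateField.normal_sup ℚ QBar _ _ _ L a.fixedChi
    ‹Normal ℚ L› (IsGalois.to_normal (F := ℚ) (E := a.fixedChi))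
  have hL : L ≤ L' := le_sup_left
  have hF : a.fixedChi ≤ L' := le_sup_right
  have hζ' : IsPrimitiveRoot (IntermediateField.inclusion hL ζ) p :=
    hζ.map_of_injective (IntermediateField.inclusion hL).injective
  have hax := stepAxioms L' hp2 hζ'
  obtain ⟨γ, hγπ, hγχ, hγn, hγ⟩ := exists_gamma a hL hF hsup hsplit
  set π := resTo hL
  have hπ : Function.Surjective π := resTo_surjective hL
  have hkerP : IsPGroup p π.ker :=
    IsPGroup.of_card (n := k₀) (by rw [← hγ, Nat.card_zpowers, hγn])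
  have h1N : CFT.H1Zero π.ker (C L') := hax.h1Zero _ hkerP
  obtain ⟨P, hP⟩ := exists_psi_eq_one a
  set x₀ : C L' := proj L' (Additive.ofMul (⟨P, idl_mono bot_le P.2⟩ : idl L'))
  have hx₀fix : ∀ g : L' ≃ₐ[ℚ] L', g • x₀ = x₀ := fun g => by
    rw [← proj_smul]; congr 1; exact congrArg Additive.ofMul (smul_of_bot P g)
  set c := carryN (chiUp a hF) x₀
  have hc : IsCocycle₂ c := isCocycle₂_carryN hx₀fix
  -- the class is trivial on the kernel
  have hres : IsCoboundary₂ fun x : π.ker × π.ker =>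
      c ((x.1 : L' ≃ₐ[ℚ] L'), (x.2 : L' ≃ₐ[ℚ] L')) := by
    have hP1 : psi a (normBot L ⟨P, idl_mono bot_le P.2⟩) = 1 := by
      rw [normBot_of_bot, map_pow, hP, ← ofAdd_nsmul, ofAdd_eq_one, nsmul_one,
        ZMod.natCast_eq_zero_iff, ← Nat.card_eq_fintype_card]
      exact Nat.ordProj_dvd _ _
    obtain ⟨w, hw⟩ := exists_norm_eq a hL hF hn rfl hsup hsplit hax hγn hγ _ hP1
    have h := carryN_norm_mem (χ := (chiUp a hF).comp π.ker.subtype) (γ := ⟨γ, hγπ⟩) hγχ w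
      fun x hx => by
        rw [show x = 1 from Subtype.ext (eq_one_of_mem_kers a hL hF hsup x.2 hx), one_smul]
    rw [show (∑ i ∈ Finset.range n, (⟨γ, hγπ⟩ : π.ker) ^ i • w) = x₀ from hw.symm] at h
    exact h
  have hinv : ∀ (g : L' ≃ₐ[ℚ] L') (x : C L), g • inclC hL x = inclC hL (π g • x) := inclC_smul hL
  have hfixC : ∀ x : C L', (∀ g : π.ker, (g : L' ≃ₐ[ℚ] L') • x = x) → ∃ y, inclC hL y = x :=
    fun x hx => exists_inclC_eq hL fun g hg => hx ⟨g, hg⟩
  obtain ⟨c₀, hc₀, b₀, hb₀⟩ := CFT.exists_descend₂ (A := C L') (B := C L) π hπ (inclC hL)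
    (inclC_injective hL) hinv hfixC h1N c hc hres
  set z := c₀ (1, 1)
  refine ⟨⟨c₀ - CFT.dOne fun _ => z, CFT.isCocycle₂_sub hc₀ (CFT.isCocycle₂_dOne _), fun g => ?_⟩,
    fun S k hk => ?_⟩
  · simp only [Pi.sub_apply, CFT.dOne, one_smul, sub_self, zero_add]
    rw [map_one_fst_of_isCocycle₂ hc₀ g, sub_self]
  rw [Sylow.card_eq_multiplicity, ← hk₀]
  set H := (S : Subgroup (L ≃ₐ[ℚ] L))
  have hHP : IsPGroup p (H.comap π) := IsPGroup.comap_of_ker_isPGroup S.isPGroup' π hkerP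
  have hco : Nat.Coprime n H.index := by
    refine Nat.Coprime.pow_left _ ((hp.out.coprime_iff_not_dvd).2 fun hd => ?_)
    have hm := H.card_mul_index
    rw [Sylow.card_eq_multiplicity] at hm
    obtain ⟨e, he⟩ := hd
    have : p ^ (k₀ + 1) ∣ Nat.card (L ≃ₐ[ℚ] L) := ⟨e, by rw [← hm, he, hk₀]; ring⟩
    exact Nat.pow_succ_factorization_not_dvd Nat.card_pos.ne' hp.out this
  refine dvd_of_carry_coboundary a hL hF hn hn1 hsup hγπ hγχ H hco
    (hax.h1Zero _ (hHP.to_le inf_le_right)) P hP k ?_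
  exact coboundary_of_descent π (inclC hL) hinv c c₀ b₀ hb₀ z k H hk

end Fermat.Agent.CFT.Idele
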