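import Fermat.Agent.CFT.Coh.H2
import Mathlib.GroupTheory.SpecificGroups.Cyclic

/-!
# Carry cocycles of cyclic quotients, and invariants modulo norms of cyclic `p`-groups

For a character `χ` onto `ℤ/n` whose kernel has trivial `H¹`, the carry cocycle of an invariant
element is a coboundary exactly when the element is a norm from the invariants of the kernel.
Under the step axioms the invariants of a cyclic `p`-group modulo norms are killed by lists of
length at most the order of the group.
-/

set_option autoImplicit false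
set_option linter.style.haveILetI false

noncomputable section

namespace Fermat.Agent.CFT.Idele

open groupCohomology

variable {G A : Type*} [Group G] [AddCommGroup A] [DistribMulAction G A] {n : ℕ} [NeZero n]

/-- The exponent of `g` in `{0, …, n - 1}`. -/
def chiVal (χ : G →* Multiplicative (ZMod n)) (g : G) : ℕ := (Multiplicative.toAdd (χ g)).val

/-- The carry cocycle of a character onto `ℤ/n`. -/
def carryN (χ : G →* Multiplicative (ZMod n)) (x : A) : G × G → A :=
  fun gh => ((chiVal χ gh.1 + chiVal χ gh.2) / n) • x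

omit [DistribMulAction G A] in
omit [NeZero n] in
theorem zsmul_carryN (χ : G →* Multiplicative (ZMod n)) (x : A) (m : ℤ) :
    m • carryN χ x = carryN χ (m • x) := by
  funext gh; simp [carryN, smul_comm m]

variable (χ : G →* Multiplicative (ZMod n))

theorem chiVal_lt (g : G) : chiVal χ g < n := ZMod.val_lt _

theorem chiVal_mul (g h : G) : chiVal χ (g * h) = (chiVal χ g + chiVal χ h) % n := by
  simp only [chiVal, map_mul, toAdd_mul, ZMod.val_add]

omit [NeZero n] in
theorem chiVal_of_mem_ker {g : G} (hg : g ∈ χ.ker) : chiVal χ g = 0 := by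
  simp [chiVal, MonoidHom.mem_ker.mp hg]

variable {χ}

/-- The carry cocycle of an element fixed by the group is a cocycle. -/
theorem isCocycle₂_carryN {x : A} (hx : ∀ g : G, g • x = x) : IsCocycle₂ (carryN χ x) := by
  intro g h j
  have hn : 0 < n := NeZero.pos n
  simp only [carryN, chiVal_mul, smul_comm g _ x, hx, ← add_smul]
  congr 1
  have ha := chiVal_lt χ g
  have hb := chiVal_lt χ h
  have hc := chiVal_lt χ j
  generalize chiVal χ g = a at *
  generalize chiVal χ h = b at *
  generalize chiVal χ j = c at *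
  have e1 : ((a + b) % n + c) / n + (a + b) / n = (a + b + c) / n := by
    conv_rhs => rw [← Nat.mod_add_div (a + b) n, add_right_comm,
      Nat.add_mul_div_left _ _ hn]
  have e2 : (a + (b + c) % n) / n + (b + c) / n = (a + (b + c)) / n := by
    conv_rhs => rw [← Nat.mod_add_div (b + c) n, ← add_assoc,
      Nat.add_mul_div_left _ _ hn]
  rw [← add_assoc] at e2
  omega

variable {γ : G}

omit [NeZero n] in
theorem chiVal_pow (hγ : χ γ = Multiplicative.ofAdd 1) {j : ℕ} (hj : j < n) :
    chiVal χ (γ ^ j) = j := by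
  rw [chiVal, map_pow, hγ, ← ofAdd_nsmul, nsmul_one, toAdd_ofAdd, ZMod.val_natCast, Nat.mod_eq_of_lt hj]

theorem inv_pow_chiVal_mul_mem_ker (hγ : χ γ = Multiplicative.ofAdd 1) (g : G) :
    (γ ^ chiVal χ g)⁻¹ * g ∈ χ.ker := by
  rw [MonoidHom.mem_ker, map_mul, map_inv, map_pow, hγ, ← ofAdd_nsmul, nsmul_one, chiVal,
    ZMod.natCast_zmod_val, ofAdd_toAdd, inv_mul_cancel]

omit [NeZero n] in
theorem pow_mem_ker (hγ : χ γ = Multiplicative.ofAdd 1) : γ ^ n ∈ χ.ker := by
  rw [MonoidHom.mem_ker, map_pow, hγ, ← ofAdd_nsmul, nsmul_one, ZMod.natCast_self]; rfl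

/-- A norm gives a trivial carry class. -/
theorem carryN_norm_mem (hγ : χ γ = Multiplicative.ofAdd 1) (w : A) (hw : ∀ k ∈ χ.ker, k • w = w) :
    IsCoboundary₂ (carryN χ (∑ i ∈ Finset.range n, γ ^ i • w)) := by
  let P : ℕ → A := fun m => ∑ j ∈ Finset.range m, γ ^ j • w
  have hP : ∀ m m', P (m + m') = P m + γ ^ m • P m' := fun m m' => by
    simp only [P, Finset.sum_range_add, Finset.smul_sum, smul_smul, ← pow_add]
  have hwn : ∀ m, γ ^ (n + m) • w = γ ^ m • w := fun m => by
    rw [add_comm, pow_add, mul_smul, hw _ (pow_mem_ker hγ)]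
  refine ⟨fun g => P (chiVal χ g), fun a b => ?_⟩
  have e : a • P (chiVal χ b) = γ ^ chiVal χ a • P (chiVal χ b) := by
    simp only [P, Finset.smul_sum]
    refine Finset.sum_congr rfl fun j _ => ?_
    have hk := inv_pow_chiVal_mul_mem_ker hγ a
    have hk' : (γ ^ j)⁻¹ * ((γ ^ chiVal χ a)⁻¹ * a) * γ ^ j ∈ χ.ker := by
      simpa using (inferInstance : χ.ker.Normal).conj_mem _ hk (γ ^ j)⁻¹
    conv_rhs => rw [← hw _ hk']
    simp only [smul_smul]
    congr 1
    simp [mul_assoc]
  show a • P (chiVal χ b) - P (chiVal χ (a * b)) + P (chiVal χ a) =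
    ((chiVal χ a + chiVal χ b) / n) • P n
  rw [e, chiVal_mul, ← eq_sub_iff_add_eq', ← sub_eq_zero]
  have h2 := hP (chiVal χ a) (chiVal χ b)
  have ha := chiVal_lt χ a
  have hb := chiVal_lt χ b
  generalize chiVal χ a = i at *
  generalize chiVal χ b = i' at *
  rcases Nat.lt_or_ge (i + i') n with hlt | hge
  · rw [Nat.mod_eq_of_lt hlt, Nat.div_eq_of_lt hlt, zero_smul, h2]
    abel
  · have hlt : i + i' - n < n := by omega
    have hd : (i + i') / n = 1 := Nat.div_eq_of_lt_le (by omega) (by omega)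
    rw [Nat.mod_eq_sub_mod hge, Nat.mod_eq_of_lt hlt, hd, one_smul]
    have h3 := hP n (i + i' - n)
    rw [show n + (i + i' - n) = i + i' by omega, h2] at h3
    have h4 : γ ^ n • P (i + i' - n) = P (i + i' - n) := by
      simp only [P, Finset.smul_sum, smul_smul, ← pow_add, hwn]
    rw [h4] at h3
    rw [← sub_eq_zero] at h3
    rw [← h3]
    abel

/-- A trivial carry class comes from a norm. -/
theorem exists_eq_norm_of_carryN (hn : 1 < n) (hγ : χ γ = Multiplicative.ofAdd 1)
    (h1 : H1Zero χ.ker A) {x : A} (h : IsCoboundary₂ (carryN χ x)) :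
    ∃ w : A, (∀ k ∈ χ.ker, k • w = w) ∧ x = ∑ i ∈ Finset.range n, γ ^ i • w := by
  obtain ⟨b, hb⟩ := h
  have hb' : ∀ g h, g • b h - b (g * h) + b g = ((chiVal χ g + chiVal χ h) / n) • x := hb
  obtain ⟨y, hy⟩ := h1 (fun k => b k) fun k k' => by
    have e := hb' k k'
    rw [chiVal_of_mem_ker χ k.2, chiVal_of_mem_ker χ k'.2, Nat.zero_add, Nat.zero_div, zero_smul,
      sub_add_eq_add_sub, sub_eq_zero] at e
    exact e.symm
  let b' : G → A := fun g => b g - (g • y - y)
  have hb1 : ∀ g h, g • b' h - b' (g * h) + b' g = ((chiVal χ g + chiVal χ h) / n) • x :=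
    fun g h => by
      rw [← hb' g h]
      simp only [b', smul_sub, mul_smul]
      abel
  have hk : ∀ k ∈ χ.ker, b' k = 0 := fun k hk' => by
    have e : k • y - y = b k := hy ⟨k, hk'⟩
    simp only [b', e, sub_self]
  have hdiv : ∀ g, ∀ k ∈ χ.ker, (chiVal χ g + chiVal χ k) / n = 0 ∧
      (chiVal χ k + chiVal χ g) / n = 0 := fun g k hk' => by
    rw [chiVal_of_mem_ker χ hk', add_zero, zero_add]
    exact ⟨Nat.div_eq_of_lt (chiVal_lt χ g), Nat.div_eq_of_lt (chiVal_lt χ g)⟩
  have hr : ∀ g, ∀ k ∈ χ.ker, b' (g * k) = b' g := fun g k hk' => by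
    have e := hb1 g k
    rw [hk k hk', smul_zero, zero_sub, (hdiv g k hk').1, zero_smul, neg_add_eq_zero] at e
    exact e
  have hl : ∀ g, ∀ k ∈ χ.ker, k • b' g = b' g := fun g k hk' => by
    have e := hb1 k g
    rw [hk k hk', add_zero, (hdiv g k hk').2, zero_smul, sub_eq_zero] at e
    have hc : g⁻¹ * k * g ∈ χ.ker := by simp [MonoidHom.mem_ker, MonoidHom.mem_ker.mp hk']
    rw [e, show k * g = g * (g⁻¹ * k * g) by group, hr _ _ hc]
  have hrec : ∀ m, m < n → b' (γ ^ m) = ∑ i ∈ Finset.range m, γ ^ i • b' γ := by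
    intro m
    induction m with
    | zero => intro _; simp [hk 1 (one_mem _)]
    | succ m ih =>
      intro hm
      have e := hb1 (γ ^ m) γ
      rw [chiVal_pow hγ (by omega), show chiVal χ γ = 1 by simpa using chiVal_pow hγ hn,
        Nat.div_eq_of_lt hm, zero_smul, ← pow_succ, sub_add_eq_add_sub, sub_eq_zero] at e
      rw [← e, Finset.sum_range_succ, ← ih (by omega), add_comm]
  refine ⟨b' γ, hl γ, ?_⟩
  have e := hb1 (γ ^ (n - 1)) γ
  rw [chiVal_pow hγ (by omega), show chiVal χ γ = 1 by simpa using chiVal_pow hγ hn,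
    ← pow_succ, Nat.sub_add_cancel (by omega : 1 ≤ n), Nat.div_self (by omega), one_smul,
    hk _ (pow_mem_ker hγ), sub_zero, hrec _ (by omega)] at e
  conv_rhs => rw [← Nat.sub_add_cancel (by omega : 1 ≤ n), Finset.sum_range_succ]
  rw [← e, add_comm]

/-- The sum over a cyclic group is a sum of powers of a generator. -/
theorem sum_range_orderOf_smul (g : G) (hg : IsOfFinOrder g) [Fintype (Subgroup.zpowers g)]
    (w : A) :
    ∑ h : Subgroup.zpowers g, (h : G) • w = ∑ i ∈ Finset.range (orderOf g), g ^ i • w := by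
  rw [← Fin.sum_univ_eq_sum_range (fun i => g ^ i • w),
    ← (finEquivZPowers hg).sum_comp (fun h : Subgroup.zpowers g => (h : G) • w)]
  exact Finset.sum_congr rfl fun i _ => rfl

variable {p : ℕ} [hp : Fact p.Prime] [Finite G]

/-- The invariants of a cyclic `p`-group modulo norms have at most as many classes as its order. -/
theorem exists_reps_cyclic (hA : CFT.StepAxioms p G A) (k : ℕ) :
    ∀ g : G, orderOf g = p ^ k → ∃ R : Fin (p ^ k) → A, ∀ x : A, g • x = x →
      ∃ j w, x = R j + ∑ i ∈ Finset.range (p ^ k), g ^ i • w := by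
  induction k with
  | zero =>
    intro g hg
    refine ⟨fun _ => 0, fun x _ => ⟨⟨0, by simp⟩, x, ?_⟩⟩
    simp
  | succ k ih =>
    intro g hg
    have hgf : IsOfFinOrder g := isOfFinOrder_of_finite g
    have hord : orderOf (g ^ p) = p ^ k := by
      rw [orderOf_pow_of_dvd hp.out.ne_zero (hg ▸ dvd_pow_self p k.succ_ne_zero), hg, pow_succ,
        Nat.mul_div_cancel _ hp.out.pos]
    have hs : CFT.IsStep p (Subgroup.zpowers g) (Subgroup.zpowers (g ^ p)) g := by
      refine ⟨Subgroup.zpowers_le.2 (Subgroup.npow_mem_zpowers g p), Subgroup.mem_zpowers g,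
        fun hmem => ?_, IsPGroup.of_card (by rw [Nat.card_zpowers, hg]), ?_⟩
      · have h1 := Subgroup.card_le_of_le (Subgroup.zpowers_le.2 hmem)
        rw [Nat.card_zpowers, Nat.card_zpowers, hg, hord] at h1
        exact absurd h1 (not_le.2 (Nat.pow_lt_pow_right hp.out.one_lt (Nat.lt_succ_self k)))
      · have e := ((Subgroup.zpowers (g ^ p)).subgroupOf (Subgroup.zpowers g)).card_mul_index
        rw [Nat.card_congr (Subgroup.subgroupOfEquivOfLe
          (Subgroup.zpowers_le.2 (Subgroup.npow_mem_zpowers g p))).toEquiv,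
          Nat.card_zpowers, Nat.card_zpowers, hg, hord, pow_succ] at e
        exact Nat.eq_of_mul_eq_mul_left (pow_pos hp.out.pos _) e
    obtain ⟨x₀, hx₀, hgen⟩ := hA.index_le _ _ _ hs
    obtain ⟨R, hR⟩ := ih (g ^ p) hord
    let e : Fin (p ^ (k + 1)) ≃ Fin p × Fin (p ^ k) :=
      (finCongr (pow_succ' p k)).trans finProdFinEquiv.symm
    refine ⟨fun j => ((e j).1 : ℕ) • x₀ + CFT.stepNorm p g (R (e j).2), fun x hx => ?_⟩
    have hxH : ∀ h ∈ Subgroup.zpowers g, h • x = x := fun h hh =>
      Subgroup.zpowers_le.2 (MulAction.mem_stabilizer_iff.2 hx :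
        g ∈ MulAction.stabilizer G x) hh
    obtain ⟨m, b, hb, hxe⟩ := hgen x hxH
    have hx₀K : CFT.stepNorm p g x₀ = p • x₀ := by
      rw [CFT.stepNorm, Finset.sum_congr rfl fun j _ =>
        hx₀ _ (Subgroup.npow_mem_zpowers g j), Finset.sum_const, Finset.card_range]
    have hp0 : (p : ℤ) ≠ 0 := by exact_mod_cast hp.out.ne_zero
    set r : Fin p := ⟨(m % p).toNat, by
      have := Int.emod_lt_of_pos m (b := (p : ℤ)) (by omega)
      have := Int.emod_nonneg m hp0
      omega⟩
    set b' := (m / p) • x₀ + b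
    have hb' : g ^ p • b' = b' := by
      rw [smul_add, smul_comm (g ^ p) (m / (p : ℤ)) x₀,
        hx₀ _ (Subgroup.npow_mem_zpowers g p), hb _ (Subgroup.mem_zpowers _)]
    obtain ⟨j, w, hw⟩ := hR b' hb'
    refine ⟨e.symm (r, j), w, ?_⟩
    show x = ((e (e.symm (r, j))).1 : ℕ) • x₀ + CFT.stepNorm p g (R (e (e.symm (r, j))).2) + _
    rw [e.apply_symm_apply]
    have h1 : CFT.stepNorm p g b' = (m / p * p) • x₀ + CFT.stepNorm p g b := by
      simp only [b', CFT.stepNorm, smul_add, Finset.sum_add_distrib, add_left_inj]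
      rw [mul_smul, natCast_zsmul, ← hx₀K, CFT.stepNorm, Finset.smul_sum]
      exact Finset.sum_congr rfl fun i _ => smul_comm _ _ _
    have h2 : CFT.stepNorm p g (∑ i ∈ Finset.range (p ^ k), (g ^ p) ^ i • w) =
        ∑ i ∈ Finset.range (p ^ (k + 1)), g ^ i • w := by
      simp only [CFT.stepNorm, Finset.smul_sum, smul_smul, ← pow_mul, ← pow_add]
      rw [pow_succ', ← Finset.sum_product', Finset.sum_bij' (fun ji _ => ji.1 + p * ji.2)
        (fun a _ => (a % p, a / p))]
      · intro a ha
        simp only [Finset.mem_product, Finset.mem_range] at ha ⊢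
        calc a.1 + p * a.2 < p + p * a.2 := by omega
          _ = p * (a.2 + 1) := by ring
          _ ≤ p * p ^ k := Nat.mul_le_mul_left p ha.2
      · intro a ha
        simp only [Finset.mem_product, Finset.mem_range] at ha ⊢
        exact ⟨Nat.mod_lt _ hp.out.pos, Nat.div_lt_of_lt_mul ha⟩
      · intro a ha
        simp only [Finset.mem_product, Finset.mem_range] at ha
        ext
        · simp [Nat.add_mul_mod_self_left, Nat.mod_eq_of_lt ha.1]
        · simp [Nat.add_mul_div_left _ _ hp.out.pos, Nat.div_eq_of_lt ha.1]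
      · intro a _
        exact Nat.mod_add_div a p
      · intro a _; rfl
    have hr : ((r : ℕ) : ℤ) = m % p := Int.toNat_of_nonneg (Int.emod_nonneg m hp0)
    calc x = m • x₀ + CFT.stepNorm p g b := hxe
      _ = (r : ℕ) • x₀ + CFT.stepNorm p g b' := by
        rw [h1, ← add_assoc, ← natCast_zsmul, ← add_smul, hr, mul_comm, Int.emod_add_mul_ediv]
      _ = _ := by
        rw [hw, add_assoc, ← h2]
        congr 1
        simp only [CFT.stepNorm, smul_add, Finset.sum_add_distrib]

end Fermat.Agent.CFT.Idele
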