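import Fermat.Agent.CFT.Idele.LocalTriv
import Fermat.Agent.CFT.Idele.Axioms
import Fermat.Agent.CFT.Idele.Carry

/-!
# The step axioms for a completion, and restriction of the step axioms

For a step `K < H` in the Galois group of a completion, the invariants of `H` modulo norms from
the invariants of `K` have order `p`.
-/

set_option autoImplicit false
set_option synthInstance.maxHeartbeats 200000
set_option linter.style.haveILetI false

noncomputable section

namespace Fermat.Agent.CFT.Idele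

open ExtCitation Fermat.Agent.Arith Fermat.Agent.CFT.Local groupCohomology

local instance factPrimeLocalAxioms (q : Nat.Primes) : Fact (q : ℕ).Prime := ⟨q.2⟩

variable {p : ℕ} [hp : Fact p.Prime]

/-- Hilbert 90 for the subgroups gives the first axiom. -/
theorem exists_smul_sub_of_stepNorm {G A : Type*} [Group G] [Finite G] [AddCommGroup A] [DistribMulAction G A]
    {H K : Subgroup G} {g : G} (hs : CFT.IsStep p H K g) (h1 : CFT.H1Zero H A) {a : A}
    (ha : ∀ k ∈ K, k • a = a) (hN : CFT.stepNorm p g a = 0) :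
    ∃ b : A, (∀ k ∈ K, k • b = b) ∧ g • b - b = a := by
  obtain ⟨χ, -, hker, hgχ⟩ := hs.exists_char
  set γ : H := ⟨g, hs.mem⟩
  let P : ℕ → A := fun m => ∑ j ∈ Finset.range m, g ^ j • a
  have hk : ∀ k : H, k ∈ χ.ker → (k : G) ∈ K := fun k hk => by
    rwa [hker, Subgroup.mem_subgroupOf] at hk
  have hfix : ∀ (i : ℕ) (k : H), k ∈ χ.ker → (k : G) • g ^ i • a = g ^ i • a := fun i k hk' => by
    have hc : (γ ^ i)⁻¹ * k * γ ^ i ∈ χ.ker := by
      simp [MonoidHom.mem_ker, MonoidHom.mem_ker.1 hk']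
    have e := ha _ (hk _ hc)
    conv_rhs => rw [← e]
    rw [smul_smul, smul_smul]
    congr 1
    simp [γ, mul_assoc]
  have hadd : ∀ m m', P (m + m') = P m + g ^ m • P m' := fun m m' => by
    simp only [P, Finset.sum_range_add, Finset.smul_sum, smul_smul, ← pow_add]
  have hmod : ∀ m, P (m % p) = P m := fun m => by
    induction m using Nat.strong_induction_on with
    | _ m ih =>
      rcases lt_or_ge m p with hlt | hge
      · rw [Nat.mod_eq_of_lt hlt]
      · have hP : P p = 0 := hN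
        have hgp : g ^ p • P (m - p) = P (m - p) := by
          simp only [P, Finset.smul_sum]
          exact Finset.sum_congr rfl fun j _ => hfix j ⟨g ^ p, hs.le hs.pow_mem⟩
            (by rw [hker, Subgroup.mem_subgroupOf]; exact hs.pow_mem)
        rw [Nat.mod_eq_sub_mod hge, ih _ (by have := hp.out.pos; omega)]
        conv_rhs => rw [← Nat.add_sub_cancel' hge, hadd, hP, zero_add, hgp]
  have hact : ∀ (h : H) (m : ℕ), h • P m = g ^ chiVal χ h • P m := fun h m => by
    simp only [P, Finset.smul_sum]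
    refine Finset.sum_congr rfl fun j _ => ?_
    show (h : G) • g ^ j • a = _
    have hv := inv_pow_chiVal_mul_mem_ker (χ := χ) (γ := γ) hgχ h
    conv_lhs => rw [show (h : G) = g ^ chiVal χ h * ((((γ ^ chiVal χ h)⁻¹ * h : H)) : G) by
      simp [γ], mul_smul, hfix j _ hv]
  obtain ⟨b, hb⟩ := h1 (fun h => P (chiVal χ h)) fun x y => by
    show P (chiVal χ (x * y)) = x • P (chiVal χ y) + P (chiVal χ x)
    rw [chiVal_mul, hmod, hadd, hact, add_comm]
  have hval : chiVal χ γ = 1 := by simpa using chiVal_pow (χ := χ) (γ := γ) hgχ hp.out.one_lt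
  refine ⟨b, fun k hk' => ?_, ?_⟩
  · have e := hb ⟨k, hs.le hk'⟩
    have hz : chiVal χ (⟨k, hs.le hk'⟩ : H) = 0 := chiVal_of_mem_ker χ (by
      rw [hker, Subgroup.mem_subgroupOf]; exact hk')
    simp only [hz, P, Finset.sum_range_zero, sub_eq_zero] at e
    exact e
  · have e := hb γ
    simp only [hval, P, Finset.sum_range_one, pow_zero, one_smul] at e
    exact e

omit hp in
/-- Restriction of the step axioms along an injection. -/
theorem stepAxioms_comap {G T A : Type*} [Group G] [Group T] [AddCommGroup A]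
    [DistribMulAction G A] [DistribMulAction T A] (f : T →* G) (hf : Function.Injective f)
    (hsmul : ∀ t (x : A), t • x = f t • x) (hA : CFT.StepAxioms p G A) :
    CFT.StepAxioms p T A := by
  have hs' : ∀ (H K : Subgroup T) (g : T), CFT.IsStep p H K g →
      CFT.IsStep p (H.map f) (K.map f) (f g) := fun H K g hs =>
    ⟨Subgroup.map_mono hs.le, Subgroup.mem_map_of_mem _ hs.mem,
      fun h => hs.notMem (by
        obtain ⟨x, hx, e⟩ := h
        rwa [← hf e]),
      hs.isPGroup.map f, by rw [Subgroup.relIndex_map_map_of_injective _ _ hf, hs.relIndex]⟩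
  have hfix : ∀ (K : Subgroup T) (x : A), (∀ k ∈ K, k • x = x) ↔ ∀ k ∈ K.map f, k • x = x :=
    fun K x => ⟨fun h _ ⟨k, hk, e⟩ => by rw [← e, ← hsmul, h k hk],
      fun h k hk => by rw [hsmul]; exact h _ ⟨k, hk, rfl⟩⟩
  have hN : ∀ (g : T) (x : A), CFT.stepNorm p g x = CFT.stepNorm p (f g) x := fun g x => by
    simp only [CFT.stepNorm, hsmul, map_pow]
  refine ⟨fun H K g hs a ha h0 => ?_, fun H K g hs => ?_⟩
  · obtain ⟨b, hb, e⟩ := hA.h1 _ _ _ (hs' H K g hs) a ((hfix K a).1 ha) (by rw [← hN, h0])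
    exact ⟨b, (hfix K b).2 hb, by rw [hsmul]; exact e⟩
  · obtain ⟨x₀, hx₀, hgen⟩ := hA.index_le _ _ _ (hs' H K g hs)
    refine ⟨x₀, (hfix H x₀).2 hx₀, fun x hx => ?_⟩
    obtain ⟨m, b, hb, e⟩ := hgen x ((hfix H x).1 hx)
    exact ⟨m, b, (hfix K b).2 hb, by rw [hN]; exact e⟩

/-- A nontrivial subgroup of `ℤ` modulo its `p`-th powers has order `p`. -/
theorem index_sup_ker_of_pow {A : Type*} [CommGroup A] (φ : A →* Multiplicative ℤ) (N : A →* A)
    (hN : ∀ x, φ (N x) = φ x ^ p) (hφ : ∃ x, φ x ≠ 1) : (N.range ⊔ φ.ker).index = p := by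
  obtain ⟨c, hc⟩ := Int.subgroup_cyclic (Subgroup.toAddSubgroup' φ.range)
  have hmem : ∀ x, ∃ m : ℤ, Multiplicative.toAdd (φ x) = m * c := fun x => by
    have : Multiplicative.toAdd (φ x) ∈ Subgroup.toAddSubgroup' φ.range := ⟨x, rfl⟩
    rw [hc, AddSubgroup.mem_closure_singleton] at this
    obtain ⟨m, hm⟩ := this
    exact ⟨m, by rw [← hm, smul_eq_mul]⟩
  have hc0 : c ≠ 0 := fun h => by
    obtain ⟨x, hx⟩ := hφ
    obtain ⟨m, hm⟩ := hmem x
    exact hx (Multiplicative.toAdd.injective (by rw [hm, h, mul_zero]; rfl))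
  obtain ⟨x₁, hx₁⟩ : ∃ x, Multiplicative.toAdd (φ x) = c := by
    have : c ∈ Subgroup.toAddSubgroup' φ.range :=
      hc ▸ AddSubgroup.mem_closure_singleton.2 ⟨1, one_smul _ _⟩
    obtain ⟨x, hx⟩ := this
    exact ⟨x, congrArg Multiplicative.toAdd hx⟩
  choose v hv using hmem
  let ψ : A →* Multiplicative (ZMod p) := MonoidHom.mk'
    (fun x => Multiplicative.ofAdd (v x : ZMod p)) fun x y => by
      rw [← ofAdd_add, ← Int.cast_add]
      congr 2
      refine mul_right_cancel₀ hc0 ?_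
      rw [← hv, add_mul, ← hv, ← hv, map_mul, toAdd_mul]
  have hψ : Function.Surjective ψ := fun t => ⟨x₁ ^ (Multiplicative.toAdd t).val, by
    have h1 : v x₁ = 1 := mul_right_cancel₀ hc0 (by rw [← hv, one_mul, hx₁])
    rw [map_pow]
    show Multiplicative.ofAdd (v x₁ : ZMod p) ^ (Multiplicative.toAdd t).val = t
    rw [h1, Int.cast_one, ← ofAdd_nsmul, nsmul_one, ZMod.natCast_zmod_val, ofAdd_toAdd]⟩
  have hker : ψ.ker = N.range ⊔ φ.ker := by
    refine le_antisymm (fun x hx => ?_) (sup_le ?_ fun x hx => ?_)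
    · obtain ⟨m, hm⟩ := (ZMod.intCast_zmod_eq_zero_iff_dvd (v x) p).1 (ofAdd_eq_one.1 hx)
      have e : x = N (x₁ ^ m) * (x / N (x₁ ^ m)) := by rw [mul_div_cancel]
      rw [e]
      refine Subgroup.mul_mem_sup ⟨_, rfl⟩ ?_
      rw [MonoidHom.mem_ker, map_div, hN, map_zpow, div_eq_one]
      apply Multiplicative.toAdd.injective
      rw [toAdd_pow, toAdd_zpow, hx₁, hv, hm, smul_eq_mul, nsmul_eq_mul]
      ring
    · rintro _ ⟨x, rfl⟩
      refine ofAdd_eq_one.2 ((ZMod.intCast_zmod_eq_zero_iff_dvd _ p).2 ⟨v x, ?_⟩)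
      refine mul_right_cancel₀ hc0 ?_
      rw [← hv, hN, toAdd_pow, hv, nsmul_eq_mul, mul_assoc]
    · refine ofAdd_eq_one.2 ?_
      have : v x = 0 := mul_right_cancel₀ hc0 (by
        rw [← hv, zero_mul, MonoidHom.mem_ker.1 hx]; rfl)
      rw [this, Int.cast_zero]
  rw [← hker, Subgroup.index_ker, MonoidHom.range_eq_top.mpr hψ, Subgroup.card_top,
    Nat.card_congr Multiplicative.toAdd, Nat.card_zmod]

variable (L : IntermediateField ℚ QBar) [FiniteDimensional ℚ L] [Normal ℚ L] (q : Nat.Primes)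

/-- The local norm index of a step. -/
theorem ind0_localStep {H K : Subgroup (E L q ≃ₐ[ℚ_[(q : ℕ)]] E L q)}
    {g : E L q ≃ₐ[ℚ_[(q : ℕ)]] E L q} (st : Step p H K g)
    (h1 : ∀ x ∈ fixedBy K (E L q)ˣ, ∏ i ∈ Finset.range p, g ^ i • x = 1 →
      ∃ b ∈ fixedBy K (E L q)ˣ, g • b / b = x) :
    ind0 (dStep (E L q)ˣ st) (nStep (E L q)ˣ st) = p := by
  classical
  haveI : Fintype H := Fintype.ofFinite H
  haveI : Fintype K := Fintype.ofFinite K
  set d := dStep (E L q)ˣ st
  set N := nStep (E L q)ˣ st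
  obtain ⟨D, hDle, hDidx, hDsmul, hDok, -⟩ := exists_trivial_units L q
  set U := subFixed K (unitGroup (E L q))
  have hUs : ∀ (t : E L q ≃ₐ[ℚ_[(q : ℕ)]] E L q), ∀ x ∈ unitGroup (E L q),
      t • x ∈ unitGroup (E L q) := fun t x hx => (smul_mem_unitGroup_iff t x).2 hx
  obtain ⟨t0, t1⟩ := ind0Sub_of_normOK st hDsmul (hDok H) (hDok K)
  have hidx : (subFixed K D).relIndex U ≠ 0 := by
    show (D.comap (fixedBy K (E L q)ˣ).subtype).relIndex _ ≠ 0
    rw [Subgroup.relIndex_comap]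
    exact fun h => hDidx
      (Subgroup.relIndex_eq_zero_of_le_right (by rintro _ ⟨x, hx, rfl⟩; exact hx) h)
  obtain ⟨hU, hU0⟩ := ind0Sub_eq_of_triv d N (map_dStep_le st hUs) (map_nStep_le st hUs)
    (dStep_nStep st) (nStep_dStep st) (B := subFixed K D) (fun x hx => hDle hx)
    (map_dStep_le st hDsmul) (map_nStep_le st hDsmul) hidx t0 t1
  set φ := (ord (E L q)).comp (fixedBy K (E L q)ˣ).subtype
  have hker : φ.ker = U := by
    ext x
    rw [MonoidHom.mem_ker, mem_subFixed]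
    exact ord_eq_one_iff _
  have hNφ : ∀ x, φ (N x) = φ x ^ p := fun x => by
    show ord (E L q) ((N x : fixedBy K (E L q)ˣ) : (E L q)ˣ) = _
    rw [nStep_coe, map_prod, Finset.prod_congr rfl fun i _ => ord_smul_unit _ _,
      Finset.prod_const, Finset.card_range]
    rfl
  have hdφ : ∀ x, φ (d x) = 1 := fun x => by
    show ord (E L q) ((d x : fixedBy K (E L q)ˣ) : (E L q)ˣ) = 1
    rw [dStep_coe, map_div, ord_smul_unit, div_self']
  have hne : ∃ x, φ x ≠ 1 := by
    refine ⟨⟨Units.map (algebraMap ℚ_[(q : ℕ)] (E L q)).toMonoidHom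
      (Units.mk0 ((q : ℕ) : ℚ_[(q : ℕ)]) (Nat.cast_ne_zero.2 q.2.ne_zero)), fun k _ =>
        Units.ext ((k.commutes _).trans rfl)⟩, fun h => ?_⟩
    have h' := (mem_unitGroup (E L q)).1 ((ord_eq_one_iff _).1 h)
    change ‖algebraMap ℚ_[(q : ℕ)] (E L q) ((q : ℕ) : ℚ_[(q : ℕ)])‖ = 1 at h'
    rw [norm_algebraMap'] at h'
    exact Padic.norm_p_lt_one.ne h'
  have hQ : ind0Quot d N U = p := by
    rw [ind0Quot, show U.comap d = ⊤ from (Subgroup.eq_top_iff' _).2 fun x => by
      rw [Subgroup.mem_comap, ← hker, MonoidHom.mem_ker, hdφ], Subgroup.relIndex_top_right,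
      ← hker]
    exact index_sup_ker_of_pow φ N hNφ hne
  have hQ' : ind0Quot N d U = 1 := by
    rw [ind0Quot, Subgroup.relIndex_eq_one]
    intro x hx
    refine Subgroup.mem_sup_right ?_
    rw [Subgroup.mem_comap, ← hker, MonoidHom.mem_ker, hNφ] at hx
    rw [← hker, MonoidHom.mem_ker]
    exact (pow_eq_one_iff_left hp.out.ne_zero).1 hx
  have hone : ind0 N d = 1 := by
    rw [ind0, Subgroup.relIndex_eq_one]
    intro x hx
    obtain ⟨b, hb, e⟩ := h1 x x.2 (congrArg Subtype.val (MonoidHom.mem_ker.1 hx))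
    exact ⟨⟨b, hb⟩, Subtype.ext e⟩
  have h := herbrand_mul d N (dStep_nStep st) (nStep_dStep st) U (map_dStep_le st hUs)
    (map_nStep_le st hUs)
  rw [hQ, hQ', hone, hU, mul_one, one_mul] at h
  apply mul_right_cancel₀ hU0
  linear_combination -h

/-- The step axioms for the completion. -/
theorem stepAxioms_local :
    CFT.StepAxioms p (E L q ≃ₐ[ℚ_[(q : ℕ)]] E L q) (Additive (E L q)ˣ) := by
  classical
  have h1 : ∀ (H K : Subgroup (E L q ≃ₐ[ℚ_[(q : ℕ)]] E L q)) g, CFT.IsStep p H K g →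
      ∀ a : Additive (E L q)ˣ, (∀ k ∈ K, k • a = a) → CFT.stepNorm p g a = 0 →
        ∃ b, (∀ k ∈ K, k • b = b) ∧ g • b - b = a := fun H K g hs a ha hN =>
    exists_smul_sub_of_stepNorm hs (h1Zero_units H) ha hN
  have htoMul : ∀ (g : E L q ≃ₐ[ℚ_[(q : ℕ)]] E L q) (b : Additive (E L q)ˣ),
      (CFT.stepNorm p g b).toMul = ∏ i ∈ Finset.range p, g ^ i • b.toMul := fun g b => by
    rw [CFT.stepNorm, toMul_sum]; rfl
  refine ⟨h1, fun H K g hs => ?_⟩
  have st := Step.of_isPGroup hs.le hs.mem hs.notMem hs.isPGroup hs.relIndex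
  have hind := ind0_localStep L q st fun x hx hN => by
    obtain ⟨b, hb, e⟩ := h1 H K g hs (Additive.ofMul x) (fun k hk => congrArg Additive.ofMul (hx k hk))
      (Additive.toMul.injective ((htoMul g _).trans hN))
    exact ⟨b.toMul, fun k hk => congrArg Additive.toMul (hb k hk), congrArg Additive.toMul e⟩
  set d := dStep (E L q)ˣ st
  set N := nStep (E L q)ˣ st
  obtain ⟨x₀, hx₀d, hx₀⟩ : ∃ x₀ ∈ d.ker, x₀ ∉ N.range := by
    by_contra hne
    push Not at hne
    rw [ind0, Subgroup.relIndex_eq_one.2 hne] at hind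
    exact hp.out.one_lt.ne hind
  haveI : Fact (Nat.card (d.ker ⧸ N.range.subgroupOf d.ker)).Prime := ⟨by
    rw [← Subgroup.index, show (N.range.subgroupOf d.ker).index = p from hind]; exact hp.out⟩
  refine ⟨Additive.ofMul (x₀ : (E L q)ˣ), fun h hh => congrArg Additive.ofMul
    ((st.mem_fixedBy_iff.2 ⟨x₀.2, (mem_ker_dStep st).1 hx₀d⟩) h hh), fun x hx => ?_⟩
  have hxH : x.toMul ∈ fixedBy H (E L q)ˣ := fun h hh => congrArg Additive.toMul (hx h hh)
  obtain ⟨hxK, hxg⟩ := st.mem_fixedBy_iff.1 hxH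
  have hx' : (⟨x.toMul, hxK⟩ : fixedBy K (E L q)ˣ) ∈ d.ker := (mem_ker_dStep st).2 hxg
  have hgen : (QuotientGroup.mk ⟨_, hx'⟩ : d.ker ⧸ N.range.subgroupOf d.ker) ∈
      Subgroup.zpowers (QuotientGroup.mk ⟨x₀, hx₀d⟩) :=
    mem_zpowers_of_prime_card rfl fun h => hx₀ (by
      rw [QuotientGroup.eq_one_iff, Subgroup.mem_subgroupOf] at h; exact h)
  obtain ⟨m, hm⟩ := hgen
  change (QuotientGroup.mk (⟨x₀, hx₀d⟩ : d.ker) : d.ker ⧸ N.range.subgroupOf d.ker) ^ m = _ at hm
  rw [← QuotientGroup.mk_zpow, QuotientGroup.eq, Subgroup.mem_subgroupOf] at hm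
  obtain ⟨b, hb⟩ := hm
  have hb' : ∏ i ∈ Finset.range p, g ^ i • (b : (E L q)ˣ) = ((x₀ : (E L q)ˣ) ^ m)⁻¹ * x.toMul := by
    rw [← nStep_coe st b, hb]; rfl
  refine ⟨m, Additive.ofMul (b : (E L q)ˣ), fun k hk => congrArg Additive.ofMul (b.2 k hk),
    Additive.toMul.injective ?_⟩
  rw [toMul_add, htoMul, toMul_zsmul, toMul_ofMul, toMul_ofMul, hb', mul_inv_cancel_left]

end Fermat.Agent.CFT.Idele
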