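import Fermat.Agent.CFT.Idele.SemiCarry
import Fermat.Agent.CFT.Idele.AuxFrob
import Fermat.Agent.CFT.Idele.Fundamental
import Fermat.Agent.CFT.Idele.LocalAxioms

/-!
# The fundamental classes of the completions

For a prime `q` an auxiliary cyclic field in which `q` generates gives a cocycle of the local
group; placed at `q` it has the full order among the idele classes.
-/

set_option autoImplicit false
set_option synthInstance.maxHeartbeats 200000
set_option linter.style.haveILetI false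

noncomputable section

namespace Fermat.Agent.CFT.Idele

open ExtCitation Fermat.Agent.Arith IntermediateField Fermat.Agent.CFT.Local groupCohomology

local instance factPrimeLocalClass (q : Nat.Primes) : Fact (q : ℕ).Prime := ⟨q.2⟩

variable {p : ℕ} [hp : Fact p.Prime]

section

variable (L : IntermediateField ℚ QBar) [FiniteDimensional ℚ L] [Normal ℚ L] (q : Nat.Primes)

/-- The relative norm of the prime placed at the distinguished place. -/
theorem exists_relProd_primeUnit (H : Subgroup (L ≃ₐ[ℚ] L)) [Fintype ((L ≃ₐ[ℚ] L) ⧸ H)]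
    (hH : H ≤ (toGlobal (q : ℕ) L).range) :
    ∃ (Y : idl (⊥ : IntermediateField ℚ QBar)) (m : ℕ),
      (Y : PreIdele) = ((∏ x : (L ≃ₐ[ℚ] L) ⧸ H, x.out • locIdl q (primeUnit q L).toMul : idl L) :
          PreIdele) ∧
        m * Nat.card H = Nat.card (E L q ≃ₐ[ℚ_[(q : ℕ)]] E L q) ∧
        (∀ l, l ≠ q → botVal l Y = 1) ∧
        (botVal q Y : ℚ_[(q : ℕ)]) = ((q : ℕ) : ℚ_[(q : ℕ)]) ^ m := by
  classical
  set X : idl L := locIdl q (primeUnit q L).toMul
  have hX : ∀ h ∈ H, h • X = X := fun h hh => by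
    obtain ⟨t, rfl⟩ := hH hh
    refine congrArg Additive.toMul (?_ : toGlobal (q : ℕ) L t • loc' L q (primeUnit q L) =
      loc' L q (primeUnit q L))
    rw [← loc'_smul, smul_primeUnit]
  set P : idl L := ∏ x : (L ≃ₐ[ℚ] L) ⧸ H, x.out • X with hPdef
  have hfix : P ∈ fixedBy (resTo (bot_le : (⊥ : IntermediateField ℚ QBar) ≤ L)).ker (idl L) := by
    intro s _
    show s • ∏ x : (L ≃ₐ[ℚ] L) ⧸ H, _ = ∏ x : (L ≃ₐ[ℚ] L) ⧸ H, _
    rw [Finset.smul_prod']
    refine Fintype.prod_equiv (MulAction.toPerm s) _ _ fun y => ?_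
    rw [MulAction.toPerm_apply, smul_smul]
    have hy : (s • y : (L ≃ₐ[ℚ] L) ⧸ H) = QuotientGroup.mk (s * y.out) := by
      conv_lhs => rw [← QuotientGroup.out_eq' y]
      rfl
    have hmem := QuotientGroup.eq.1 (hy.symm.trans (QuotientGroup.out_eq' _).symm)
    conv_lhs => rw [← hX _ hmem, smul_smul, mul_inv_cancel_left]
  set S : Finset ((L ≃ₐ[ℚ] L) ⧸ H) :=
    Finset.univ.filter fun x => x.out ∈ (toGlobal (q : ℕ) L).range
  refine ⟨⟨_, mem_idl_of_fixed bot_le hfix⟩, S.card, rfl, ?_, fun l hl => Units.ext ?_, ?_⟩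
  · have hpre : QuotientGroup.mk ⁻¹' (S : Set ((L ≃ₐ[ℚ] L) ⧸ H)) =
        ((toGlobal (q : ℕ) L).range : Set (L ≃ₐ[ℚ] L)) := by
      ext g
      obtain ⟨h, hh⟩ := QuotientGroup.mk_out_eq_mul H g
      simp only [Set.mem_preimage, SetLike.mem_coe, S, Finset.mem_filter,
        Finset.mem_univ, true_and, hh]
      exact Subgroup.mul_mem_cancel_right _ (hH h.2)
    have e := Nat.card_congr ((Equiv.setCongr hpre).symm.trans
      (QuotientGroup.preimageMkEquivSubgroupProdSet H (S : Set ((L ≃ₐ[ℚ] L) ⧸ H))))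
    rw [Nat.card_prod, Nat.card_coe_set_eq (S : Set ((L ≃ₐ[ℚ] L) ⧸ H)),
      Set.ncard_coe_finset] at e
    rw [Nat.card_congr (MonoidHom.ofInjective (toGlobal_injective (q : ℕ) L)).toEquiv, mul_comm]
    exact e.symm
  · apply (algebraMap ℚ_[(l : ℕ)] (Ω l)).injective
    rw [botVal_spec l _ 1, Units.val_one, map_one]
    show (((P : PreIdele) l 1 : (Ω l)ˣ) : Ω l) = 1
    rw [← coe_val P l (map_one (res L)), hPdef, val_prod,
      Finset.prod_eq_one fun x _ => by rw [val_smul, one_mul, val_locIdl_of_ne q _ hl]]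
    simp only [Units.val_one, OneMemClass.coe_one]
  · apply (algebraMap ℚ_[(q : ℕ)] (Ω q)).injective
    rw [botVal_spec q _ 1, map_pow]
    show (((P : PreIdele) q 1 : (Ω q)ˣ) : Ω q) = _
    have hval : ∀ x ∈ S, val (x.out • X) q 1 = (primeUnit q L).toMul := fun x hx => by
      obtain ⟨t, ht⟩ : x.out ∈ (toGlobal (q : ℕ) L).range := (Finset.mem_filter.1 hx).2
      rw [val_smul, one_mul, ← ht, val_locIdl_self]
      exact congrArg Additive.toMul (smul_primeUnit q L t)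
    rw [← coe_val P q (map_one (res L)), hPdef, val_prod,
      ← Finset.prod_subset (Finset.subset_univ S) fun x _ hx => by
        rw [val_smul, one_mul, val_locIdl_of_notMem q _ (by simpa [S] using hx)],
      Finset.prod_congr rfl hval, Finset.prod_const, Units.val_pow_eq_pow_val,
      SubmonoidClass.coe_pow]
    rfl

end

variable {n : ℕ} (a : Aux n) {L L' : IntermediateField ℚ QBar} [FiniteDimensional ℚ L] [Normal ℚ L]
  [FiniteDimensional ℚ L'] [Normal ℚ L'] (hL : L ≤ L') (hF : a.fixedChi ≤ L') (q : Nat.Primes)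

omit [FiniteDimensional ℚ L] [FiniteDimensional ℚ L'] in
omit [Normal ℚ ↥L] [Normal ℚ ↥L'] in
theorem proj_inclJ' (x : J L) : proj L' (inclJ' hL x) = inclC hL (proj L x) := rfl

set_option maxHeartbeats 1000000 in
omit [FiniteDimensional ℚ ↥L'] in
/-- A multiple of the local class, placed at `q`, that is trivial among the idele classes, on the
preimage. -/
theorem coboundary_of_semilocal [NeZero n]
    (u : (E L q ≃ₐ[ℚ_[(q : ℕ)]] E L q) × (E L q ≃ₐ[ℚ_[(q : ℕ)]] E L q) → Additive (E L q)ˣ)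
    (T : decompPre q hL → J L')
    (hT : ∀ g h : decompPre q hL, (g : L' ≃ₐ[ℚ] L') • T h - T (g * h) + T g =
      carryN (chiUp a hF) (inclJ' hL (loc' L q (primeUnit q L)))
          ((g : L' ≃ₐ[ℚ] L'), (h : L' ≃ₐ[ℚ] L')) -
        inclJ' hL (loc' L q (u (toLoc q hL g, toLoc q hL h))))
    (S : Subgroup (E L q ≃ₐ[ℚ_[(q : ℕ)]] E L q)) (k : ℤ) (b : S → C L)
    (hb : ∀ g h : S, toGlobal (q : ℕ) L (g : E L q ≃ₐ[ℚ_[(q : ℕ)]] E L q) • b h - b (g * h) + b g =
      k • proj L (loc' L q (u ((g : E L q ≃ₐ[ℚ_[(q : ℕ)]] E L q),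
        (h : E L q ≃ₐ[ℚ_[(q : ℕ)]] E L q))))) :
    IsCoboundary₂ fun gh : (S.map (toGlobal (q : ℕ) L)).comap (resTo hL) ×
        (S.map (toGlobal (q : ℕ) L)).comap (resTo hL) =>
      k • carryN (chiUp a hF) (proj L' (Additive.ofMul (inclIdl hL (locIdl q (primeUnit q L).toMul))))
        ((gh.1 : L' ≃ₐ[ℚ] L'), (gh.2 : L' ≃ₐ[ℚ] L')) := by
  set H' := (S.map (toGlobal (q : ℕ) L)).comap (resTo hL)
  have hle : H' ≤ decompPre q hL :=
    Subgroup.comap_mono (Subgroup.map_le_range _ _)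
  set ι : H' →* decompPre q hL := Subgroup.inclusion hle
  have hmem : ∀ g : H', toLoc q hL (ι g) ∈ S := fun g => by
    rw [← Subgroup.mem_map_iff_mem (toGlobal_injective (q : ℕ) L), toGlobal_toLoc]
    exact g.2
  refine ⟨fun g => k • proj L' (T (ι g)) + inclC hL (b ⟨toLoc q hL (ι g), hmem g⟩), fun g h => ?_⟩
  have e1 := congrArg (fun x : J L' => k • proj L' x) (hT (ι g) (ι h))
  have e2 := congrArg (inclC hL) (hb ⟨_, hmem g⟩ ⟨_, hmem h⟩)
  have e3 : (⟨toLoc q hL (ι (g * h)), hmem (g * h)⟩ : S) = ⟨_, hmem g⟩ * ⟨_, hmem h⟩ :=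
    Subtype.ext ((congrArg (toLoc q hL) (map_mul ι g h)).trans (map_mul _ _ _))
  simp only [map_add, map_sub, map_zsmul, toGlobal_toLoc, ← inclC_smul, proj_smul, proj_inclJ',
    carryN, map_nsmul, smul_add, smul_sub] at e1 e2
  dsimp only
  rw [e3, map_mul, smul_add]
  simp only [Subgroup.smul_def, smul_comm (g : L' ≃ₐ[ℚ] L') k, carryN]
  rw [show (proj L' (Additive.ofMul (inclIdl hL (locIdl q (primeUnit q L).toMul)))) =
    inclC hL (proj L (loc' L q (primeUnit q L))) from rfl]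
  simp only [show ((ι g : decompPre q hL) : L' ≃ₐ[ℚ] L') = (g : L' ≃ₐ[ℚ] L') from rfl,
    show ((ι h : decompPre q hL) : L' ≃ₐ[ℚ] L') = (h : L' ≃ₐ[ℚ] L') from rfl] at e1 e2
  linear_combination (norm := abel) e1 + e2

include hF in
/-- The order of the local class among the idele classes. -/
theorem card_dvd_of_local_coboundary (hk₀ : ∃ j, n = p ^ j) (hn : Odd n) (hn1 : 1 < n) [NeZero n]
    (hsup : L' = L ⊔ a.fixedChi) (hax : CFT.StepAxioms p (L' ≃ₐ[ℚ] L') (C L'))
    {γ : L' ≃ₐ[ℚ] L'} (hγπ : γ ∈ (resTo hL).ker) (hγχ : chiUp a hF γ = Multiplicative.ofAdd 1)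
    (hqa : q ≠ a.q)
    (hgen : ∀ c : Multiplicative (ZMod n), ∃ i : ℕ,
      a.log (a.unitOf (a.not_dvd_of_ne hqa)) ^ i = c)
    (u : (E L q ≃ₐ[ℚ_[(q : ℕ)]] E L q) × (E L q ≃ₐ[ℚ_[(q : ℕ)]] E L q) → Additive (E L q)ˣ)
    (T : decompPre q hL → J L')
    (hT : ∀ g h : decompPre q hL, (g : L' ≃ₐ[ℚ] L') • T h - T (g * h) + T g =
      carryN (chiUp a hF) (inclJ' hL (loc' L q (primeUnit q L)))
          ((g : L' ≃ₐ[ℚ] L'), (h : L' ≃ₐ[ℚ] L')) -
        inclJ' hL (loc' L q (u (toLoc q hL g, toLoc q hL h))))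
    (S : Subgroup (E L q ≃ₐ[ℚ_[(q : ℕ)]] E L q)) (hS : Nat.card S = n)
    (hco : ∀ m, m * n = Nat.card (E L q ≃ₐ[ℚ_[(q : ℕ)]] E L q) → Nat.Coprime n m)
    (k : ℤ) (b : S → C L)
    (hb : ∀ g h : S, toGlobal (q : ℕ) L (g : E L q ≃ₐ[ℚ_[(q : ℕ)]] E L q) • b h - b (g * h) + b g =
      k • proj L (loc' L q (u ((g : E L q ≃ₐ[ℚ_[(q : ℕ)]] E L q),
        (h : E L q ≃ₐ[ℚ_[(q : ℕ)]] E L q))))) :
    (n : ℤ) ∣ k := by
  classical
  set H := S.map (toGlobal (q : ℕ) L)
  letI : Fintype ((L ≃ₐ[ℚ] L) ⧸ H) := Fintype.ofFinite _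
  have hcard : Nat.card H = n := by
    rw [← hS, Subgroup.card_map_of_injective (toGlobal_injective (q : ℕ) L)]
  obtain ⟨j, hj⟩ := hk₀
  have hHP : IsPGroup p H := IsPGroup.of_card (hcard.trans hj)
  have h1 : CFT.H1Zero ((chiUp a hF).ker ⊓ H.comap (resTo hL) : Subgroup (L' ≃ₐ[ℚ] L')) (C L') := by
    refine hax.h1Zero _ (hHP.of_injective
      (((resTo hL).comp (Subgroup.subtype _)).codRestrict H fun g => g.2.2) ?_)
    refine (injective_iff_map_eq_one _).2 fun g hg => Subtype.ext ?_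
    exact eq_one_of_mem_kers a hL hF hsup (congrArg Subtype.val hg) g.2.1
  obtain ⟨Y, m, hY, hm, hne, hq⟩ := exists_relProd_primeUnit L q H (Subgroup.map_le_range _ _)
  have hX : ∀ h ∈ H, h • locIdl q (primeUnit q L).toMul = locIdl q (primeUnit q L).toMul := by
    rintro _ ⟨t, -, rfl⟩
    refine congrArg Additive.toMul (?_ : toGlobal (q : ℕ) L t • loc' L q (primeUnit q L) =
      loc' L q (primeUnit q L))
    rw [← loc'_smul, smul_primeUnit]
  have h := psi_relNorm_zpow a hL hF hn hn1 hsup hγπ hγχ H h1 _ hX k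
    (coboundary_of_semilocal a hL hF q u T hT S k b hb) Y hY
  have hr : resUnit (botVal a.q Y) = 1 := by rw [hne _ hqa.symm, map_one]
  have hv : (botVal q Y : ℚ_[(q : ℕ)]).valuation = m := by
    rw [hq, Padic.valuation_pow, Padic.valuation_p, mul_one]
  rw [psi_of_single a hqa hr (fun l hl => by rw [hne l hl, Units.val_one, norm_one]), hv,
    inv_zpow', ← zpow_mul] at h
  have hord : orderOf (a.log (a.unitOf (a.not_dvd_of_ne hqa))) = n := by
    rw [orderOf_eq_card_of_forall_mem_zpowers, Nat.card_congr Multiplicative.toAdd, Nat.card_zmod]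
    intro c
    obtain ⟨i, hi⟩ := hgen c
    exact ⟨i, (zpow_natCast _ i).trans hi⟩
  rw [← orderOf_dvd_iff_zpow_eq_one, hord, mul_neg, dvd_neg, mul_comm] at h
  exact Int.dvd_of_dvd_mul_left_of_gcd_one h (hco m (hcard ▸ hm))

variable (L) in
set_option maxHeartbeats 1000000 in
/-- A normalised cocycle of the local group of full order, locally and among the idele classes. -/
theorem exists_local_cocycle (hp2 : p ≠ 2) {ζ : L} (hζ : IsPrimitiveRoot ζ p) :
    ∃ u : CFT.NormCocycle (E L q ≃ₐ[ℚ_[(q : ℕ)]] E L q) (Additive (E L q)ˣ),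
      ∀ (S : Sylow p (E L q ≃ₐ[ℚ_[(q : ℕ)]] E L q)) (k : ℤ)
        (b : ↥(S : Subgroup (E L q ≃ₐ[ℚ_[(q : ℕ)]] E L q)) → C L),
        (∀ g h : (S : Subgroup (E L q ≃ₐ[ℚ_[(q : ℕ)]] E L q)),
          toGlobal (q : ℕ) L (g : E L q ≃ₐ[ℚ_[(q : ℕ)]] E L q) • b h - b (g * h) + b g =
            k • proj L (loc' L q (u.toFun ((g : E L q ≃ₐ[ℚ_[(q : ℕ)]] E L q),
              (h : E L q ≃ₐ[ℚ_[(q : ℕ)]] E L q))))) →
          (Nat.card (S : Subgroup (E L q ≃ₐ[ℚ_[(q : ℕ)]] E L q)) : ℤ) ∣ k := by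
  classical
  set G := E L q ≃ₐ[ℚ_[(q : ℕ)]] E L q
  set k₀ := (Nat.card G).factorization p with hk₀
  rcases Nat.eq_zero_or_pos k₀ with h0 | hpos
  · refine ⟨⟨0, fun g h j => by simp, fun g => rfl⟩, fun S k _ _ => ?_⟩
    rw [Sylow.card_eq_multiplicity, ← hk₀, h0, pow_zero, Nat.cast_one]
    exact one_dvd k
  set n := p ^ k₀
  haveI : NeZero n := ⟨pow_ne_zero _ hp.out.ne_zero⟩
  have hn : Odd n := (hp.out.odd_of_ne_two hp2).pow
  have hn1 : 1 < n := Nat.one_lt_pow hpos.ne' hp.out.one_lt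
  obtain ⟨T₀, hT₀⟩ := exists_finset_unramified L
  obtain ⟨a, haT, hqa, hgen⟩ := exists_aux_generator (p := p) hp2 q k₀ T₀
  have hin := (inertia_eq_bot_iff (a.q : ℕ) L).1 (hT₀ _ haT)
  have hsplit : ∀ c : Multiplicative (ZMod n), ∃ g : GQ, res L g = 1 ∧ a.chi g = c := fun c => by
    obtain ⟨g, hg, hgc⟩ := a.exists_inertia c
    exact ⟨g, (res_eq_one_iff L).2 ((IntermediateField.mem_fixingSubgroup_iff _ _).2
      fun x hx => hin g hg ⟨x, hx⟩), hgc⟩
  set L' : IntermediateField ℚ QBar := L ⊔ a.fixedChi with hsup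
  haveI : FiniteDimensional ℚ L' := IntermediateField.finiteDimensional_sup L a.fixedChi
  haveI : Normal ℚ L' := @IntermediateField.normal_sup ℚ QBar _ _ _ L a.fixedChi
    ‹Normal ℚ L› (IsGalois.to_normal (F := ℚ) (E := a.fixedChi))
  have hL : L ≤ L' := le_sup_left
  have hF : a.fixedChi ≤ L' := le_sup_right
  have hζ' : IsPrimitiveRoot (IntermediateField.inclusion hL ζ) p :=
    hζ.map_of_injective (IntermediateField.inclusion hL).injective
  obtain ⟨γ, hγπ, hγχ, -, -⟩ := exists_gamma a hL hF hsup hsplit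
  set π := resLoc q hL
  have hπ : Function.Surjective π := resLoc_surjective q hL
  set c := carryN (chiLoc q a hF) (primeUnit q L')
  have hc : IsCocycle₂ c := isCocycle₂_carryN (smul_primeUnit q L')
  -- the class is trivial on the kernel
  haveI : Fintype π.ker := Fintype.ofFinite _
  have hres : IsCoboundary₂ fun x : π.ker × π.ker =>
      c ((x.1 : E L' q ≃ₐ[ℚ_[(q : ℕ)]] E L' q), (x.2 : E L' q ≃ₐ[ℚ_[(q : ℕ)]] E L' q)) := by
    have hfix : ∀ t : E L' q ≃ₐ[ℚ_[(q : ℕ)]] E L' q,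
        t • (primeUnit q L').toMul = (primeUnit q L').toMul :=
      fun t => congrArg Additive.toMul (smul_primeUnit q L' t)
    obtain ⟨y, hy⟩ := (exists_normHom_eq_iff π.ker (ker_resLoc_inf_inertia q hL a hF hsup hqa)
      (fun h => hfix h)).2 (by
        rw [← Nat.card_eq_fintype_card]
        exact card_ker_dvd_ordZ q hL a hF hsup hqa (Nat.ordProj_dvd _ _) hfix)
    have e : CFT.normSum π.ker (Additive (E L' q)ˣ) (Additive.ofMul y) = primeUnit q L' := by
      refine Additive.toMul.injective (Eq.trans ?_ hy)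
      rw [CFT.normSum, toMul_sum]
      rfl
    have h := carryN_normSum_mem (G := π.ker) (A := Additive (E L' q)ˣ)
      ((chiLoc q a hF).comp π.ker.subtype) (Additive.ofMul y)
    rw [e] at h
    exact h
  obtain ⟨c₀, hc₀, b₀, hb₀⟩ := CFT.exists_descend₂ (A := Additive (E L' q)ˣ)
    (B := Additive (E L q)ˣ) π hπ (inclLoc q hL) (inclLoc_injective q hL) (inclLoc_smul q hL)
    (fun x hx => exists_inclLoc_eq q hL hx) (h1Zero_units π.ker) c hc hres
  set z := c₀ (1, 1)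
  set u : CFT.NormCocycle G (Additive (E L q)ˣ) :=
    ⟨c₀ - CFT.dOne fun _ => z, CFT.isCocycle₂_sub hc₀ (CFT.isCocycle₂_dOne _), fun g => by
      simp only [Pi.sub_apply, CFT.dOne, one_smul, sub_self, zero_add]
      rw [map_one_fst_of_isCocycle₂ hc₀ g, sub_self]⟩
  obtain ⟨T, hT⟩ := exists_semilocal_eq q hL a hF u.toFun u.isCocycle
    (fun g => b₀ g + inclLoc q hL z) fun s t => by
      have e := hb₀ s t
      simp only [Pi.sub_apply] at e
      simp only [u, π, Pi.sub_apply, CFT.dOne, map_sub, map_add, smul_add, inclLoc_smul] at e ⊢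
      show _ = c (s, t) - _
      rw [eq_sub_iff_add_eq] at e
      rw [← e]
      abel
  refine ⟨u, fun S k b hb => ?_⟩
  rw [Sylow.card_eq_multiplicity, ← hk₀]
  refine card_dvd_of_local_coboundary a hL hF q ⟨k₀, rfl⟩ hn hn1 hsup (stepAxioms L' hp2 hζ')
    hγπ hγχ hqa hgen u.toFun T hT S S.card_eq_multiplicity (fun m hm => ?_) k b hb
  refine Nat.Coprime.pow_left _ ((hp.out.coprime_iff_not_dvd).2 fun hd => ?_)
  obtain ⟨e, he⟩ := hd
  have : p ^ (k₀ + 1) ∣ Nat.card G := ⟨e, by rw [← hm, he]; ring⟩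
  exact Nat.pow_succ_factorization_not_dvd Nat.card_pos.ne' hp.out this

/-- The fundamental classes of the completions, of full order among the idele classes. -/
theorem exists_local_fundamental (L : IntermediateField ℚ QBar) [FiniteDimensional ℚ L]
    [Normal ℚ L] (hp2 : p ≠ 2) {ζ : L} (hζ : IsPrimitiveRoot ζ p) (q : Nat.Primes) :
    ∃ c : CFT.NormCocycle (E L q ≃ₐ[ℚ_[(q : ℕ)]] E L q) (Additive (E L q)ˣ),
      CFT.IsClassFormation p c ∧
      ∀ H : Subgroup (E L q ≃ₐ[ℚ_[(q : ℕ)]] E L q), IsPGroup p H → ∀ (k : ℤ) (b : H → C L),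
        (∀ g g' : H, toGlobal (q : ℕ) L (g : E L q ≃ₐ[ℚ_[(q : ℕ)]] E L q) • b g' - b (g * g') +
            b g =
          k • proj L (loc' L q (c.toFun ((g : E L q ≃ₐ[ℚ_[(q : ℕ)]] E L q),
            (g' : E L q ≃ₐ[ℚ_[(q : ℕ)]] E L q))))) →
        (Nat.card H : ℤ) ∣ k := by
  classical
  obtain ⟨u, hu⟩ := exists_local_cocycle (L := L) q hp2 hζ
  refine ⟨u, (stepAxioms_local (p := p) L q).isClassFormation u fun S k ⟨b, hb⟩ =>
    hu S k (fun g => proj L (loc' L q (b g))) fun g h => ?_, fun H hH k b hb => ?_⟩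
  · rw [← proj_smul, ← loc'_smul, ← map_zsmul (proj L), ← map_zsmul (loc' L q)]
    have e := congrArg (fun y => proj L (loc' L q y)) (hb g h)
    simp only [map_add, map_sub] at e
    exact e
  · letI : DistribMulAction (E L q ≃ₐ[ℚ_[(q : ℕ)]] E L q) (C L) :=
      DistribMulAction.compHom (C L) (toGlobal (q : ℕ) L)
    have hA : CFT.StepAxioms p (E L q ≃ₐ[ℚ_[(q : ℕ)]] E L q) (C L) :=
      stepAxioms_comap (toGlobal (q : ℕ) L) (toGlobal_injective (q : ℕ) L) (fun _ _ => rfl)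
        (stepAxioms L hp2 hζ)
    let u' : CFT.NormCocycle (E L q ≃ₐ[ℚ_[(q : ℕ)]] E L q) (C L) :=
      ⟨fun x => proj L (loc' L q (u.toFun x)), fun g g' g'' => by
        show _ = toGlobal (q : ℕ) L g • proj L (loc' L q (u.toFun (g', g''))) + _
        rw [← proj_smul, ← loc'_smul, ← map_add, ← map_add, ← map_add, ← map_add]
        exact congrArg (fun y => proj L (loc' L q y)) (u.isCocycle g g' g''),
      fun g => by rw [u.one_left, map_zero, map_zero]⟩
    have hu' : CFT.IsClassFormation p u' :=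
      hA.isClassFormation u' fun S k ⟨b, hb⟩ => hu S k b hb
    exact hu'.order H hH k ⟨b, hb⟩

end Fermat.Agent.CFT.Idele
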