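import Fermat.Agent.CFT.Idele.Model
import Fermat.Agent.Arith.RootsOfUnity
import Fermat.Agent.CFT.Local.Global
import Fermat.Agent.Arith.Minkowski
import Mathlib.NumberTheory.LSeries.PrimesInAP
import Mathlib.RingTheory.Polynomial.Cyclotomic.Basic
import Mathlib.FieldTheory.Galois.Infinite

/-!
# A cyclic character of `p`-power order totally ramified at an auxiliary prime

For a prime `q ≡ 1` modulo `n = p ^ k`, a surjection `(ℤ/q)ˣ → ℤ/n` composed with the cyclotomic
character gives `chi`, unramified outside `q`, with inertia at `q` surjective; its field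
`fixedChi` contains an element of norm `q`.
-/

set_option autoImplicit false
set_option linter.style.haveILetI false

noncomputable section

namespace Fermat.Agent.CFT.Idele

open ExtCitation Fermat.Agent.Arith
open scoped Pointwise

/-- An auxiliary prime for `n`, with a logarithm modulo it. -/
structure Aux (n : ℕ) where
  /-- The prime. -/
  q : Nat.Primes
  /-- The logarithm. -/
  log : (ZMod (q : ℕ))ˣ →* Multiplicative (ZMod n)
  surj : Function.Surjective log

/-- Auxiliary primes exist outside every finite set. -/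
theorem exists_aux (n : ℕ) [NeZero n] (S : Finset Nat.Primes) : ∃ a : Aux n, a.q ∉ S := by
  classical
  have hinf : {q : ℕ | q.Prime ∧ (q : ZMod n) = 1}.Infinite :=
    Nat.infinite_setOfPred_prime_and_eq_mod isUnit_one
  obtain ⟨q, ⟨hq, hqn⟩, hqS⟩ := (hinf.sdiff (S.image fun r : Nat.Primes => (r : ℕ)).finite_toSet).nonempty
  haveI : Fact q.Prime := ⟨hq⟩
  have hdvd : n ∣ q - 1 := by
    rw [← Nat.modEq_iff_dvd' hq.one_le]
    exact ((ZMod.natCast_eq_natCast_iff _ _ _).1 (by rw [hqn, Nat.cast_one])).symm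
  haveI : IsCyclic (ZMod q)ˣ := inferInstance
  have hc : Nat.card (ZMod q)ˣ = Nat.card (Multiplicative (ZMod (q - 1))) := by
    rw [Nat.card_congr Multiplicative.toAdd, Nat.card_zmod, Nat.card_eq_fintype_card,
      ZMod.card_units]
  let e := mulEquivOfCyclicCardEq hc
  let c : Multiplicative (ZMod (q - 1)) →* Multiplicative (ZMod n) :=
    AddMonoidHom.toMultiplicative (ZMod.castHom hdvd (ZMod n)).toAddMonoidHom
  have hsurj : Function.Surjective c := fun x => by
    obtain ⟨y, hy⟩ := ZMod.ringHom_surjective (ZMod.castHom hdvd (ZMod n)) x.toAdd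
    exact ⟨Multiplicative.ofAdd y, congrArg Multiplicative.ofAdd hy⟩
  refine ⟨⟨⟨q, hq⟩, c.comp e.toMonoidHom, hsurj.comp e.surjective⟩, fun h => hqS ?_⟩
  exact Finset.mem_coe.2 (Finset.mem_image.2 ⟨_, h, rfl⟩)

/-- A product over a group, fibred along a homomorphism with a section. -/
theorem prod_section_ker {U C R : Type*} [Group U] [Group C] [Fintype U] [Fintype C] [CommMonoid R]
    (φ : U →* C) [Fintype φ.ker] (u : C → U) (hu : ∀ c, φ (u c) = c) (f : U → R) :
    ∏ c, ∏ k : φ.ker, f (u c * k) = ∏ v, f v := by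
  rw [← Fintype.prod_prod_type']
  refine Fintype.prod_bijective (fun x : C × φ.ker => u x.1 * (x.2 : U))
    ⟨fun x y hxy => ?_, fun v => ?_⟩ _ _ fun _ => rfl
  · have hc : x.1 = y.1 := by
      have := congrArg φ hxy
      simpa [hu, MonoidHom.mem_ker.1 x.2.2, MonoidHom.mem_ker.1 y.2.2] using this
    refine Prod.ext hc (Subtype.ext ?_)
    simp only [hc] at hxy
    exact mul_left_cancel hxy
  · exact ⟨(φ v, ⟨(u (φ v))⁻¹ * v, by rw [MonoidHom.mem_ker, map_mul, map_inv, hu, inv_mul_cancel]⟩),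
      mul_inv_cancel_left _ _⟩

namespace Aux

variable {n : ℕ} (a : Aux n)

local instance factAux : Fact (a.q : ℕ).Prime := ⟨a.q.2⟩

/-- The cyclotomic character modulo `q`. -/
def cyc : GQ →* (ZMod (a.q : ℕ))ˣ where
  toFun g := modularCyclotomicCharacter QBar (IsAlgClosed.card_rootsOfUnity_eq QBar (a.q : ℕ))
    (g : QBar ≃+* QBar)
  map_one' := map_one (modularCyclotomicCharacter QBar
    (IsAlgClosed.card_rootsOfUnity_eq QBar (a.q : ℕ)))
  map_mul' g h := map_mul (modularCyclotomicCharacter QBar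
    (IsAlgClosed.card_rootsOfUnity_eq QBar (a.q : ℕ))) (g : QBar ≃+* QBar) (h : QBar ≃+* QBar)

/-- The character. -/
def chi : GQ →* Multiplicative (ZMod n) := a.log.comp a.cyc

/-- A prime to `q`, as a unit modulo `q`. -/
def unitOf {l : ℕ} (hl : ¬ (a.q : ℕ) ∣ l) : (ZMod (a.q : ℕ))ˣ :=
  ZMod.unitOfCoprime l (((a.q.2).coprime_iff_not_dvd.2 hl).symm)

theorem coe_unitOf {l : ℕ} (hl : ¬ (a.q : ℕ) ∣ l) :
    ((a.unitOf hl : (ZMod (a.q : ℕ))ˣ) : ZMod (a.q : ℕ)) = l := ZMod.coe_unitOfCoprime _ _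

theorem not_dvd_of_ne {l : Nat.Primes} (h : l ≠ a.q) : ¬ (a.q : ℕ) ∣ l := fun hd =>
  h (Subtype.ext ((Nat.prime_dvd_prime_iff_eq a.q.2 l.2).1 hd).symm)

theorem cyc_frob {l : Nat.Primes} (h : l ≠ a.q) {A : ValuationSubring QBar}
    (hA : A.LiesOverPrime l) {σ : GQ} (hσ : A.IsFrobeniusAt σ l) :
    a.cyc σ = a.unitOf (a.not_dvd_of_ne h) := by
  refine Units.ext ?_
  rw [coe_unitOf]
  exact modularCyclotomicCharacter_frobenius hA l.2 hσ _ fun hd =>
    h (Subtype.ext ((Nat.prime_dvd_prime_iff_eq l.2 a.q.2).1 hd))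

theorem chi_frob {l : Nat.Primes} (h : l ≠ a.q) {A : ValuationSubring QBar}
    (hA : A.LiesOverPrime l) {σ : GQ} (hσ : A.IsFrobeniusAt σ l) :
    a.chi σ = a.log (a.unitOf (a.not_dvd_of_ne h)) :=
  congrArg a.log (a.cyc_frob h hA hσ)

theorem cyc_surjective : Function.Surjective a.cyc := fun u => by
  obtain ⟨l, hgt, hl, hlu⟩ := Nat.forall_exists_prime_gt_and_eq_mod u.isUnit (a.q : ℕ)
  have hne : (⟨l, hl⟩ : Nat.Primes) ≠ a.q := fun h => by
    have := congrArg (fun r : Nat.Primes => (r : ℕ)) h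
    simp only at this
    omega
  obtain ⟨A, hA⟩ := exists_liesOverPrime hl
  obtain ⟨σ, hσ⟩ := exists_isFrobeniusAt hA hl
  exact ⟨σ, Units.ext (((congrArg Units.val (a.cyc_frob hne hA hσ)).trans
    (a.coe_unitOf _)).trans hlu)⟩

theorem chi_surjective : Function.Surjective a.chi := a.surj.comp a.cyc_surjective

theorem chi_inertia {l : Nat.Primes} (h : l ≠ a.q) {A : ValuationSubring QBar}
    (hA : A.LiesOverPrime l) {σ : GQ} (hσ : σ ∈ A.inertiaSubgroupIn ℚ) : a.chi σ = 1 := by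
  show a.log (a.cyc σ) = 1
  rw [show a.cyc σ = 1 from modularCyclotomicCharacter_inertia hA l.2 hσ _ fun hd =>
    h (Subtype.ext ((Nat.prime_dvd_prime_iff_eq l.2 a.q.2).1 hd)), map_one]

/-- A primitive `q`-th root of unity. -/
def zeta : QBar :=
  (HasEnoughRootsOfUnity.exists_primitiveRoot QBar (a.q : ℕ)).choose

theorem zeta_spec : IsPrimitiveRoot a.zeta (a.q : ℕ) :=
  (HasEnoughRootsOfUnity.exists_primitiveRoot QBar (a.q : ℕ)).choose_spec

theorem map_zeta (g : GQ) : g a.zeta = a.zeta ^ ((a.cyc g : (ZMod (a.q : ℕ))ˣ) : ZMod (a.q : ℕ)).val := by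
  obtain ⟨t, ht, hte⟩ : ∃ t : QBarˣ, t ∈ rootsOfUnity (a.q : ℕ) QBar ∧ (t : QBar) = a.zeta :=
    ⟨(a.zeta_spec.isUnit a.q.2.ne_zero).unit,
      (mem_rootsOfUnity' _ _).2 a.zeta_spec.pow_eq_one, rfl⟩
  have h := modularCyclotomicCharacter.spec QBar
    (IsAlgClosed.card_rootsOfUnity_eq QBar (a.q : ℕ)) (g : QBar ≃+* QBar) ht
  rw [← hte]
  exact h

theorem chi_eq_one_of_fix {g : GQ} (hg : g a.zeta = a.zeta) : a.chi g = 1 := by
  show a.log (a.cyc g) = 1
  rw [show a.cyc g = 1 from ?_, map_one]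
  refine Units.ext ?_
  have h := (a.map_zeta g).symm.trans hg
  conv_rhs at h => rw [← pow_one a.zeta]
  have := a.zeta_spec.pow_inj (ZMod.val_lt _) a.q.2.one_lt h
  rw [Units.val_one]
  exact ZMod.val_injective _ (this.trans (ZMod.val_one _).symm)

theorem isOpen_ker : IsOpen (a.chi.ker : Set GQ) :=
  haveI := IntermediateField.adjoin.finiteDimensional
    (Algebra.IsIntegral.isIntegral (R := ℚ) a.zeta)
  Subgroup.isOpen_mono
    (fun _ hg => MonoidHom.mem_ker.2 (a.chi_eq_one_of_fix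
      ((IntermediateField.mem_fixingSubgroup_iff _ _).1 hg _
        (IntermediateField.mem_adjoin_simple_self ℚ _))))
    (IntermediateField.fixingSubgroup_isOpen (IntermediateField.adjoin ℚ {a.zeta}))

/-- Inertia at `q` surjects. -/
theorem exists_inertia (c : Multiplicative (ZMod n)) :
    ∃ g ∈ (padicPlace (a.q : ℕ)).inertiaSubgroupIn ℚ, a.chi g = c := by
  set I := ((padicPlace (a.q : ℕ)).inertiaSubgroupIn ℚ).map a.chi
  have htop : I.comap a.chi = ⊤ := by
    refine eq_top_of_inertia_le _ (Subgroup.isOpen_mono (fun g hg => ?_) a.isOpen_ker) ?_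
    · rw [Subgroup.mem_comap, MonoidHom.mem_ker.1 hg]; exact one_mem _
    intro l hl A hA g hg
    rw [Subgroup.mem_comap]
    by_cases h : (⟨l, hl⟩ : Nat.Primes) = a.q
    · have hlq : l = (a.q : ℕ) := congrArg Subtype.val h
      subst hlq
      obtain ⟨g₀, rfl⟩ := exists_smul_eq (Local.padicPlace_liesOverPrime (a.q : ℕ)) hA hl
      refine ⟨g₀⁻¹ * g * g₀, ?_, ?_⟩
      · rw [SetLike.mem_coe, ← mem_inertia_smul_iff (g := g₀)]
        simpa [mul_assoc] using hg
      · simp [mul_comm, mul_left_comm]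
    · rw [a.chi_inertia h hA hg]; exact one_mem _
  obtain ⟨g, rfl⟩ := a.chi_surjective c
  have : g ∈ I.comap a.chi := htop ▸ Subgroup.mem_top g
  obtain ⟨h, hh, e⟩ := this
  exact ⟨h, hh, e⟩

/-- The cyclic field. -/
def fixedChi : IntermediateField ℚ QBar := IntermediateField.fixedField a.chi.ker

theorem fixingSubgroup_fixedChi : a.fixedChi.fixingSubgroup = a.chi.ker :=
  InfiniteGalois.fixingSubgroup_fixedField ⟨a.chi.ker, Subgroup.isClosed_of_isOpen _ a.isOpen_ker⟩

instance finiteDimensional_fixedChi : FiniteDimensional ℚ a.fixedChi :=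
  (InfiniteGalois.isOpen_iff_finite _).mp (by rw [fixingSubgroup_fixedChi]; exact a.isOpen_ker)

instance isGalois_fixedChi : IsGalois ℚ a.fixedChi :=
  (InfiniteGalois.normal_iff_isGalois _).mp (by rw [fixingSubgroup_fixedChi]; infer_instance)

theorem map_zeta_pow (g : GQ) (u : (ZMod (a.q : ℕ))ˣ) :
    g (a.zeta ^ (u : ZMod (a.q : ℕ)).val) =
      a.zeta ^ ((a.cyc g * u : (ZMod (a.q : ℕ))ˣ) : ZMod (a.q : ℕ)).val := by
  rw [map_pow, a.map_zeta, ← pow_mul, Units.val_mul, ZMod.val_mul, ← pow_mod_orderOf,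
    ← a.zeta_spec.eq_orderOf]

/-- An element of the cyclic field of norm `q`. -/
def normQ : QBar :=
  letI := Fintype.ofFinite a.log.ker
  ∏ u : a.log.ker, (1 - a.zeta ^ ((u : (ZMod (a.q : ℕ))ˣ) : ZMod (a.q : ℕ)).val)

theorem normQ_mem : a.normQ ∈ a.fixedChi := by
  letI := Fintype.ofFinite a.log.ker
  refine (IntermediateField.mem_fixedField_iff _ _).2 fun g hg => ?_
  show g (∏ u : a.log.ker, _) = ∏ u : a.log.ker, _
  rw [map_prod]
  refine Fintype.prod_equiv (Equiv.mulLeft (⟨a.cyc g, hg⟩ : a.log.ker)) _ _ fun u => ?_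
  rw [map_sub, map_one, map_zeta_pow]
  rfl

set_option maxHeartbeats 1000000 in
/-- The norm of `normQ` is `q`. -/
theorem prod_normQ [Fintype (Multiplicative (ZMod n))] (s : Multiplicative (ZMod n) → GQ)
    (hs : ∀ c, a.chi (s c) = c) : ∏ c, s c a.normQ = (a.q : ℕ) := by
  classical
  letI := Fintype.ofFinite a.log.ker
  have h1 : ∀ c, s c a.normQ =
      ∏ u : a.log.ker, (fun v : (ZMod (a.q : ℕ))ˣ => 1 - a.zeta ^ (v : ZMod (a.q : ℕ)).val)
        (a.cyc (s c) * u) := fun c => by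
    show s c (∏ u : a.log.ker, _) = _
    rw [map_prod]
    exact Finset.prod_congr rfl fun u _ => by rw [map_sub, map_one, map_zeta_pow]
  rw [Finset.prod_congr rfl fun c _ => h1 c,
    prod_section_ker a.log (fun c => a.cyc (s c)) hs
      (fun v : (ZMod (a.q : ℕ))ˣ => 1 - a.zeta ^ (v : ZMod (a.q : ℕ)).val)]
  haveI := a.q.2.two_le
  have hev := Polynomial.eval_one_cyclotomic_prime (R := QBar) (p := (a.q : ℕ))
  rw [Polynomial.cyclotomic_eq_prod_X_sub_primitiveRoots a.zeta_spec, Polynomial.eval_prod] at hev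
  rw [← hev]
  simp only [Polynomial.eval_sub, Polynomial.eval_X, Polynomial.eval_C]
  refine Finset.prod_bij (fun (u : (ZMod (a.q : ℕ))ˣ) _ => a.zeta ^ (u : ZMod (a.q : ℕ)).val)
    (fun u _ => ?_) (fun u _ v _ h => ?_) (fun x hx => ?_) fun u _ => rfl
  · rw [mem_primitiveRoots a.q.2.pos]
    exact a.zeta_spec.pow_of_coprime _ (ZMod.val_coe_unit_coprime u)
  · exact Units.ext (ZMod.val_injective _ (a.zeta_spec.pow_inj (ZMod.val_lt _) (ZMod.val_lt _) h))
  · rw [mem_primitiveRoots a.q.2.pos] at hx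
    obtain ⟨i, hi, hic, rfl⟩ := (a.zeta_spec.isPrimitiveRoot_iff).1 hx
    exact ⟨ZMod.unitOfCoprime i hic, Finset.mem_univ _, by
      rw [ZMod.coe_unitOfCoprime, ZMod.val_natCast, Nat.mod_eq_of_lt hi]⟩

end Aux

end Fermat.Agent.CFT.Idele
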