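import Fermat.Agent.CFT.Idele.Herbrand
import Mathlib.RingTheory.Polynomial.Cyclotomic.Roots
import Mathlib.RingTheory.RootsOfUnity.Complex
import Mathlib.RingTheory.RootsOfUnity.Lemmas
import Mathlib.LinearAlgebra.FreeModule.Finite.Basic
import Mathlib.LinearAlgebra.Dimension.RankNullity
import Mathlib.LinearAlgebra.Dimension.Localization
import Mathlib.RingTheory.Finiteness.Basic
import Mathlib.LinearAlgebra.FreeModule.PID
import Mathlib.GroupTheory.IndexNSmul
import Mathlib.Algebra.Field.ZMod
import Mathlib.Algebra.CharP.Lemmas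
import Mathlib.FieldTheory.Minpoly.IsIntegrallyClosed

/-!
# The Herbrand quotient of a lattice with an automorphism of prime order
-/

set_option autoImplicit false

noncomputable section

namespace Fermat.Agent.CFT.Idele

open Polynomial

variable {p : ℕ} [hp : Fact p.Prime]

/-- `1 + X + ⋯ + X^(p-1)`. -/
def cycPoly (p : ℕ) : ℤ[X] := ∑ i ∈ Finset.range p, X ^ i

theorem exists_eq_pow_mul_add :
    ∃ U W : ℤ[X], C (p : ℤ) = (X - 1) ^ (p - 1) * U + cycPoly p * W := by
  have hp1 : 1 < p := hp.out.one_lt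
  set U₀ : ℤ[X] := ∏ i ∈ Finset.range (p - 1), ∑ j ∈ Finset.range (i + 1), X ^ j
  set ζ : ℂ := Complex.exp (2 * Real.pi * Complex.I / p)
  have hζ : IsPrimitiveRoot ζ p := Complex.isPrimitiveRoot_exp p hp.out.ne_zero
  have hdiv : cycPoly p ∣ C (p : ℤ) - (-1) ^ (p - 1) * ((X - 1) ^ (p - 1) * U₀) := by
    have hc : cycPoly p = cyclotomic p ℤ := (cyclotomic_prime ℤ p).symm
    rw [hc, cyclotomic_eq_minpoly hζ hp.out.pos]
    refine minpoly.isIntegrallyClosed_dvd (hζ.isIntegral hp.out.pos) ?_
    have hprod := (show IsPrimitiveRoot ζ ((p - 1) + 1) by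
      rwa [Nat.sub_add_cancel hp1.le]).prod_one_sub_pow_eq_order
    have hfac : ∀ i : ℕ, (1 : ℂ) - ζ ^ (i + 1) =
        -1 * ((ζ - 1) * ∑ j ∈ Finset.range (i + 1), ζ ^ j) := fun i => by
      rw [mul_geom_sum]; ring
    simp only [hfac, Finset.prod_mul_distrib, Finset.prod_const, Finset.card_range] at hprod
    simp only [map_sub, map_mul, map_pow, map_neg, map_one, map_prod, map_sum, aeval_X, U₀,
      eq_intCast, Int.cast_natCast]
    rw [hprod, Nat.cast_sub hp1.le] at *
    simp
  obtain ⟨W, hW⟩ := hdiv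
  exact ⟨(-1) ^ (p - 1) * U₀, W, by linear_combination hW⟩

theorem exists_pow_eq_C_mul_add :
    ∃ R : ℤ[X], (X - 1) ^ (p - 1) = C (p : ℤ) * R + cycPoly p := by
  have hmap : ((X - 1) ^ (p - 1) - cycPoly p).map (Int.castRingHom (ZMod p)) = 0 := by
    have hX : (X - 1 : (ZMod p)[X]) ≠ 0 := by
      simpa using X_sub_C_ne_zero (1 : ZMod p)
    apply mul_right_cancel₀ hX
    simp only [cycPoly, Polynomial.map_sub, Polynomial.map_pow, Polynomial.map_X, Polynomial.map_one,
      Polynomial.map_sum, zero_mul, sub_mul, geom_sum_mul, ← pow_succ]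
    rw [Nat.sub_add_cancel hp.out.one_le, sub_pow_char]
    simp
  have hdvd : C (p : ℤ) ∣ (X - 1) ^ (p - 1) - cycPoly p := by
    rw [C_dvd_iff_dvd_coeff]
    intro i
    rw [← ZMod.intCast_zmod_eq_zero_iff_dvd]
    have h := congrArg (fun f : (ZMod p)[X] => f.coeff i) hmap
    simp only [coeff_map, coeff_zero] at h
    exact h
  obtain ⟨R, hR⟩ := hdvd
  exact ⟨R, by linear_combination hR⟩

section Lattice

variable {V : Type*} [AddCommGroup V]

/-- `s - 1`. -/
def diffEnd (s : Module.End ℤ V) : Module.End ℤ V := s - 1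

/-- `1 + s + ⋯ + s^(p-1)`. -/
def sumEnd (p : ℕ) (s : Module.End ℤ V) : Module.End ℤ V := ∑ i ∈ Finset.range p, s ^ i

omit hp in
theorem aeval_cycPoly (s : Module.End ℤ V) : aeval s (cycPoly p) = sumEnd p s := by
  simp [cycPoly, sumEnd]

omit hp in
theorem sumEnd_mul_diff {s : Module.End ℤ V} (hs : s ^ p = 1) :
    sumEnd p s * diffEnd s = 0 ∧ diffEnd s * sumEnd p s = 0 := by
  simp [sumEnd, diffEnd, geom_sum_mul, mul_geom_sum, hs]

/-- `[V : (s-1)V] ^ (p-1) = p ^ rank` when `s - 1` is injective. -/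
theorem index_range_diff [Module.Free ℤ V] [Module.Finite ℤ V] {s : Module.End ℤ V}
    (hN : sumEnd p s = 0) (hd : Function.Injective (diffEnd s)) :
    (LinearMap.range (diffEnd s)).toAddSubgroup.index ^ (p - 1) =
      p ^ Module.finrank ℤ V := by
  classical
  set f := diffEnd s
  set I : ℕ → AddSubgroup V := fun k => (LinearMap.range (f ^ k)).toAddSubgroup
  have hsucc : ∀ k, (I (k + 1)).index = (I k).index * (LinearMap.range f).toAddSubgroup.index := by
    intro k
    have hinj : Function.Injective ((f ^ k).toAddMonoidHom) := by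
      show Function.Injective ⇑(f ^ k)
      induction k with
      | zero => exact Function.injective_id
      | succ k ih => rw [pow_succ, Module.End.coe_mul]; exact ih.comp hd
    have e : I (k + 1) = (LinearMap.range f).toAddSubgroup.map (f ^ k).toAddMonoidHom := by
      ext x; simp [I, pow_succ, Module.End.mul_apply]
    rw [e, AddSubgroup.index_map_of_injective _ hinj, mul_comm]
    congr 1
  have hpow : ∀ k, (I k).index = (LinearMap.range f).toAddSubgroup.index ^ k := by
    intro k
    induction k with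
    | zero => simp [I, AddSubgroup.index_eq_one, AddSubgroup.ext_iff]
    | succ k ih => rw [hsucc, ih, pow_succ]
  rw [← hpow]
  obtain ⟨U, W, hU⟩ := exists_eq_pow_mul_add (p := p)
  obtain ⟨R, hR⟩ := exists_pow_eq_C_mul_add (p := p)
  have hU' : ∀ v, (p : ℤ) • v = (f ^ (p - 1)) (aeval s U v) := fun v => by
    have := congrArg (fun g => aeval s g v) hU
    simpa [map_add, map_mul, map_pow, aeval_cycPoly, hN, f, diffEnd] using this
  have hR' : ∀ v, (f ^ (p - 1)) v = (p : ℤ) • aeval s R v := fun v => by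
    have := congrArg (fun g => aeval s g v) hR
    simpa [map_add, map_mul, map_pow, aeval_cycPoly, hN, f, diffEnd] using this
  have e : I (p - 1) = (nsmulAddMonoidHom (α := V) p).range := by
    ext x
    simp only [I, Submodule.mem_toAddSubgroup, LinearMap.mem_range, AddMonoidHom.mem_range,
      nsmulAddMonoidHom_apply, ← natCast_zsmul]
    exact ⟨fun ⟨v, hv⟩ => ⟨aeval s R v, by rw [← hR', hv]⟩,
      fun ⟨v, hv⟩ => ⟨aeval s U v, by rw [← hU', hv]⟩⟩
  rw [e]
  exact AddSubgroup.index_range_nsmul V p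

/-- The endomorphism of `Multiplicative V` attached to an endomorphism of `V`. -/
def mulEnd (f : Module.End ℤ V) : Multiplicative V →* Multiplicative V :=
  AddMonoidHom.toMultiplicative f.toAddMonoidHom

/-- The index of `(s-1)V + V^s`. -/
theorem index_sup_ker [Module.Free ℤ V] [Module.Finite ℤ V] {s : Module.End ℤ V}
    (hN1 : ∀ v, diffEnd s v ∈ LinearMap.ker (diffEnd s) → diffEnd s v = 0)
    (hdN0 : diffEnd s * sumEnd p s = 0) :
    (LinearMap.range (diffEnd s) ⊔ LinearMap.ker (diffEnd s)).toAddSubgroup.index ^ (p - 1) =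
      p ^ (Module.finrank ℤ V - Module.finrank ℤ (LinearMap.ker (diffEnd s))) := by
  set K := LinearMap.ker (diffEnd s) with hK
  let s' : Module.End ℤ (V ⧸ K) := K.mapQ K s (fun v hv => by
    have : s v = v := sub_eq_zero.1 (show s v - v = 0 from LinearMap.mem_ker.1 hv)
    show s v ∈ K; rw [this]; exact hv)
  have hs' : ∀ i v, (s' ^ i) (Submodule.Quotient.mk v) = Submodule.Quotient.mk ((s ^ i) v) :=
    fun i => by
      induction i with
      | zero => intro v; rfl
      | succ i ih =>
        intro v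
        rw [pow_succ, Module.End.mul_apply, Submodule.mapQ_apply, ih, pow_succ,
          Module.End.mul_apply]
  have hN' : sumEnd p s' = 0 := by
    refine LinearMap.ext fun x => ?_
    induction x using Submodule.Quotient.induction_on with
    | H v =>
      rw [sumEnd, LinearMap.sum_apply, LinearMap.zero_apply]
      simp only [hs']
      refine ((map_sum K.mkQ _ _).symm.trans ?_)
      rw [Submodule.mkQ_apply, Submodule.Quotient.mk_eq_zero, ← LinearMap.sum_apply]
      exact LinearMap.congr_fun hdN0 v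
  have hd' : ∀ v, diffEnd s' (Submodule.Quotient.mk v) =
      Submodule.Quotient.mk (diffEnd s v) := fun v => rfl
  have : Module.IsTorsionFree ℤ (V ⧸ K) := by
    refine Module.isTorsionFree_iff_smul_eq_zero.2 fun c x hx => ?_
    induction x using Submodule.Quotient.induction_on with
    | H v =>
      rw [← Submodule.Quotient.mk_smul, Submodule.Quotient.mk_eq_zero, hK, LinearMap.mem_ker,
        map_smul, smul_eq_zero] at hx
      rw [Submodule.Quotient.mk_eq_zero, hK, LinearMap.mem_ker]
      exact hx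
  have hinj' : Function.Injective (diffEnd s') := by
    rw [injective_iff_map_eq_zero]
    intro x hx
    induction x using Submodule.Quotient.induction_on with
    | H v =>
      rw [hd', Submodule.Quotient.mk_eq_zero] at hx
      rw [Submodule.Quotient.mk_eq_zero, hK, LinearMap.mem_ker]
      exact hN1 v hx
  have hfin : Module.finrank ℤ (V ⧸ K) = Module.finrank ℤ V - Module.finrank ℤ K :=
    Nat.eq_sub_of_add_eq (Submodule.finrank_quotient_add_finrank K)
  rw [← hfin, ← index_range_diff (p := p) hN' hinj']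
  congr 1
  have e : (LinearMap.range (diffEnd s) ⊔ K).toAddSubgroup =
      (LinearMap.range (diffEnd s')).toAddSubgroup.comap K.mkQ.toAddMonoidHom := by
    ext x
    constructor
    · intro hx
      obtain ⟨_, ⟨v, rfl⟩, w, hw, rfl⟩ := Submodule.mem_sup.1 hx
      refine ⟨Submodule.Quotient.mk v, ?_⟩
      rw [hd']
      show _ = Submodule.Quotient.mk (diffEnd s v + w)
      rw [Submodule.Quotient.mk_add, (Submodule.Quotient.mk_eq_zero K).2 hw, add_zero]
    · rintro ⟨z, hz⟩
      induction z using Submodule.Quotient.induction_on with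
      | H v =>
        rw [hd'] at hz
        have hmem := (Submodule.Quotient.eq K).1 hz
        exact Submodule.mem_sup.2 ⟨_, ⟨v, rfl⟩, x - diffEnd s v, by simpa using neg_mem hmem,
          by abel⟩
  rw [e]
  exact AddSubgroup.index_comap_of_surjective _ K.mkQ_surjective

/-- The Herbrand quotient of a lattice: `a₀^(p-1) p^r = p^(p r₀) a₁^(p-1)`. -/
theorem herbrand_lattice [Module.Free ℤ V] [Module.Finite ℤ V] {s : Module.End ℤ V}
    (hs : s ^ p = 1) :
    ind0 (mulEnd (diffEnd s)) (mulEnd (sumEnd p s)) ^ (p - 1) * p ^ Module.finrank ℤ V =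
      p ^ (p * Module.finrank ℤ (LinearMap.ker (diffEnd s))) *
        ind0 (mulEnd (sumEnd p s)) (mulEnd (diffEnd s)) ^ (p - 1) := by
  classical
  obtain ⟨hNd0, hdN0⟩ := sumEnd_mul_diff hs
  set d := diffEnd s with hddef
  set N := sumEnd p s with hNdef
  have hdN : ∀ x, mulEnd d (mulEnd N x) = 1 := fun x =>
    congrArg Multiplicative.ofAdd (LinearMap.congr_fun hdN0 x.toAdd)
  have hNd : ∀ x, mulEnd N (mulEnd d x) = 1 := fun x =>
    congrArg Multiplicative.ofAdd (LinearMap.congr_fun hNd0 x.toAdd)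
  have hp0 : (p : ℤ) ≠ 0 := by exact_mod_cast hp.out.ne_zero
  -- on the invariants the norm is multiplication by `p`
  have hfix : ∀ v ∈ LinearMap.ker d, N v = (p : ℤ) • v := by
    intro v hv
    have h1 : s v = v := sub_eq_zero.1 (show s v - v = 0 from LinearMap.mem_ker.1 hv)
    have hi : ∀ i : ℕ, (s ^ i) v = v := fun i => by
      induction i with
      | zero => rfl
      | succ i ih => rw [pow_succ, Module.End.mul_apply, h1, ih]
    simp [hNdef, sumEnd, hi, natCast_zsmul]
  have hinj : ∀ v : V, (p : ℤ) • v = 0 → v = 0 := fun v hv =>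
    (smul_eq_zero.1 hv).resolve_left hp0
  have hN1 : ∀ v, d v ∈ LinearMap.ker d → d v = 0 := by
    intro v hv
    refine hinj _ ((hfix _ hv).symm.trans ?_)
    exact LinearMap.congr_fun hNd0 v
  set B : Subgroup (Multiplicative V) := (mulEnd d).ker
  have hmemB : ∀ x, x ∈ B ↔ x.toAdd ∈ LinearMap.ker d := fun x =>
    ⟨fun h => congrArg Multiplicative.toAdd h, fun h => congrArg Multiplicative.ofAdd h⟩
  have hdB : B.map (mulEnd d) ≤ B := by
    rintro _ ⟨x, hx, rfl⟩; rw [MonoidHom.mem_ker.1 hx]; exact one_mem _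
  have hNB : B.map (mulEnd N) ≤ B := by
    rintro _ ⟨x, -, rfl⟩; exact hdN x
  have hmapd : B.map (mulEnd d) = ⊥ := (Subgroup.map_eq_bot_iff B).2 le_rfl
  have key := herbrand_mul (mulEnd d) (mulEnd N) hdN hNd B hdB hNB
  -- the four indices
  have hQ0 : ind0Quot (mulEnd d) (mulEnd N) B = 1 := by
    rw [ind0Quot, Subgroup.relIndex_eq_one]
    intro x hx
    refine Subgroup.mem_sup_right ((hmemB x).2 ?_)
    exact LinearMap.mem_ker.2 (hN1 _ ((hmemB _).1 hx))
  have hS1 : ind0Sub (mulEnd N) (mulEnd d) B = 1 := by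
    rw [ind0Sub, hmapd, Subgroup.relIndex_eq_one]
    rintro x ⟨hx, hx'⟩
    have h0 : N x.toAdd = 0 := congrArg Multiplicative.toAdd hx'
    rw [hfix _ ((hmemB x).1 hx)] at h0
    exact Subgroup.mem_bot.2 (congrArg Multiplicative.ofAdd (hinj _ h0))
  have hS0 : ind0Sub (mulEnd d) (mulEnd N) B = p ^ Module.finrank ℤ (LinearMap.ker d) := by
    rw [ind0Sub, show B ⊓ (mulEnd d).ker = B from inf_idem B,
      show B.map (mulEnd N) = AddSubgroup.toSubgroup
        ((LinearMap.ker d).toAddSubgroup.map (nsmulAddMonoidHom p)) by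
        ext x
        constructor
        · rintro ⟨y, hy, rfl⟩
          exact ⟨y.toAdd, (hmemB y).1 hy, by
            show p • y.toAdd = N y.toAdd
            rw [hfix _ ((hmemB y).1 hy), natCast_zsmul]⟩
        · rintro ⟨y, hy, hxy⟩
          refine ⟨Multiplicative.ofAdd y, (hmemB _).2 hy, ?_⟩
          show Multiplicative.ofAdd (N y) = x
          rw [hfix _ hy, natCast_zsmul]
          exact congrArg Multiplicative.ofAdd hxy,
      show B = AddSubgroup.toSubgroup (LinearMap.ker d).toAddSubgroup from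
        Subgroup.ext fun x => hmemB x,
      AddSubgroup.relIndex_toSubgroup]
    exact AddSubgroup.relIndex_map_nsmul p _
  -- the quotient by the invariants
  set m := ind0Quot (mulEnd N) (mulEnd d) B with hm
  have hmpow : m ^ (p - 1) =
      p ^ (Module.finrank ℤ V - Module.finrank ℤ (LinearMap.ker d)) := by
    rw [← index_sup_ker hN1 hdN0, hm, ind0Quot,
      show B.comap (mulEnd N) = ⊤ from eq_top_iff.2 fun x _ => hdN x, Subgroup.relIndex_top_right,
      show (mulEnd d).range ⊔ B = AddSubgroup.toSubgroup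
        (LinearMap.range d ⊔ LinearMap.ker d).toAddSubgroup by
        ext x
        rw [Subgroup.mem_sup]
        constructor
        · rintro ⟨_, ⟨y, rfl⟩, b, hb, rfl⟩
          show (mulEnd d y * b).toAdd ∈ LinearMap.range d ⊔ LinearMap.ker d
          exact Submodule.mem_sup.2 ⟨_, ⟨y.toAdd, rfl⟩, _, (hmemB b).1 hb, rfl⟩
        · intro hx
          obtain ⟨_, ⟨v, rfl⟩, w, hw, hvw⟩ := Submodule.mem_sup.1 (show x.toAdd ∈ LinearMap.range d ⊔ LinearMap.ker d from hx)
          exact ⟨_, ⟨Multiplicative.ofAdd v, rfl⟩, Multiplicative.ofAdd w, (hmemB _).2 hw,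
            congrArg Multiplicative.ofAdd hvw⟩,
      AddSubgroup.index_toSubgroup]
  rw [hQ0, hS0, hS1, one_mul, mul_one] at key
  -- `key : p^r₀ * a₁ = m * a₀`
  set r := Module.finrank ℤ V
  set r0 := Module.finrank ℤ (LinearMap.ker d)
  have hle : r0 ≤ r := Submodule.finrank_le _
  have key' := congrArg (· ^ (p - 1)) key
  simp only [mul_pow, hmpow, ← pow_mul] at key'
  apply mul_left_cancel₀ (pow_ne_zero (r - r0) hp.out.ne_zero)
  have e1 : r0 * (p - 1) + r0 = p * r0 := by
    rw [← Nat.mul_succ, mul_comm]; congr 1; have := hp.out.pos; omega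
  have e2 : p ^ r = p ^ (r - r0) * p ^ r0 := by rw [← pow_add, Nat.sub_add_cancel hle]
  have e3 : p ^ (p * r0) = p ^ (r0 * (p - 1)) * p ^ r0 := by rw [← pow_add, e1]
  rw [e2, e3]
  linear_combination (p ^ (r - r0) * p ^ r0) * key'.symm

end Lattice

end Fermat.Agent.CFT.Idele
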