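import Fermat.Agent.CFT.Idele.Bridge
import Fermat.Agent.CFT.Idele.Lattice
import Mathlib.GroupTheory.FiniteAbelian.Basic
import Mathlib.GroupTheory.Torsion
import Mathlib.LinearAlgebra.Dimension.Torsion.Finite

/-!
# The Herbrand quotient of a finitely generated group of units
-/

set_option autoImplicit false
set_option linter.style.haveILetI false

noncomputable section

namespace Fermat.Agent.CFT.Idele

open Subgroup

/-- A homomorphism with torsion kernel does not decrease the rank. -/
theorem finrank_le_of_torsion_ker {M M' : Type*} [AddCommGroup M] [AddCommGroup M']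
    [Module.Finite ℤ M] [Module.Finite ℤ M'] (f : M →+ M')
    (h : ∀ x, f x = 0 → ∃ n : ℕ, 0 < n ∧ n • x = 0) :
    Module.finrank ℤ M ≤ Module.finrank ℤ M' := by
  set g := f.toIntLinearMap
  have hk : Module.finrank ℤ (LinearMap.ker g) = 0 := by
    refine Module.finrank_eq_zero_iff_isTorsion.2 fun {x} => ?_
    obtain ⟨n, hn, hx⟩ := h x.1 (LinearMap.mem_ker.1 x.2)
    refine ⟨⟨(n : ℤ), mem_nonZeroDivisors_iff_ne_zero.2 (by exact_mod_cast hn.ne')⟩, ?_⟩
    refine Subtype.ext ?_
    show (n : ℤ) • (x : M) = 0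
    rw [natCast_zsmul]; exact hx
  have := Submodule.finrank_quotient_add_finrank (LinearMap.ker g)
  rw [hk, add_zero, LinearEquiv.finrank_eq g.quotKerEquivRange] at this
  rw [← this]
  exact Submodule.finrank_le _

/-- Subgroups of finitely generated commutative groups are finitely generated. -/
theorem fg_sub {G : Type*} [CommGroup G] [Group.FG G] (S : Subgroup G) : Group.FG S := by
  haveI : AddGroup.FG (Additive G) := AddGroup.fg_of_group_fg
  haveI : Module.Finite ℤ (Additive G) := Module.Finite.iff_addGroup_fg.mpr inferInstance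
  rw [Group.fg_iff_subgroup_fg, Subgroup.fg_iff_add_fg]
  exact (Submodule.fg_iff_addSubgroup_fg _).1
    (IsNoetherian.noetherian (AddSubgroup.toIntSubmodule (Subgroup.toAddSubgroup S)))

variable {A : Type*} [CommGroup A]

/-- Subgroups of a finitely generated subgroup are finitely generated. -/
theorem fg_of_le {S W : Subgroup A} (h : S ≤ W) [hW : Group.FG W] : Group.FG S := by
  haveI : Group.FG (S.subgroupOf W) := fg_sub _
  exact Group.fg_of_surjective (f := (subgroupOfEquivOfLe h).toMonoidHom)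
    (subgroupOfEquivOfLe h).surjective

theorem module_finite_of_fg {W : Subgroup A} [Group.FG W] : Module.Finite ℤ (Additive W) :=
  Module.Finite.iff_addGroup_fg.mpr AddGroup.fg_of_group_fg

/-- The `n`-th powers have finite index in a finitely generated group. -/
theorem relIndex_map_pow_ne_zero (W : Subgroup A) [Group.FG W] {n : ℕ} (hn : 0 < n) :
    (W.map (powMonoidHom n)).relIndex W ≠ 0 := by
  have h : Finite (W ⧸ (W.map (powMonoidHom n)).subgroupOf W) := by
    refine CommGroup.finite_of_fg_isMulTorsion _ fun x => isOfFinOrder_iff_pow_eq_one.2 ⟨n, hn, ?_⟩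
    induction x using QuotientGroup.induction_on with
    | H y => exact (QuotientGroup.eq_one_iff _).2 ⟨y, y.2, rfl⟩
  exact Subgroup.index_ne_zero_of_finite

variable {p : ℕ} [hp : Fact p.Prime] (d N σ : A →* A) (W : Subgroup A) [Group.FG W]

/-- The Herbrand quotient of a finitely generated group with a given rank of invariants. -/
theorem herbrand_fg (hp2 : 2 < p) (hdef : ∀ x, d x = σ x / x)
    (hNdef : ∀ x, N x = ∏ i ∈ Finset.range p, σ^[i] x) (hσp : ∀ x, σ^[p] x = x)
    (hdN : ∀ x, d (N x) = 1) (hNd : ∀ x, N (d x) = 1) (hσW : W.map σ ≤ W)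
    (hrank : Module.finrank ℤ (Additive W) + 1 =
      p * (Module.finrank ℤ (Additive ↥(W ⊓ d.ker)) + 1)) :
    ind0Sub N d W = p * ind0Sub d N W ∧ ind0Sub d N W ≠ 0 := by
  classical
  have hσi : ∀ (i : ℕ) {x : A}, x ∈ W → σ^[i] x ∈ W := fun i x hx => by
    induction i with
    | zero => exact hx
    | succ i ih => rw [Function.iterate_succ_apply']; exact hσW ⟨_, ih, rfl⟩
  have hdW : W.map d ≤ W := by
    rintro _ ⟨x, hx, rfl⟩; rw [hdef]; exact div_mem (hσW ⟨x, hx, rfl⟩) hx
  have hNW : W.map N ≤ W := by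
    rintro _ ⟨x, hx, rfl⟩; rw [hNdef]; exact Subgroup.prod_mem _ fun i _ => hσi i hx
  have hfixN : ∀ x, d x = 1 → N x = x ^ p := fun x hx => by
    rw [hdef, div_eq_one] at hx
    rw [hNdef]
    have : ∀ i, σ^[i] x = x := fun i => Function.iterate_fixed hx i
    simp [this]
  haveI : Group.FG ↥(W ⊓ d.ker) := fg_of_le (inf_le_left : W ⊓ d.ker ≤ W)
  have hs0 : ind0Sub d N W ≠ 0 := fun h => by
    refine relIndex_map_pow_ne_zero (W ⊓ d.ker) hp.out.pos (relIndex_eq_zero_of_le_left ?_ h)
    rintro _ ⟨x, ⟨hx, hdx⟩, rfl⟩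
    exact ⟨x, hx, hfixN x hdx⟩
  refine ⟨?_, hs0⟩
  -- a torsion free stable subgroup of finite index
  haveI : Finite (CommGroup.torsion W) := by
    haveI : Group.FG (CommGroup.torsion W) := fg_sub _
    refine CommGroup.finite_of_fg_isMulTorsion _ fun x => ?_
    exact Submonoid.isOfFinOrder_coe.1 ((CommGroup.mem_torsion _).1 x.2)
  set w := Nat.card (CommGroup.torsion W) with hwdef
  have hw : 0 < w := Nat.card_pos
  have hwt : ∀ x ∈ W, ∀ n : ℕ, 0 < n → x ^ n = 1 → x ^ w = 1 := fun x hx n hn hxn => by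
    have hmem : (⟨x, hx⟩ : W) ∈ CommGroup.torsion W := (CommGroup.mem_torsion _).2
      (isOfFinOrder_iff_pow_eq_one.2 ⟨n, hn, Subtype.ext hxn⟩)
    exact congrArg (fun z => ((z : CommGroup.torsion W) : W).1)
      (pow_card_eq_one' (x := (⟨_, hmem⟩ : CommGroup.torsion W)))
  set W' := W.map (powMonoidHom w) with hW'
  have hle : W' ≤ W := by rintro _ ⟨x, hx, rfl⟩; exact pow_mem hx w
  have hstab : ∀ f : A →* A, W.map f ≤ W → W'.map f ≤ W' := by
    rintro f hf _ ⟨_, ⟨x, hx, rfl⟩, rfl⟩
    exact ⟨f x, hf ⟨x, hx, rfl⟩, (map_pow f x w).symm⟩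
  have hdW' := hstab d hdW
  have hNW' := hstab N hNW
  have hσW' := hstab σ hσW
  haveI : Group.FG W' := fg_of_le hle
  haveI : Module.Finite ℤ (Additive W') := module_finite_of_fg
  haveI : Module.IsTorsionFree ℤ (Additive W') := by
    refine Module.isTorsionFree_iff_smul_eq_zero.2 fun c v hcv => ?_
    by_cases hc : c = 0
    · exact Or.inl hc
    right
    obtain ⟨x, hx, hxv⟩ := v.toMul.2
    have h1 : ((v.toMul : W') : A) ^ c.natAbs = 1 := by
      have h2 : ((v.toMul : W') : A) ^ c = 1 :=
        congrArg (fun z : Additive W' => ((z.toMul : W') : A)) hcv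
      rcases Int.natAbs_eq c with e | e <;> rw [e] at h2
      · rwa [zpow_natCast] at h2
      · rwa [zpow_neg, inv_eq_one, zpow_natCast] at h2
    change x ^ w = _ at hxv
    rw [← hxv, ← pow_mul] at h1
    refine Additive.toMul.injective (Subtype.ext ?_)
    rw [← hxv]
    exact hwt x hx (w * c.natAbs) (Nat.mul_pos hw (Int.natAbs_pos.2 hc)) h1
  haveI : Module.Free ℤ (Additive W') := Module.free_of_finite_type_torsion_free'
  let s : Module.End ℤ (Additive W') :=
    (MonoidHom.toAdditive (restrEnd σ W' hσW')).toIntLinearMap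
  have hsi : ∀ (i : ℕ) (v : Additive W'), (((s ^ i) v).toMul : A) = σ^[i] (v.toMul : A) := by
    intro i
    induction i with
    | zero => intro v; rfl
    | succ i ih =>
      intro v
      rw [pow_succ', Module.End.mul_apply, Function.iterate_succ_apply', ← ih]
      rfl
  have hs : s ^ p = 1 := LinearMap.ext fun v =>
    Additive.toMul.injective (Subtype.ext ((hsi p v).trans (hσp _)))
  have ed : ∀ v : Additive W', ((diffEnd s v).toMul : A) = d (v.toMul : A) := fun v => by
    rw [hdef, diffEnd, LinearMap.sub_apply, Module.End.one_apply, toMul_sub]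
    rfl
  have eN : ∀ v : Additive W', ((sumEnd p s v).toMul : A) = N (v.toMul : A) := fun v => by
    rw [hNdef, sumEnd, LinearMap.sum_apply, toMul_sum, Subgroup.val_finsetProd]
    exact Finset.prod_congr rfl fun i _ => hsi i v
  -- indices of the lattice
  have emd : (mulEnd (diffEnd s) : W' →* W') = restrEnd d W' hdW' :=
    MonoidHom.ext fun x => Subtype.ext (ed (Additive.ofMul x))
  have emN : (mulEnd (sumEnd p s) : W' →* W') = restrEnd N W' hNW' :=
    MonoidHom.ext fun x => Subtype.ext (eN (Additive.ofMul x))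
  have hlat := herbrand_lattice (p := p) hs
  have e0 : ind0 (mulEnd (diffEnd s)) (mulEnd (sumEnd p s)) = ind0Sub d N W' := by
    rw [← ind0_restrEnd d N hdW' hNW', ← emd, ← emN]; rfl
  have e1 : ind0 (mulEnd (sumEnd p s)) (mulEnd (diffEnd s)) = ind0Sub N d W' := by
    rw [← ind0_restrEnd N d hNW' hdW', ← emd, ← emN]; rfl
  -- the ranks
  haveI := module_finite_of_fg (W := W)
  haveI := module_finite_of_fg (W := W ⊓ d.ker)
  have hr : Module.finrank ℤ (Additive W') = Module.finrank ℤ (Additive W) := by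
    refine le_antisymm (finrank_le_of_torsion_ker
      (MonoidHom.toAdditive (Subgroup.inclusion hle)) fun x hx => ⟨1, one_pos, ?_⟩) ?_
    · rw [one_nsmul]
      exact Additive.toMul.injective (Subgroup.inclusion_injective hle
        ((congrArg Additive.toMul hx).trans (map_one (Subgroup.inclusion hle)).symm))
    · let f : W →* W' := MonoidHom.mk' (fun x => ⟨(x : A) ^ w, x, x.2, rfl⟩)
        fun a b => Subtype.ext (mul_pow (a : A) (b : A) w)
      refine finrank_le_of_torsion_ker (MonoidHom.toAdditive f) fun x hx => ⟨w, hw, ?_⟩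
      exact Additive.toMul.injective (Subtype.ext (congrArg (fun z : Additive W' => (z.toMul : A)) hx))
  set K0 := LinearMap.ker (diffEnd s) with hK0
  have hr0 : Module.finrank ℤ K0 = Module.finrank ℤ (Additive ↥(W ⊓ d.ker)) := by
    let i : K0 →+ Additive ↥(W ⊓ d.ker) := AddMonoidHom.mk'
      (fun v => Additive.ofMul ⟨((v : Additive W').toMul : A), hle (v : Additive W').toMul.2, by
        show d _ = 1
        rw [← ed, LinearMap.mem_ker.1 v.2]; rfl⟩) fun a b => rfl
    let j : Additive ↥(W ⊓ d.ker) →+ K0 := AddMonoidHom.mk'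
      (fun v => ⟨Additive.ofMul ⟨(v.toMul : A) ^ w, _, v.toMul.2.1, rfl⟩, LinearMap.mem_ker.2
        (Additive.toMul.injective (Subtype.ext ((ed _).trans (by
          show d ((v.toMul : A) ^ w) = 1
          rw [map_pow, show d (v.toMul : A) = 1 from v.toMul.2.2, one_pow]))))⟩)
      fun a b => Subtype.ext (congrArg Additive.ofMul (Subtype.ext (mul_pow (a.toMul : A) (b.toMul : A) w)))
    refine le_antisymm (finrank_le_of_torsion_ker i fun x hx => ⟨1, one_pos, ?_⟩)
      (finrank_le_of_torsion_ker j fun x hx => ⟨w, hw, ?_⟩)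
    · rw [one_nsmul]
      exact Subtype.ext (Additive.toMul.injective (Subtype.ext
        (congrArg (fun z : Additive ↥(W ⊓ d.ker) => (z.toMul : A)) hx)))
    · exact Additive.toMul.injective (Subtype.ext
        (congrArg (fun z : K0 => ((z : Additive W').toMul : A)) hx))
  rw [e0, e1, hr, show Module.finrank ℤ (LinearMap.ker (diffEnd s)) = Module.finrank ℤ (Additive ↥(W ⊓ d.ker)) from hr0] at hlat
  -- solve for the lattice
  set r := Module.finrank ℤ (Additive W)
  set r0 := Module.finrank ℤ (Additive ↥(W ⊓ d.ker))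
  have hW'p : ind0Sub N d W' = p * ind0Sub d N W' := by
    have hr' : r = p * r0 + (p - 1) := by rw [Nat.mul_succ] at hrank; omega
    rw [hr', pow_add, ← mul_assoc] at hlat
    have : (ind0Sub N d W') ^ (p - 1) = (p * ind0Sub d N W') ^ (p - 1) := by
      apply mul_left_cancel₀ (pow_ne_zero (p * r0) hp.out.ne_zero)
      rw [mul_pow]
      linear_combination -hlat
    exact Nat.pow_left_injective (by omega) this
  -- pass to the whole group
  have hidx : W'.relIndex W ≠ 0 := relIndex_map_pow_ne_zero W hw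
  haveI : Group.FG ↥(W' ⊓ d.ker) := fg_of_le (inf_le_left : W' ⊓ d.ker ≤ W')
  have hs0' : ind0Sub d N W' ≠ 0 := fun h => by
    refine relIndex_map_pow_ne_zero (W' ⊓ d.ker) hp.out.pos (relIndex_eq_zero_of_le_left ?_ h)
    rintro _ ⟨x, ⟨hx, hdx⟩, rfl⟩
    exact ⟨x, hx, hfixN x hdx⟩
  have hdR : ∀ x, restrEnd d W hdW (restrEnd N W hNW x) = 1 := fun x => Subtype.ext (hdN x)
  have hNR : ∀ x, restrEnd N W hNW (restrEnd d W hdW x) = 1 := fun x => Subtype.ext (hNd x)
  have h := herbrand_of_index _ _ hdR hNR (W'.subgroupOf W) (map_restrEnd_le d hdW hdW')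
    (map_restrEnd_le N hNW hNW') hidx
  rw [ind0Sub_restrEnd d N hdW hNW hle, ind0Sub_restrEnd N d hNW hdW hle, hW'p, ind0_restrEnd,
    ind0_restrEnd] at h
  apply mul_left_cancel₀ hs0'
  linear_combination h

end Fermat.Agent.CFT.Idele
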