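import Fermat.Agent.CFT.Idele.Values
import Mathlib.GroupTheory.DoubleCoset

/-!
# Gluing ideles from values at representatives of places
-/

set_option autoImplicit false
set_option linter.style.haveILetI false

noncomputable section

namespace Fermat.Agent.CFT.Idele

open ExtCitation Fermat.Agent.Arith IntermediateField

local instance factPrimeGlue (q : Nat.Primes) : Fact (q : ℕ).Prime := ⟨q.2⟩

/-- The double cosets `D g Gal(ℚ̄/K)`: the places of `K` over `q`. -/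
def placeSetoid (q : Nat.Primes) (K : IntermediateField ℚ QBar) : Setoid GQ :=
  DoubleCoset.setoid ((loc q).range : Set GQ) (K.fixingSubgroup : Set GQ)

/-- The chosen representative of the place of `g`. -/
def placeRep (q : Nat.Primes) (K : IntermediateField ℚ QBar) (g : GQ) : GQ :=
  (Quotient.mk (placeSetoid q K) g).out

variable {q : Nat.Primes} {K L : IntermediateField ℚ QBar}

theorem placeRep_spec (g : GQ) :
    ∃ (τ : Ω q ≃ₐ[ℚ_[(q : ℕ)]] Ω q), ∃ s ∈ K.fixingSubgroup, g = loc q τ * placeRep q K g * s := by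
  obtain ⟨a, ⟨τ, rfl⟩, s, hs, e⟩ := DoubleCoset.rel_iff.mp
    (Quotient.mk_out (s := placeSetoid q K) g)
  exact ⟨τ, s, hs, e⟩

theorem placeRep_mul (τ : Ω q ≃ₐ[ℚ_[(q : ℕ)]] Ω q) (g : GQ) {s : GQ}
    (hs : s ∈ K.fixingSubgroup) : placeRep q K (loc q τ * g * s) = placeRep q K g := by
  unfold placeRep
  congr 1
  exact (Quotient.sound
    (DoubleCoset.rel_iff.mpr ⟨loc q τ, MonoidHom.mem_range.mpr ⟨τ, rfl⟩, s, hs, rfl⟩)).symm

theorem placeRep_idem (g : GQ) : placeRep q K (placeRep q K g) = placeRep q K g := by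
  obtain ⟨τ, s, hs, e⟩ := placeRep_spec (q := q) (K := K) g
  conv_rhs => rw [e, placeRep_mul _ _ hs]

/-- `τ` fixes `ℚ_q(ι(r K))` when `r⁻¹ τ r` fixes `K`. -/
theorem algEquiv_eq_self_of_conj {τ : Ω q ≃ₐ[ℚ_[(q : ℕ)]] Ω q} {r : GQ}
    (h : r⁻¹ * loc q τ * r ∈ K.fixingSubgroup) {y : Ω q} (hy : y ∈ fieldAt q K r) : τ y = y :=
  (IntermediateField.mem_fixingSubgroup_iff _ _).mp ((fixes_fieldAt_iff τ r).mpr h) y hy

open Classical in
/-- The family with value `z` at the representatives `r g`. -/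
def glue (L : IntermediateField ℚ QBar) (r : Nat.Primes → GQ → GQ)
    (z : (q : Nat.Primes) → GQ → (Ω q)ˣ) : PreIdele := fun q g =>
  if h : ∃ τ : Ω q ≃ₐ[ℚ_[(q : ℕ)]] Ω q, (loc q τ * r q g)⁻¹ * g ∈ L.fixingSubgroup then
    Units.map (h.choose : Ω q →* Ω q) (z q (r q g))
  else 1

variable {r : Nat.Primes → GQ → GQ} {z : (q : Nat.Primes) → GQ → (Ω q)ˣ}

theorem glue_apply (hz : ∀ q g, ((z q g : (Ω q)ˣ) : Ω q) ∈ fieldAt q L g) {g : GQ}
    {τ : Ω q ≃ₐ[ℚ_[(q : ℕ)]] Ω q} (h : (loc q τ * r q g)⁻¹ * g ∈ L.fixingSubgroup) :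
    ((glue L r z q g : (Ω q)ˣ) : Ω q) = τ (z q (r q g) : Ω q) := by
  have hex : ∃ τ : Ω q ≃ₐ[ℚ_[(q : ℕ)]] Ω q, (loc q τ * r q g)⁻¹ * g ∈ L.fixingSubgroup := ⟨τ, h⟩
  rw [glue, dif_pos hex]
  show hex.choose (z q (r q g) : Ω q) = _
  have h0 := hex.choose_spec
  set τ₀ := hex.choose
  have hfix : (r q g)⁻¹ * loc q (τ⁻¹ * τ₀) * r q g ∈ L.fixingSubgroup := by
    have := mul_mem h (inv_mem h0)
    convert this using 1
    simp [mul_assoc]
  have := algEquiv_eq_self_of_conj hfix (hz q (r q g))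
  exact ((congrArg τ this).symm.trans (τ.apply_symm_apply _)).symm

theorem glue_apply_eq_one {g : GQ}
    (h : ∀ τ : Ω q ≃ₐ[ℚ_[(q : ℕ)]] Ω q, (loc q τ * r q g)⁻¹ * g ∉ L.fixingSubgroup) :
    glue L r z q g = 1 :=
  dif_neg fun ⟨τ, hτ⟩ => h τ hτ

theorem glue_mem_idl
    (hr : ∀ q τ g, ∀ s ∈ L.fixingSubgroup, r q (loc q τ * g * s) = r q g)
    (hz : ∀ q g, ((z q g : (Ω q)ˣ) : Ω q) ∈ fieldAt q L g) (T : Finset Nat.Primes)
    (hT : ∀ q ∉ T, ∀ g, ‖((z q g : (Ω q)ˣ) : Ω q)‖ = 1) : glue L r z ∈ idl L := by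
  refine mem_idl.mpr ⟨fun q σ g => ?_, ⟨T, fun q hq g => ?_⟩, fun s hs => ?_⟩
  · have hr' : r q (loc q σ * g) = r q g := by simpa using hr q σ g 1 (one_mem _)
    by_cases h : ∃ τ : Ω q ≃ₐ[ℚ_[(q : ℕ)]] Ω q, (loc q τ * r q g)⁻¹ * g ∈ L.fixingSubgroup
    · obtain ⟨τ, hτ⟩ := h
      rw [glue_apply hz hτ, glue_apply hz (g := loc q σ * g) (τ := σ * τ), hr']
      · rfl
      · rw [hr']
        convert hτ using 1
        simp [mul_assoc]
    · rw [glue_apply_eq_one (g := g) fun τ hτ => h ⟨τ, hτ⟩, glue_apply_eq_one, Units.val_one,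
        map_one]
      intro τ hτ
      refine h ⟨σ⁻¹ * τ, ?_⟩
      rw [hr'] at hτ
      convert hτ using 1
      simp [mul_assoc]
  · by_cases h : ∃ τ : Ω q ≃ₐ[ℚ_[(q : ℕ)]] Ω q, (loc q τ * r q g)⁻¹ * g ∈ L.fixingSubgroup
    · obtain ⟨τ, hτ⟩ := h
      rw [glue_apply hz hτ, norm_algEquiv_Ω, hT q hq]
    · rw [glue_apply_eq_one fun τ hτ => h ⟨τ, hτ⟩, Units.val_one, norm_one]
  · funext q g
    rw [transl_apply]
    have hr' : r q (g * s) = r q g := by simpa using hr q 1 g s hs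
    refine Units.ext ?_
    by_cases h : ∃ τ : Ω q ≃ₐ[ℚ_[(q : ℕ)]] Ω q, (loc q τ * r q g)⁻¹ * g ∈ L.fixingSubgroup
    · obtain ⟨τ, hτ⟩ := h
      rw [glue_apply hz hτ, glue_apply hz (g := g * s) (τ := τ), hr']
      rw [hr', ← mul_assoc]
      exact mul_mem hτ hs
    · rw [glue_apply_eq_one (g := g) fun τ hτ => h ⟨τ, hτ⟩, glue_apply_eq_one]
      intro τ hτ
      refine h ⟨τ, ?_⟩
      rw [hr'] at hτ
      simpa [mul_assoc] using mul_mem hτ (inv_mem hs)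

theorem glue_placeRep (hz : ∀ q g, ((z q g : (Ω q)ˣ) : Ω q) ∈ fieldAt q K g) {g : GQ}
    (hg : placeRep q K g = g) : glue K (fun q => placeRep q K) z q g = z q g := by
  refine Units.ext ?_
  rw [glue_apply hz (τ := 1) (by simp [hg])]
  simp [hg]

theorem glue_placeRep_mem_idl (hz : ∀ q g, ((z q g : (Ω q)ˣ) : Ω q) ∈ fieldAt q K g)
    (T : Finset Nat.Primes) (hT : ∀ q ∉ T, ∀ g, ‖((z q g : (Ω q)ˣ) : Ω q)‖ = 1) :
    glue K (fun q => placeRep q K) z ∈ idl K :=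
  glue_mem_idl (fun q τ g _ hs => placeRep_mul (q := q) τ g hs) hz T hT

/-- Ideles agreeing at the representatives are equal. -/
theorem idl_ext {f f' : PreIdele} (hf : f ∈ idl K) (hf' : f' ∈ idl K)
    (h : ∀ q g, placeRep q K g = g → f q g = f' q g) : f = f' := by
  funext q g
  obtain ⟨τ, s, hs, e⟩ := placeRep_spec (q := q) (K := K) g
  refine Units.ext ?_
  rw [e, apply_eq_of_rep hf q τ _ hs, apply_eq_of_rep hf' q τ _ hs, h q _ (placeRep_idem g)]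

theorem norm_value_eq {f : PreIdele} (hf : f ∈ idl K) (q : Nat.Primes) (g : GQ) :
    ‖((f q g : (Ω q)ˣ) : Ω q)‖ = ‖((f q (placeRep q K g) : (Ω q)ˣ) : Ω q)‖ := by
  obtain ⟨τ, s, hs, e⟩ := placeRep_spec (q := q) (K := K) g
  conv_lhs => rw [e, apply_eq_of_rep hf q τ _ hs, norm_algEquiv_Ω]

end Fermat.Agent.CFT.Idele
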