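import Fermat.Agent.CFT.Idele.FixedClasses

/-!
# Functoriality in the field

For `L ≤ L'` normal over `ℚ`: the inclusions of ideles and idele classes, and descent.
-/

set_option autoImplicit false
set_option synthInstance.maxHeartbeats 200000

noncomputable section

namespace Fermat.Agent.CFT.Idele

open ExtCitation Fermat.Agent.Arith IntermediateField Fermat.Agent.CFT.Local

local instance factPrimeIncl (q : Nat.Primes) : Fact (q : ℕ).Prime := ⟨q.2⟩

variable {L L' : IntermediateField ℚ QBar} [FiniteDimensional ℚ L] [Normal ℚ L]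
  [FiniteDimensional ℚ L'] [Normal ℚ L'] (hLL : L ≤ L')

omit [FiniteDimensional ℚ L] [FiniteDimensional ℚ L'] in
include hLL in
theorem res_eq_of_res_eq {g g' : GQ} (h : res L' g = res L' g') : res L g = res L g' :=
  (res_eq_iff L).2 (IntermediateField.fixingSubgroup_antitone hLL ((res_eq_iff L').1 h))

/-- Restriction from `L'` to `L`. -/
def resTo : (L' ≃ₐ[ℚ] L') →* (L ≃ₐ[ℚ] L) :=
  MonoidHom.mk' (fun σ => res L (lift L' σ)) fun σ τ => by
    rw [← map_mul (res L)]
    exact res_eq_of_res_eq hLL (by simp only [map_mul, res_lift])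

omit [FiniteDimensional ℚ L] [FiniteDimensional ℚ L'] in
theorem resTo_res (g : GQ) : resTo hLL (res L' g) = res L g :=
  res_eq_of_res_eq hLL (res_lift L' _)

omit [FiniteDimensional ℚ L] [FiniteDimensional ℚ L'] in
theorem resTo_surjective : Function.Surjective (resTo hLL) := fun σ =>
  ⟨res L' (lift L σ), by rw [resTo_res, res_lift]⟩

/-- The inclusion of ideles. -/
def inclIdl : idl L →* idl L' := Subgroup.inclusion (idl_mono hLL)

omit [FiniteDimensional ℚ L] [FiniteDimensional ℚ L'] [Normal ℚ L] [Normal ℚ L'] in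
theorem coe_inclIdl (f : idl L) : ((inclIdl hLL f : idl L') : PreIdele) = f := rfl

omit [FiniteDimensional ℚ L] [FiniteDimensional ℚ L'] in
theorem inclIdl_smul (σ : L' ≃ₐ[ℚ] L') (f : idl L) :
    inclIdl hLL (resTo hLL σ • f) = σ • inclIdl hLL f := by
  refine Subtype.ext ?_
  rw [coe_inclIdl, coe_smul_idl L (resTo hLL σ) f (g := lift L' σ) rfl,
    coe_smul_idl L' σ _ (res_lift L' σ)]
  rfl

/-- The inclusion of `Lˣ`. -/
def inclUnits : Lˣ →* L'ˣ := Units.map (IntermediateField.inclusion hLL).toRingHom.toMonoidHom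

omit [FiniteDimensional ℚ L] [FiniteDimensional ℚ L'] in
omit [Normal ℚ ↥L] [Normal ℚ ↥L'] in
theorem inclIdl_prinL (c : Lˣ) : inclIdl hLL (prinL L c) = prinL L' (inclUnits hLL c) :=
  Subtype.ext (congrArg prin (Units.ext rfl))

/-- The inclusion of idele classes, multiplicatively. -/
def inclClass : ClassGrp L →* ClassGrp L' :=
  QuotientGroup.map _ _ (inclIdl hLL) fun _ hf => by
    obtain ⟨c, rfl⟩ := hf
    exact ⟨inclUnits hLL c, (inclIdl_prinL hLL c).symm⟩

omit [FiniteDimensional ℚ L] [FiniteDimensional ℚ L'] in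
omit [Normal ℚ ↥L] [Normal ℚ ↥L'] in
theorem inclClass_mk (f : idl L) :
    inclClass hLL (QuotientGroup.mk f) = QuotientGroup.mk (inclIdl hLL f) := rfl

omit [FiniteDimensional ℚ L] [FiniteDimensional ℚ L'] in
omit [Normal ℚ ↥L] [Normal ℚ ↥L'] in
theorem inclClass_injective : Function.Injective (inclClass hLL) := by
  rw [injective_iff_map_eq_one]
  intro x hx
  induction x using QuotientGroup.induction_on with
  | H f =>
    rw [inclClass_mk, QuotientGroup.eq_one_iff] at hx
    obtain ⟨c, hc⟩ := hx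
    have hcL : (Units.map L'.val.toRingHom.toMonoidHom c) ∈ unitsOf L :=
      prin_mem_idl_iff.1 (by
        rw [show prin (Units.map L'.val.toRingHom.toMonoidHom c) = (f : PreIdele) from
          congrArg Subtype.val hc]
        exact f.2)
    rw [QuotientGroup.eq_one_iff]
    exact ⟨Units.mk0 ⟨((c : L') : QBar), hcL⟩
      fun h => c.ne_zero (Subtype.ext (show ((c : L') : QBar) = 0 from congrArg Subtype.val h)),
      Subtype.ext ((congrArg prin (Units.ext rfl :
        Units.map L.val.toRingHom.toMonoidHom (Units.mk0 ⟨((c : L') : QBar), hcL⟩ _) =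
          Units.map L'.val.toRingHom.toMonoidHom c)).trans (congrArg Subtype.val hc :
            prin (Units.map L'.val.toRingHom.toMonoidHom c) = (f : PreIdele)))⟩

omit [FiniteDimensional ℚ L] [FiniteDimensional ℚ L'] in
theorem inclClass_smul (σ : L' ≃ₐ[ℚ] L') (x : ClassGrp L) :
    inclClass hLL (resTo hLL σ • x) = σ • inclClass hLL x := by
  induction x using QuotientGroup.induction_on with
  | H f => rw [smul_mk, inclClass_mk, inclClass_mk, smul_mk, inclIdl_smul]

omit [FiniteDimensional ℚ L] [FiniteDimensional ℚ L'] in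
/-- An idele of `L'` fixed by `Gal(L'/L)` is an idele of `L`. -/
theorem mem_idl_of_fixed {f : idl L'} (hf : f ∈ fixedBy (resTo hLL).ker (idl L')) :
    (f : PreIdele) ∈ idl L := by
  obtain ⟨h1, h2, -⟩ := mem_idl.1 f.2
  refine mem_idl.2 ⟨h1, h2, fun s hs => ?_⟩
  have h := hf (res L' s) (MonoidHom.mem_ker.2 (by rw [resTo_res, (res_eq_one_iff L).2 hs]))
  exact (coe_smul_idl L' _ f rfl).symm.trans (congrArg Subtype.val h)

omit [FiniteDimensional ℚ ↥L] in
/-- The classes fixed by `Gal(L'/L)` come from `L`. -/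
theorem exists_inclClass_eq {x : ClassGrp L'}
    (hx : x ∈ fixedBy (resTo hLL).ker (ClassGrp L')) : ∃ y, inclClass hLL y = x := by
  obtain ⟨f, hf, rfl⟩ := exists_fixed_rep _ hx
  exact ⟨QuotientGroup.mk (⟨f, mem_idl_of_fixed hLL hf⟩ : idl L), rfl⟩

/-- The inclusion of idele classes. -/
def inclC : C L →+ C L' := MonoidHom.toAdditive (inclClass hLL)

omit [FiniteDimensional ℚ L] [FiniteDimensional ℚ L'] in
omit [Normal ℚ ↥L] [Normal ℚ ↥L'] in
theorem inclC_injective : Function.Injective (inclC hLL) := inclClass_injective hLL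

omit [FiniteDimensional ℚ L] [FiniteDimensional ℚ L'] in
theorem inclC_smul (σ : L' ≃ₐ[ℚ] L') (x : C L) :
    σ • inclC hLL x = inclC hLL (resTo hLL σ • x) :=
  congrArg Additive.ofMul (inclClass_smul hLL σ x.toMul).symm

omit [FiniteDimensional ℚ ↥L] in
theorem exists_inclC_eq {x : C L'} (hx : ∀ n ∈ (resTo hLL).ker, n • x = x) :
    ∃ y, inclC hLL y = x := by
  obtain ⟨y, hy⟩ := exists_inclClass_eq hLL (x := x.toMul)
    fun n hn => congrArg Additive.toMul (hx n hn)
  exact ⟨Additive.ofMul y, congrArg Additive.ofMul hy⟩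

end Fermat.Agent.CFT.Idele
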