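import Fermat.Agent.CFT.Idele.KummerField
import Fermat.Agent.CFT.Duality.Incl
import Fermat.Agent.CFT.Duality.Semilocal

/-!
# Kummer existence

Norms from `kumMax p T K` are `p`-th powers times unit families outside `T`, modulo `Kˣ`.
-/

set_option autoImplicit false
set_option synthInstance.maxHeartbeats 200000
set_option linter.style.haveILetI false

noncomputable section

namespace Fermat.Agent.CFT.Idele

open ExtCitation Fermat.Agent.Arith IntermediateField Fermat.Agent.CFT.Duality groupCohomology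

local instance factPrimeKummerExistence (q : Nat.Primes) : Fact (q : ℕ).Prime := ⟨q.2⟩

variable {p : ℕ} [hp : Fact p.Prime] {T : Finset Nat.Primes} {ζ : QBar}
  {K : IntermediateField ℚ QBar} [FiniteDimensional ℚ K] [Normal ℚ K]

omit hp in
theorem ker_levelRes {L : IntermediateField ℚ QBar} [FiniteDimensional ℚ L] [Normal ℚ L]
    (h : K ≤ L) : (levelRes h).ker = K.fixingSubgroup.map (res L) := by
  ext σ
  rw [MonoidHom.mem_ker]
  constructor
  · intro hσ
    refine ⟨lift L σ, (res_eq_one_iff K).mp ?_, res_lift L σ⟩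
    rw [← levelRes_res h, res_lift, hσ]
  · rintro ⟨s, hs, rfl⟩
    rw [levelRes_res, res_eq_one_iff K]
    exact hs

omit hp [Normal ℚ K] in
omit [FiniteDimensional ℚ ↥K] in
/-- Local `p`-th powers at `S` are `p`-th powers times unit families outside `T ⊆ S`. -/
theorem exists_pow_mul_of_powAt {S : Finset Nat.Primes} (hp0 : p ≠ 0) (hTS : T ⊆ S)
    {e : PreIdele} (he : e ∈ powAt p S K) :
    ∃ z ∈ idl K, (z ^ p)⁻¹ * e ∈ unitsOffP (T : Set Nat.Primes) K := by
  classical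
  have hroot : ∀ q g, ∃ y : (Ω q)ˣ, (y : Ω q) ∈ fieldAt q K g ∧
      (q ∈ S → placeRep q K g = g → y ^ p = e q g) ∧ (q ∉ S → y = 1) := by
    intro q g
    by_cases h : q ∈ S ∧ placeRep q K g = g
    · obtain ⟨y, hy, hye⟩ := he.2 q h.1 g h.2
      have hy0 : y ≠ 0 := fun h0 => by
        rw [h0, zero_pow hp0] at hye
        exact Units.ne_zero _ hye.symm
      exact ⟨Units.mk0 y hy0, hy, fun _ _ => Units.ext hye, fun h' => absurd h.1 h'⟩
    · exact ⟨1, one_mem _, fun h1 h2 => absurd ⟨h1, h2⟩ h, fun _ => rfl⟩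
  choose z hz hze hz1 using hroot
  set Z := glue K (fun q => placeRep q K) z
  have hZ : Z ∈ idl K := glue_placeRep_mem_idl hz S fun q hq g => by simp [hz1 q g hq]
  have hm : (Z ^ p)⁻¹ * e ∈ idl K := mul_mem (inv_mem (pow_mem hZ p)) he.1.1
  refine ⟨Z, hZ, hm, fun q g => ?_⟩
  obtain ⟨τ, w, hw, eg⟩ := placeRep_spec (q := q) (K := K) g
  have hval := apply_eq_of_rep hm q τ (placeRep q K g) hw
  rw [← eg] at hval
  have hr : ((Z ^ p)⁻¹ * e) q (placeRep q K g) =
      (z q (placeRep q K g) ^ p)⁻¹ * e q (placeRep q K g) := by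
    rw [Pi.mul_apply, Pi.mul_apply, Pi.inv_apply, Pi.inv_apply, Pi.pow_apply, Pi.pow_apply,
      show Z q (placeRep q K g) = z q (placeRep q K g) from glue_placeRep hz (placeRep_idem g)]
  by_cases hq : q ∈ S
  · rw [hze q _ hq (placeRep_idem g), inv_mul_cancel] at hr
    have h1 : ((Z ^ p)⁻¹ * e) q g = 1 := Units.ext (by rw [hval, hr, Units.val_one, map_one])
    exact ⟨by rw [h1, Units.val_one, norm_one], fun _ => h1⟩
  · refine ⟨?_, fun hT => absurd (hTS hT) hq⟩
    rw [norm_value_eq hm q g, hr, hz1 q _ hq, one_pow, inv_one, one_mul]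
    exact he.1.2 q hq _

/-- The norms from a field containing `kumSet` lie in the principal ideles, the `p`-th powers at
`S` and the unit families outside `T`. -/
theorem prod_ker_mem {L : IntermediateField ℚ QBar} [FiniteDimensional ℚ L] [Normal ℚ L]
    (h : K ≤ L) (hL : kumSet p T K ⊆ (L : Set QBar)) [Fintype (levelRes h).ker]
    (hp2 : p ≠ 2) (hζ : IsPrimitiveRoot ζ p) (hζK : ζ ∈ K)
    (hpT : (⟨p, hp.out⟩ : Nat.Primes) ∈ T) {S : Finset Nat.Primes} (hTS : T ⊆ S)
    (hS : GoodSet p S K) (y : idl L) :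
    ((∏ σ : (levelRes h).ker, (σ : L ≃ₐ[ℚ] L) • y : idl L) : PreIdele) ∈
      (prinSub K ⊔ powAt p S K) ⊔ unitsOffP (T : Set Nat.Primes) K := by
  classical
  set f : idl L := ∏ σ : (levelRes h).ker, (σ : L ≃ₐ[ℚ] L) • y
  have hNK := ker_levelRes h
  have hfK : (f : PreIdele) ∈ idl K := by
    refine (mem_fixedBy_idl_iff L f).mp ?_
    rw [← hNK]
    exact prod_smul_mem_fixedBy (levelRes h).ker y
  by_contra hne
  obtain ⟨b, hbK, hb0, hr, hbT, g₀, hg₀, hkum, hbN⟩ := exists_notMem_normSub hp2 hζ hζK hS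
    (T := (T : Set Nat.Primes)) hpT (by exact_mod_cast hTS) hfK hne
  have hroot : rootP p b ∈ kumSet p T K :=
    mem_kumSet_of_rep (by rw [rootP_pow]; exact hbK) (rootP_ne_zero hb0)
      (by rw [rootP_pow]; exact fun q hq => hbT q hq)
  have hM : kumField K (rootP p b) ≤ L :=
    sup_le h (IntermediateField.adjoin_le_iff.mpr (Set.singleton_subset_iff.mpr (hL hroot)))
  have st := step_kumField hζ hζK hbK hb0 hg₀ hkum L hM
  rw [← hNK] at st
  set N' := (kumField K (rootP p b)).fixingSubgroup.map (res L)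
  haveI : Fintype N' := Fintype.ofFinite _
  set Y : idl L := ∏ k : N', (k : L ≃ₐ[ℚ] L) • y
  have hY : (Y : PreIdele) ∈ idl (kumField K (rootP p b)) :=
    (mem_fixedBy_idl_iff L Y).mp (prod_smul_mem_fixedBy N' y)
  have hfY : f = ∏ i ∈ Finset.range p, res L g₀ ^ i • Y := by
    show ∏ σ : (levelRes h).ker, (σ : L ≃ₐ[ℚ] L) • y = _
    rw [st.prod_eq fun σ => σ • y]
    refine Finset.prod_congr rfl fun i _ => ?_
    show ∏ k : N', (res L g₀ ^ i * (k : L ≃ₐ[ℚ] L)) • y = res L g₀ ^ i • Y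
    rw [Finset.smul_prod']
    exact Finset.prod_congr rfl fun k _ => mul_smul _ _ _
  refine hbN (Subgroup.mem_sup_right ⟨(Y : PreIdele), hY, ?_⟩)
  rw [hfY, coe_prod_smul]
  rfl

/-- Kummer existence: norms from a field containing `kumSet` are `p`-th powers and unit families
outside `T`. -/
theorem normSum_kummer {L : IntermediateField ℚ QBar} [FiniteDimensional ℚ L] [Normal ℚ L]
    (h : K ≤ L) (hL : kumSet p T K ⊆ (L : Set QBar)) [Fintype (levelRes h).ker]
    (hp2 : p ≠ 2) (hζ : IsPrimitiveRoot ζ p) (hζK : ζ ∈ K)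
    (hpT : (⟨p, hp.out⟩ : Nat.Primes) ∈ T) (x : C L) :
    ∃ c : C K, ∃ w ∈ unitsOff K (T : Set Nat.Primes),
      normSum (levelRes h).ker (C L) x = Duality.inclC h (p • c + proj K w) := by
  classical
  obtain ⟨S, hTS, hS⟩ := exists_goodSet hp2 hζ hζK T
  obtain ⟨y, rfl⟩ := proj_surjective L x
  obtain ⟨ae, hae, w, hw, hsum⟩ := Subgroup.mem_sup.mp
    (prod_ker_mem h hL hp2 hζ hζK hpT hTS hS y.toMul)
  obtain ⟨_, ⟨a, ha, rfl⟩, e, he, rfl⟩ := Subgroup.mem_sup.mp hae
  obtain ⟨z, hz, hze⟩ := exists_pow_mul_of_powAt hp.out.ne_zero hTS he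
  set W : PreIdele := (z ^ p)⁻¹ * e * w
  have hW : W ∈ unitsOffP (T : Set Nat.Primes) K := mul_mem hze hw
  refine ⟨proj K (Additive.ofMul ⟨z, hz⟩), Additive.ofMul ⟨W, hW.1⟩, fun q σ => ?_, ?_⟩
  · refine ⟨(Local.mem_unitGroup _).mpr ?_, fun hq => Units.ext (Subtype.ext ?_)⟩
    · rw [toMul_ofMul, norm_val _ q (res_lift K σ)]
      exact (hW.2 q _).1
    · rw [toMul_ofMul, coe_val _ q (res_lift K σ)]
      show ((W q (lift K σ) : (Ω q)ˣ) : Ω q) = 1
      rw [(hW.2 q _).2 hq, Units.val_one]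
  set j : J K := p • Additive.ofMul ⟨z, hz⟩ + Additive.ofMul ⟨W, hW.1⟩
  have hj : p • proj K (Additive.ofMul (⟨z, hz⟩ : idl K)) +
      proj K (Additive.ofMul (⟨W, hW.1⟩ : idl K)) = proj K j := by
    rw [map_add, map_nsmul]
  rw [hj, Duality.inclC_proj, normSum,
    Finset.sum_congr rfl (fun (σ : (levelRes h).ker) _ =>
      show σ • proj L y = proj L ((σ : L ≃ₐ[ℚ] L) • y) from (proj_smul L _ y).symm),
    ← map_sum, ← sub_eq_zero, ← map_sub, proj_eq_zero_iff]
  set a' : Lˣ := Units.mk0 ⟨(a : QBar), h ha⟩ fun h0 => a.ne_zero (congrArg Subtype.val h0)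
  refine ⟨a', ?_⟩
  rw [toMul_sub, toMul_sum, Duality.toMul_inclJ, eq_div_iff_mul_eq']
  refine Subtype.ext ?_
  rw [Subgroup.coe_mul]
  show prin (Units.map L.val.toRingHom.toMonoidHom a') * (j.toMul : PreIdele) =
    ((∏ σ : (levelRes h).ker, ((σ : L ≃ₐ[ℚ] L) • y).toMul : idl L) : PreIdele)
  rw [show Units.map L.val.toRingHom.toMonoidHom a' = a from Units.ext rfl]
  have e1 : (j.toMul : PreIdele) = z ^ p * W := by
    show ((⟨z, hz⟩ ^ p * ⟨W, hW.1⟩ : idl K) : PreIdele) = _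
    rfl
  rw [e1, show z ^ p * W = e * w by simp only [W]; rw [mul_assoc (z ^ p)⁻¹, mul_inv_cancel_left],
    ← mul_assoc, hsum]
  rfl

end Fermat.Agent.CFT.Idele
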