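import Fermat.Agent.CFT.Idele.Values
import Fermat.Agent.CFT.Idele.CoInd
import Fermat.Agent.CFT.Local.Global
import Fermat.Agent.CFT.Local.Units

/-!
# Finite ideles of a normal number field as semilocal families

For `L` finite normal over `ℚ` with group `G`, an idele is a family of functions
`σ ↦ val f q σ ∈ E_qˣ` on `G`, equivariant for `toGlobal`, with unit values at almost all `q`.
-/

set_option autoImplicit false
set_option synthInstance.maxHeartbeats 200000

noncomputable section

namespace Fermat.Agent.CFT.Idele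

open ExtCitation Fermat.Agent.Arith IntermediateField Fermat.Agent.CFT.Local

-- the searches for the Galois actions on units and ideles are slow otherwise
attribute [local instance 2000] galUnitsMulAction MulDistribMulAction.toMulAction
  Subgroup.toCommGroup

local instance factPrimeSemi (q : Nat.Primes) : Fact (q : ℕ).Prime := ⟨q.2⟩

variable (L : IntermediateField ℚ QBar) [FiniteDimensional ℚ L] [Normal ℚ L]

/-- The completion of `L` at the distinguished place over `q`. -/
abbrev E (q : Nat.Primes) : IntermediateField ℚ_[(q : ℕ)] (Ω q) := localField (q : ℕ) L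

/-- Restriction to `L`. -/
abbrev res : GQ →* (L ≃ₐ[ℚ] L) := AlgEquiv.restrictNormalHom L

omit [FiniteDimensional ℚ L] in
theorem res_apply (g : GQ) (x : L) : ((res L g x : L) : QBar) = g (x : QBar) :=
  AlgEquiv.restrictNormal_commutes g L x

omit [FiniteDimensional ℚ L] in
theorem res_eq_one_iff {g : GQ} : res L g = 1 ↔ g ∈ L.fixingSubgroup := by
  rw [IntermediateField.mem_fixingSubgroup_iff, AlgEquiv.ext_iff]
  exact ⟨fun h x hx => (res_apply L g ⟨x, hx⟩).symm.trans (congrArg Subtype.val (h ⟨x, hx⟩)),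
    fun h x => Subtype.ext ((res_apply L g x).trans (h x x.2))⟩

omit [FiniteDimensional ℚ L] in
theorem res_eq_iff {g g' : GQ} : res L g = res L g' ↔ g⁻¹ * g' ∈ L.fixingSubgroup := by
  rw [← res_eq_one_iff L, map_mul, map_inv, inv_mul_eq_one]

/-- A lift of an automorphism of `L`. -/
def lift (σ : L ≃ₐ[ℚ] L) : GQ :=
  (AlgEquiv.restrictNormalHom_surjective (K₁ := L) QBar σ).choose

omit [FiniteDimensional ℚ L] in
theorem res_lift (σ : L ≃ₐ[ℚ] L) : res L (lift L σ) = σ :=
  (AlgEquiv.restrictNormalHom_surjective (K₁ := L) QBar σ).choose_spec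

omit [FiniteDimensional ℚ L] in
theorem fieldAt_eq (q : Nat.Primes) (g : GQ) : fieldAt q L g = E L q := by
  refine le_antisymm (IntermediateField.adjoin.mono _ _ _ ?_) (IntermediateField.adjoin.mono _ _ _ ?_)
  · rintro _ ⟨x, hx, rfl⟩
    exact ⟨g x, res_apply L g ⟨x, hx⟩ ▸ SetLike.coe_mem _, rfl⟩
  · rintro _ ⟨x, hx, rfl⟩
    refine ⟨g⁻¹ x, res_apply L g⁻¹ ⟨x, hx⟩ ▸ SetLike.coe_mem _, ?_⟩
    show emb q (g (g.symm x)) = _
    rw [g.apply_symm_apply]

omit [FiniteDimensional ℚ L] in
theorem transl_congr {f : PreIdele} (hf : f ∈ idl L) {g g' : GQ} (h : res L g = res L g') :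
    transl g f = transl g' f := by
  obtain ⟨-, -, h3⟩ := mem_idl.1 hf
  calc transl g f = transl g (transl (g⁻¹ * g') f) := by rw [h3 _ ((res_eq_iff L).1 h)]
    _ = transl g' f := by rw [← transl_mul_left, mul_inv_cancel_left]

omit [FiniteDimensional ℚ L] in
theorem transl_mem_idl {f : PreIdele} (hf : f ∈ idl L) (g : GQ) : transl g f ∈ idl L := by
  obtain ⟨h1, ⟨T, hT⟩, h3⟩ := mem_idl.1 hf
  refine mem_idl.2 ⟨transl_mem_equivariant h1 g, ⟨T, fun q hq g' => hT q hq _⟩, fun s hs => ?_⟩
  rw [← transl_mul_left]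
  refine transl_congr L hf ?_
  rw [map_mul, (res_eq_one_iff L).2 hs, one_mul]

/-- The action of the Galois group on the ideles. -/
instance idlAction : MulDistribMulAction (L ≃ₐ[ℚ] L) (idl L) where
  smul σ f := ⟨transl (lift L σ) f, transl_mem_idl L f.2 _⟩
  one_smul f := Subtype.ext ((transl_congr L f.2 (g' := 1)
    (by rw [res_lift, map_one])).trans (transl_one_left _))
  mul_smul σ τ f := Subtype.ext ((transl_congr L f.2 (g' := lift L σ * lift L τ)
    (by simp only [map_mul, res_lift])).trans (transl_mul_left _ _ _))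
  smul_mul σ f f' := Subtype.ext (map_mul (transl (lift L σ)) _ _)
  smul_one σ := Subtype.ext (map_one (transl (lift L σ)))

attribute [local instance 2000] idlAction

attribute [local instance 2000] SemigroupAction.toSMul in
omit [FiniteDimensional ℚ L] in
theorem coe_smul_idl (σ : L ≃ₐ[ℚ] L) (f : idl L) {g : GQ} (hg : res L g = σ) :
    ((σ • f : idl L) : PreIdele) = transl g f :=
  transl_congr L f.2 (by rw [res_lift, hg])

omit [FiniteDimensional ℚ L] in
theorem value_mem_E {f : PreIdele} (hf : f ∈ idl L) (q : Nat.Primes) (g : GQ) :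
    ((f q g : (Ω q)ˣ) : Ω q) ∈ E L q := by
  rw [← fieldAt_eq L q g]
  exact value_mem_fieldAt hf g

variable {L}

omit [FiniteDimensional ℚ L] in
theorem value_ne_zero (f : idl L) (q : Nat.Primes) (g : GQ) :
    (⟨((f : PreIdele) q g : Ω q), value_mem_E L f.2 q g⟩ : E L q) ≠ 0 := fun h =>
  Units.ne_zero _ (congrArg Subtype.val h)

/-- The value of an idele at `(q, σ)`. -/
def val (f : idl L) (q : Nat.Primes) (σ : L ≃ₐ[ℚ] L) : (E L q)ˣ :=
  Units.mk0 _ (value_ne_zero f q (lift L σ))

omit [FiniteDimensional ℚ L] in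
theorem coe_val (f : idl L) (q : Nat.Primes) {σ : L ≃ₐ[ℚ] L} {g : GQ} (hg : res L g = σ) :
    (((val f q σ : (E L q)ˣ) : E L q) : Ω q) = ((f : PreIdele) q g : (Ω q)ˣ) := by
  have := congrFun (congrFun (transl_congr L f.2 (g := lift L σ) (g' := g)
    (by rw [res_lift, hg])) q) 1
  simp only [transl_apply, one_mul] at this
  show ((f : PreIdele) q (lift L σ) : Ω q) = _
  rw [this]

omit [FiniteDimensional ℚ L] in
theorem val_ext {f f' : idl L} (h : ∀ q σ, val f q σ = val f' q σ) : f = f' := by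
  refine Subtype.ext (funext fun q => funext fun g => Units.ext ?_)
  rw [← coe_val f q rfl, ← coe_val f' q rfl, h]

omit [FiniteDimensional ℚ L] in
theorem val_mul (f f' : idl L) (q : Nat.Primes) (σ : L ≃ₐ[ℚ] L) :
    val (f * f') q σ = val f q σ * val f' q σ := Units.ext (Subtype.ext rfl)

omit [FiniteDimensional ℚ L] in
theorem val_one (q : Nat.Primes) (σ : L ≃ₐ[ℚ] L) : val (1 : idl L) q σ = 1 :=
  Units.ext (Subtype.ext rfl)

/-- The value at `(q, σ)` as a homomorphism. -/
def valHom (q : Nat.Primes) (σ : L ≃ₐ[ℚ] L) : idl L →* (E L q)ˣ where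
  toFun f := val f q σ
  map_one' := val_one q σ
  map_mul' f f' := val_mul f f' q σ

attribute [local instance 2000] SemigroupAction.toSMul in
omit [FiniteDimensional ℚ L] in
theorem val_smul (σ : L ≃ₐ[ℚ] L) (f : idl L) (q : Nat.Primes) (τ : L ≃ₐ[ℚ] L) :
    val (σ • f) q τ = val f q (τ * σ) := by
  refine Units.ext (Subtype.ext ?_)
  rw [coe_val f q (g := lift L τ * lift L σ) (by simp only [map_mul, res_lift])]
  rfl

omit [FiniteDimensional ℚ L] in
theorem val_prod {ι : Type*} (s : Finset ι) (f : ι → idl L) (q : Nat.Primes) (σ : L ≃ₐ[ℚ] L) :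
    val (∏ i ∈ s, f i) q σ = ∏ i ∈ s, val (f i) q σ := map_prod (valHom q σ) f s

omit [FiniteDimensional ℚ ↥L] in
theorem val_toGlobal_mul (f : idl L) (q : Nat.Primes) (t : E L q ≃ₐ[ℚ_[(q : ℕ)]] E L q)
    (σ : L ≃ₐ[ℚ] L) : val f q (toGlobal (q : ℕ) L t * σ) = t • val f q σ := by
  obtain ⟨τ, rfl⟩ := AlgEquiv.restrictNormalHom_surjective (K₁ := E L q) (Ω q) t
  refine Units.ext (Subtype.ext ?_)
  have hres : res L (loc q τ * lift L σ) =
      toGlobal (q : ℕ) L (AlgEquiv.restrictNormalHom (E L q) τ) * σ := by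
    rw [map_mul, res_lift, toGlobal_restrict]
  rw [coe_val f q hres, (mem_idl.1 f.2).1 q τ (lift L σ), ← coe_val f q (res_lift L σ)]
  exact (AlgEquiv.restrictNormal_commutes τ (E L q) ((val f q σ : (E L q)ˣ) : E L q)).symm

omit [FiniteDimensional ℚ L] in
theorem norm_val (f : idl L) (q : Nat.Primes) {σ : L ≃ₐ[ℚ] L} {g : GQ} (hg : res L g = σ) :
    ‖((val f q σ : (E L q)ˣ) : E L q)‖ = ‖((f : PreIdele) q g : Ω q)‖ := by
  show ‖(((val f q σ : (E L q)ˣ) : E L q) : Ω q)‖ = _
  rw [coe_val f q hg]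

theorem val_mem_unitGroup_cofinite (f : idl L) :
    ∃ T : Finset Nat.Primes, ∀ q ∉ T, ∀ σ, val f q σ ∈ unitGroup (E L q) := by
  obtain ⟨T, hT⟩ := (mem_idl.1 f.2).2.1
  refine ⟨T, fun q hq σ => (mem_unitGroup _).2 ?_⟩
  rw [norm_val f q (res_lift L σ)]
  exact hT q hq _

variable (L) in
/-- Equivariant families of functions on the Galois group with unit values at almost all primes. -/
structure Family where
  /-- The values. -/
  toFun : ∀ q : Nat.Primes, (L ≃ₐ[ℚ] L) → (E L q)ˣ
  equi : ∀ q t σ, toFun q (toGlobal (q : ℕ) L t * σ) = t • toFun q σ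
  cofinite : ∃ T : Finset Nat.Primes, ∀ q ∉ T, ∀ σ, toFun q σ ∈ unitGroup (E L q)

/-- The idele with given values. -/
def Family.toIdl (v : Family L) : idl L :=
  ⟨fun q g => Units.map (E L q).val.toRingHom.toMonoidHom (v.toFun q (res L g)), by
    obtain ⟨T, hT⟩ := v.cofinite
    refine mem_idl.2 ⟨fun q τ g => ?_, ⟨T, fun q hq g => (mem_unitGroup _).1 (hT q hq _)⟩,
      fun s hs => ?_⟩
    · show (((v.toFun q (res L (loc q τ * g)) : (E L q)ˣ) : E L q) : Ω q) = _
      rw [map_mul, ← toGlobal_restrict, v.equi]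
      exact AlgEquiv.restrictNormal_commutes τ (E L q) _
    · funext q g
      rw [transl_apply, map_mul, (res_eq_one_iff L).2 hs, mul_one]⟩

theorem Family.val_toIdl (v : Family L) (q : Nat.Primes) (σ : L ≃ₐ[ℚ] L) :
    val v.toIdl q σ = v.toFun q σ := by
  refine Units.ext (Subtype.ext ?_)
  show (((v.toFun q (res L (lift L σ)) : (E L q)ˣ) : E L q) : Ω q) = _
  rw [res_lift]

variable (L) in
/-- The principal idele of an element of `Lˣ`. -/
def prinL : Lˣ →* idl L where
  toFun x := ⟨prin (Units.map L.val.toRingHom.toMonoidHom x), prin_mem_idl_iff.2 (x : L).2⟩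
  map_one' := Subtype.ext (by simp)
  map_mul' x y := Subtype.ext (by simp)

omit [FiniteDimensional ℚ L] in
theorem val_prinL (x : Lˣ) (q : Nat.Primes) (σ : L ≃ₐ[ℚ] L) :
    ((val (prinL L x) q σ : (E L q)ˣ) : E L q) = localEmb (q : ℕ) L (σ (x : L)) := by
  refine Subtype.ext ?_
  rw [coe_val _ q (res_lift L σ), coe_localEmb]
  conv_rhs => rw [← res_lift L σ, res_apply]
  rfl

omit [FiniteDimensional ℚ L] in
omit [Normal ℚ ↥L] in
theorem prinL_injective : Function.Injective (prinL L) := fun x y h => by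
  have := congrArg Units.val (prin_injective (congrArg Subtype.val h))
  exact Units.ext (Subtype.ext this)

attribute [local instance 2000] SemigroupAction.toSMul in
omit [FiniteDimensional ℚ L] in
theorem smul_prinL (σ : L ≃ₐ[ℚ] L) (x : Lˣ) : σ • prinL L x = prinL L (σ • x) := by
  refine Subtype.ext ?_
  rw [coe_smul_idl L σ _ (res_lift L σ)]
  show transl _ (prin _) = prin _
  rw [transl_prin]
  congr 1
  refine Units.ext ?_
  show lift L σ ((x : L) : QBar) = ((σ (x : L) : L) : QBar)
  conv_rhs => rw [← res_lift L σ, res_apply]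

open Classical in
/-- A local unit placed at the distinguished place over `q`. -/
def locFamily (q : Nat.Primes) (y : (E L q)ˣ) : Family L where
  toFun := Function.update (fun _ _ => 1) q fun σ =>
    if h : ∃ t, toGlobal (q : ℕ) L t = σ then h.choose • y else 1
  equi q' t σ := by
    rcases eq_or_ne q' q with rfl | hne
    · simp only [Function.update_self]
      by_cases h : ∃ t, toGlobal (q' : ℕ) L t = σ
      · obtain ⟨t₀, rfl⟩ := h
        have h1 : ∃ s, toGlobal (q' : ℕ) L s =
            toGlobal (q' : ℕ) L t * toGlobal (q' : ℕ) L t₀ := ⟨t * t₀, map_mul _ _ _⟩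
        have h2 : ∃ s, toGlobal (q' : ℕ) L s = toGlobal (q' : ℕ) L t₀ := ⟨t₀, rfl⟩
        rw [dif_pos h1, dif_pos h2, toGlobal_injective _ L h2.choose_spec,
          toGlobal_injective _ L (h1.choose_spec.trans (map_mul _ _ _).symm), mul_smul]
      · rw [dif_neg h, dif_neg, smul_one]
        rintro ⟨s, hs⟩
        exact h ⟨t⁻¹ * s, by rw [map_mul, map_inv, hs, inv_mul_cancel_left]⟩
    · simp [Function.update_of_ne hne]
  cofinite := ⟨{q}, fun q' hq' σ => by
    rw [Function.update_of_ne (by simpa using hq')]; exact one_mem _⟩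

/-- The idele supported at the distinguished place over `q`. -/
def locIdl (q : Nat.Primes) : (E L q)ˣ →* idl L :=
  MonoidHom.mk' (fun y => (locFamily q y).toIdl) fun y y' => val_ext fun q' σ => by
    rw [val_mul, Family.val_toIdl, Family.val_toIdl, Family.val_toIdl]
    rcases eq_or_ne q' q with rfl | hne
    · simp only [locFamily, Function.update_self]
      split_ifs <;> simp [smul_mul']
    · simp [locFamily, Function.update_of_ne hne]

theorem val_locIdl_self (q : Nat.Primes) (y : (E L q)ˣ)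
    (t : E L q ≃ₐ[ℚ_[(q : ℕ)]] E L q) :
    val (locIdl q y) q (toGlobal (q : ℕ) L t) = t • y := by
  classical
  show val (locFamily q y).toIdl q _ = _
  rw [Family.val_toIdl]
  have h : ∃ s, toGlobal (q : ℕ) L s = toGlobal (q : ℕ) L t := ⟨t, rfl⟩
  simp only [locFamily, Function.update_self, dif_pos h, toGlobal_injective _ L h.choose_spec]

theorem val_locIdl_of_notMem (q : Nat.Primes) (y : (E L q)ˣ) {σ : L ≃ₐ[ℚ] L}
    (hσ : σ ∉ (toGlobal (q : ℕ) L).range) : val (locIdl q y) q σ = 1 := by
  classical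
  show val (locFamily q y).toIdl q _ = _
  rw [Family.val_toIdl]
  simp only [locFamily, Function.update_self, dif_neg (fun h => hσ (MonoidHom.mem_range.2 h))]

theorem val_locIdl_of_ne (q : Nat.Primes) (y : (E L q)ˣ) {q' : Nat.Primes} (h : q' ≠ q)
    (σ : L ≃ₐ[ℚ] L) : val (locIdl q y) q' σ = 1 := by
  classical
  show val (locFamily q y).toIdl q' _ = _
  rw [Family.val_toIdl]
  simp [locFamily, Function.update_of_ne h]

theorem smul_locIdl (q : Nat.Primes) (y : (E L q)ˣ) (t : E L q ≃ₐ[ℚ_[(q : ℕ)]] E L q) :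
    toGlobal (q : ℕ) L t • locIdl q y = locIdl q (t • y) := by
  refine val_ext fun q' σ => ?_
  rw [val_smul]
  rcases eq_or_ne q' q with rfl | hne
  · by_cases h : σ ∈ (toGlobal (q' : ℕ) L).range
    · obtain ⟨s, rfl⟩ := h
      rw [← map_mul, val_locIdl_self, val_locIdl_self, smul_smul]
    · rw [val_locIdl_of_notMem q' y (fun hm => h ?_), val_locIdl_of_notMem q' _ h]
      simpa using mul_mem hm (inv_mem (MonoidHom.mem_range.2 ⟨t, rfl⟩) : (toGlobal (q' : ℕ) L t)⁻¹ ∈ _)
  · rw [val_locIdl_of_ne q y hne, val_locIdl_of_ne q _ hne]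

end Fermat.Agent.CFT.Idele
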