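import Fermat.Agent.CFT.Idele.KummerDual
import Fermat.Agent.Arith.RootsOfUnity
import Fermat.Agent.CFT.Local.Global
import Fermat.Agent.CFT.Idele.Semilocal
import Fermat.Prelude.Def_GroupCohomology_ContinuousUnramified

/-!
# The largest abelian extension of exponent `p` unramified outside `T`

`kumMax p T K` is generated over `K` by the `p`-th roots of the elements of order divisible by `p`
at every place outside `T`.
-/

set_option autoImplicit false
set_option synthInstance.maxHeartbeats 200000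
set_option linter.style.haveILetI false

noncomputable section

namespace Fermat.Agent.CFT.Idele

open ExtCitation Fermat.Agent.Arith IntermediateField
open scoped Pointwise

local instance factPrimeKummerField (q : Nat.Primes) : Fact (q : ℕ).Prime := ⟨q.2⟩

/-- Roots of elements of order divisible by `p` outside `T`. -/
def kumSet (p : ℕ) (T : Finset Nat.Primes) (K : IntermediateField ℚ QBar) : Set QBar :=
  {β | β ^ p ∈ K ∧ β ≠ 0 ∧ ∀ q ∉ T, ∀ g : GQ, IsPowNorm p (fieldAt q K g) (emb q (g (β ^ p)))}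

/-- The field generated by these roots. -/
def kumMax (p : ℕ) (T : Finset Nat.Primes) (K : IntermediateField ℚ QBar) :
    IntermediateField ℚ QBar :=
  IntermediateField.adjoin ℚ ((K : Set QBar) ∪ kumSet p T K)

variable {p : ℕ} [hp : Fact p.Prime] {T : Finset Nat.Primes} {K : IntermediateField ℚ QBar}

omit hp in
theorem le_kumMax : K ≤ kumMax p T K := fun _ hx =>
  IntermediateField.subset_adjoin _ _ (Or.inl hx)

omit hp in
theorem mem_kumMax {β : QBar} (hβ : β ∈ kumSet p T K) : β ∈ kumMax p T K :=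
  IntermediateField.subset_adjoin _ _ (Or.inr hβ)

/-- An automorphism fixing generators fixes the field. -/
theorem fixes_adjoin {S : Set QBar} {σ : GQ} (h : ∀ x ∈ S, σ x = x) :
    σ ∈ (IntermediateField.adjoin ℚ S).fixingSubgroup := by
  rw [IntermediateField.mem_fixingSubgroup_iff]
  intro x hx
  induction hx using IntermediateField.adjoin_induction with
  | mem y hy => exact h y hy
  | algebraMap r => exact σ.commutes r
  | add a b _ _ ha hb => rw [map_add, ha, hb]
  | inv a _ ha => rw [map_inv₀, ha]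
  | mul a b _ _ ha hb => rw [map_mul, ha, hb]

omit hp in
/-- A subgroup of the absolute Galois group acts on `kumMax` through its action on the roots. -/
theorem mem_fixingSubgroup_kumMax {σ : GQ} (hK : σ ∈ K.fixingSubgroup)
    (h : ∀ β ∈ kumSet p T K, σ β = β) : σ ∈ (kumMax p T K).fixingSubgroup :=
  fixes_adjoin fun x hx => hx.elim
    (fun hx => (IntermediateField.mem_fixingSubgroup_iff _ _).mp hK x hx) (h x)

section Normal

variable [FiniteDimensional ℚ K] [Normal ℚ K]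

omit hp in
omit [FiniteDimensional ℚ ↥K] in
theorem fieldAt_congr (q : Nat.Primes) (g g' : GQ) : fieldAt q K g = fieldAt q K g' :=
  (fieldAt_eq K q g).trans (fieldAt_eq K q g').symm

omit hp in
omit [FiniteDimensional ℚ ↥K] in
theorem map_mem_kumSet (s : GQ) {β : QBar} (hβ : β ∈ kumSet p T K) : s β ∈ kumSet p T K := by
  obtain ⟨hK, h0, hn⟩ := hβ
  refine ⟨?_, (map_ne_zero s).mpr h0, fun q hq g => ?_⟩
  · rw [← map_pow]
    exact res_apply K s ⟨_, hK⟩ ▸ SetLike.coe_mem _
  · rw [← map_pow, fieldAt_congr q g (g * s)]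
    exact hn q hq (g * s)

omit hp in
omit [FiniteDimensional ℚ ↥K] in
theorem map_mem_kumMax (s : GQ) {x : QBar} (hx : x ∈ kumMax p T K) : s x ∈ kumMax p T K := by
  induction hx using IntermediateField.adjoin_induction with
  | mem y hy =>
    rcases hy with hy | hy
    · exact le_kumMax (res_apply K s ⟨y, hy⟩ ▸ SetLike.coe_mem _)
    · exact mem_kumMax (map_mem_kumSet s hy)
  | algebraMap r => rw [s.commutes]; exact IntermediateField.algebraMap_mem _ r
  | add a b _ _ ha hb => rw [map_add]; exact add_mem ha hb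
  | inv a _ ha => rw [map_inv₀]; exact inv_mem ha
  | mul a b _ _ ha hb => rw [map_mul]; exact mul_mem ha hb

instance normal_kumMax : Normal ℚ (kumMax p T K) :=
  IntermediateField.normal_iff_forall_map_le'.mpr fun s => by
    rintro _ ⟨x, hx, rfl⟩
    exact map_mem_kumMax s hx

omit hp in
omit [FiniteDimensional ℚ ↥K] in
/-- A condition at the representatives gives the condition everywhere. -/
theorem mem_kumSet_of_rep {β : QBar} (hK : β ^ p ∈ K) (h0 : β ≠ 0)
    (h : ∀ q ∉ T, ∀ g, placeRep q K g = g → IsPowNorm p (fieldAt q K g) (emb q (g (β ^ p)))) :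
    β ∈ kumSet p T K := by
  refine ⟨hK, h0, fun q hq g => ?_⟩
  obtain ⟨c, hc, e⟩ := h q hq _ (placeRep_idem g)
  refine ⟨c, fieldAt_congr (K := K) q (placeRep q K g) g ▸ hc, ?_⟩
  rw [← e]
  exact norm_value_eq (prin_mem_idl_iff.mpr (show Units.mk0 _ (pow_ne_zero p h0) ∈ unitsOf K from hK))
    q g

omit [FiniteDimensional ℚ ↥K] [Normal ℚ ↥K] in
/-- For a good set `S ⊇ T`, finitely many roots generate `kumMax`. -/
theorem kumSet_subset {ζ : QBar} (hζ : IsPrimitiveRoot ζ p) (hζK : ζ ∈ K) {S : Finset Nat.Primes}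
    (hS : GoodSet p S K) (hTS : T ⊆ S) (rep : ModP p (sUnits S K) → sUnits S K)
    (hrep : ∀ v, modClass p (rep v) = v) :
    ∀ β ∈ kumSet p T K,
      β ∈ K ⊔ IntermediateField.adjoin ℚ
        (Set.range fun v => rootP p ((rep v : QBarˣ) : QBar)) := by
  classical
  intro β hβ
  obtain ⟨hK, h0, hn⟩ := hβ
  set b : QBarˣ := Units.mk0 _ (pow_ne_zero p h0)
  obtain ⟨T₀, hT₀⟩ := prin_mem_restricted b
  have hc : ∀ q g, ∃ c : (Ω q)ˣ, (c : Ω q) ∈ fieldAt q K g ∧
      (q ∉ S → ‖emb q (g (β ^ p))‖ = ‖(c : Ω q)‖ ^ p) ∧ (q ∉ T₀ → c = 1) := by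
    intro q g
    by_cases hq : q ∈ S ∨ q ∉ T₀
    · refine ⟨1, one_mem _, fun hqS => ?_, fun _ => rfl⟩
      rw [Units.val_one, norm_one, one_pow]
      exact hT₀ q (hq.resolve_left hqS) g
    · push Not at hq
      obtain ⟨c, hc, e⟩ := hn q (fun h => hq.1 (hTS h)) g
      have hc0 : c ≠ 0 := fun hc0 => by
        rw [hc0, norm_zero, zero_pow hp.out.ne_zero, norm_eq_zero, map_eq_zero, map_eq_zero] at e
        exact pow_ne_zero p h0 e
      exact ⟨Units.mk0 c hc0, hc, fun _ => e, fun h => absurd hq.2 h⟩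
  choose z hz hzn hz1 using hc
  set f := glue K (fun q => placeRep q K) z
  have hf : f ∈ idl K := glue_placeRep_mem_idl hz T₀ fun q hq g => by simp [hz1 q g hq]
  obtain ⟨d, hd, hfd⟩ := hS.gen f hf
  have hxS : b * d ^ p ∈ sUnits S K := by
    have hxK : b * d ^ p ∈ unitsOf K := mul_mem (show b ∈ unitsOf K from hK) (pow_mem hd p)
    refine ⟨hxK, mem_unitsOutside_of_rep (prin_mem_idl_iff.mpr hxK) fun q hq g hg => ?_⟩
    rw [prin_val, Units.val_mul, Units.val_pow_eq_pow_val, Units.val_mk0, map_mul, map_mul,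
      map_pow g (d : QBar), map_pow (emb q) (g (d : QBar)), norm_mul, norm_pow, hzn q g hq, ← mul_pow]
    have h1 := hfd.2 q hq g
    rw [Pi.mul_apply, Pi.mul_apply, Units.val_mul, norm_mul,
      show f q g = z q g from glue_placeRep hz hg, prin_val] at h1
    rw [h1, one_pow]
  set x : sUnits S K := ⟨_, hxS⟩
  set M := IntermediateField.adjoin ℚ (Set.range fun v => rootP p ((rep v : QBarˣ) : QBar))
  set r := rep (modClass p x)
  obtain ⟨y, hy⟩ : ∃ y : sUnits S K, y ^ p = r⁻¹ * x := by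
    rw [← modClass_eq_zero_iff, modClass_mul,
      show modClass p r⁻¹ = -modClass p r from rfl, hrep, neg_add_cancel]
  set a : QBar := rootP p ((r : QBarˣ) : QBar)
  have hpow : (β * (d : QBar)) ^ p = (a * ((y : QBarˣ) : QBar)) ^ p := by
    rw [mul_pow, mul_pow, rootP_pow, ← Units.val_pow_eq_pow_val (y : QBarˣ),
      ← SubmonoidClass.coe_pow, hy, Subgroup.coe_mul, InvMemClass.coe_inv, Units.val_mul,
      Units.val_inv_eq_inv_val, mul_inv_cancel_left₀ (Units.ne_zero _)]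
    simp [x, b]
  obtain ⟨i, -, hi⟩ := exists_eq_zeta_pow_mul hζ
    (mul_ne_zero (rootP_ne_zero (Units.ne_zero _)) (Units.ne_zero _)) hpow
  rw [show β = ζ ^ i * (a * ((y : QBarˣ) : QBar)) * ((d⁻¹ : QBarˣ) : QBar) by
    rw [← hi, Units.val_inv_eq_inv_val, mul_inv_cancel_right₀ d.ne_zero]]
  exact mul_mem (mul_mem (pow_mem ((le_sup_left : K ≤ K ⊔ M) hζK) i)
    (mul_mem ((le_sup_right : M ≤ K ⊔ M) (IntermediateField.subset_adjoin _ _ ⟨_, rfl⟩))
      ((le_sup_left : K ≤ K ⊔ M) (sUnits_le S K y.2))))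
    ((le_sup_left : K ≤ K ⊔ M) (inv_mem hd : d⁻¹ ∈ unitsOf K))

omit [Normal ℚ ↥K] in
theorem finiteDimensional_kumMax (hp2 : p ≠ 2) {ζ : QBar} (hζ : IsPrimitiveRoot ζ p)
    (hζK : ζ ∈ K) : FiniteDimensional ℚ (kumMax p T K) := by
  obtain ⟨S, hTS, hS⟩ := exists_goodSet hp2 hζ hζK T
  choose rep hrep using modClass_surjective (p := p) (U := sUnits S K)
  haveI : Finite (ModP p (sUnits S K)) := Nat.finite_of_card_ne_zero hS.card
  set R : Set QBar := Set.range fun v => rootP p ((rep v : QBarˣ) : QBar)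
  haveI : Finite R := (Set.finite_range _).to_subtype
  haveI : FiniteDimensional ℚ (IntermediateField.adjoin ℚ R) :=
    IntermediateField.finiteDimensional_adjoin fun x _ => Algebra.IsIntegral.isIntegral x
  haveI := IntermediateField.finiteDimensional_sup K (IntermediateField.adjoin ℚ R)
  have hle : kumMax p T K ≤ K ⊔ IntermediateField.adjoin ℚ R :=
    IntermediateField.adjoin_le_iff.mpr fun x hx => hx.elim
      (fun h => (le_sup_left : K ≤ _) h) (kumSet_subset hζ hζK hS hTS rep hrep x)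
  exact FiniteDimensional.of_injective (IntermediateField.inclusion hle).toLinearMap
    (IntermediateField.inclusion hle).injective

omit [FiniteDimensional ℚ K] [Normal ℚ K] in
/-- Automorphisms over `K` commute on the roots. -/
theorem comm_kumMax {ζ : QBar} (hζ : IsPrimitiveRoot ζ p) (hζK : ζ ∈ K) {σ τ : GQ}
    (hσ : σ ∈ K.fixingSubgroup) (hτ : τ ∈ K.fixingSubgroup) :
    (τ * σ)⁻¹ * (σ * τ) ∈ (kumMax p T K).fixingSubgroup ∧
      σ ^ p ∈ (kumMax p T K).fixingSubgroup := by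
  refine ⟨mem_fixingSubgroup_kumMax (mul_mem (inv_mem (mul_mem hτ hσ)) (mul_mem hσ hτ))
      fun β hβ => ?_,
    mem_fixingSubgroup_kumMax (pow_mem hσ p) fun β hβ => ?_⟩
  · have hb0 : β ^ p ≠ 0 := pow_ne_zero p hβ.2.1
    have hm := mul_mem (inv_mem (mul_mem hτ hσ)) (mul_mem hσ hτ)
    refine (kum_eq_zero_iff hζ hζK hm hβ.1 hb0 rfl).mp ?_
    have h1 := kum_comp hζ hζK (mul_mem hτ hσ) hm hβ.1 hb0
    rw [mul_inv_cancel_left, kum_comp hζ hζK hσ hτ hβ.1 hb0,
      kum_comp hζ hζK hτ hσ hβ.1 hb0, add_comm (kum hζ τ _)] at h1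
    exact left_eq_add.mp h1
  · have hb0 : β ^ p ≠ 0 := pow_ne_zero p hβ.2.1
    refine (kum_eq_zero_iff hζ hζK (pow_mem hσ p) hβ.1 hb0 rfl).mp ?_
    have : ∀ n : ℕ, kum hζ (σ ^ n) (β ^ p) = n * kum hζ σ (β ^ p) := fun n => by
      induction n with
      | zero =>
        rw [pow_zero, Nat.cast_zero, zero_mul]
        exact (kum_eq_zero_iff hζ hζK (one_mem _) hβ.1 hb0 rfl).mpr rfl
      | succ n ih =>
        rw [pow_succ, kum_comp hζ hζK (pow_mem hσ n) hσ hβ.1 hb0, ih, Nat.cast_succ]; ring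
    rw [this p, ZMod.natCast_self, zero_mul]

/-- Inertia at `padicPlace q` outside `T` fixes `kumMax`. -/
theorem inertia_fixes_kumMax {ζ : QBar} (hζ : IsPrimitiveRoot ζ p) (_hζK : ζ ∈ K)
    [FiniteDimensional ℚ (kumMax p T K)] (hpT : (⟨p, hp.out⟩ : Nat.Primes) ∈ T)
    {q : Nat.Primes} (hq : q ∉ T) (hKq : Local.inertia (E K q) = ⊥) {t : GQ}
    (ht : t ∈ (padicPlace (q : ℕ)).inertiaSubgroupIn ℚ) :
    t ∈ (kumMax p T K).fixingSubgroup := by
  have htK : t ∈ K.fixingSubgroup := (IntermediateField.mem_fixingSubgroup_iff _ _).mpr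
    fun x hx => (Local.inertia_eq_bot_iff (q : ℕ) K).mp hKq t ht ⟨x, hx⟩
  refine mem_fixingSubgroup_kumMax htK fun β hβ => ?_
  set L₁ := kumMax p T K
  obtain ⟨i, -, hi⟩ := exists_eq_zeta_pow_mul hζ hβ.2.1 (β := t β)
    (map_pow_root_eq htK hβ.1 rfl)
  obtain ⟨σ, hσ, hσt⟩ := Local.exists_mem_inertia_of_inertia (q : ℕ) L₁ ht
  obtain ⟨c, hc, hcn⟩ := hβ.2.2 q hq 1
  have hβ0 : emb q β ≠ 0 := (map_ne_zero _).mpr hβ.2.1
  rw [AlgEquiv.one_apply, map_pow, norm_pow] at hcn
  have hcn' : ‖emb q β‖ = ‖c‖ :=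
    (pow_left_inj₀ (norm_nonneg _) (norm_nonneg _) hp.out.ne_zero).mp hcn
  have hcK : c ∈ E K q := fieldAt_eq K q 1 ▸ hc
  have hcL : c ∈ E L₁ q := Local.localField_mono (q : ℕ) le_kumMax hcK
  have hc0 : c ≠ 0 := fun h0 => hβ0 (norm_eq_zero.mp (by rw [hcn', h0, norm_zero]))
  set C : E L₁ q := ⟨c, hcL⟩
  set B : E L₁ q := Local.localEmb (q : ℕ) L₁ ⟨β, mem_kumMax hβ⟩
  have htx : ∀ (x : QBar) (hx : x ∈ L₁), ((σ (Local.localEmb (q : ℕ) L₁ ⟨x, hx⟩) : E L₁ q) : Ω q) =
      emb q (t x) := fun x hx => by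
    rw [← Local.localEmb_toGlobal, hσt, Local.coe_localEmb]
    congr 1
    exact res_apply L₁ t ⟨x, hx⟩
  have hσC : σ C = C := by
    refine Subtype.ext ?_
    show ((σ C : E L₁ q) : Ω q) = c
    have hlift : ∀ y : E L₁ q, σ.liftNormal (Ω q) (y : Ω q) = ((σ y : E L₁ q) : Ω q) := fun y =>
      AlgEquiv.liftNormal_commutes σ (Ω q) y
    rw [← hlift]
    refine Local.fixes_localField (q : ℕ) K (fun x => ?_) hcK
    have hx1 := hlift (Local.localEmb (q : ℕ) L₁ ⟨x, le_kumMax x.2⟩)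
    rw [Local.coe_localEmb] at hx1
    rw [hx1, htx]
    congr 1
    exact (IntermediateField.mem_fixingSubgroup_iff _ _).mp htK x x.2
  have hu : ‖B / C‖ = 1 := by
    rw [norm_div, show ‖B‖ = ‖C‖ from hcn',
      div_self (norm_ne_zero_iff.mpr fun h => hc0 (congrArg Subtype.val h))]
  have hcong := Local.mem_inertia.mp hσ (B / C) hu.le
  have hσB : ((σ (B / C) : E L₁ q) : Ω q) = emb q (ζ ^ i) * (emb q β / c) := by
    rw [map_div₀, hσC, IntermediateField.coe_div, htx β (mem_kumMax hβ), hi, map_mul,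
      ← mul_div_assoc]
  have hnorm : ‖emb q (ζ ^ i) - 1‖ < 1 := by
    have h2 : ‖((σ (B / C) - B / C : E L₁ q) : Ω q)‖ < 1 := hcong
    rw [AddSubgroupClass.coe_sub, hσB, IntermediateField.coe_div,
      show ((B : E L₁ q) : Ω q) = emb q β from rfl, show ((C : E L₁ q) : Ω q) = c from rfl,
      ← sub_one_mul, norm_mul, norm_div, hcn', div_self (norm_ne_zero_iff.mpr hc0), mul_one] at h2
    exact h2
  have hqp : ¬ (q : ℕ) ∣ p := fun h => hq (by
    rw [show q = ⟨p, hp.out⟩ from Subtype.ext ((Nat.prime_dvd_prime_iff_eq q.2 hp.out).mp h)]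
    exact hpT)
  have h1 : ζ ^ i = 1 := root_congr (Local.padicPlace_liesOverPrime (q : ℕ)) q.2
    (by rw [← pow_mul, mul_comm, pow_mul, hζ.pow_eq_one, one_pow]) (one_pow p) hqp
    ((Local.mem_nonunits_padicPlace_iff (q : ℕ)).mpr (by rw [map_sub, map_one]; exact hnorm))
  rw [hi, h1, one_mul]

/-- `kumMax` is unramified outside `T`. -/
theorem isUnramifiedOutside_kumMax {ζ : QBar} (hζ : IsPrimitiveRoot ζ p) (hζK : ζ ∈ K)
    [FiniteDimensional ℚ (kumMax p T K)] (hpT : (⟨p, hp.out⟩ : Nat.Primes) ∈ T)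
    (hK : ∀ q ∉ T, Local.inertia (E K q) = ⊥) : (kumMax p T K).IsUnramifiedOutside T := by
  refine ⟨inferInstance, fun q hq A hA s hs => ?_⟩
  obtain ⟨g, hg⟩ := exists_smul_eq hA (Local.padicPlace_liesOverPrime (q : ℕ)) q.2
  have ht := inertia_fixes_kumMax hζ hζK hpT hq (hK q hq)
    (show g * s * g⁻¹ ∈ (padicPlace (q : ℕ)).inertiaSubgroupIn ℚ by
      rw [← hg]; exact (mem_inertia_smul_iff (g := g) (σ := s) (A := A)).mpr hs)
  rw [IntermediateField.mem_fixingSubgroup_iff] at ht ⊢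
  intro x hx
  have h := ht (g x) (map_mem_kumMax g hx)
  rw [AlgEquiv.mul_apply, AlgEquiv.mul_apply] at h
  have hgg : (g⁻¹ : GQ) (g x) = x := g.symm_apply_apply x
  rw [hgg] at h
  exact g.injective h

end Normal

end Fermat.Agent.CFT.Idele
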