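import Fermat.Agent.CFT.Idele.KummerExistence
import Fermat.Agent.CFT.Idele.SecondIneq

/-!
# Homomorphisms unramified outside `T` factor through `kumMax`

`Gal(kumMax/K)` is commutative of exponent `p`, `kumMax` is unramified outside `T`, and every
continuous homomorphism `Gal(ℚ̄/K) → ℤ/p` killing inertia outside `T` is trivial on `kumMax`'s group.
-/

set_option autoImplicit false
set_option synthInstance.maxHeartbeats 200000
set_option linter.style.haveILetI false

noncomputable section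

namespace Fermat.Agent.CFT.Idele

open ExtCitation Fermat.Agent.Arith IntermediateField Fermat.Agent.CFT.Duality
open scoped Pointwise

local instance factPrimeKummerHom (q : Nat.Primes) : Fact (q : ℕ).Prime := ⟨q.2⟩

/-- In an unramified extension the norms are those of the base. -/
theorem exists_norm_eq_of_unramified {K M : IntermediateField ℚ QBar} [FiniteDimensional ℚ M]
    [Normal ℚ M] (h : K ≤ M) {q : Nat.Primes} (hM : Local.inertia (E M q) = ⊥) {y : Ω q}
    (hy : y ∈ E M q) (hy0 : y ≠ 0) : ∃ c ∈ Local.localField (q : ℕ) K, ‖y‖ = ‖c‖ := by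
  haveI : IsGalois ℚ_[(q : ℕ)] (E M q) := ⟨⟩
  set F : IntermediateField ℚ_[(q : ℕ)] (E M q) :=
    IntermediateField.restrict (Local.localField_mono (q : ℕ) h)
  obtain ⟨x, hx, hx1⟩ := Local.exists_fixed_ord_eq_one (E := E M q) F.fixingSubgroup
    (by rw [hM, inf_bot_eq])
  have hxF : (x : E M q) ∈ F := by
    rw [← IsGalois.fixedField_fixingSubgroup F, IntermediateField.mem_fixedField_iff]
    exact fun σ hσ => congrArg Units.val (hx ⟨σ, hσ⟩)
  have hxK : ((x : E M q) : Ω q) ∈ Local.localField (q : ℕ) K := by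
    rwa [IntermediateField.mem_restrict] at hxF
  set Y : (E M q)ˣ := Units.mk0 ⟨y, hy⟩ fun h0 => hy0 (congrArg Subtype.val h0)
  have hn := (Local.norm_eq_norm_iff (E M q) Y (x ^ Local.ordZ (E M q) Y)).mpr (by
    rw [Local.ordZ_zpow, Local.ordZ, Local.ordZ, hx1, toAdd_ofAdd, mul_one])
  rw [Units.val_zpow_eq_zpow_val, norm_zpow] at hn
  exact ⟨((x : E M q) : Ω q) ^ Local.ordZ (E M q) Y, zpow_mem hxK _,
    by rw [norm_zpow]; exact hn⟩

variable {p : ℕ} [hp : Fact p.Prime] {ζ : QBar} {K : IntermediateField ℚ QBar}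

/-- The step of a character. -/
theorem step_of_hom (L : IntermediateField ℚ QBar) [FiniteDimensional ℚ L] [Normal ℚ L]
    (φ : K.fixingSubgroup →* Multiplicative (ZMod p))
    (hL : ∀ s : K.fixingSubgroup, (s : GQ) ∈ L.fixingSubgroup → φ s = 1) (_hKL : K ≤ L)
    (g : K.fixingSubgroup) (hg : φ g = Multiplicative.ofAdd 1) :
    Step p (K.fixingSubgroup.map (res L))
      ((φ.ker.map K.fixingSubgroup.subtype).map (res L)) (res L g) := by
  have hker : ∀ t : K.fixingSubgroup, res L (t : GQ) ∈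
      (φ.ker.map K.fixingSubgroup.subtype).map (res L) → φ t = 1 := by
    rintro t ⟨_, ⟨u, hu, rfl⟩, hut⟩
    have h := hL (u⁻¹ * t) ((res_eq_iff L).mp hut)
    rwa [map_mul, map_inv, show φ u = 1 from hu, inv_one, one_mul] at h
  have hpow : ∀ n : ℕ, φ (g ^ n) = Multiplicative.ofAdd (n : ZMod p) := fun n => by
    rw [map_pow, hg, ← ofAdd_nsmul, nsmul_one]
  have hmem : ∀ t : K.fixingSubgroup, φ t = 1 →
      res L (t : GQ) ∈ (φ.ker.map K.fixingSubgroup.subtype).map (res L) := fun t ht =>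
    ⟨t, ⟨t, ht, rfl⟩, rfl⟩
  refine ⟨Subgroup.map_mono (Subgroup.map_subtype_le _), ⟨g, g.2, rfl⟩, fun h => ?_, ?_, ?_, ?_⟩
  · have := hker g h
    rw [hg, ofAdd_eq_one] at this
    exact one_ne_zero this
  · rw [Subgroup.relIndex, Subgroup.index]
    conv_rhs => rw [← ZMod.card p, ← Nat.card_eq_fintype_card]
    refine (Nat.card_eq_of_bijective (fun i : ZMod p =>
      (QuotientGroup.mk (⟨res L ((g ^ i.val : K.fixingSubgroup) : GQ),
        ⟨_, (g ^ i.val : K.fixingSubgroup).2, rfl⟩⟩ : K.fixingSubgroup.map (res L)) : _ ⧸ _))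
      ⟨fun i j hij => ?_, fun y => ?_⟩).symm
    · have h := QuotientGroup.eq.mp hij
      rw [Subgroup.mem_subgroupOf, Subgroup.coe_mul, InvMemClass.coe_inv, ← map_inv, ← map_mul,
        ← InvMemClass.coe_inv, ← Subgroup.coe_mul] at h
      have h1 := hker _ h
      rw [map_mul, map_inv, hpow, hpow, inv_mul_eq_one, ZMod.natCast_zmod_val,
        ZMod.natCast_zmod_val] at h1
      exact Multiplicative.ofAdd.injective h1
    · obtain ⟨⟨_, σ, hσ, rfl⟩, rfl⟩ := QuotientGroup.mk_surjective y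
      refine ⟨Multiplicative.toAdd (φ ⟨σ, hσ⟩), QuotientGroup.eq.mpr ?_⟩
      rw [Subgroup.mem_subgroupOf, Subgroup.coe_mul, InvMemClass.coe_inv, ← map_inv, ← map_mul]
      have h := hmem ((g ^ (Multiplicative.toAdd (φ ⟨σ, hσ⟩)).val)⁻¹ * ⟨σ, hσ⟩) (by
        rw [map_mul, map_inv, hpow, ZMod.natCast_zmod_val, ofAdd_toAdd, inv_mul_cancel])
      rw [Subgroup.coe_mul, InvMemClass.coe_inv] at h
      exact h
  · rw [← map_pow, ← SubmonoidClass.coe_pow]
    exact hmem _ (by rw [hpow, ZMod.natCast_self, ofAdd_zero])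
  · rintro _ ⟨_, ⟨u, hu, rfl⟩, rfl⟩
    rw [← map_inv, ← map_mul, ← map_mul]
    have h := hmem (g⁻¹ * u * g) (by
      rw [map_mul, map_mul, map_inv, show φ u = 1 from hu, mul_one, inv_mul_cancel])
    rw [Subgroup.coe_mul, Subgroup.coe_mul, InvMemClass.coe_inv] at h
    exact h

variable [FiniteDimensional ℚ K] [Normal ℚ K] {T : Finset Nat.Primes}

/-- A character killing inertia outside `T` is trivial on the group of `kumMax`. -/
theorem apply_eq_one_of_hom (_hp2 : p ≠ 2) (hζ : IsPrimitiveRoot ζ p) (hζK : ζ ∈ K)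
    (hK : ∀ q ∉ T, Local.inertia (E K q) = ⊥)
    (φ : K.fixingSubgroup →* Multiplicative (ZMod p)) (F : IntermediateField ℚ QBar)
    [FiniteDimensional ℚ F] (hF : ∀ s : K.fixingSubgroup, (s : GQ) ∈ F.fixingSubgroup → φ s = 1)
    (hram : ∀ q ∉ T, ∀ A : ValuationSubring QBar, A.LiesOverPrime (q : ℕ) →
      ∀ s : K.fixingSubgroup, (s : GQ) ∈ A.inertiaSubgroupIn ℚ → φ s = 1)
    (s : K.fixingSubgroup) (hs : (s : GQ) ∈ (kumMax p T K).fixingSubgroup) : φ s = 1 := by
  classical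
  by_cases hφ : ∀ t, φ t = 1
  · exact hφ s
  push Not at hφ
  obtain ⟨t, ht⟩ := hφ
  obtain ⟨g, hg⟩ : ∃ g, φ g = Multiplicative.ofAdd 1 := by
    have h0 : Multiplicative.toAdd (φ t) ≠ 0 := fun h => ht (Multiplicative.toAdd.injective h)
    refine ⟨t ^ ((Multiplicative.toAdd (φ t))⁻¹).val, ?_⟩
    apply Multiplicative.toAdd.injective
    rw [map_pow, toAdd_pow, toAdd_ofAdd, nsmul_eq_mul, ZMod.natCast_zmod_val, inv_mul_cancel₀ h0]
  let L : IntermediateField ℚ QBar := IntermediateField.normalClosure ℚ ↥(K ⊔ F) QBar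
  haveI : FiniteDimensional ℚ ↥(K ⊔ F) := IntermediateField.finiteDimensional_sup K F
  haveI : Normal ℚ L := normalClosure.normal ℚ ↥(K ⊔ F) QBar
  have hKFL : K ⊔ F ≤ L := (K ⊔ F).le_normalClosure
  have hKL : K ≤ L := le_sup_left.trans hKFL
  have hFL : ∀ t : K.fixingSubgroup, (t : GQ) ∈ L.fixingSubgroup → φ t = 1 := fun t h =>
    hF t (IntermediateField.fixingSubgroup_antitone (le_sup_right.trans hKFL) h)
  have hζL : IsPrimitiveRoot (⟨ζ, hKL hζK⟩ : L) p :=
    IsPrimitiveRoot.of_map_of_injective (f := L.val) hζ L.val.injective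
  obtain ⟨a, ha0, hak, hga⟩ := exists_resolvent (step_of_hom L φ hFL hKL g hg) hζL (by
    rintro _ ⟨u, hu, rfl⟩
    exact Subtype.ext ((res_apply L u _).trans
      ((IntermediateField.mem_fixingSubgroup_iff _ _).mp hu ζ hζK)))
  have hker : ∀ u : K.fixingSubgroup, φ u = 1 → (u : GQ) (a : QBar) = (a : QBar) := fun u hu =>
    (res_apply L (u : GQ) a).symm.trans (congrArg Subtype.val (hak _ ⟨u, ⟨u, hu, rfl⟩, rfl⟩))
  have hgζ : (g : GQ) (a : QBar) = ζ * (a : QBar) :=
    (res_apply L (g : GQ) a).symm.trans (congrArg Subtype.val hga)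
  have hgn : ∀ n : ℕ, ((g ^ n : K.fixingSubgroup) : GQ) (a : QBar) = ζ ^ n * (a : QBar) := fun n => by
    induction n with
    | zero => simp
    | succ n ih =>
      rw [pow_succ', Subgroup.coe_mul, AlgEquiv.mul_apply, ih, map_mul, map_pow, hgζ,
        (IntermediateField.mem_fixingSubgroup_iff _ _).mp g.2 ζ hζK, pow_succ]
      ring
  have hact : ∀ u : K.fixingSubgroup,
      (u : GQ) (a : QBar) = ζ ^ (Multiplicative.toAdd (φ u)).val * (a : QBar) := fun u => by
    set n := (Multiplicative.toAdd (φ u)).val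
    have h1 := hker ((g ^ n)⁻¹ * u) (by
      rw [map_mul, map_inv, map_pow, hg, ← ofAdd_nsmul, nsmul_one, ZMod.natCast_zmod_val,
        ofAdd_toAdd, inv_mul_cancel])
    have h2 := congrArg ((g ^ n : K.fixingSubgroup) : GQ) h1
    rw [Subgroup.coe_mul, ← AlgEquiv.mul_apply, ← mul_assoc, ← Subgroup.coe_mul, mul_inv_cancel,
      OneMemClass.coe_one, one_mul, hgn] at h2
    exact h2
  set b : QBar := (a : QBar) ^ p
  have ha0' : (a : QBar) ≠ 0 := fun h => ha0 (Subtype.ext h)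
  have hbK : b ∈ K := by
    rw [← InfiniteGalois.fixedField_fixingSubgroup K, IntermediateField.mem_fixedField_iff]
    intro u hu
    show u ((a : QBar) ^ p) = _
    rw [map_pow, hact ⟨u, hu⟩, mul_pow, ← pow_mul, mul_comm _ p, pow_mul, hζ.pow_eq_one, one_pow,
      one_mul]
  let M : IntermediateField ℚ QBar :=
    IntermediateField.adjoin ℚ ((K : Set QBar) ∪ Set.range fun g : GQ => g (a : QBar))
  have hML : M ≤ L := IntermediateField.adjoin_le_iff.mpr (by
    rintro x (hx | ⟨g, rfl⟩)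
    · exact hKL hx
    · show g (a : QBar) ∈ L
      rw [← res_apply L g a]
      exact SetLike.coe_mem _)
  haveI : FiniteDimensional ℚ M :=
    FiniteDimensional.of_injective (IntermediateField.inclusion hML).toLinearMap
      (IntermediateField.inclusion hML).injective
  haveI : Normal ℚ M := IntermediateField.normal_iff_forall_map_le'.mpr fun u => by
    rw [IntermediateField.adjoin_map]
    refine IntermediateField.adjoin.mono _ _ _ ?_
    rintro _ ⟨x, hx | ⟨g, rfl⟩, rfl⟩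
    · exact Or.inl (res_apply K u ⟨x, hx⟩ ▸ SetLike.coe_mem _)
    · exact Or.inr ⟨u * g, rfl⟩
  have haS : (a : QBar) ∈ kumSet p T K := by
    refine ⟨hbK, ha0', fun q hq h => ?_⟩
    have hin : Local.inertia (E M q) = ⊥ := by
      refine (Local.inertia_eq_bot_iff (q : ℕ) M).mpr fun t ht x => ?_
      refine (IntermediateField.mem_fixingSubgroup_iff _ _).mp (fixes_adjoin ?_) x x.2
      rintro y (hy | ⟨g, rfl⟩)
      · exact (Local.inertia_eq_bot_iff (q : ℕ) K).mp (hK q hq) t ht ⟨y, hy⟩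
      · have hmem : g⁻¹ * t * g⁻¹⁻¹ ∈ (g⁻¹ • padicPlace (q : ℕ)).inertiaSubgroupIn ℚ :=
          mem_inertia_smul_iff.mpr ht
        rw [inv_inv] at hmem
        have hfixK : g⁻¹ * t * g ∈ K.fixingSubgroup := by
          rw [IntermediateField.mem_fixingSubgroup_iff]
          intro z hz
          rw [AlgEquiv.mul_apply, AlgEquiv.mul_apply]
          have := (Local.inertia_eq_bot_iff (q : ℕ) K).mp (hK q hq) t ht
            ⟨g z, res_apply K g ⟨z, hz⟩ ▸ SetLike.coe_mem _⟩
          rw [this]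
          exact g.symm_apply_apply z
        have h1 := hker ⟨_, hfixK⟩ (hram q hq _
          (liesOverPrime_smul_iff.mpr (Local.padicPlace_liesOverPrime (q : ℕ))) ⟨_, hfixK⟩ hmem)
        simp only [AlgEquiv.mul_apply] at h1
        have h2 := congrArg g h1
        have hgg : g ((g⁻¹ : GQ) (t (g (a : QBar)))) = t (g (a : QBar)) := g.apply_symm_apply _
        rw [hgg] at h2
        exact h2
    have hha : h (a : QBar) ∈ M := IntermediateField.subset_adjoin _ _ (Or.inr ⟨h, rfl⟩)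
    obtain ⟨c, hc, e⟩ := exists_norm_eq_of_unramified
      (fun x hx => IntermediateField.subset_adjoin _ _ (Or.inl hx) : K ≤ M) hin
      (Local.padicEmbedding_mem_localField (q : ℕ) M ⟨_, hha⟩)
      ((map_ne_zero _).mpr ((map_ne_zero _).mpr ha0'))
    exact ⟨c, by rw [fieldAt_eq]; exact hc, by rw [map_pow, map_pow, norm_pow, e]⟩
  have hfix := (IntermediateField.mem_fixingSubgroup_iff _ _).mp hs _ (mem_kumMax haS)
  rw [hact s] at hfix
  have h1 : ζ ^ (Multiplicative.toAdd (φ s)).val = ζ ^ 0 := by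
    rw [pow_zero]
    exact mul_right_cancel₀ ha0' (hfix.trans (one_mul _).symm)
  have h2 := natCast_eq_of_zeta_pow_eq hζ h1
  rw [ZMod.natCast_zmod_val, Nat.cast_zero] at h2
  exact Multiplicative.toAdd.injective h2

section Group

variable [FiniteDimensional ℚ (kumMax p T K)]

theorem comm_ker_kumMax (hζ : IsPrimitiveRoot ζ p) (hζK : ζ ∈ K)
    {σ τ : kumMax p T K ≃ₐ[ℚ] kumMax p T K} (hσ : σ ∈ (levelRes (le_kumMax (p := p) (T := T) (K := K))).ker)
    (hτ : τ ∈ (levelRes (le_kumMax (p := p) (T := T) (K := K))).ker) :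
    σ * τ = τ * σ ∧ σ ^ p = 1 := by
  rw [ker_levelRes] at hσ hτ
  obtain ⟨s, hs, rfl⟩ := hσ
  obtain ⟨t, ht, rfl⟩ := hτ
  obtain ⟨h1, h2⟩ := comm_kumMax (T := T) hζ hζK hs ht
  rw [← map_mul, ← map_mul, ← map_pow]
  exact ⟨((res_eq_iff _).mpr h1).symm, (res_eq_one_iff _).mpr h2⟩

theorem isPGroup_ker_kumMax (hζ : IsPrimitiveRoot ζ p) (hζK : ζ ∈ K) :
    IsPGroup p (levelRes (le_kumMax (p := p) (T := T) (K := K))).ker := fun σ =>
  ⟨1, Subtype.ext (by
    rw [pow_one, SubmonoidClass.coe_pow, (comm_ker_kumMax hζ hζK σ.2 σ.2).2]; rfl)⟩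

theorem inertia_eq_bot_kumMax (hζ : IsPrimitiveRoot ζ p) (hζK : ζ ∈ K)
    (hpT : (⟨p, hp.out⟩ : Nat.Primes) ∈ T) {q : Nat.Primes} (hq : q ∉ T)
    (hK : Local.inertia (E K q) = ⊥) : Local.inertia (E (kumMax p T K) q) = ⊥ :=
  (Local.inertia_eq_bot_iff (q : ℕ) (kumMax p T K)).mpr fun _ ht x =>
    (IntermediateField.mem_fixingSubgroup_iff _ _).mp
      (inertia_fixes_kumMax hζ hζK hpT hq hK ht) x x.2

end Group

/-- Kummer existence. -/
theorem exists_kummerExtension (hp2 : p ≠ 2) (hζ : IsPrimitiveRoot ζ p) (hζK : ζ ∈ K)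
    (hpT : (⟨p, hp.out⟩ : Nat.Primes) ∈ T) (hK : ∀ q ∉ T, Local.inertia (E K q) = ⊥) :
    ∃ (L : IntermediateField ℚ QBar) (_ : FiniteDimensional ℚ L) (_ : Normal ℚ L) (h : K ≤ L),
      L.IsUnramifiedOutside T ∧ (∀ q ∉ T, Local.inertia (E L q) = ⊥) ∧
      IsPGroup p (levelRes h).ker ∧
      (∀ σ ∈ (levelRes h).ker, ∀ τ ∈ (levelRes h).ker, σ * τ = τ * σ ∧ σ ^ p = 1) ∧
      (∀ [Fintype (levelRes h).ker] (x : C L), ∃ c : C K,
        ∃ w ∈ unitsOff K (T : Set Nat.Primes),
          normSum (levelRes h).ker (C L) x =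
            Duality.inclC h (p • c + proj K w)) ∧
      ∀ (φ : K.fixingSubgroup →* Multiplicative (ZMod p)) (F : IntermediateField ℚ QBar)
        [FiniteDimensional ℚ F],
        (∀ s : K.fixingSubgroup, (s : GQ) ∈ F.fixingSubgroup → φ s = 1) →
        (∀ q ∉ T, ∀ A : ValuationSubring QBar, A.LiesOverPrime (q : ℕ) →
          ∀ s : K.fixingSubgroup, (s : GQ) ∈ A.inertiaSubgroupIn ℚ → φ s = 1) →
        ∀ s : K.fixingSubgroup, (s : GQ) ∈ L.fixingSubgroup → φ s = 1 := by
  haveI := finiteDimensional_kumMax (T := T) hp2 hζ hζK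
  exact ⟨kumMax p T K, inferInstance, inferInstance, le_kumMax,
    isUnramifiedOutside_kumMax hζ hζK hpT hK,
    fun q hq => inertia_eq_bot_kumMax hζ hζK hpT hq (hK q hq), isPGroup_ker_kumMax hζ hζK,
    fun σ hσ τ hτ => comm_ker_kumMax hζ hζK hσ hτ,
    fun x => normSum_kummer le_kumMax (fun _ h => mem_kumMax h) hp2 hζ hζK hpT x,
    fun φ F _ hF hram s hs => apply_eq_one_of_hom hp2 hζ hζK hK φ F hF hram s hs⟩

end Fermat.Agent.CFT.Idele
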