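import Fermat.Agent.CFT.Idele.OrdMod

/-!
# Different lines of `S`-units have different norm groups
-/

set_option autoImplicit false
set_option synthInstance.maxHeartbeats 200000
set_option linter.style.haveILetI false

noncomputable section

namespace Fermat.Agent.CFT.Idele

open ExtCitation Fermat.Agent.Arith IntermediateField

local instance factPrimeKummerSep (q : Nat.Primes) : Fact (q : ℕ).Prime := ⟨q.2⟩

variable {p : ℕ} [hp : Fact p.Prime] {ζ : QBar} {K : IntermediateField ℚ QBar}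
  {S : Finset Nat.Primes}

/-- A nonzero class has its root outside `K`. -/
theorem rootP_notMem (_hζ : IsPrimitiveRoot ζ p) (_hζK : ζ ∈ K) {x : sUnits S K}
    (hx : modClass p x ≠ 0) : rootP p ((x : QBarˣ) : QBar) ∉ K := fun h => hx <| by
  rw [modClass_eq_zero_iff]
  have hy : Units.mk0 _ (rootP_ne_zero (p := p) (Units.ne_zero (x : QBarˣ))) ^ p = (x : QBarˣ) :=
    Units.ext (by rw [Units.val_pow_eq_pow_val, Units.val_mk0, rootP_pow])
  exact ⟨⟨_, sUnits_saturated (p := p) S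
    (Units.mk0 _ (rootP_ne_zero (p := p) (Units.ne_zero (x : QBarˣ)))) h (by rw [hy]; exact x.2)⟩,
    Subtype.ext hy⟩

variable [FiniteDimensional ℚ K] (hp2 : p ≠ 2) (hζ : IsPrimitiveRoot ζ p) (hζK : ζ ∈ K)
variable {b : QBar} (hbK : b ∈ K) (hb0 : b ≠ 0) {g₀ : GQ} (hg₀ : g₀ ∈ K.fixingSubgroup)
  (hkum : kum hζ g₀ b = 1)

include hp2 hζK hbK hb0 hg₀ hkum in
/-- The local criterion, for membership in `normSub`. -/
theorem mem_normSub_of_cond {f : PreIdele} (hf : f ∈ idl K)
    (h : ∀ q g, placeRep q K g = g → LocNormCond p K b q g (f q g : (Ω q)ˣ)) :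
    f ∈ normSub p K b g₀ := by
  obtain ⟨y, hy, e⟩ := exists_normStep_eq hζ hζK hbK hb0 hg₀ hkum hp2 hf h
  exact Subgroup.mem_sup_right ⟨y, hy, e⟩

include hζK hbK hb0 hg₀ hkum in
omit [FiniteDimensional ℚ K] in
theorem normSub_le_idl : normSub p K b g₀ ≤ idl K := by
  refine sup_le ?_ ?_
  · rintro _ ⟨x, hx, rfl⟩
    exact prin_mem_idl_iff.mpr hx
  · rintro _ ⟨y, hy, rfl⟩
    exact normStep_mem_idl hζ hζK hbK hb0 hg₀ hkum hy

include hp2 hζK hbK hb0 hg₀ hkum in
/-- The index is exactly `p`. -/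
theorem relIndex_normSub (hr : rootP p b ∉ K) : (normSub p K b g₀).relIndex (idl K) = p := by
  rcases (Nat.dvd_prime hp.out).mp
    (relIndex_normSub_dvd hp2 hζ hζK hbK hb0 hr hg₀ hkum) with h | h
  · obtain ⟨f, hf, hne⟩ := firstIneq hp2 ζ hζ hζK b hbK hb0 hr g₀ hg₀ hkum
    obtain ⟨_, ⟨c, hc, rfl⟩, _, ⟨y, hy, rfl⟩, e⟩ :=
      Subgroup.mem_sup.mp (Subgroup.relIndex_eq_one.mp h hf)
    exact absurd (e.symm.trans (mul_comm _ _)) (hne y hy c hc)
  · exact h

include hp2 hζK hbK hb0 hg₀ hkum in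
/-- An `S`-unit has `Kˣ` and the `p`-th powers at `S` among its norms. -/
theorem powAt_le_normSub (hpS : (⟨p, hp.out⟩ : Nat.Primes) ∈ S)
    (hbS : ∀ q ∉ S, ∀ g : GQ, ‖emb q (g b)‖ = 1) :
    prinSub K ⊔ powAt p S K ≤ normSub p K b g₀ := by
  refine sup_le le_sup_left fun f hf =>
    mem_normSub_of_cond hp2 hζ hζK hbK hb0 hg₀ hkum hf.1.1 fun q h hh => ?_
  by_cases hq : q ∈ S
  · exact Or.inr (Or.inl (hf.2 q hq h hh))
  · refine Or.inr (Or.inr ⟨fun h' => hq ?_, hf.1.2 q hq h, 1, one_mem _, one_ne_zero, ?_⟩)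
    · rw [show q = ⟨p, hp.out⟩ from Subtype.ext h']; exact hpS
    · rw [norm_one, one_pow]; exact hbS q hq h

variable {b' : QBar} (hb'K : b' ∈ K) (hb'0 : b' ≠ 0) {g₁ : GQ} (hg₁ : g₁ ∈ K.fixingSubgroup)
  (hkum' : kum hζ g₁ b' = 1)

omit hp2 hbK hb0 hg₀ hkum hb'K hb'0 hg₁ hkum' in
include hp2 hζK in
/-- Independent classes of `S`-units have different norm groups. -/
theorem normSub_ne (hS : GoodSet p S K) {x x' : sUnits S K} (hx : modClass p x ≠ 0)
    (hx' : modClass p x' ∉ (ZMod p ∙ modClass p x)) {g₀ : GQ} (hg₀ : g₀ ∈ K.fixingSubgroup)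
    (hkum : kum hζ g₀ ((x : QBarˣ) : QBar) = 1) {g₁ : GQ} (hg₁ : g₁ ∈ K.fixingSubgroup)
    (hkum' : kum hζ g₁ ((x' : QBarˣ) : QBar) = 1) :
    normSub p K ((x : QBarˣ) : QBar) g₀ ≠ normSub p K ((x' : QBarˣ) : QBar) g₁ := by
  classical
  intro heq
  set V := ModP p (sUnits S K)
  haveI : Finite V := Nat.finite_of_card_ne_zero hS.card
  haveI : Module.Finite (ZMod p) V := Module.Finite.of_finite
  set v := modClass p x
  set v' := modClass p x'
  have hv' : v' ≠ 0 := fun h => hx' (h ▸ zero_mem _)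
  set W := (ZMod p ∙ v).dualAnnihilator
  have hWr : Module.finrank (ZMod p) W + 1 = Module.finrank (ZMod p) V := by
    have h := Subspace.finrank_add_finrank_dualAnnihilator_eq (ZMod p ∙ v)
    rw [finrank_span_singleton hx, add_comm] at h
    exact h
  obtain ⟨ψ, hψv, hψv'⟩ : ∃ ψ : Module.Dual (ZMod p) V, ψ v ≠ 0 ∧ ψ v' = 0 := by
    have hv : v ∉ (ZMod p ∙ v') := fun h => by
      obtain ⟨a, ha⟩ := Submodule.mem_span_singleton.mp h
      have ha0 : a ≠ 0 := fun h0 => hx (by rw [← ha, h0, zero_smul])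
      exact hx' (Submodule.mem_span_singleton.mpr ⟨a⁻¹, by rw [← ha, inv_smul_smul₀ ha0]⟩)
    obtain ⟨ψ, hψ, hψb⟩ := Submodule.exists_dual_map_eq_bot_of_notMem hv inferInstance
    refine ⟨ψ, hψ, ?_⟩
    have := Submodule.mem_map_of_mem (f := ψ) (Submodule.mem_span_singleton_self v')
    rwa [hψb, Submodule.mem_bot] at this
  set r := Module.finrank (ZMod p) W
  let B := Module.finBasis (ZMod p) W
  let φ₀ : Fin r → Module.Dual (ZMod p) V := fun i => (B i : Module.Dual (ZMod p) V)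
  let φ : Fin (r + 1) → Module.Dual (ZMod p) V := Fin.snoc φ₀ ψ
  have hspan : Submodule.span (ZMod p) (Set.range φ₀) ≤ W :=
    Submodule.span_le.mpr (by rintro _ ⟨i, rfl⟩; exact (B i).2)
  have hli : LinearIndependent (ZMod p) φ := linearIndependent_finSnoc.mpr
    ⟨B.linearIndependent.map' W.subtype (Submodule.ker_subtype W),
      fun h => hψv ((Submodule.mem_dualAnnihilator _).mp (hspan h) v
        (Submodule.mem_span_singleton_self v))⟩
  have hφv : ∀ i, φ i v = 0 ∨ φ i v' = 0 := fun i => by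
    induction i using Fin.lastCases with
    | last => exact Or.inr (by rw [show φ (Fin.last r) = ψ from Fin.snoc_last _ _]; exact hψv')
    | cast i => exact Or.inl (by
        rw [show φ i.castSucc = φ₀ i from Fin.snoc_castSucc _ _ _]
        exact (Submodule.mem_dualAnnihilator _).mp (B i).2 v (Submodule.mem_span_singleton_self v))
  obtain ⟨ℓ, hℓ, hℓP⟩ := exists_injective_choice (fun i q => ∃ g : GQ, fieldAt q K g = ⊥ ∧
      ∀ y : sUnits S K, ((∃ t ∈ fieldAt q K g, t ^ p = emb q (g ((y : QBarˣ) : QBar))) ↔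
        φ i (modClass p y) = 0)) (S.image fun q : Nat.Primes => (q : ℕ)) fun i A =>
    exists_prime_realising hζ hζK (sUnits_le S K) (sUnits_saturated S) (φ i) A
  choose g hbot hφ using fun i => (hℓP i).2
  have hout : ∀ i, ℓ i ∉ S := fun i h => (hℓP i).1 (Finset.mem_image_of_mem _ h)
  have hidx := relIndex_prinSub_sup_powAtT ℓ g hℓ hout hbot hφ hli hζ hζK hp2 hS (firstIneq hp2)
  rw [Module.natCard_eq_pow_finrank (K := ZMod p), Nat.card_zmod, Fintype.card_fin, ← hWr,
    mul_eq_right₀ (pow_ne_zero _ hp.out.ne_zero)] at hidx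
  set N := normSub p K ((x : QBarˣ) : QBar) g₀
  have hxK := sUnits_le S K x.2
  have hx'K := sUnits_le S K x'.2
  have hle : prinSub K ⊔ powAtT p S ℓ g K ≤ N := by
    refine sup_le le_sup_left fun f hf => ?_
    let z : (q : Nat.Primes) → GQ → (Ω q)ˣ := fun q h =>
      if ∃ i, ℓ i = q ∧ placeRep q K (g i) = h ∧ φ i v = 0 then f q h else 1
    have hz : ∀ q h, ((z q h : (Ω q)ˣ) : Ω q) ∈ fieldAt q K h := fun q h => by
      simp only [z]; split_ifs
      · exact value_mem_fieldAt hf.1.1 h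
      · exact one_mem _
    set f₁ := glue K (fun q => placeRep q K) z
    have hf₁ : f₁ ∈ idl K := glue_placeRep_mem_idl hz (Finset.univ.image ℓ) fun q hq h => by
      simp only [z]
      rw [if_neg fun ⟨i, hi, _⟩ => hq (Finset.mem_image.mpr ⟨i, Finset.mem_univ _, hi⟩)]
      simp
    have hval : ∀ q h, placeRep q K h = h → f₁ q h = z q h := fun q h hh => glue_placeRep hz hh
    have h1 : f₁ ∈ N := mem_normSub_of_cond hp2 hζ hζK hxK (Units.ne_zero _) hg₀ hkum hf₁
      fun q h hh => by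
        rw [hval q h hh]
        by_cases ht : ∃ i, ℓ i = q ∧ placeRep q K (g i) = h ∧ φ i v = 0
        · obtain ⟨i, rfl, rfl, hi⟩ := ht
          exact Or.inl (value_at_rep ℓ g (prin_mem_idl_iff.mpr hxK) i ((hφ i x).mpr hi))
        · refine Or.inr (Or.inl ⟨1, one_mem _, ?_⟩)
          simp only [z]
          rw [if_neg ht, one_pow, Units.val_one]
    have h2 : f₁⁻¹ * f ∈ normSub p K ((x' : QBarˣ) : QBar) g₁ :=
      mem_normSub_of_cond hp2 hζ hζK hx'K (Units.ne_zero _) hg₁ hkum'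
        (mul_mem (inv_mem hf₁) hf.1.1) fun q h hh => by
        rw [Pi.mul_apply, Pi.mul_apply, Pi.inv_apply, Pi.inv_apply, hval q h hh]
        by_cases ht : ∃ i, ℓ i = q ∧ placeRep q K (g i) = h ∧ φ i v = 0
        · refine Or.inr (Or.inl ⟨1, one_mem _, ?_⟩)
          simp only [z]
          rw [if_pos ht, one_pow, inv_mul_cancel, Units.val_one]
        simp only [z]
        rw [if_neg ht, inv_one, one_mul]
        by_cases hq : q ∈ S
        · exact Or.inr (Or.inl (hf.2 q hq h hh))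
        by_cases ht' : ∃ i, ℓ i = q ∧ placeRep q K (g i) = h
        · obtain ⟨i, rfl, rfl⟩ := ht'
          exact Or.inl (value_at_rep ℓ g (prin_mem_idl_iff.mpr hx'K) i
            ((hφ i x').mpr ((hφv i).resolve_left fun h0 => ht ⟨i, rfl, rfl, h0⟩)))
        · push Not at ht'
          refine Or.inr (Or.inr ⟨fun h' => hq ?_, hf.1.2 q hq h hh ht', 1, one_mem _,
            one_ne_zero, ?_⟩)
          · rw [show q = ⟨p, hp.out⟩ from Subtype.ext h']; exact hS.mem
          · rw [norm_one, one_pow]; exact (mem_sUnits.mp x'.2).2 q hq h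
    rw [← heq] at h2
    have := mul_mem h1 h2
    rwa [mul_inv_cancel_left] at this
  have hN : N.relIndex (idl K) = 1 :=
    Subgroup.relIndex_eq_one.mpr ((Subgroup.relIndex_eq_one.mp hidx).trans hle)
  rw [relIndex_normSub hp2 hζ hζK hxK (Units.ne_zero _) hg₀ hkum (rootP_notMem hζ hζK hx)] at hN
  exact hp.out.ne_one hN

end Fermat.Agent.CFT.Idele
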