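import Fermat.Agent.CFT.Idele.RelNorm
import Fermat.Agent.CFT.Local.Unramified

/-!
# The completions in a tower `L ≤ L' = L ⊔ F`, `F` cyclic and unramified at `q`

The completion of `L'` is unramified over that of `L`, and the degree divides the valuation of `q`
when the degree of `F` divides the degree of the completion of `L`.
-/

set_option autoImplicit false
set_option synthInstance.maxHeartbeats 200000
set_option linter.style.haveILetI false

noncomputable section

namespace Fermat.Agent.CFT.Idele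

open ExtCitation Fermat.Agent.Arith IntermediateField Fermat.Agent.CFT.Local groupCohomology

local instance factPrimeTower (q : Nat.Primes) : Fact (q : ℕ).Prime := ⟨q.2⟩

/-- The carry cocycle of a norm from the whole group is a coboundary. -/
theorem carryN_normSum_mem {G A : Type*} [Group G] [AddCommGroup A] [DistribMulAction G A]
    [Fintype G] {n : ℕ} [NeZero n] (χ : G →* Multiplicative (ZMod n)) (w : A) : IsCoboundary₂ (carryN χ (CFT.normSum G A w)) := by
  classical
  refine ⟨fun g => ∑ u : G, (if chiVal χ u < chiVal χ g then 1 else 0 : ℕ) • u • w, fun g h => ?_⟩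
  show g • (∑ u : G, _) - (∑ u : G, _) + (∑ u : G, _) =
    ((chiVal χ g + chiVal χ h) / n) • ∑ u : G, u • w
  have e : g • (∑ u : G, (if chiVal χ u < chiVal χ h then 1 else 0 : ℕ) • u • w) =
      ∑ u : G, (if chiVal χ (g⁻¹ * u) < chiVal χ h then 1 else 0 : ℕ) • u • w := by
    rw [Finset.smul_sum]
    exact Fintype.sum_equiv (Equiv.mulLeft g) _ _ fun u => by
      rw [Equiv.coe_mulLeft, inv_mul_cancel_left, smul_comm g, smul_smul]
  rw [e, Finset.smul_sum, sub_add_eq_add_sub, sub_eq_iff_eq_add, ← Finset.sum_add_distrib,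
    ← Finset.sum_add_distrib]
  refine Finset.sum_congr rfl fun u _ => ?_
  rw [← add_smul, ← add_smul]
  congr 1
  rw [chiVal_mul χ g h]
  have hu : (chiVal χ g + chiVal χ (g⁻¹ * u)) % n = chiVal χ u := by
    rw [← chiVal_mul, mul_inv_cancel_left]
  have ha := chiVal_lt χ g
  have hb := chiVal_lt χ h
  have hc := chiVal_lt χ (g⁻¹ * u)
  generalize chiVal χ g = x at *
  generalize chiVal χ h = y at *
  generalize chiVal χ (g⁻¹ * u) = r at *
  generalize chiVal χ u = z at *
  have hdiv : ((x + y) / n = 0 ∧ x + y < n ∧ (x + y) % n = x + y) ∨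
      ((x + y) / n = 1 ∧ n ≤ x + y ∧ (x + y) % n = x + y - n) := by
    rcases lt_or_ge (x + y) n with hlt | hge
    · exact Or.inl ⟨Nat.div_eq_of_lt hlt, hlt, Nat.mod_eq_of_lt hlt⟩
    · exact Or.inr ⟨Nat.div_eq_of_lt_le (by omega) (by omega), hge,
        by rw [Nat.mod_eq_sub_mod hge, Nat.mod_eq_of_lt (by omega)]⟩
  have hz : (x + r < n ∧ z = x + r) ∨ (n ≤ x + r ∧ z = x + r - n) := by
    rcases lt_or_ge (x + r) n with hlt | hge
    · exact Or.inl ⟨hlt, by rw [← hu, Nat.mod_eq_of_lt hlt]⟩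
    · exact Or.inr ⟨hge, by rw [← hu, Nat.mod_eq_sub_mod hge, Nat.mod_eq_of_lt (by omega)]⟩
  rcases hdiv with ⟨h1, h2, h3⟩ | ⟨h1, h2, h3⟩ <;> rcases hz with ⟨h4, h5⟩ | ⟨h4, h5⟩ <;>
    rw [h1, h3, h5] <;> split_ifs <;> omega

variable (q : Nat.Primes) {L L' : IntermediateField ℚ QBar} [FiniteDimensional ℚ L] [Normal ℚ L]
  [FiniteDimensional ℚ L'] [Normal ℚ L'] (hL : L ≤ L')

omit [FiniteDimensional ℚ ↥L] [FiniteDimensional ℚ ↥L'] in
theorem resTo_toGlobal_mem (t : E L' q ≃ₐ[ℚ_[(q : ℕ)]] E L' q) :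
    resTo hL (toGlobal (q : ℕ) L' t) ∈ (toGlobal (q : ℕ) L).range := by
  obtain ⟨τ, rfl⟩ := AlgEquiv.restrictNormalHom_surjective (K₁ := E L' q) (Ω q) t
  exact ⟨AlgEquiv.restrictNormalHom (E L q) τ, by rw [toGlobal_restrict, toGlobal_restrict, resTo_res]⟩

/-- Restriction between completions. -/
def resLoc : (E L' q ≃ₐ[ℚ_[(q : ℕ)]] E L' q) →* (E L q ≃ₐ[ℚ_[(q : ℕ)]] E L q) :=
  (MonoidHom.ofInjective (toGlobal_injective (q : ℕ) L)).symm.toMonoidHom.comp
    (((resTo hL).comp (toGlobal (q : ℕ) L')).codRestrict _ (resTo_toGlobal_mem q hL))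

omit [FiniteDimensional ℚ ↥L] [FiniteDimensional ℚ ↥L'] in
theorem toGlobal_resLoc (t : E L' q ≃ₐ[ℚ_[(q : ℕ)]] E L' q) :
    toGlobal (q : ℕ) L (resLoc q hL t) = resTo hL (toGlobal (q : ℕ) L' t) :=
  MonoidHom.apply_ofInjective_symm (toGlobal_injective (q : ℕ) L) _

omit [FiniteDimensional ℚ ↥L] [FiniteDimensional ℚ ↥L'] in
theorem resLoc_restrict (τ : Ω q ≃ₐ[ℚ_[(q : ℕ)]] Ω q) :
    resLoc q hL (AlgEquiv.restrictNormalHom (E L' q) τ) = AlgEquiv.restrictNormalHom (E L q) τ :=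
  toGlobal_injective (q : ℕ) L (by
    rw [toGlobal_resLoc, toGlobal_restrict, toGlobal_restrict, resTo_res])

omit [FiniteDimensional ℚ ↥L] [FiniteDimensional ℚ ↥L'] in
theorem resLoc_surjective : Function.Surjective (resLoc q hL) := fun t => by
  obtain ⟨τ, rfl⟩ := AlgEquiv.restrictNormalHom_surjective (K₁ := E L q) (Ω q) t
  exact ⟨_, resLoc_restrict q hL τ⟩

/-- The inclusion of completions on units. -/
def inclLoc : Additive (E L q)ˣ →+ Additive (E L' q)ˣ :=
  MonoidHom.toAdditive (Units.map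
    (IntermediateField.inclusion (localField_mono (q : ℕ) hL)).toRingHom.toMonoidHom)

omit [FiniteDimensional ℚ L] [Normal ℚ L] [FiniteDimensional ℚ L'] [Normal ℚ L'] in
theorem inclLoc_injective : Function.Injective (inclLoc q hL) :=
  Units.map_injective (IntermediateField.inclusion (localField_mono (q : ℕ) hL)).injective

omit [FiniteDimensional ℚ ↥L] [FiniteDimensional ℚ ↥L'] in
theorem inclLoc_smul (t : E L' q ≃ₐ[ℚ_[(q : ℕ)]] E L' q) (x : Additive (E L q)ˣ) :
    t • inclLoc q hL x = inclLoc q hL (resLoc q hL t • x) := by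
  obtain ⟨τ, rfl⟩ := AlgEquiv.restrictNormalHom_surjective (K₁ := E L' q) (Ω q) t
  rw [resLoc_restrict]
  refine Additive.toMul.injective (Units.ext (Subtype.ext ?_))
  exact (AlgEquiv.restrictNormal_commutes τ (E L' q) _).trans
    (AlgEquiv.restrictNormal_commutes τ (E L q) _).symm

omit [FiniteDimensional ℚ ↥L] [FiniteDimensional ℚ ↥L'] in
theorem exists_inclLoc_eq {x : Additive (E L' q)ˣ}
    (hx : ∀ t : (resLoc q hL).ker, (t : E L' q ≃ₐ[ℚ_[(q : ℕ)]] E L' q) • x = x) :
    ∃ y, inclLoc q hL y = x := by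
  have hmem : (((x.toMul : (E L' q)ˣ) : E L' q) : Ω q) ∈ E L q := by
    rw [← InfiniteGalois.fixedField_fixingSubgroup (E L q), IntermediateField.mem_fixedField_iff]
    intro τ hτ
    have hk : AlgEquiv.restrictNormalHom (E L' q) τ ∈ (resLoc q hL).ker := by
      rw [MonoidHom.mem_ker, resLoc_restrict]
      refine AlgEquiv.ext fun y => Subtype.ext ?_
      exact (AlgEquiv.restrictNormal_commutes τ (E L q) y).trans
        ((IntermediateField.mem_fixingSubgroup_iff _ _).1 hτ _ y.2)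
    have := congrArg (fun z : Additive (E L' q)ˣ => (((z.toMul : (E L' q)ˣ) : E L' q) : Ω q))
      (hx ⟨_, hk⟩)
    exact (AlgEquiv.restrictNormal_commutes τ (E L' q) _).symm.trans this
  refine ⟨Additive.ofMul (Units.mk0 ⟨_, hmem⟩ fun h => ?_), Additive.toMul.injective (Units.ext
    (Subtype.ext rfl))⟩
  exact x.toMul.ne_zero (Subtype.ext (show (((x.toMul : (E L' q)ˣ) : E L' q) : Ω q) = 0 from
    congrArg Subtype.val h))

variable {n : ℕ} (a : Aux n) (hF : a.fixedChi ≤ L')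

/-- The character on the completion. -/
def chiLoc : (E L' q ≃ₐ[ℚ_[(q : ℕ)]] E L' q) →* Multiplicative (ZMod n) :=
  (chiUp a hF).comp (toGlobal (q : ℕ) L')

omit [FiniteDimensional ℚ ↥L] [FiniteDimensional ℚ ↥L'] in
theorem eq_one_of_loc_kers (hsup : L' = L ⊔ a.fixedChi) {t : E L' q ≃ₐ[ℚ_[(q : ℕ)]] E L' q}
    (h1 : resLoc q hL t = 1) (h2 : chiLoc q a hF t = 1) : t = 1 := by
  refine toGlobal_injective (q : ℕ) L' ?_
  rw [map_one]
  refine eq_one_of_mem_kers a hL hF hsup ?_ h2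
  rw [← toGlobal_resLoc, h1, map_one]

theorem chiLoc_inertia (hq : q ≠ a.q) {t : E L' q ≃ₐ[ℚ_[(q : ℕ)]] E L' q}
    (ht : t ∈ inertia (E L' q)) : chiLoc q a hF t = 1 := by
  obtain ⟨g, hg, e⟩ := exists_inertia_of_mem_inertia (q : ℕ) L' ht
  show chiUp a hF (toGlobal (q : ℕ) L' t) = 1
  rw [← e, chiUp_res]
  exact a.chi_inertia hq (padicPlace_liesOverPrime (q : ℕ)) hg

include hF in
omit [FiniteDimensional ℚ ↥L] in
theorem ker_resLoc_inf_inertia (hsup : L' = L ⊔ a.fixedChi) (hq : q ≠ a.q) :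
    (resLoc q hL).ker ⊓ inertia (E L' q) = ⊥ :=
  eq_bot_iff.2 fun _ ⟨h1, h2⟩ => Subgroup.mem_bot.2
    (eq_one_of_loc_kers q hL a hF hsup h1 (chiLoc_inertia q a hF hq h2))

include hF in
/-- The local degree divides the valuation of an invariant element. -/
theorem card_ker_dvd_ordZ [NeZero n] (hsup : L' = L ⊔ a.fixedChi) (hq : q ≠ a.q)
    (hn : n ∣ Nat.card (E L q ≃ₐ[ℚ_[(q : ℕ)]] E L q)) {x : (E L' q)ˣ}
    (hx : ∀ t : E L' q ≃ₐ[ℚ_[(q : ℕ)]] E L' q, t • x = x) :
    (Nat.card (resLoc q hL).ker : ℤ) ∣ ordZ (E L' q) x := by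
  classical
  set I := inertia (E L' q)
  set π := resLoc q hL
  have hπ : Function.Surjective π := resLoc_surjective q hL
  set J := I.map π
  haveI : J.Normal := Subgroup.Normal.map inferInstance π hπ
  have hinj : Function.Injective (π.comp I.subtype) :=
    (injective_iff_map_eq_one _).2 fun t ht =>
      Subtype.ext (eq_one_of_loc_kers q hL a hF hsup ht (chiLoc_inertia q a hF hq t.2))
  have hJ : Nat.card J = Nat.card I := by
    rw [show J = (π.comp I.subtype).range by rw [MonoidHom.range_comp, Subgroup.range_subtype]]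
    exact (Nat.card_congr (MonoidHom.ofInjective hinj).toEquiv).symm
  have hexp : ∀ c : Multiplicative (ZMod n), c ^ n = 1 := fun c => by
    rw [← ofAdd_toAdd c, ← ofAdd_nsmul, nsmul_eq_mul, ZMod.natCast_self, zero_mul]; rfl
  haveI : IsCyclic ((E L' q ≃ₐ[ℚ_[(q : ℕ)]] E L' q) ⧸ I) := isCyclic_quotient_inertia
  have hidx : I.index ∣ Nat.lcm n J.index := by
    rw [Subgroup.index, ← IsCyclic.exponent_eq_card]
    refine Monoid.exponent_dvd_of_forall_pow_eq_one fun y => ?_
    obtain ⟨t, rfl⟩ := QuotientGroup.mk_surjective y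
    rw [← QuotientGroup.mk_pow, QuotientGroup.eq_one_iff]
    obtain ⟨c, hc⟩ := Nat.dvd_lcm_right n J.index
    obtain ⟨c', hc'⟩ := Nat.dvd_lcm_left n J.index
    obtain ⟨i, hi, e⟩ : π (t ^ Nat.lcm n J.index) ∈ J := by
      rw [map_pow, hc, pow_mul]
      exact Subgroup.pow_mem _ (J.pow_index_mem _) _
    have h1 : i⁻¹ * t ^ Nat.lcm n J.index = 1 := by
      refine eq_one_of_loc_kers q hL a hF hsup ?_ ?_
      · show π _ = 1
        rw [map_mul, map_inv, e, inv_mul_cancel]
      · rw [map_mul, map_inv, chiLoc_inertia q a hF hq hi, inv_one, one_mul, map_pow, hc', pow_mul,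
          hexp, one_pow]
    rw [inv_mul_eq_one] at h1
    exact h1 ▸ hi
  have hG : Nat.card π.ker * Nat.card (E L q ≃ₐ[ℚ_[(q : ℕ)]] E L q) = Nat.card I * I.index := by
    rw [Subgroup.card_mul_index, ← π.ker.card_mul_index, Subgroup.index_ker,
      MonoidHom.range_eq_top.2 hπ, Subgroup.card_top]
  rw [← J.card_mul_index, hJ, mul_left_comm] at hG
  have hG' : Nat.card π.ker * J.index = I.index := Nat.eq_of_mul_eq_mul_left Nat.card_pos hG
  have hd : Nat.card π.ker * J.index ∣ Nat.card I * J.index := by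
    rw [hG']
    refine hidx.trans (Nat.lcm_dvd ?_ (dvd_mul_left _ _))
    rwa [← hJ, J.card_mul_index]
  have hd' : Nat.card π.ker ∣ Nat.card I :=
    Nat.dvd_of_mul_dvd_mul_right (Nat.pos_of_ne_zero Subgroup.index_ne_zero_of_finite) hd
  refine (Int.natCast_dvd_natCast.2 hd').trans ?_
  have := card_inf_inertia_dvd_ordZ (⊤ : Subgroup (E L' q ≃ₐ[ℚ_[(q : ℕ)]] E L' q)) (x := x)
    fun t => hx t
  rwa [top_inf_eq] at this

end Fermat.Agent.CFT.Idele
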