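import Fermat.Agent.Arith.Frobenius
import Fermat.Prelude.Def_ExtEndgame_ProductionDatum

/-!
# Finite ideles of all subfields of `ℚ̄` inside one group

A component at the prime `q` is a function `g ↦ f q g` on the absolute Galois group with values in
`ℚ̄_q`, equivariant for the decomposition group at `padicPlace q`; the ideles of a finite subfield
`L` are those invariant under right translation by the subgroup fixing `L`, with values of norm one
at almost all primes.
-/

set_option autoImplicit false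

noncomputable section

namespace Fermat.Agent.CFT.Idele

open ExtCitation Fermat.Agent.Arith

local instance factPrime (q : Nat.Primes) : Fact (q : ℕ).Prime := ⟨q.2⟩

/-- The local algebraic closures. -/
abbrev Ω (q : Nat.Primes) : Type := PadicAlgCl (q : ℕ)

/-- The embedding `ℚ̄ → ℚ̄_q`. -/
abbrev emb (q : Nat.Primes) : QBar →ₐ[ℚ] Ω q := padicEmbedding (q : ℕ)

/-- The local Galois groups inside the global one. -/
abbrev loc (q : Nat.Primes) : (Ω q ≃ₐ[ℚ_[(q : ℕ)]] Ω q) →* GQ := localGaloisToGlobal (q : ℕ)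

theorem emb_loc (q : Nat.Primes) (τ : Ω q ≃ₐ[ℚ_[(q : ℕ)]] Ω q) (x : QBar) :
    emb q (loc q τ x) = τ (emb q x) :=
  padicEmbedding_localGaloisToGlobal (q : ℕ) τ x

theorem norm_algEquiv_Ω (q : Nat.Primes) (τ : Ω q ≃ₐ[ℚ_[(q : ℕ)]] Ω q) (y : Ω q) :
    ‖τ y‖ = ‖y‖ :=
  (spectralNorm_eq_of_equiv τ y).symm

/-- All families of functions. -/
abbrev PreIdele : Type := (q : Nat.Primes) → GQ → (Ω q)ˣ

/-- Right translation. -/
def transl (h : GQ) : PreIdele →* PreIdele where
  toFun f q g := f q (g * h)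
  map_one' := rfl
  map_mul' _ _ := rfl

theorem transl_apply (h : GQ) (f : PreIdele) (q : Nat.Primes) (g : GQ) :
    transl h f q g = f q (g * h) := rfl

@[simp] theorem transl_one_left (f : PreIdele) : transl 1 f = f := by
  funext q g; rw [transl_apply, mul_one]

theorem transl_mul_left (h h' : GQ) (f : PreIdele) : transl (h * h') f = transl h (transl h' f) := by
  funext q g; simp only [transl_apply, mul_assoc]

/-- The diagonal element of `x`. -/
def prin : QBarˣ →* PreIdele where
  toFun x q g := Units.map (emb q : QBar →* Ω q) (Units.map (g : QBar →* QBar) x)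
  map_one' := by funext q g; simp
  map_mul' x y := by funext q g; simp

theorem prin_val (x : QBarˣ) (q : Nat.Primes) (g : GQ) :
    ((prin x q g : (Ω q)ˣ) : Ω q) = emb q (g (x : QBar)) := rfl

theorem prin_injective : Function.Injective prin := by
  intro x y h
  refine Units.ext ?_
  have := congrArg Units.val (congrFun (congrFun h ⟨2, Nat.prime_two⟩) 1)
  exact (emb _).injective this

theorem transl_prin (h : GQ) (x : QBarˣ) :
    transl h (prin x) = prin (Units.map (h : QBar →* QBar) x) := rfl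

/-- Equivariant families. -/
def equivariant : Subgroup PreIdele where
  carrier := {f | ∀ q τ g, ((f q (loc q τ * g) : (Ω q)ˣ) : Ω q) = τ (f q g : (Ω q)ˣ)}
  one_mem' q τ g := by simp
  mul_mem' {f f'} hf hf' q τ g := by simp [hf q τ g, hf' q τ g]
  inv_mem' {f} hf q τ g := by simp [hf q τ g]

theorem prin_mem_equivariant (x : QBarˣ) : prin x ∈ equivariant := fun q τ g => by
  simp only [prin_val]; exact emb_loc q τ (g (x : QBar))

theorem transl_mem_equivariant {f : PreIdele} (hf : f ∈ equivariant) (h : GQ) :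
    transl h f ∈ equivariant := fun q τ g => by
  simp only [transl_apply, mul_assoc]; exact hf q τ (g * h)

/-- Families which are units at almost all primes. -/
def restricted : Subgroup PreIdele where
  carrier := {f | ∃ T : Finset Nat.Primes, ∀ q ∉ T, ∀ g, ‖((f q g : (Ω q)ˣ) : Ω q)‖ = 1}
  one_mem' := ⟨∅, fun q _ g => by simp⟩
  mul_mem' {f f'} := by
    classical
    rintro ⟨T, hT⟩ ⟨T', hT'⟩
    refine ⟨T ∪ T', fun q hq g => ?_⟩
    rw [Finset.mem_union, not_or] at hq
    simp [hT q hq.1 g, hT' q hq.2 g]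
  inv_mem' {f} := by
    rintro ⟨T, hT⟩
    exact ⟨T, fun q hq g => by simp [hT q hq g]⟩

theorem norm_emb_le_one {x : QBar} (hx : IsIntegral ℤ x) (q : Nat.Primes) : ‖emb q x‖ ≤ 1 := by
  have := (mem_padicPlace_iff (q : ℕ)).1 (mem_of_isIntegral (padicPlace (q : ℕ)) hx)
  exact_mod_cast this

theorem norm_emb_natCast (q : Nat.Primes) {m : ℕ} (hm : ¬ (q : ℕ) ∣ m) :
    ‖emb q (m : QBar)‖ = 1 := by
  rw [map_natCast, ← map_natCast (algebraMap ℚ_[(q : ℕ)] (Ω q)) m, PadicAlgCl.norm_extends]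
  refine le_antisymm (by exact_mod_cast Padic.norm_int_le_one (m : ℤ)) (le_of_not_gt fun hlt => hm ?_)
  have := (Padic.norm_intCast_lt_one_iff (p := (q : ℕ)) (k := (m : ℤ))).1 (by exact_mod_cast hlt)
  exact_mod_cast this

theorem exists_forall_norm_le_one (x : QBar) :
    ∃ m : ℕ, 0 < m ∧ ∀ q : Nat.Primes, ¬ (q : ℕ) ∣ m → ∀ g : GQ, ‖emb q (g x)‖ ≤ 1 := by
  obtain ⟨y, d, hd, hy⟩ : ∃ y : QBar, ∃ d : ℤ, d ≠ 0 ∧ IsIntegral ℤ y ∧ (d : QBar) * x = y := by
    obtain ⟨d, hd, hy⟩ := IsAlgebraic.exists_integral_multiple (R := ℤ)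
      ((IsFractionRing.isAlgebraic_iff ℤ ℚ QBar).2 (Algebra.IsAlgebraic.isAlgebraic x))
    exact ⟨_, d, hd, hy, by rw [Algebra.smul_def]; rfl⟩
  obtain ⟨hy, hxy⟩ := hy
  refine ⟨d.natAbs, Int.natAbs_pos.2 hd, fun q hq g => ?_⟩
  have h1 : ‖emb q (g y)‖ ≤ 1 := norm_emb_le_one (hy.map (g.toAlgHom.restrictScalars ℤ)) q
  have h2 : ‖emb q (g (d : QBar))‖ = 1 := by
    rw [map_intCast g]
    rcases Int.natAbs_eq d with h | h <;> rw [h]
    · rw [Int.cast_natCast]; exact norm_emb_natCast q hq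
    · rw [Int.cast_neg, Int.cast_natCast, map_neg, norm_neg]; exact norm_emb_natCast q hq
  rw [← hxy, map_mul, map_mul, norm_mul, h2, one_mul] at h1
  exact h1

theorem prin_mem_restricted (x : QBarˣ) : prin x ∈ restricted := by
  classical
  obtain ⟨m, hm, h1⟩ := exists_forall_norm_le_one (x : QBar)
  obtain ⟨m', hm', h2⟩ := exists_forall_norm_le_one ((x⁻¹ : QBarˣ) : QBar)
  refine ⟨((m * m').primeFactors.subtype Nat.Prime : Finset Nat.Primes), fun q hq g => ?_⟩
  have hq' : ¬ (q : ℕ) ∣ m * m' := fun h => hq (Finset.mem_subtype.2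
    (Nat.mem_primeFactors.2 ⟨q.2, h, by positivity⟩))
  have a := h1 q (fun h => hq' (h.mul_right _)) g
  have b := h2 q (fun h => hq' (h.mul_left _)) g
  rw [Units.val_inv_eq_inv_val, map_inv₀, map_inv₀, norm_inv] at b
  rw [prin_val]
  refine le_antisymm a ?_
  have hpos : 0 < ‖emb q (g (x : QBar))‖ := by
    rw [norm_pos_iff]; simp
  exact (inv_le_one₀ hpos).1 b

/-- Families invariant under the subgroup fixing `L`. -/
def invariantUnder (L : IntermediateField ℚ QBar) : Subgroup PreIdele where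
  carrier := {f | ∀ s ∈ L.fixingSubgroup, transl s f = f}
  one_mem' s _ := map_one _
  mul_mem' {f f'} hf hf' s hs := by rw [map_mul, hf s hs, hf' s hs]
  inv_mem' {f} hf s hs := by rw [map_inv, hf s hs]

/-- The finite ideles of `L`. -/
def idl (L : IntermediateField ℚ QBar) : Subgroup PreIdele :=
  equivariant ⊓ restricted ⊓ invariantUnder L

theorem mem_idl {L : IntermediateField ℚ QBar} {f : PreIdele} :
    f ∈ idl L ↔ f ∈ equivariant ∧ f ∈ restricted ∧ ∀ s ∈ L.fixingSubgroup, transl s f = f :=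
  ⟨fun h => ⟨h.1.1, h.1.2, h.2⟩, fun h => ⟨⟨h.1, h.2.1⟩, h.2.2⟩⟩

theorem idl_mono {K L : IntermediateField ℚ QBar} (h : K ≤ L) : idl K ≤ idl L := fun f hf => by
  rw [mem_idl] at hf ⊢
  exact ⟨hf.1, hf.2.1, fun s hs => hf.2.2 s (IntermediateField.fixingSubgroup_antitone h hs)⟩

/-- The units of `ℚ̄` lying in `L`. -/
def unitsOf (L : IntermediateField ℚ QBar) : Subgroup QBarˣ where
  carrier := {x | (x : QBar) ∈ L}
  one_mem' := one_mem L
  mul_mem' {a b} ha hb := by
    show ((a * b : QBarˣ) : QBar) ∈ L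
    rw [Units.val_mul]; exact mul_mem ha hb
  inv_mem' {x} hx := by
    show ((x⁻¹ : QBarˣ) : QBar) ∈ L
    rw [Units.val_inv_eq_inv_val]; exact inv_mem hx

theorem prin_mem_idl_iff {L : IntermediateField ℚ QBar} {x : QBarˣ} :
    prin x ∈ idl L ↔ x ∈ unitsOf L := by
  rw [mem_idl]
  refine ⟨fun h => ?_, fun hx => ⟨prin_mem_equivariant x, prin_mem_restricted x, fun s hs => ?_⟩⟩
  · show (x : QBar) ∈ L
    rw [← InfiniteGalois.fixedField_fixingSubgroup L, IntermediateField.mem_fixedField_iff]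
    intro s hs
    have := h.2.2 s hs
    rw [transl_prin] at this
    exact congrArg Units.val (prin_injective this)
  · rw [transl_prin]
    congr 1
    exact Units.ext ((IntermediateField.mem_fixingSubgroup_iff _ _).1 hs _ hx)

/-- Two families invariant under `L` which agree on representatives of `D \ Γ / Γ_L` are equal. -/
theorem apply_eq_of_rep {L : IntermediateField ℚ QBar} {f : PreIdele} (hf : f ∈ idl L)
    (q : Nat.Primes) (τ : Ω q ≃ₐ[ℚ_[(q : ℕ)]] Ω q) (g : GQ) {s : GQ} (hs : s ∈ L.fixingSubgroup) :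
    ((f q (loc q τ * g * s) : (Ω q)ˣ) : Ω q) = τ (f q g : (Ω q)ˣ) := by
  obtain ⟨h1, -, h3⟩ := mem_idl.1 hf
  have : f q (loc q τ * g * s) = f q (loc q τ * g) := congrFun (congrFun (h3 s hs) q) (loc q τ * g)
  rw [this]; exact h1 q τ g

end Fermat.Agent.CFT.Idele
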