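import Fermat.Agent.CFT.Idele.PsiNorm
import Fermat.Agent.CFT.Idele.Incl
import Fermat.Agent.CFT.Idele.Decomp
import Fermat.Agent.CFT.Idele.LocalTriv
import Fermat.Agent.Arith.Chebotarev.Main

/-!
# Norms to the rationals and the induced character of idele classes
-/

set_option autoImplicit false
set_option synthInstance.maxHeartbeats 200000
set_option linter.style.haveILetI false

noncomputable section

namespace Fermat.Agent.CFT.Idele

open ExtCitation Fermat.Agent.Arith IntermediateField Fermat.Agent.CFT.Local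
open scoped Pointwise

local instance factPrimeNormBot (q : Nat.Primes) : Fact (q : ℕ).Prime := ⟨q.2⟩

instance normal_bot_QBar : Normal ℚ (⊥ : IntermediateField ℚ QBar) :=
  Normal.of_algEquiv (IntermediateField.botEquiv ℚ QBar).symm

variable (L : IntermediateField ℚ QBar) [FiniteDimensional ℚ L] [Normal ℚ L]

/-- The norm from the ideles of `L` to the rational ideles. -/
def normBot : idl L →* idl (⊥ : IntermediateField ℚ QBar) :=
  MonoidHom.mk' (fun f => ⟨((∏ σ : L ≃ₐ[ℚ] L, σ • f : idl L) : PreIdele),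
      mem_idl_of_fixed (bot_le : (⊥ : IntermediateField ℚ QBar) ≤ L) fun s _ => by
        rw [Finset.smul_prod']
        exact Fintype.prod_equiv (Equiv.mulLeft s) _ _ fun σ => smul_smul s σ f⟩)
    fun f g => Subtype.ext (by simp only [smul_mul', Finset.prod_mul_distrib, Subgroup.coe_mul])

theorem coe_normBot (f : idl L) :
    (normBot L f : PreIdele) = ((∏ σ : L ≃ₐ[ℚ] L, σ • f : idl L) : PreIdele) := rfl

theorem algebraMap_botVal_normBot (f : idl L) (l : Nat.Primes) :
    algebraMap ℚ_[(l : ℕ)] (E L l) (botVal l (normBot L f) : ℚ_[(l : ℕ)]) =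
      ∏ σ : L ≃ₐ[ℚ] L, ((val f l σ : (E L l)ˣ) : E L l) := by
  rw [← Units.coe_prod]
  have h : val (∏ σ : L ≃ₐ[ℚ] L, σ • f) l 1 = ∏ σ : L ≃ₐ[ℚ] L, val f l σ := by
    rw [val_prod]
    exact Finset.prod_congr rfl fun σ _ => by rw [val_smul, one_mul]
  rw [← h]
  refine Subtype.ext ?_
  rw [coe_val _ l (map_one (res L))]
  exact botVal_spec l (normBot L f) 1

theorem normBot_of_bot (P : idl (⊥ : IntermediateField ℚ QBar)) :
    normBot L ⟨P, idl_mono bot_le P.2⟩ = P ^ Fintype.card (L ≃ₐ[ℚ] L) := by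
  refine Subtype.ext ?_
  rw [coe_normBot, SubmonoidClass.coe_pow, ← Finset.card_univ,
    SubmonoidClass.coe_finsetProd, ← Finset.prod_const]
  exact Finset.prod_congr rfl fun σ _ =>
    (coe_smul_idl L σ _ (res_lift L σ)).trans ((mem_idl.1 P.2).2.2 _ (by simp))

variable {L} {L' : IntermediateField ℚ QBar} [FiniteDimensional ℚ L'] [Normal ℚ L'] (hLL : L ≤ L')

/-- The norm to an intermediate field, and transitivity. -/
theorem exists_incl_prod_smul (f : idl L') :
    ∃ z : idl L, (inclIdl hLL z = haveI := Fintype.ofFinite (resTo hLL).ker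
      ∏ η : (resTo hLL).ker, (η : L' ≃ₐ[ℚ] L') • f) ∧ normBot L z = normBot L' f := by
  classical
  letI := Fintype.ofFinite (resTo hLL).ker
  have hfix : (∏ η : (resTo hLL).ker, (η : L' ≃ₐ[ℚ] L') • f) ∈
      fixedBy (resTo hLL).ker (idl L') := prod_smul_mem_fixedBy _ f
  refine ⟨⟨_, mem_idl_of_fixed hLL hfix⟩, Subtype.ext rfl, Subtype.ext ?_⟩
  set z : idl L := ⟨_, mem_idl_of_fixed hLL hfix⟩
  have hz : inclIdl hLL z = ∏ η : (resTo hLL).ker, (η : L' ≃ₐ[ℚ] L') • f := Subtype.ext rfl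
  rw [coe_normBot, coe_normBot, ← coe_inclIdl hLL, map_prod]
  congr 1
  choose s hs using resTo_surjective hLL
  rw [← prod_section_ker (resTo hLL) s hs fun τ => τ • f]
  refine Finset.prod_congr rfl fun σ _ => ?_
  conv_lhs => rw [← hs σ, inclIdl_smul, hz, Finset.smul_prod']
  exact Finset.prod_congr rfl fun η _ => smul_smul _ _ _

variable {n : ℕ} (a : Aux n) (hn : Odd n) (L)

/-- The character on the idele classes of `L`, through the norm. -/
def psiC : ClassGrp L →* Multiplicative (ZMod n) :=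
  QuotientGroup.lift _ ((psi a).comp (normBot L)) (by
    rintro _ ⟨c, rfl⟩
    rw [MonoidHom.mem_ker, MonoidHom.comp_apply]
    set N : Lˣ := ∏ σ : L ≃ₐ[ℚ] L, σ • c
    have e : (normBot L (prinL L c) : PreIdele) =
        prin (Units.map L.val.toRingHom.toMonoidHom N) := by
      rw [coe_normBot, Finset.prod_congr rfl fun σ _ => smul_prinL σ c, ← map_prod]
      rfl
    rw [show normBot L (prinL L c) =
      (⟨prin (Units.map L.val.toRingHom.toMonoidHom N), e ▸ (normBot L _).2⟩ :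
        idl (⊥ : IntermediateField ℚ QBar)) from Subtype.ext e]
    exact psi_prin a hn _)

theorem psiC_mk (f : idl L) : psiC L a hn (QuotientGroup.mk f) = psi a (normBot L f) := rfl

/-- A prime with trivial decomposition in `L` whose uniformiser generates. -/
theorem exists_psi_generator (hsplit : ∀ c : Multiplicative (ZMod n), ∃ g : GQ,
    res L g = 1 ∧ a.chi g = c) : ∃ f : idl L, psi a (normBot L f) = Multiplicative.ofAdd 1 := by
  classical
  obtain ⟨T, hT⟩ := exists_finset_unramified L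
  obtain ⟨g, hgL, hgc⟩ := hsplit (Multiplicative.ofAdd (-1 : ZMod n))
  haveI : FiniteDimensional ℚ (L ⊔ a.fixedChi : IntermediateField ℚ QBar) :=
    IntermediateField.finiteDimensional_sup L a.fixedChi
  obtain ⟨l, hl, hlS, A, hA, σ, hσ, hρ⟩ := Chebotarev.exists_frobenius_eq ((res L).prod a.chi)
    (L ⊔ a.fixedChi) (fun τ hτ => by
      refine Prod.ext ((res_eq_one_iff L).2 ((IntermediateField.mem_fixingSubgroup_iff _ _).2
        fun x hx => hτ x (le_sup_left (α := IntermediateField ℚ QBar) hx))) ?_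
      show τ ∈ a.chi.ker
      rw [← a.fixingSubgroup_fixedChi, IntermediateField.mem_fixingSubgroup_iff]
      exact fun x hx => hτ x (le_sup_right (α := IntermediateField ℚ QBar) hx))
    g (insert (a.q : ℕ) (T.image fun r : Nat.Primes => (r : ℕ)))
  rw [Finset.mem_insert, not_or, Finset.mem_image] at hlS
  haveI : Fact l.Prime := ⟨hl⟩
  set l' : Nat.Primes := ⟨l, hl⟩
  haveI : Fact (l' : ℕ).Prime := ⟨hl⟩
  have hne : l' ≠ a.q := fun h => hlS.1 (congrArg Subtype.val h)
  have hlT : l' ∉ T := fun h => hlS.2 ⟨l', h, rfl⟩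
  obtain ⟨g₀, hg₀⟩ := exists_smul_eq hA (padicPlace_liesOverPrime (l' : ℕ)) hl
  have hσ₀ := (isFrobeniusAt_conj (g := g₀) hσ)
  rw [hg₀] at hσ₀
  have hρ' := Prod.ext_iff.1 hρ
  have hσL : res L (g₀ * σ * g₀⁻¹) = 1 := by
    rw [map_mul, map_mul, show res L σ = res L g from hρ'.1, hgL, mul_one, ← map_mul,
      mul_inv_cancel, map_one]
  have hin := (inertia_eq_bot_iff (l' : ℕ) L).1 (hT l' hlT)
  have hD : ∀ t : E L l' ≃ₐ[ℚ_[(l' : ℕ)]] E L l', toGlobal (l' : ℕ) L t = 1 := fun t => by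
    obtain ⟨τ, rfl⟩ := AlgEquiv.restrictNormalHom_surjective (K₁ := E L l') (Ω l') t
    obtain ⟨i, hi⟩ := exists_pow_restrict_eq L hin hσ₀ τ
    rw [toGlobal_restrict]
    exact hi.trans (by rw [show AlgEquiv.restrictNormalHom L (g₀ * σ * g₀⁻¹) = 1 from hσL, one_pow])
  have hl0 : ((l' : ℕ) : ℚ_[(l' : ℕ)]) ≠ 0 := Nat.cast_ne_zero.2 hl.ne_zero
  set y : (E L l')ˣ := Units.map (algebraMap ℚ_[(l' : ℕ)] (E L l')).toMonoidHom (Units.mk0 _ hl0)
  set f := locIdl l' y
  refine ⟨f, ?_⟩
  have hval : ∀ r : Nat.Primes, ∀ v : ℚ_[(r : ℕ)],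
      (∏ τ : L ≃ₐ[ℚ] L, ((val f r τ : (E L r)ˣ) : E L r)) = algebraMap _ _ v →
        (botVal r (normBot L f) : ℚ_[(r : ℕ)]) = v := fun r v hv =>
    (algebraMap ℚ_[(r : ℕ)] (E L r)).injective ((algebraMap_botVal_normBot L f r).trans hv)
  have hne' : ∀ r, r ≠ l' → (botVal r (normBot L f) : ℚ_[(r : ℕ)]) = 1 := fun r hr => hval r 1 (by
    rw [map_one, Finset.prod_eq_one]
    exact fun τ _ => by rw [val_locIdl_of_ne l' y hr]; rfl)
  have hl1 : (botVal l' (normBot L f) : ℚ_[(l' : ℕ)]) = (l' : ℕ) := hval l' _ (by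
    rw [Finset.prod_eq_single (1 : L ≃ₐ[ℚ] L) (fun τ _ hτ => by
      rw [val_locIdl_of_notMem l' y (fun h => hτ (by
        obtain ⟨t, rfl⟩ := MonoidHom.mem_range.1 h; exact hD t))]; rfl)
      fun h => absurd (Finset.mem_univ _) h]
    rw [← map_one (toGlobal (l' : ℕ) L), val_locIdl_self, one_smul]
    rfl)
  rw [psi_of_single a hne (by
      rw [show botVal a.q (normBot L f) = 1 from Units.ext (hne' a.q hne.symm), map_one])
    (fun r hr => by rw [hne' r hr, norm_one]), hl1, Padic.valuation_p, zpow_one,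
    ← a.chi_frob hne hA hσ, show a.chi σ = a.chi g from hρ'.2, hgc, ← ofAdd_neg, neg_neg]

end Fermat.Agent.CFT.Idele
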