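import Fermat.Agent.CFT.Idele.NormGenerator

/-!
# Orders modulo `p` and units at one place

If some `S`-unit has order prime to `p` at a place `v ∈ S`, a unit at `v` which is not a `p`-th
power is not in `Kˣ` times the local `p`-th powers at `S`: otherwise the extension by the `p`-th
root of the principal part would have every idele as a norm.
-/

set_option autoImplicit false
set_option synthInstance.maxHeartbeats 200000
set_option linter.style.haveILetI false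

noncomputable section

namespace Fermat.Agent.CFT.Idele

open ExtCitation Fermat.Agent.Arith IntermediateField

local instance factPrimeOrdMod (q : Nat.Primes) : Fact (q : ℕ).Prime := ⟨q.2⟩

variable {p : ℕ} [hp : Fact p.Prime]

/-- The norm of `y` is the `p`-th power of the norm of an element of `F`. -/
def IsPowNorm (p : ℕ) {q : Nat.Primes} (F : IntermediateField ℚ_[(q : ℕ)] (Ω q)) (y : Ω q) :
    Prop :=
  ∃ c ∈ F, ‖y‖ = ‖c‖ ^ p

section Norm

variable {q : Nat.Primes} {F : IntermediateField ℚ_[(q : ℕ)] (Ω q)}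

omit hp in
theorem IsPowNorm.mul {x y : Ω q} (hx : IsPowNorm p F x) (hy : IsPowNorm p F y) :
    IsPowNorm p F (x * y) := by
  obtain ⟨c, hc, e⟩ := hx
  obtain ⟨d, hd, e'⟩ := hy
  exact ⟨c * d, mul_mem hc hd, by rw [norm_mul, norm_mul, mul_pow, e, e']⟩

omit hp in
theorem isPowNorm_of_pow {x : Ω q} (hx : x ∈ F) : IsPowNorm p F (x ^ p) :=
  ⟨x, hx, norm_pow x p⟩

omit hp in
theorem isPowNorm_of_norm_one {x : Ω q} (hx : ‖x‖ = 1) : IsPowNorm p F x :=
  ⟨1, one_mem F, by rw [hx, norm_one, one_pow]⟩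

omit hp in
theorem IsPowNorm.inv {x : Ω q} (hx : IsPowNorm p F x) : IsPowNorm p F x⁻¹ := by
  obtain ⟨c, hc, e⟩ := hx
  exact ⟨c⁻¹, inv_mem hc, by rw [norm_inv, norm_inv, inv_pow, e]⟩

theorem exists_norm_eq_pow_mul [FiniteDimensional ℚ_[(q : ℕ)] F] {x y : Ω q} (hxF : x ∈ F)
    (hx0 : x ≠ 0) (hyF : y ∈ F) (hy0 : y ≠ 0) (hne : ¬ IsPowNorm p F x) :
    ∃ i : ℕ, ∃ c ∈ F, c ≠ 0 ∧ ‖y‖ = ‖x‖ ^ i * ‖c‖ ^ p := by
  set X : Fˣ := Units.mk0 ⟨x, hxF⟩ fun h => hx0 (congrArg Subtype.val h)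
  set Y : Fˣ := Units.mk0 ⟨y, hyF⟩ fun h => hy0 (congrArg Subtype.val h)
  obtain ⟨π, hπ⟩ := Local.ord_surjective F (Multiplicative.ofAdd 1)
  have hπ1 : Local.ordZ F π = 1 := by rw [Local.ordZ, hπ, toAdd_ofAdd]
  have hz : ∀ n : ℤ, Local.ordZ F (π ^ n) = n := fun n => by
    rw [Local.ordZ_zpow, hπ1, mul_one]
  have hX : ¬ (p : ℤ) ∣ Local.ordZ F X := by
    rintro ⟨k, hk⟩
    have h := (Local.norm_eq_norm_iff F X ((π ^ k) ^ p)).mpr (by
      rw [Local.ordZ_pow, hz, hk])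
    exact hne ⟨((π ^ k : Fˣ) : F), SetLike.coe_mem _, by
      rw [Units.val_pow_eq_pow_val, norm_pow] at h; exact h⟩
  have ha : ((Local.ordZ F X : ℤ) : ZMod p) ≠ 0 := fun h =>
    hX ((ZMod.intCast_zmod_eq_zero_iff_dvd _ p).mp h)
  set i : ℕ := (((Local.ordZ F Y : ℤ) : ZMod p) * ((Local.ordZ F X : ℤ) : ZMod p)⁻¹).val
  obtain ⟨k, hk⟩ : (p : ℤ) ∣ Local.ordZ F Y - i * Local.ordZ F X := by
    rw [← ZMod.intCast_zmod_eq_zero_iff_dvd]
    push_cast
    rw [ZMod.natCast_zmod_val, inv_mul_cancel_right₀ ha, sub_self]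
  refine ⟨i, (((π ^ k : Fˣ) : F) : Ω q), SetLike.coe_mem _,
    fun h => (π ^ k).ne_zero (Subtype.ext h), ?_⟩
  have h := (Local.norm_eq_norm_iff F Y (X ^ i * (π ^ k) ^ p)).mpr (by
    rw [Local.ordZ_mul, Local.ordZ_pow, Local.ordZ_pow, hz]; linarith)
  rw [Units.val_mul, norm_mul, Units.val_pow_eq_pow_val, Units.val_pow_eq_pow_val, norm_pow,
    norm_pow] at h
  exact h

end Norm

/-- The idele with value `u` at the place of `r` over `ℓ`. -/
def singleAt (K : IntermediateField ℚ QBar) (ℓ : Nat.Primes) (r : GQ) (u : (Ω ℓ)ˣ) : PreIdele :=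
  open Classical in
  glue K (fun q => placeRep q K)
    (Function.update (1 : PreIdele) ℓ (Function.update (1 : GQ → (Ω ℓ)ˣ) r u))

section Single

variable {K : IntermediateField ℚ QBar} {ℓ : Nat.Primes} {r : GQ} {u : (Ω ℓ)ˣ}

omit hp in
theorem single_values (hu : (u : Ω ℓ) ∈ fieldAt ℓ K r) (q : Nat.Primes) (h : GQ) :
    open Classical in
    ((Function.update (1 : PreIdele) ℓ (Function.update (1 : GQ → (Ω ℓ)ˣ) r u) q h : (Ω q)ˣ) :
      Ω q) ∈ fieldAt q K h := by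
  classical
  rcases eq_or_ne q ℓ with rfl | hq
  · rw [Function.update_self]
    rcases eq_or_ne h r with rfl | hh
    · rwa [Function.update_self]
    · rw [Function.update_of_ne hh, Pi.one_apply, Units.val_one]; exact one_mem _
  · rw [Function.update_of_ne hq, Pi.one_apply, Pi.one_apply, Units.val_one]; exact one_mem _

omit hp in
theorem singleAt_mem (hu : (u : Ω ℓ) ∈ fieldAt ℓ K r) : singleAt K ℓ r u ∈ idl K := by
  classical
  refine glue_placeRep_mem_idl (single_values hu) {ℓ} fun q hq h => ?_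
  rw [Function.update_of_ne (Finset.notMem_singleton.mp hq)]
  simp

omit hp in
theorem singleAt_self (hu : (u : Ω ℓ) ∈ fieldAt ℓ K r) (hr : placeRep ℓ K r = r) :
    singleAt K ℓ r u ℓ r = u := by
  classical
  rw [singleAt, glue_placeRep (single_values hu) hr, Function.update_self, Function.update_self]

omit hp in
theorem singleAt_other (hu : (u : Ω ℓ) ∈ fieldAt ℓ K r) {q : Nat.Primes} {h : GQ}
    (hh : placeRep q K h = h) (hne : q = ℓ → h ≠ r) : singleAt K ℓ r u q h = 1 := by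
  classical
  rw [singleAt, glue_placeRep (single_values hu) hh]
  rcases eq_or_ne q ℓ with rfl | hq
  · rw [Function.update_self, Function.update_of_ne (hne rfl), Pi.one_apply]
  · rw [Function.update_of_ne hq, Pi.one_apply, Pi.one_apply]

end Single

variable {ζ : QBar} {K : IntermediateField ℚ QBar}

omit hp in
/-- A constant idele has the `p`-th power as norm. -/
theorem normStep_of_mem_idl {g₀ : GQ} (hg₀ : g₀ ∈ K.fixingSubgroup) {z : PreIdele}
    (hz : z ∈ idl K) : normStep p g₀ z = z ^ p := by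
  rw [normStep_eq_prod, Finset.prod_congr rfl fun i _ => (mem_idl.mp hz).2.2 _ (pow_mem hg₀ i),
    Finset.prod_const, Finset.card_range]

omit hp in
/-- The norm at one place of a value of a unit idele. -/
theorem unitsOutside_norm {S : Finset Nat.Primes} {f : PreIdele} (hf : f ∈ unitsOutside S K)
    {q : Nat.Primes} (hq : q ∉ S) (h : GQ) : ‖((f q h : (Ω q)ˣ) : Ω q)‖ = 1 := hf.2 q hq h

variable [FiniteDimensional ℚ K]

/-- A unit at `v ∈ S` which is not a `p`-th power is not in `Kˣ` times `p`-th powers at `S`, if an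
`S`-unit has order prime to `p` at `v`. -/
theorem singleAt_notMem (hp2 : p ≠ 2) (hζ : IsPrimitiveRoot ζ p) (hζK : ζ ∈ K)
    {S : Finset Nat.Primes} (hS : GoodSet p S K) {ℓ : Nat.Primes} (hℓ : ℓ ∈ S)
    (hℓp : (ℓ : ℕ) ≠ p) {r : GQ} (hr : placeRep ℓ K r = r) {b₀ : QBarˣ} (hb₀ : b₀ ∈ sUnits S K)
    (hord : ¬ IsPowNorm p (fieldAt ℓ K r) (emb ℓ (r (b₀ : QBar)))) {u : (Ω ℓ)ˣ}
    (hu : (u : Ω ℓ) ∈ fieldAt ℓ K r) (hu1 : ‖(u : Ω ℓ)‖ = 1)
    (hupow : ∀ y ∈ fieldAt ℓ K r, y ^ p ≠ (u : Ω ℓ)) :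
    singleAt K ℓ r u ∉ prinSub K ⊔ powAt p S K := by
  intro hmem
  obtain ⟨_, ⟨c, hc, rfl⟩, e, he, heq⟩ := Subgroup.mem_sup.mp hmem
  -- the values of `c`
  have hval : ∀ q h, placeRep q K h = h → emb q (h (c : QBar)) =
      ((singleAt K ℓ r u q h : (Ω q)ˣ) : Ω q) * ((e q h : (Ω q)ˣ) : Ω q)⁻¹ := fun q h _ => by
    rw [← heq, Pi.mul_apply, Pi.mul_apply, Units.val_mul, prin_val,
      mul_inv_cancel_right₀ (Units.ne_zero _)]
  have hcS : c ∈ sUnits S K := ⟨hc, mem_unitsOutside_of_rep (prin_mem_idl_iff.mpr hc)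
    fun q hq h hh => by
      rw [prin_val, hval q h hh, singleAt_other hu hh fun e' => absurd hℓ (e' ▸ hq),
        Units.val_one, one_mul, norm_inv, unitsOutside_norm he.1 hq, inv_one]⟩
  obtain ⟨ye, hye, hyep⟩ := he.2 ℓ hℓ r hr
  have hcr : emb ℓ (r (c : QBar)) = (u : Ω ℓ) * (ye⁻¹) ^ p := by
    rw [hval ℓ r hr, singleAt_self hu hr, inv_pow, hyep]
  have hsplit : ∀ q ∈ S, ∀ h, placeRep q K h = h → (q = ℓ → h ≠ r) →
      ∃ y ∈ fieldAt q K h, y ^ p = emb q (h (c : QBar)) := fun q hq h hh hne => by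
    obtain ⟨y, hy, hyp⟩ := he.2 q hq h hh
    exact ⟨y⁻¹, inv_mem hy, by
      rw [hval q h hh, singleAt_other hu hh hne, Units.val_one, one_mul, inv_pow, hyp]⟩
  have hroot : rootP p (c : QBar) ∉ K := fun hmem' => by
    have hye0 : ye ≠ 0 := fun h0 => by
      rw [h0, zero_pow hp.out.ne_zero] at hyep
      exact Units.ne_zero _ hyep.symm
    refine hupow (emb ℓ (r (rootP p (c : QBar))) * ye)
      (mul_mem (emb_mem_fieldAt r hmem') hye) ?_
    rw [mul_pow, ← map_pow, ← map_pow, rootP_pow, hcr, inv_pow, inv_mul_cancel_right₀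
      (pow_ne_zero _ hye0)]
  obtain ⟨g₀, hg₀, hkum⟩ := exists_kum_eq_one hζ hζK hc c.ne_zero hroot
  obtain ⟨f, hf, hne⟩ := firstIneq hp2 ζ hζ hζK (c : QBar) hc c.ne_zero hroot g₀ hg₀ hkum
  obtain ⟨d, hd, hfd⟩ := hS.gen f hf
  obtain ⟨i, c₁, hc₁, hc₁0, hy₀⟩ := exists_norm_eq_pow_mul
    (emb_mem_fieldAt r (sUnits_le S K hb₀))
    ((map_ne_zero _).mpr ((map_ne_zero _).mpr b₀.ne_zero))
    (value_mem_fieldAt hfd.1 r) (Units.ne_zero _) hord
  set d' : QBarˣ := d * (b₀ ^ i)⁻¹ with hd'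
  have hd'K : d' ∈ unitsOf K := mul_mem hd (inv_mem (pow_mem (sUnits_le S K hb₀) i))
  set f₂ := f * prin d' with hf₂
  have hf₂S : f₂ ∈ unitsOutside S K := by
    rw [hf₂, hd', map_mul, map_inv, map_pow, ← mul_assoc]
    exact mul_mem hfd (inv_mem (pow_mem (show prin b₀ ∈ unitsOutside S K from hb₀.2) i))
  have hf₂r : ‖((f₂ ℓ r : (Ω ℓ)ˣ) : Ω ℓ)‖ = ‖c₁‖ ^ p := by
    have hb : ‖emb ℓ (r (b₀ : QBar))‖ ^ i ≠ 0 := pow_ne_zero _ (norm_ne_zero_iff.mpr
      ((map_ne_zero _).mpr ((map_ne_zero _).mpr b₀.ne_zero)))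
    rw [hf₂, hd', map_mul, map_inv, map_pow, ← mul_assoc, Pi.mul_apply, Pi.mul_apply,
      Units.val_mul, norm_mul, hy₀, Pi.inv_apply, Pi.inv_apply, Units.val_inv_eq_inv_val,
      Pi.pow_apply, Pi.pow_apply, Units.val_pow_eq_pow_val, norm_inv, norm_pow, prin_val,
      mul_comm, inv_mul_cancel_left₀ hb]
  set z := singleAt K ℓ r (Units.mk0 c₁ hc₁0)
  have hz : z ∈ idl K := singleAt_mem (u := Units.mk0 c₁ hc₁0) hc₁
  have hzr : ((z ℓ r : (Ω ℓ)ˣ) : Ω ℓ) = c₁ :=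
    congrArg Units.val (singleAt_self (u := Units.mk0 c₁ hc₁0) hc₁ hr)
  have hzo : ∀ q h, placeRep q K h = h → (q = ℓ → h ≠ r) → z q h = 1 := fun q h hh hne' =>
    singleAt_other (u := Units.mk0 c₁ hc₁0) hc₁ hh hne'
  set f₃ := f₂ * (z ^ p)⁻¹
  obtain ⟨y, hy, hyf⟩ := exists_normStep_eq hζ hζK hc c.ne_zero hg₀ hkum hp2
    (mul_mem hf₂S.1 (inv_mem (pow_mem hz p)) : f₃ ∈ idl K) fun q h hh => by
      by_cases hq : q ∈ S
      · by_cases hne' : q = ℓ → h ≠ r
        · exact Or.inl (hsplit q hq h hh hne')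
        · push Not at hne'
          obtain ⟨rfl, rfl⟩ := hne'
          refine Or.inr (Or.inr ⟨hℓp, ?_, ye⁻¹, inv_mem hye, ?_, ?_⟩)
          · rw [Pi.mul_apply, Pi.mul_apply, Units.val_mul, norm_mul, hf₂r, Pi.inv_apply,
              Pi.inv_apply, Units.val_inv_eq_inv_val, Pi.pow_apply, Pi.pow_apply,
              Units.val_pow_eq_pow_val,
              norm_inv, norm_pow, hzr,
              mul_inv_cancel₀ (pow_ne_zero _ (norm_ne_zero_iff.mpr hc₁0))]
          · exact inv_ne_zero fun h0 => by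
              rw [h0, zero_pow hp.out.ne_zero] at hyep
              exact Units.ne_zero _ hyep.symm
          · rw [hcr, norm_mul, hu1, one_mul, norm_pow]
      · refine Or.inr (Or.inr ⟨fun h' => hq ?_, ?_, 1, one_mem _, one_ne_zero, ?_⟩)
        · rw [show q = ⟨p, hp.out⟩ from Subtype.ext h']; exact hS.mem
        · rw [Pi.mul_apply, Pi.mul_apply, Units.val_mul, norm_mul,
            unitsOutside_norm hf₂S hq, Pi.inv_apply, Pi.inv_apply, Pi.pow_apply, Pi.pow_apply,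
            hzo q h hh fun e' => absurd hℓ (e' ▸ hq)]
          simp
        · rw [norm_one, one_pow]; exact (mem_sUnits.mp hcS).2 q hq h
  refine hne (y * z) (mul_mem hy (idl_mono (le_kumField _) hz)) d'⁻¹ (inv_mem hd'K) ?_
  rw [normStep_mul, hyf, normStep_of_mem_idl hg₀ hz, inv_mul_cancel_right, hf₂, map_inv,
    mul_inv_cancel_right]

end Fermat.Agent.CFT.Idele
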