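import Fermat.Agent.CFT.Idele.ClassFinite
import Fermat.Agent.CFT.Idele.CycChar
import Fermat.Agent.CFT.Idele.PadicRes
import Fermat.Agent.CFT.Local.Fixed
import Fermat.Agent.CFT.Local.Unramified

/-!
# The character of rational idele classes attached to an auxiliary prime

`psi` is trivial on principal ideles and on norms from the cyclic field.
-/

set_option autoImplicit false
set_option synthInstance.maxHeartbeats 200000
set_option linter.style.haveILetI false

noncomputable section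

namespace Fermat.Agent.CFT.Idele

open ExtCitation Fermat.Agent.Arith IntermediateField Fermat.Agent.CFT.Local

local instance factPrimePsi (q : Nat.Primes) : Fact (q : ℕ).Prime := ⟨q.2⟩

theorem fieldAt_bot (q : Nat.Primes) (g : GQ) :
    fieldAt q (⊥ : IntermediateField ℚ QBar) g = ⊥ := by
  refine le_bot_iff.1 (IntermediateField.adjoin_le_iff.2 ?_)
  rintro _ ⟨x, hx, rfl⟩
  obtain ⟨r, rfl⟩ := IntermediateField.mem_bot.1 hx
  refine IntermediateField.mem_bot.2 ⟨(r : ℚ_[(q : ℕ)]), ?_⟩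
  show algebraMap ℚ_[(q : ℕ)] (Ω q) r = emb q (g (algebraMap ℚ QBar r))
  rw [AlgEquiv.commutes, AlgHom.commutes, map_ratCast, eq_ratCast]

theorem exists_botVal (q : Nat.Primes) (f : idl (⊥ : IntermediateField ℚ QBar)) :
    ∃ x : ℚ_[(q : ℕ)], algebraMap ℚ_[(q : ℕ)] (Ω q) x = ((f : PreIdele) q 1 : (Ω q)ˣ) :=
  IntermediateField.mem_bot.1 (fieldAt_bot q 1 ▸ value_mem_fieldAt f.2 1)

/-- The component of a rational idele. -/
def botVal (q : Nat.Primes) : idl (⊥ : IntermediateField ℚ QBar) →* ℚ_[(q : ℕ)]ˣ :=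
  MonoidHom.mk' (fun f => Units.mk0 (exists_botVal q f).choose fun h =>
      Units.ne_zero ((f : PreIdele) q 1)
        (by rw [← (exists_botVal q f).choose_spec, h, map_zero]))
    fun f f' => Units.ext ((algebraMap ℚ_[(q : ℕ)] (Ω q)).injective (by
      rw [Units.val_mul, map_mul, Units.val_mk0, Units.val_mk0, Units.val_mk0,
        (exists_botVal q _).choose_spec, (exists_botVal q _).choose_spec,
        (exists_botVal q _).choose_spec]
      rfl))

theorem botVal_spec (q : Nat.Primes) (f : idl (⊥ : IntermediateField ℚ QBar)) (g : GQ) :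
    algebraMap ℚ_[(q : ℕ)] (Ω q) (botVal q f : ℚ_[(q : ℕ)]) =
      (((f : PreIdele) q g : (Ω q)ˣ) : Ω q) := by
  refine (exists_botVal q f).choose_spec.trans ?_
  have h := congrFun (congrFun ((mem_idl.1 f.2).2.2 g (by simp)) q) 1
  rw [transl_apply, one_mul] at h
  rw [h]

theorem norm_botVal (q : Nat.Primes) (f : idl (⊥ : IntermediateField ℚ QBar)) (g : GQ) :
    ‖(botVal q f : ℚ_[(q : ℕ)])‖ = ‖(((f : PreIdele) q g : (Ω q)ˣ) : Ω q)‖ := by
  rw [← botVal_spec q f g, norm_algebraMap']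

theorem botVal_prin {x : QBarˣ} (r : ℚ) (hr : (x : QBar) = r) (q : Nat.Primes)
    (hx : prin x ∈ idl (⊥ : IntermediateField ℚ QBar)) :
    (botVal q ⟨prin x, hx⟩ : ℚ_[(q : ℕ)]) = r := by
  apply (algebraMap ℚ_[(q : ℕ)] (Ω q)).injective
  rw [botVal_spec q _ 1, map_ratCast]
  show emb q ((1 : GQ) (x : QBar)) = _
  rw [AlgEquiv.one_apply, hr, map_ratCast]

variable {n : ℕ} (a : Aux n)

/-- The contribution of the prime `l`. -/
def psiTerm (l : Nat.Primes) : idl (⊥ : IntermediateField ℚ QBar) →* Multiplicative (ZMod n) :=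
  if h : l = a.q then 1
  else (zpowersHom _ (a.log (a.unitOf (a.not_dvd_of_ne h)))).comp (padicVal.comp (botVal l))

theorem psiTerm_of_ne {l : Nat.Primes} (h : l ≠ a.q) (f : idl (⊥ : IntermediateField ℚ QBar)) :
    psiTerm a l f =
      a.log (a.unitOf (a.not_dvd_of_ne h)) ^ (botVal l f : ℚ_[(l : ℕ)]).valuation := by
  rw [psiTerm, dif_neg h]; rfl

theorem psiTerm_self (f : idl (⊥ : IntermediateField ℚ QBar)) : psiTerm a a.q f = 1 := by
  rw [psiTerm, dif_pos rfl]; rfl

theorem psiTerm_eq_one {l : Nat.Primes} {f : idl (⊥ : IntermediateField ℚ QBar)}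
    (h : ‖(botVal l f : ℚ_[(l : ℕ)])‖ = 1) : psiTerm a l f = 1 := by
  by_cases hl : l = a.q
  · subst hl; exact psiTerm_self a f
  · rw [psiTerm_of_ne a hl, valuation_eq_zero_of_norm h, zpow_zero]

theorem finite_mulSupport_psiTerm (f : idl (⊥ : IntermediateField ℚ QBar)) :
    (Function.mulSupport fun l => psiTerm a l f).Finite := by
  obtain ⟨T, hT⟩ := (mem_idl.1 f.2).2.1
  refine T.finite_toSet.subset fun l hl => ?_
  by_contra hlT
  exact hl (psiTerm_eq_one a (by rw [norm_botVal l f 1]; exact hT l hlT 1))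

/-- The character of rational ideles. -/
def psi : idl (⊥ : IntermediateField ℚ QBar) →* Multiplicative (ZMod n) :=
  MonoidHom.mk' (fun f => a.log (resUnit (botVal a.q f)) * (∏ᶠ l, psiTerm a l f)⁻¹) fun f f' => by
    rw [map_mul, map_mul, map_mul, show (∏ᶠ l, psiTerm a l (f * f')) =
      (∏ᶠ l, psiTerm a l f) * ∏ᶠ l, psiTerm a l f' by
        simp only [map_mul]
        exact finprod_mul_distrib (finite_mulSupport_psiTerm a f) (finite_mulSupport_psiTerm a f'),
      mul_inv, mul_mul_mul_comm]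

theorem psi_apply (f : idl (⊥ : IntermediateField ℚ QBar)) :
    psi a f = a.log (resUnit (botVal a.q f)) * (∏ᶠ l, psiTerm a l f)⁻¹ := rfl

/-- The character when all components outside `q` are units. -/
theorem psi_of_units {f : idl (⊥ : IntermediateField ℚ QBar)}
    (h : ∀ l, l ≠ a.q → ‖(botVal l f : ℚ_[(l : ℕ)])‖ = 1) :
    psi a f = a.log (resUnit (botVal a.q f)) := by
  rw [psi_apply, finprod_eq_one_of_forall_eq_one, inv_one, mul_one]
  intro l
  by_cases hl : l = a.q
  · subst hl; exact psiTerm_self a f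
  · exact psiTerm_eq_one a (h l hl)

/-- The character when all components but `l` are units and the component at `q` is `1`. -/
theorem psi_of_single {f : idl (⊥ : IntermediateField ℚ QBar)} {l : Nat.Primes} (hl : l ≠ a.q)
    (hq : resUnit (botVal a.q f) = 1) (h : ∀ l', l' ≠ l → ‖(botVal l' f : ℚ_[(l' : ℕ)])‖ = 1) :
    psi a f =
      (a.log (a.unitOf (a.not_dvd_of_ne hl)) ^ (botVal l f : ℚ_[(l : ℕ)]).valuation)⁻¹ := by
  rw [psi_apply, hq, map_one, one_mul,
    finprod_eq_single _ l fun l' hl' => psiTerm_eq_one a (h l' hl'), psiTerm_of_ne a hl]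

/-- The principal rational ideles. -/
def prinBot : ℚˣ →* idl (⊥ : IntermediateField ℚ QBar) :=
  MonoidHom.mk' (fun r => ⟨prin (Units.map (algebraMap ℚ QBar).toMonoidHom r),
    prin_mem_idl_iff.2 (IntermediateField.mem_bot.2 ⟨(r : ℚ), rfl⟩)⟩)
    fun r s => Subtype.ext (by simp)

theorem botVal_prinBot (r : ℚˣ) (q : Nat.Primes) :
    (botVal q (prinBot r) : ℚ_[(q : ℕ)]) = ((r : ℚ) : ℚ_[(q : ℕ)]) :=
  botVal_prin (r : ℚ) (eq_ratCast (algebraMap ℚ QBar) (r : ℚ)) q _

theorem norm_natCast_of_ne {l l' : Nat.Primes} (h : l' ≠ l) :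
    ‖((l : ℕ) : ℚ_[(l' : ℕ)])‖ = 1 := by
  rw [show ((l : ℕ) : ℚ_[(l' : ℕ)]) = (((l : ℕ) : ℤ) : ℚ_[(l' : ℕ)]) by simp]
  refine le_antisymm (Padic.norm_int_le_one _) (not_lt.1 fun hlt => h ?_)
  rw [Padic.norm_intCast_lt_one_iff] at hlt
  exact Subtype.ext ((Nat.prime_dvd_prime_iff_eq l'.2 l.2).1 (by exact_mod_cast hlt))

theorem psi_prinBot_prime (l : Nat.Primes) :
    psi a (prinBot (Units.mk0 ((l : ℕ) : ℚ) (by exact_mod_cast l.2.ne_zero))) = 1 := by
  set r : ℚˣ := Units.mk0 ((l : ℕ) : ℚ) (by exact_mod_cast l.2.ne_zero)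
  have hval : ∀ l' : Nat.Primes, (botVal l' (prinBot r) : ℚ_[(l' : ℕ)]) = (l : ℕ) := fun l' => by
    rw [botVal_prinBot]; simp [r]
  by_cases hl : l = a.q
  · subst hl
    rw [psi_of_units a fun l' hl' => by rw [hval]; exact norm_natCast_of_ne hl',
      resUnit_eq (j := 1) (u := 1) (by rw [hval]; simp), map_one, map_one]
  · rw [psi_apply, finprod_eq_single _ l fun l' hl' =>
      psiTerm_eq_one a (by rw [hval]; exact norm_natCast_of_ne hl'), psiTerm_of_ne a hl, hval,
      Padic.valuation_p, zpow_one]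
    have hres : resUnit (botVal a.q (prinBot r)) = a.unitOf (a.not_dvd_of_ne hl) := by
      refine Units.ext ?_
      rw [resUnit_intCast (m := ((l : ℕ) : ℤ)) (by rw [hval]; simp)
        (fun hd => a.not_dvd_of_ne hl (by exact_mod_cast hd)), Aux.coe_unitOf]
      simp
    rw [hres, mul_inv_cancel]

theorem psi_prinBot_neg_one (hn : Odd n) : psi a (prinBot (-1)) = 1 := by
  have hval : ∀ l : Nat.Primes, (botVal l (prinBot (-1)) : ℚ_[(l : ℕ)]) = -1 := fun l => by
    rw [botVal_prinBot]; simp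
  rw [psi_of_units a fun l _ => by rw [hval, norm_neg, norm_one]]
  set x := a.log (resUnit (botVal a.q (prinBot (-1)))) with hx
  have h2 : x ^ 2 = 1 := by
    rw [hx, ← map_pow, ← map_pow, ← map_pow, ← map_pow, neg_one_sq, map_one, map_one, map_one,
      map_one]
  have hn' : x ^ n = 1 := by
    rw [← ofAdd_toAdd x, ← ofAdd_nsmul, nsmul_eq_mul, ZMod.natCast_self, zero_mul]; rfl
  have := (pow_gcd_eq_one (m := 2) (n := n)).2 ⟨h2, hn'⟩
  rwa [(Nat.coprime_two_left.2 hn).gcd_eq_one, pow_one] at this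

/-- The character is trivial on principal ideles. -/
theorem psi_prinBot (hn : Odd n) (r : ℚˣ) : psi a (prinBot r) = 1 := by
  have hnat : ∀ m : ℕ, ∀ hm : (m : ℚ) ≠ 0, psi a (prinBot (Units.mk0 (m : ℚ) hm)) = 1 := by
    intro m
    induction m using Nat.recOnMul with
    | zero => intro hm; exact absurd Nat.cast_zero hm
    | one =>
      intro hm
      rw [show Units.mk0 ((1 : ℕ) : ℚ) hm = 1 from Units.ext Nat.cast_one, map_one, map_one]
    | prime l hl => intro hm; exact psi_prinBot_prime a ⟨l, hl⟩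
    | mul x y hx hy =>
      intro hm
      have hxy := mul_ne_zero_iff.1 (show (x : ℚ) * y ≠ 0 by exact_mod_cast hm)
      rw [show Units.mk0 ((x * y : ℕ) : ℚ) hm = Units.mk0 (x : ℚ) hxy.1 * Units.mk0 (y : ℚ) hxy.2
        from Units.ext (Nat.cast_mul x y), map_mul, map_mul, hx, hy, mul_one]
  have hd : ((r : ℚ).den : ℚ) ≠ 0 := by exact_mod_cast (r : ℚ).den_nz
  have hnum : (((r : ℚ).num.natAbs : ℕ) : ℚ) ≠ 0 := by
    simp [r.ne_zero]
  have hval : (r : ℚ) = ((r : ℚ).num : ℚ) / ((r : ℚ).den : ℚ) := (Rat.num_div_den _).symm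
  rcases Int.natAbs_eq (r : ℚ).num with h | h
  · rw [show r = Units.mk0 _ hnum / Units.mk0 _ hd from Units.ext (by
      rw [Units.val_div_eq_div_val, Units.val_mk0, Units.val_mk0]
      conv_lhs => rw [hval, h, Int.cast_natCast]), map_div, map_div, hnat, hnat, div_one]
  · rw [show r = -1 * (Units.mk0 _ hnum / Units.mk0 _ hd) from Units.ext (by
      rw [Units.val_mul, Units.val_div_eq_div_val, Units.val_mk0, Units.val_mk0, Units.val_neg,
        Units.val_one]
      conv_lhs => rw [hval, h, Int.cast_neg, Int.cast_natCast]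
      ring), map_mul, map_mul, psi_prinBot_neg_one a hn, one_mul, map_div, map_div,
      hnat, hnat, div_one]

/-- The character is trivial on rational principal ideles. -/
theorem psi_prin (hn : Odd n) {x : QBarˣ} (hx : prin x ∈ idl (⊥ : IntermediateField ℚ QBar)) :
    psi a ⟨prin x, hx⟩ = 1 := by
  obtain ⟨r, hr⟩ := IntermediateField.mem_bot.1 (prin_mem_idl_iff.1 hx)
  have hr0 : r ≠ 0 := fun h => x.ne_zero (by rw [← hr, h, map_zero])
  rw [show (⟨prin x, hx⟩ : idl (⊥ : IntermediateField ℚ QBar)) = prinBot (Units.mk0 r hr0) from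
    Subtype.ext (congrArg prin (Units.ext hr.symm))]
  exact psi_prinBot a hn _

end Fermat.Agent.CFT.Idele
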