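import Fermat.Agent.CFT.Idele.Psi
import Fermat.Agent.CFT.Idele.Semilocal

/-!
# The character is trivial on norms from the cyclic field
-/

set_option autoImplicit false
set_option synthInstance.maxHeartbeats 200000
set_option linter.style.haveILetI false

noncomputable section

namespace Fermat.Agent.CFT.Idele

open ExtCitation Fermat.Agent.Arith IntermediateField Fermat.Agent.CFT.Local

local instance factPrimePsiNorm (q : Nat.Primes) : Fact (q : ℕ).Prime := ⟨q.2⟩

/-- An invariant function sums to a multiple of the order. -/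
theorem orderOf_dvd_sum {G : Type*} [Group G] [Fintype G] (c : G) (m : G → ℤ)
    (h : ∀ σ, m (c * σ) = m σ) : (orderOf c : ℤ) ∣ ∑ σ, m σ := by
  classical
  set H := Subgroup.zpowers c
  let S : Subgroup G :=
    { carrier := {x | ∀ σ, m (x * σ) = m σ}
      one_mem' := fun σ => by rw [one_mul]
      mul_mem' := fun {x y} hx hy σ => by rw [mul_assoc, hx, hy]
      inv_mem' := fun {x} hx σ => by rw [← hx (x⁻¹ * σ), mul_inv_cancel_left] }
  have hS : H ≤ S := Subgroup.zpowers_le.2 h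
  have key : ∀ σ : G, m σ⁻¹ = m (QuotientGroup.mk (s := H) σ).out⁻¹ := fun σ => by
    have hmem : σ⁻¹ * (QuotientGroup.mk (s := H) σ).out ∈ H :=
      QuotientGroup.eq.1 (QuotientGroup.out_eq' _).symm
    have := hS hmem (QuotientGroup.mk (s := H) σ).out⁻¹
    rw [mul_assoc, mul_inv_cancel, mul_one] at this
    exact this
  rw [← Equiv.sum_comp (Equiv.inv G) m]
  simp only [Equiv.inv_apply]
  rw [Fintype.sum_equiv (Subgroup.groupEquivQuotientProdSubgroup (s := H)) _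
      (fun x => m x.1.out⁻¹) (fun σ => key σ), Fintype.sum_prod_type]
  refine Finset.dvd_sum fun x _ => ?_
  simp only [Finset.sum_const, Finset.card_univ, nsmul_eq_mul]
  rw [← Nat.card_eq_fintype_card, Nat.card_zpowers]
  exact dvd_mul_right _ _

namespace Aux

variable {n : ℕ} (a : Aux n)

theorem chi_eq_iff {g g' : GQ} : a.chi g = a.chi g' ↔ res a.fixedChi g = res a.fixedChi g' := by
  rw [res_eq_iff, a.fixingSubgroup_fixedChi, MonoidHom.mem_ker, map_mul, map_inv, inv_mul_eq_one]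

/-- The Galois group of the cyclic field. -/
def galEquiv : (a.fixedChi ≃ₐ[ℚ] a.fixedChi) ≃* Multiplicative (ZMod n) :=
  MulEquiv.ofBijective (MonoidHom.mk' (fun σ => a.chi (lift a.fixedChi σ)) fun σ τ => by
      rw [← map_mul a.chi, a.chi_eq_iff]
      simp only [map_mul, res_lift])
    ⟨fun σ τ h => by simpa only [res_lift] using a.chi_eq_iff.1 h,
      fun c => by
        obtain ⟨g, rfl⟩ := a.chi_surjective c
        exact ⟨res a.fixedChi g, a.chi_eq_iff.2 (res_lift _ _)⟩⟩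

theorem galEquiv_res (g : GQ) : a.galEquiv (res a.fixedChi g) = a.chi g :=
  a.chi_eq_iff.2 (res_lift _ _)

theorem prod_galois_normQ :
    ∏ σ : a.fixedChi ≃ₐ[ℚ] a.fixedChi, σ (⟨a.normQ, a.normQ_mem⟩ : a.fixedChi) = (a.q : ℕ) := by
  classical
  haveI : Fintype (Multiplicative (ZMod n)) := Fintype.ofEquiv _ a.galEquiv.toEquiv
  refine Subtype.ext ?_
  rw [IntermediateField.coe_prod]
  rw [show (((a.q : ℕ) : a.fixedChi) : QBar) = ((a.q : ℕ) : QBar) from map_natCast a.fixedChi.val _,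
    ← a.prod_normQ (fun c => lift a.fixedChi (a.galEquiv.symm c)) fun c => by
      rw [← a.galEquiv_res, res_lift, MulEquiv.apply_symm_apply]]
  refine Fintype.prod_equiv a.galEquiv.toEquiv _ _ fun σ => ?_
  show _ = lift a.fixedChi (a.galEquiv.symm (a.galEquiv σ)) a.normQ
  rw [MulEquiv.symm_apply_apply]
  conv_lhs => rw [← res_lift a.fixedChi σ, res_apply]

theorem inertia_eq_bot {l : Nat.Primes} (h : l ≠ a.q) : inertia (E a.fixedChi l) = ⊥ := by
  refine (inertia_eq_bot_iff (l : ℕ) a.fixedChi).2 fun g hg x => ?_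
  have hk : g ∈ a.fixedChi.fixingSubgroup := by
    rw [a.fixingSubgroup_fixedChi]
    exact a.chi_inertia h (padicPlace_liesOverPrime (l : ℕ)) hg
  exact (IntermediateField.mem_fixingSubgroup_iff _ _).1 hk x x.2

theorem exists_inertia_toGlobal (σ : a.fixedChi ≃ₐ[ℚ] a.fixedChi) :
    ∃ t ∈ inertia (E a.fixedChi a.q), toGlobal (a.q : ℕ) a.fixedChi t = σ := by
  obtain ⟨g, hg, hc⟩ := a.exists_inertia (a.galEquiv σ)
  obtain ⟨t, ht, e⟩ := exists_mem_inertia_of_inertia (a.q : ℕ) a.fixedChi hg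
  refine ⟨t, ht, e.trans ?_⟩
  rw [← a.galEquiv_res] at hc
  exact a.galEquiv.injective hc

theorem inertia_eq_top : inertia (E a.fixedChi a.q) = ⊤ := by
  refine eq_top_iff.2 fun t _ => ?_
  obtain ⟨s, hs, e⟩ := a.exists_inertia_toGlobal (toGlobal (a.q : ℕ) a.fixedChi t)
  rwa [← toGlobal_injective _ _ e]

end Aux

/-- An unramified extension: absolute values are those of rational numbers. -/
theorem exists_padic_norm_eq {q : ℕ} [Fact q.Prime] {E : IntermediateField ℚ_[q] (PadicAlgCl q)}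
    [FiniteDimensional ℚ_[q] E] [Normal ℚ_[q] E] (h : inertia E = ⊥) (v : Eˣ) :
    ∃ r : ℚ_[q]ˣ, ‖(v : E)‖ = ‖(r : ℚ_[q])‖ := by
  haveI : IsGalois ℚ_[q] E := ⟨⟩
  obtain ⟨z, hz, hu⟩ := exists_fixed_div_mem_unitGroup ⊤ (by rw [h, inf_bot_eq]) v
  obtain ⟨r, hr⟩ := (IsGalois.mem_range_algebraMap_iff_fixed (F := ℚ_[q]) (z : E)).2 fun σ =>
    congrArg Units.val (hz ⟨σ, Subgroup.mem_top σ⟩)
  have hr0 : r ≠ 0 := fun h0 => z.ne_zero (by rw [← hr, h0, map_zero])
  refine ⟨Units.mk0 r hr0, ?_⟩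
  rw [mem_unitGroup, Units.val_div_eq_div_val, norm_div,
    div_eq_one_iff_eq (norm_ne_zero_iff.2 z.ne_zero)] at hu
  rw [hu, ← hr, Units.val_mk0, norm_algebraMap']

/-- A totally ramified extension: units are congruent to rational ones. -/
theorem exists_padicInt_near {q : ℕ} [Fact q.Prime] {E : IntermediateField ℚ_[q] (PadicAlgCl q)}
    [FiniteDimensional ℚ_[q] E] [Normal ℚ_[q] E] (h : inertia E = ⊤) (w : E) (hw : ‖w‖ ≤ 1) :
    ∃ z : ℤ_[q], ‖w - algebraMap ℚ_[q] E (z : ℚ_[q])‖ < 1 := by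
  haveI : IsGalois ℚ_[q] E := ⟨⟩
  obtain ⟨c, hc⟩ := resIncl_surjective (⊤ : Subgroup (E ≃ₐ[ℚ_[q]] E)) h.ge (resMap E ⟨w, hw⟩)
  obtain ⟨b, rfl⟩ := resMap_surjective _ c
  obtain ⟨r, hr⟩ := (IsGalois.mem_range_algebraMap_iff_fixed (F := ℚ_[q])
    (fixedIncl ⊤ (b : fixedIn (⊤ : Subgroup (E ≃ₐ[ℚ_[q]] E))))).2 fun σ =>
    fixedIncl_fixed _ _ (Subgroup.mem_top σ)
  have hr1 : ‖r‖ ≤ 1 := by
    rw [← norm_algebraMap' E r, hr, norm_fixedIncl]; exact b.2
  refine ⟨⟨r, hr1⟩, ?_⟩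
  have := (resMap_eq_iff E).1 hc.symm
  show ‖w - algebraMap ℚ_[q] E r‖ < 1
  rw [hr]
  exact this

variable {n : ℕ} (a : Aux n)

theorem algebraMap_botVal_eq (y : idl a.fixedChi) (P : idl (⊥ : IntermediateField ℚ QBar))
    (hP : (P : PreIdele) = ((∏ σ : a.fixedChi ≃ₐ[ℚ] a.fixedChi, σ • y : idl a.fixedChi) : PreIdele))
    (l : Nat.Primes) :
    algebraMap ℚ_[(l : ℕ)] (E a.fixedChi l) (botVal l P : ℚ_[(l : ℕ)]) =
      ∏ σ : a.fixedChi ≃ₐ[ℚ] a.fixedChi, ((val y l σ : (E a.fixedChi l)ˣ) : E a.fixedChi l) := by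
  rw [← Units.coe_prod]
  have h : val (∏ σ : a.fixedChi ≃ₐ[ℚ] a.fixedChi, σ • y) l 1 =
      ∏ σ : a.fixedChi ≃ₐ[ℚ] a.fixedChi, val y l σ := by
    rw [val_prod]
    exact Finset.prod_congr rfl fun σ _ => by rw [val_smul, one_mul]
  rw [← h]
  refine Subtype.ext ?_
  rw [coe_val _ l (map_one (res a.fixedChi)), ← hP]
  exact botVal_spec l P 1

set_option maxHeartbeats 800000 in
/-- The character kills norms from the cyclic field. -/
theorem psi_norm (y : idl a.fixedChi) (P : idl (⊥ : IntermediateField ℚ QBar))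
    (hP : (P : PreIdele) = ((∏ σ : a.fixedChi ≃ₐ[ℚ] a.fixedChi, σ • y : idl a.fixedChi) : PreIdele)) :
    psi a P = 1 := by
  classical
  have hexp : ∀ x : Multiplicative (ZMod n), x ^ n = 1 := fun x => by
    rw [← ofAdd_toAdd x, ← ofAdd_nsmul, nsmul_eq_mul, ZMod.natCast_self, zero_mul]; rfl
  rw [psi_apply, finprod_eq_one_of_forall_eq_one, inv_one, mul_one]
  · -- the prime `q`
    set K := E a.fixedChi a.q
    haveI : IsGalois ℚ_[(a.q : ℕ)] K := ⟨⟩
    let e : (K ≃ₐ[ℚ_[(a.q : ℕ)]] K) ≃ (a.fixedChi ≃ₐ[ℚ] a.fixedChi) :=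
      Equiv.ofBijective (toGlobal (a.q : ℕ) a.fixedChi) ⟨toGlobal_injective _ _, fun σ =>
        let ⟨t, _, ht⟩ := a.exists_inertia_toGlobal σ; ⟨t, ht⟩⟩
    have hd : Module.finrank ℚ_[(a.q : ℕ)] K = n := by
      rw [← IsGalois.card_aut_eq_finrank, Nat.card_congr e, Nat.card_congr a.galEquiv.toEquiv,
        Nat.card_congr Multiplicative.toAdd, Nat.card_zmod]
    have hn : n ≠ 0 := hd ▸ Module.finrank_pos.ne'
    set π : K := localEmb (a.q : ℕ) a.fixedChi ⟨a.normQ, a.normQ_mem⟩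
    have hπ : ∏ t : K ≃ₐ[ℚ_[(a.q : ℕ)]] K, t π = ((a.q : ℕ) : K) := by
      rw [← map_natCast (localEmb (a.q : ℕ) a.fixedChi), ← a.prod_galois_normQ, map_prod]
      exact Fintype.prod_equiv e _ _ fun t => (localEmb_toGlobal (a.q : ℕ) a.fixedChi t _).symm
    have hπn : ‖π‖ ^ n = ‖((a.q : ℕ) : K)‖ := by
      rw [← hπ, norm_prod, Finset.prod_congr rfl fun t _ => norm_algEquiv K t π, Finset.prod_const,
        Finset.card_univ, ← Nat.card_eq_fintype_card, IsGalois.card_aut_eq_finrank, hd]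
    set x : Kˣ := val y a.q 1
    have hP' : algebraMap ℚ_[(a.q : ℕ)] K (botVal a.q P : ℚ_[(a.q : ℕ)]) =
        ∏ t : K ≃ₐ[ℚ_[(a.q : ℕ)]] K, t (x : K) := by
      rw [algebraMap_botVal_eq a y P hP a.q]
      refine (Fintype.prod_equiv e _ _ fun t => ?_).symm
      show t (x : K) = ((val y a.q (toGlobal (a.q : ℕ) a.fixedChi t) : Kˣ) : K)
      rw [← mul_one (toGlobal (a.q : ℕ) a.fixedChi t), val_toGlobal_mul]
      rfl
    set j := ordQFun K x
    have hq0 : ((a.q : ℕ) : ℝ) ≠ 0 := Nat.cast_ne_zero.2 a.q.2.ne_zero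
    have hqK : ((a.q : ℕ) : K) ≠ 0 := Nat.cast_ne_zero.2 a.q.2.ne_zero
    have hnq : ‖((a.q : ℕ) : K)‖ = ((a.q : ℕ) : ℝ)⁻¹ := by
      rw [← map_natCast (algebraMap ℚ_[(a.q : ℕ)] K) (a.q : ℕ), norm_algebraMap', Padic.norm_p]
    have hπ0 : π ≠ 0 := fun h0 => by
      rw [h0, norm_zero, zero_pow hn] at hπn
      exact hqK (norm_eq_zero.1 hπn.symm)
    set w : K := (x : K) / π ^ j
    have hw : ‖w‖ = 1 := by
      refine (pow_eq_one_iff_of_nonneg (norm_nonneg _) hn).1 ?_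
      rw [norm_div, norm_zpow, div_pow, ← zpow_natCast (‖π‖ ^ j), zpow_comm, zpow_natCast, hπn, hnq,
        inv_zpow', show ‖(x : K)‖ ^ n = ((a.q : ℕ) : ℝ) ^ (-j) from
          (congrArg (‖(x : K)‖ ^ ·) hd).symm.trans (norm_pow_eq K x),
        div_self (zpow_ne_zero _ hq0)]
    obtain ⟨z, hz⟩ := exists_padicInt_near a.inertia_eq_top w hw.le
    set u0 : ℚ_[(a.q : ℕ)] := (botVal a.q P : ℚ_[(a.q : ℕ)]) / ((a.q : ℕ) : ℚ_[(a.q : ℕ)]) ^ j
    have hu : algebraMap ℚ_[(a.q : ℕ)] K u0 = ∏ t : K ≃ₐ[ℚ_[(a.q : ℕ)]] K, t w := by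
      rw [map_div₀, map_zpow₀, map_natCast, hP', ← hπ, ← Finset.prod_zpow, ← Finset.prod_div_distrib]
      exact Finset.prod_congr rfl fun t _ => by rw [map_div₀, map_zpow₀]
    have hu1 : ‖u0‖ = 1 := by
      rw [← norm_algebraMap' K u0, hu, norm_prod]
      exact Finset.prod_eq_one fun t _ => by rw [norm_algEquiv, hw]
    have hz1 : ‖z‖ = 1 := by
      refine le_antisymm (PadicInt.norm_le_one z) (not_lt.1 fun hlt => ?_)
      have : ‖w‖ < 1 := by
        rw [show w = (w - algebraMap ℚ_[(a.q : ℕ)] K (z : ℚ_[(a.q : ℕ)])) +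
          algebraMap ℚ_[(a.q : ℕ)] K (z : ℚ_[(a.q : ℕ)]) by ring]
        refine (IsUltrametricDist.norm_add_le_max _ _).trans_lt (max_lt hz ?_)
        rw [norm_algebraMap']; exact hlt
      exact this.ne hw
    let zK : intRing K := ⟨algebraMap ℚ_[(a.q : ℕ)] K (z : ℚ_[(a.q : ℕ)]), by
      rw [mem_intRing, norm_algebraMap']; exact z.2⟩
    let tw : (K ≃ₐ[ℚ_[(a.q : ℕ)]] K) → intRing K := fun t => ⟨t w, by
      rw [mem_intRing, norm_algEquiv, hw]⟩
    have htw : ∀ t, resMap K (tw t) = resMap K zK := fun t => by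
      refine (resMap_eq_iff K).2 ?_
      show ‖t w - algebraMap ℚ_[(a.q : ℕ)] K (z : ℚ_[(a.q : ℕ)])‖ < 1
      rw [← t.commutes, ← map_sub, norm_algEquiv]
      exact hz
    have hclose : resMap K (∏ t, tw t) = resMap K (zK ^ n) := by
      rw [map_prod, Finset.prod_congr rfl fun t _ => htw t, Finset.prod_const, Finset.card_univ,
        ← Nat.card_eq_fintype_card, IsGalois.card_aut_eq_finrank, hd, map_pow]
    rw [resMap_eq_iff] at hclose
    simp only [SubmonoidClass.coe_finsetProd, SubmonoidClass.coe_pow, tw, zK] at hclose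
    rw [← hu, ← map_pow, ← map_sub, norm_algebraMap', ← PadicInt.coe_pow] at hclose
    let u : ℤ_[(a.q : ℕ)] := ⟨u0, hu1.le⟩
    have hres : (resUnit (botVal a.q P)) = Units.map PadicInt.toZMod.toMonoidHom
        (PadicInt.mkUnits hu1) := resUnit_eq (j := j) (by
      show _ = _ * u0
      rw [mul_div_cancel₀ _ (zpow_ne_zero _ (Nat.cast_ne_zero.2 a.q.2.ne_zero))])
    rw [hres, show Units.map (PadicInt.toZMod : ℤ_[(a.q : ℕ)] →+* ZMod (a.q : ℕ)).toMonoidHom
      (PadicInt.mkUnits hu1) = (Units.map PadicInt.toZMod.toMonoidHom (PadicInt.mkUnits hz1)) ^ n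
      from Units.ext ?_, map_pow, hexp]
    rw [Units.val_pow_eq_pow_val]
    show PadicInt.toZMod u = PadicInt.toZMod z ^ n
    rw [← map_pow]
    exact toZMod_eq_of_norm_sub_lt hclose
  · -- the other primes
    intro l
    by_cases hl : l = a.q
    · subst hl; exact psiTerm_self a P
    choose r hr using fun σ : a.fixedChi ≃ₐ[ℚ] a.fixedChi => exists_padic_norm_eq (a.inertia_eq_bot hl) (val y l σ)
    have hv : padicVal (botVal l P) = ∏ σ, padicVal (r σ) := by
      rw [← map_prod, ← div_eq_one, ← map_div]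
      refine Multiplicative.toAdd.injective (valuation_eq_zero_of_norm ?_)
      rw [Units.val_div_eq_div_val, norm_div, div_eq_one_iff_eq
        (norm_ne_zero_iff.2 (Units.ne_zero _)), Units.coe_prod, norm_prod,
        ← norm_algebraMap' (E a.fixedChi l), algebraMap_botVal_eq a y P hP l, norm_prod]
      exact Finset.prod_congr rfl fun σ _ => hr σ
    obtain ⟨fr, hfr⟩ := exists_isFrobeniusAt (padicPlace_liesOverPrime (l : ℕ)) l.2
    have hc : res a.fixedChi fr ∈ (toGlobal (l : ℕ) a.fixedChi).range :=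
      (mem_range_toGlobal_iff (l : ℕ) a.fixedChi _).2 fun x hx => by
        rw [res_apply]
        exact map_mem_of_mem_decomposition (isFrobeniusAt_iff_forall_mem.1 hfr).1 hx
    obtain ⟨t, ht⟩ := hc
    have hinv : ∀ σ, Multiplicative.toAdd (padicVal (r (res a.fixedChi fr * σ))) =
        Multiplicative.toAdd (padicVal (r σ)) := fun σ => by
      rw [toAdd_padicVal, toAdd_padicVal]
      refine neg_injective (zpow_inj_q (q := (l : ℕ)) ?_)
      rw [← Padic.norm_eq_zpow_neg_valuation (Units.ne_zero _),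
        ← Padic.norm_eq_zpow_neg_valuation (Units.ne_zero _), ← hr, ← hr, ← ht, val_toGlobal_mul]
      exact norm_smul_unit t (val y l σ)
    have hdiv := orderOf_dvd_sum (res a.fixedChi fr)
      (fun σ => Multiplicative.toAdd (padicVal (r σ))) hinv
    have hxc : a.log (a.unitOf (a.not_dvd_of_ne hl)) ^ orderOf (res a.fixedChi fr) = 1 := by
      rw [← a.chi_frob hl (padicPlace_liesOverPrime (l : ℕ)) hfr, ← a.galEquiv_res, ← map_pow,
        pow_orderOf_eq_one, map_one]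
    obtain ⟨k, hk⟩ := hdiv
    rw [psiTerm_of_ne a hl, ← toAdd_padicVal, hv, toAdd_prod, hk, zpow_mul, zpow_natCast, hxc,
      one_zpow]

end Fermat.Agent.CFT.Idele
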