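import Fermat.Agent.CFT.Idele.NormBot
import Fermat.Agent.CFT.Idele.Carry

/-!
# The relative norm of a split carry class

If the carry class of an invariant idele is trivial on `H`, the character kills its relative norm.
-/

set_option autoImplicit false
set_option synthInstance.maxHeartbeats 200000
set_option linter.style.haveILetI false

noncomputable section

namespace Fermat.Agent.CFT.Idele

open ExtCitation Fermat.Agent.Arith IntermediateField Fermat.Agent.CFT.Local groupCohomology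

local instance factPrimeRel (q : Nat.Primes) : Fact (q : ℕ).Prime := ⟨q.2⟩

variable {n : ℕ} (a : Aux n) {L L' : IntermediateField ℚ QBar} [FiniteDimensional ℚ L] [Normal ℚ L]
  [FiniteDimensional ℚ L'] [Normal ℚ L'] (hL : L ≤ L') (hF : a.fixedChi ≤ L')

/-- The character on the Galois group of a field containing the cyclic field. -/
def chiUp : (L' ≃ₐ[ℚ] L') →* Multiplicative (ZMod n) :=
  a.galEquiv.toMonoidHom.comp (resTo hF)

omit [FiniteDimensional ℚ L'] in
theorem chiUp_res (g : GQ) : chiUp a hF (res L' g) = a.chi g := by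
  show a.galEquiv (resTo hF (res L' g)) = _
  rw [resTo_res, a.galEquiv_res]

omit [FiniteDimensional ℚ L'] in
theorem ker_chiUp : (chiUp a hF).ker = (resTo hF).ker := by
  ext σ
  rw [MonoidHom.mem_ker, MonoidHom.mem_ker]
  exact map_eq_one_iff _ a.galEquiv.injective

omit [FiniteDimensional ℚ L] [FiniteDimensional ℚ L'] in
theorem eq_one_of_mem_kers (hsup : L' = L ⊔ a.fixedChi) {σ : L' ≃ₐ[ℚ] L'}
    (h1 : resTo hL σ = 1) (h2 : chiUp a hF σ = 1) : σ = 1 := by
  obtain ⟨g, rfl⟩ := AlgEquiv.restrictNormalHom_surjective (K₁ := L') QBar σ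
  rw [resTo_res, res_eq_one_iff] at h1
  rw [chiUp_res] at h2
  refine (res_eq_one_iff L').2 ?_
  rw [hsup, IntermediateField.fixingSubgroup_sup]
  exact ⟨h1, by rw [a.fixingSubgroup_fixedChi]; exact MonoidHom.mem_ker.2 h2⟩

omit [Normal ℚ L'] in
omit [FiniteDimensional ℚ ↥L'] in
theorem mk_prod {ι : Type*} (s : Finset ι) (f : ι → idl L') :
    (QuotientGroup.mk (∏ i ∈ s, f i) : ClassGrp L') = ∏ i ∈ s, QuotientGroup.mk (f i) :=
  map_prod (QuotientGroup.mk' _) f s

variable (hn : Odd n)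

omit [FiniteDimensional ℚ L'] in
/-- Rational ideles are invariant. -/
theorem smul_of_bot (P : idl (⊥ : IntermediateField ℚ QBar)) (σ : L' ≃ₐ[ℚ] L') :
    σ • (⟨P, idl_mono bot_le P.2⟩ : idl L') = ⟨P, idl_mono bot_le P.2⟩ :=
  Subtype.ext ((coe_smul_idl L' σ _ (res_lift L' σ)).trans ((mem_idl.1 P.2).2.2 _ (by simp)))

set_option maxHeartbeats 1000000 in
include hF hn in
omit [FiniteDimensional ℚ ↥L] in
/-- If the carry class of an `H`-invariant idele is trivial on the preimage of `H`, the character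
kills the relative norm of the idele. -/
theorem psi_relNorm_zpow [NeZero n] (hn1 : 1 < n) (hsup : L' = L ⊔ a.fixedChi)
    {γ : L' ≃ₐ[ℚ] L'} (hγπ : γ ∈ (resTo hL).ker) (hγχ : chiUp a hF γ = Multiplicative.ofAdd 1)
    (H : Subgroup (L ≃ₐ[ℚ] L)) [Fintype ((L ≃ₐ[ℚ] L) ⧸ H)]
    (h1 : CFT.H1Zero ((chiUp a hF).ker ⊓ H.comap (resTo hL) : Subgroup (L' ≃ₐ[ℚ] L')) (C L'))
    (X : idl L) (_hX : ∀ h ∈ H, h • X = X) (k : ℤ)
    (hk : IsCoboundary₂ fun gh : H.comap (resTo hL) × H.comap (resTo hL) =>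
      k • carryN (chiUp a hF) (proj L' (Additive.ofMul (inclIdl hL X)))
        ((gh.1 : L' ≃ₐ[ℚ] L'), (gh.2 : L' ≃ₐ[ℚ] L')))
    (Y : idl (⊥ : IntermediateField ℚ QBar))
    (hY : (Y : PreIdele) = ((∏ x : (L ≃ₐ[ℚ] L) ⧸ H, x.out • X : idl L) : PreIdele)) :
    psi a Y ^ k = 1 := by
  classical
  set M := (chiUp a hF).ker
  set H' := H.comap (resTo hL)
  set X' : idl L' := inclIdl hL X
  set χ' : H' →* Multiplicative (ZMod n) := (chiUp a hF).comp H'.subtype
  have hγH : γ ∈ H' := by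
    show resTo hL γ ∈ H
    rw [MonoidHom.mem_ker.1 hγπ]; exact one_mem _
  have hker : χ'.ker = (M ⊓ H').subgroupOf H' := by
    ext x
    simp [χ', M, Subgroup.mem_subgroupOf]
  have h1' : CFT.H1Zero χ'.ker (C L') := by
    rw [hker]; exact CFT.h1Zero_subgroupOf inf_le_right h1
  obtain ⟨w, hw, hkw⟩ := exists_eq_norm_of_carryN (χ := χ') (γ := ⟨γ, hγH⟩) hn1 hγχ h1'
    (x := k • proj L' (Additive.ofMul X')) (by
      rw [← zsmul_carryN]; exact hk)
  obtain ⟨f, hf, hfw⟩ := exists_fixed_rep (M ⊓ H') (x := (w.toMul : ClassGrp L')) fun x hx =>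
    congrArg Additive.toMul (hw ⟨x, hx.2⟩ hx.1)
  -- the relation between ideles
  have hrel : (QuotientGroup.mk (∏ i ∈ Finset.range n, γ ^ i • f) : ClassGrp L') =
      QuotientGroup.mk (X' ^ k) := by
    rw [mk_prod, Finset.prod_congr rfl fun i _ => (smul_mk L' (γ ^ i) f).symm, hfw]
    refine (congrArg Additive.toMul (hkw.trans ?_)).symm.trans rfl
    exact Finset.sum_congr rfl fun i _ => rfl
  obtain ⟨c, hc⟩ := QuotientGroup.eq_iff_div_mem.1 hrel
  rw [eq_div_iff_mul_eq'] at hc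
  -- representatives of the cosets of `H` in the kernel of the character
  have hlift : ∀ σ : L ≃ₐ[ℚ] L, ∃ m ∈ M, resTo hL m = σ := fun σ => by
    obtain ⟨τ, rfl⟩ := resTo_surjective hL σ
    refine ⟨τ * (γ ^ chiVal (chiUp a hF) τ)⁻¹, ?_, by simp [MonoidHom.mem_ker.1 hγπ]⟩
    show chiUp a hF (τ * (γ ^ chiVal (chiUp a hF) τ)⁻¹) = 1
    rw [map_mul, map_inv, map_pow, hγχ, ← ofAdd_nsmul, nsmul_one, chiVal,
      ZMod.natCast_zmod_val, ofAdd_toAdd, mul_inv_cancel]
  choose s hsM hs using hlift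
  let D : idl L' →* idl L' := MonoidHom.mk'
    (fun x => ∏ y : (L ≃ₐ[ℚ] L) ⧸ H, s y.out • x)
    fun x y => by simp only [smul_mul', Finset.prod_mul_distrib]
  have hDM : D f ∈ fixedBy M (idl L') := by
    intro m hm
    show m • ∏ y : (L ≃ₐ[ℚ] L) ⧸ H, _ = ∏ y : (L ≃ₐ[ℚ] L) ⧸ H, _
    rw [Finset.smul_prod']
    refine Fintype.prod_equiv (MulAction.toPerm (resTo hL m)) _ _ fun y => ?_
    rw [MulAction.toPerm_apply, smul_smul]
    have hy : (resTo hL m • y : (L ≃ₐ[ℚ] L) ⧸ H) = QuotientGroup.mk (resTo hL m * y.out) := by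
      conv_lhs => rw [← QuotientGroup.out_eq' y]
      rfl
    have hmem := QuotientGroup.eq.1 (hy.symm.trans (QuotientGroup.out_eq' _).symm)
    have e := hf ((m * s y.out)⁻¹ * s (resTo hL m • y).out)
      ⟨M.mul_mem (M.inv_mem (M.mul_mem hm (hsM _))) (hsM _), by
        show resTo hL _ ∈ H
        rw [map_mul, map_inv, map_mul, hs, hs]
        exact hmem⟩
    conv_lhs => rw [← e, smul_smul, mul_inv_cancel_left]
  have hcomm : ∀ m ∈ M, ∀ i : ℕ, m * γ ^ i = γ ^ i * m := by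
    intro m hm i
    rw [← commutatorElement_eq_one_iff_mul_comm]
    have hi : γ ^ i ∈ (resTo hL).ker := pow_mem hγπ i
    rw [MonoidHom.mem_ker] at hi hm
    exact eq_one_of_mem_kers a hL hF hsup (by simp [map_commutatorElement, hi])
      (by simp [map_commutatorElement, hm])
  set N' : idl L' := ∏ i ∈ Finset.range n, γ ^ i • D f
  have hDN : D (∏ i ∈ Finset.range n, γ ^ i • f) = N' := by
    rw [map_prod]
    refine Finset.prod_congr rfl fun i _ => ?_
    show (∏ y : (L ≃ₐ[ℚ] L) ⧸ H, _) = γ ^ i • ∏ y : (L ≃ₐ[ℚ] L) ⧸ H, _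
    rw [Finset.smul_prod']
    exact Finset.prod_congr rfl fun y _ => by rw [smul_smul, smul_smul, hcomm _ (hsM _)]
  set Y' : idl L' := inclIdl hL (∏ x : (L ≃ₐ[ℚ] L) ⧸ H, x.out • X)
  have hDX : D (X' ^ k) = Y' ^ k := by
    rw [map_zpow]
    congr 1
    show (∏ y : (L ≃ₐ[ℚ] L) ⧸ H, s y.out • X') = _
    simp only [Y', map_prod]
    exact Finset.prod_congr rfl fun y _ => by rw [← inclIdl_smul, hs]
  set c' : L'ˣ := ∏ y : (L ≃ₐ[ℚ] L) ⧸ H, s y.out • c
  have hDc : D (prinL L' c) = prinL L' c' := by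
    show (∏ y : (L ≃ₐ[ℚ] L) ⧸ H, _) = _
    rw [map_prod]
    exact Finset.prod_congr rfl fun y _ => smul_prinL _ c
  have hmain : prinL L' c' * Y' ^ k = N' := by
    rw [← hDN, ← hDX, ← hDc, ← map_mul, hc]
  -- `N'` is a norm from the cyclic field
  set zF : idl a.fixedChi := ⟨_, mem_idl_of_fixed hF (f := D f) (by rwa [← ker_chiUp a hF])⟩
  have hzF : inclIdl hF zF = D f := Subtype.ext rfl
  have hNF : (normBot a.fixedChi zF : PreIdele) = (N' : PreIdele) := by
    rw [coe_normBot, ← coe_inclIdl hF, map_prod]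
    congr 1
    have hbij : Function.Bijective fun i : Fin n => resTo hF (γ ^ (i : ℕ)) := by
      have e : ∀ i : Fin n, a.galEquiv (resTo hF (γ ^ (i : ℕ))) =
          Multiplicative.ofAdd ((i : ℕ) : ZMod n) := fun i => by
        show chiUp a hF (γ ^ (i : ℕ)) = _
        rw [map_pow, hγχ, ← ofAdd_nsmul, nsmul_one]
      refine ⟨fun i j h => Fin.ext ?_, fun σ => ⟨⟨(Multiplicative.toAdd (a.galEquiv σ)).val,
        ZMod.val_lt _⟩, a.galEquiv.injective (by
          rw [e]; simp)⟩⟩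
      have h' := congrArg (fun σ => Multiplicative.toAdd (a.galEquiv σ)) h
      simp only [e, toAdd_ofAdd] at h'
      have h'' := congrArg ZMod.val h'
      rwa [ZMod.val_natCast, ZMod.val_natCast, Nat.mod_eq_of_lt i.2, Nat.mod_eq_of_lt j.2] at h''
    rw [← Fintype.prod_bijective _ hbij (fun i : Fin n => inclIdl hF (resTo hF (γ ^ (i : ℕ)) • zF))
      (fun σ => inclIdl hF (σ • zF)) fun i => rfl]
    rw [Finset.prod_congr rfl fun (i : Fin n) _ => by rw [inclIdl_smul, hzF]]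
    exact Fin.prod_univ_eq_prod_range (fun i => γ ^ i • D f) n
  set x : QBarˣ := Units.map L'.val.toRingHom.toMonoidHom c'
  have hNx : (normBot a.fixedChi zF : PreIdele) = prin x * (Y : PreIdele) ^ k := by
    rw [hNF, ← hmain, Subgroup.coe_mul, SubgroupClass.coe_zpow, hY]; rfl
  have hx : prin x ∈ idl (⊥ : IntermediateField ℚ QBar) := by
    rw [← mul_inv_eq_iff_eq_mul.2 hNx]
    exact mul_mem (normBot a.fixedChi zF).2 (inv_mem (zpow_mem Y.2 _))
  have hpsi : psi a (normBot a.fixedChi zF) = 1 := psi_norm a zF _ (coe_normBot _ _)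
  rwa [show normBot a.fixedChi zF = ⟨prin x, hx⟩ * Y ^ k from
      Subtype.ext (by rw [hNx, Subgroup.coe_mul, SubgroupClass.coe_zpow]),
    map_mul, map_zpow, psi_prin a hn hx, one_mul] at hpsi

end Fermat.Agent.CFT.Idele
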