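import Fermat.Agent.CFT.Idele.LocalTower
import Fermat.Agent.CFT.Duality.Semilocal
import Fermat.Agent.CFT.PT.SemiH2

/-!
# The semilocal comparison of a local class with a carry class

On the preimage of a decomposition group the inflation of a local cocycle, placed at the
distinguished place, differs by a coboundary from a carry cocycle if it does so locally.
-/

set_option autoImplicit false
set_option synthInstance.maxHeartbeats 200000
set_option linter.style.haveILetI false

noncomputable section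

namespace Fermat.Agent.CFT.Idele

open ExtCitation Fermat.Agent.Arith IntermediateField Fermat.Agent.CFT.Local groupCohomology

local instance factPrimeSemiCarry (q : Nat.Primes) : Fact (q : ℕ).Prime := ⟨q.2⟩

variable (q : Nat.Primes)

/-- The prime, as an element of the completion. -/
def primeUnit (L : IntermediateField ℚ QBar) [FiniteDimensional ℚ L] [Normal ℚ L] :
    Additive (E L q)ˣ :=
  Additive.ofMul (Units.map (algebraMap ℚ_[(q : ℕ)] (E L q)).toMonoidHom
    (Units.mk0 ((q : ℕ) : ℚ_[(q : ℕ)]) (Nat.cast_ne_zero.2 q.2.ne_zero)))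

theorem smul_primeUnit (L : IntermediateField ℚ QBar) [FiniteDimensional ℚ L] [Normal ℚ L]
    (t : E L q ≃ₐ[ℚ_[(q : ℕ)]] E L q) : t • primeUnit q L = primeUnit q L :=
  Additive.toMul.injective (Units.ext (t.commutes _))

variable {L L' : IntermediateField ℚ QBar} [FiniteDimensional ℚ L] [Normal ℚ L]
  [FiniteDimensional ℚ L'] [Normal ℚ L'] (hL : L ≤ L')

theorem inclLoc_primeUnit : inclLoc q hL (primeUnit q L) = primeUnit q L' :=
  Additive.toMul.injective (Units.ext (Subtype.ext rfl))

/-- The inclusion of ideles, additively. -/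
def inclJ' : J L →+ J L' := MonoidHom.toAdditive (inclIdl hL)

omit [FiniteDimensional ℚ L] [FiniteDimensional ℚ L'] in
theorem smul_inclJ' (g : L' ≃ₐ[ℚ] L') (x : J L) : g • inclJ' hL x = inclJ' hL (resTo hL g • x) :=
  congrArg Additive.ofMul (inclIdl_smul hL g x.toMul).symm

omit [FiniteDimensional ℚ L] [FiniteDimensional ℚ L'] in
omit [Normal ℚ ↥L] [Normal ℚ ↥L'] in
theorem toMul_inclJ' (x : J L) : (inclJ' hL x).toMul = inclIdl hL x.toMul := rfl

omit [FiniteDimensional ℚ L'] [Normal ℚ L'] in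
theorem toMul_loc' (y : Additive (E L q)ˣ) : (loc' L q y).toMul = locIdl q y.toMul := rfl

omit [FiniteDimensional ℚ ↥L] [Normal ℚ ↥L] [FiniteDimensional ℚ ↥L'] [Normal ℚ ↥L'] in
theorem coe_inclLoc (y : Additive (E L q)ˣ) :
    (((inclLoc q hL y).toMul : (E L' q)ˣ) : E L' q) =
      IntermediateField.inclusion (localField_mono (q : ℕ) hL) ((y.toMul : (E L q)ˣ) : E L q) := rfl

omit [FiniteDimensional ℚ L] [FiniteDimensional ℚ L'] in
theorem coe_val_inclJ' (x : J L) (q' : Nat.Primes) (σ : L' ≃ₐ[ℚ] L') :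
    (((val (inclJ' hL x).toMul q' σ : (E L' q')ˣ) : E L' q') : Ω q') =
      (((val x.toMul q' (resTo hL σ) : (E L q')ˣ) : E L q') : Ω q') := by
  rw [toMul_inclJ', coe_val _ q' (res_lift L' σ), coe_inclIdl]
  exact (coe_val x.toMul q' (rfl : res L (lift L' σ) = resTo hL σ)).symm

/-- The preimage of the decomposition group. -/
def decompPre : Subgroup (L' ≃ₐ[ℚ] L') := (toGlobal (q : ℕ) L).range.comap (resTo hL)

/-- The element of the local group under an element of `decompPre`. -/
def toLoc : decompPre q hL →* (E L q ≃ₐ[ℚ_[(q : ℕ)]] E L q) :=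
  (MonoidHom.ofInjective (toGlobal_injective (q : ℕ) L)).symm.toMonoidHom.comp
    (((resTo hL).comp (decompPre q hL).subtype).codRestrict _ fun g => g.2)

omit [FiniteDimensional ℚ ↥L] [FiniteDimensional ℚ ↥L'] in
theorem toGlobal_toLoc (g : decompPre q hL) :
    toGlobal (q : ℕ) L (toLoc q hL g) = resTo hL (g : L' ≃ₐ[ℚ] L') :=
  MonoidHom.apply_ofInjective_symm (toGlobal_injective (q : ℕ) L) _

omit [FiniteDimensional ℚ ↥L'] in
theorem inclJ'_loc'_primeUnit_fixed (g : decompPre q hL) :
    (g : L' ≃ₐ[ℚ] L') • inclJ' hL (loc' L q (primeUnit q L)) =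
      inclJ' hL (loc' L q (primeUnit q L)) := by
  rw [smul_inclJ', ← toGlobal_toLoc, ← loc'_smul, smul_primeUnit]

theorem locPart_inclJ'_loc' (y : Additive (E L q)ˣ) :
    Duality.locPart L' q (inclJ' hL (loc' L q y)) = loc' L' q (inclLoc q hL y) := by
  rw [Duality.locPart_apply]
  congr 1
  refine Additive.toMul.injective (Units.ext (Subtype.ext ?_))
  rw [toMul_ofMul, coe_val_inclJ', toMul_loc', coe_inclLoc, map_one,
    ← map_one (toGlobal (q : ℕ) L), val_locIdl_self, one_smul, IntermediateField.coe_inclusion]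

/-- Ideles supported at the places over the distinguished place of `L`. -/
def overPlace : AddSubgroup (J L') where
  carrier := {x | ∀ q' σ, ¬(q' = q ∧ σ ∈ decompPre q hL) → val x.toMul q' σ = 1}
  zero_mem' q' σ _ := val_one q' σ
  add_mem' {x y} hx hy q' σ h := by
    show val (x.toMul * y.toMul) q' σ = 1
    rw [val_mul, hx q' σ h, hy q' σ h, one_mul]
  neg_mem' {x} hx q' σ h := by
    show val x.toMul⁻¹ q' σ = 1
    rw [show val x.toMul⁻¹ q' σ = (val x.toMul q' σ)⁻¹ from map_inv (valHom q' σ) _, hx q' σ h,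
      inv_one]

omit [FiniteDimensional ℚ ↥L'] in
theorem inclJ'_loc'_mem_overPlace (y : Additive (E L q)ˣ) :
    inclJ' hL (loc' L q y) ∈ overPlace q hL := fun q' σ h => by
  refine Units.ext (Subtype.ext ?_)
  rw [coe_val_inclJ', toMul_loc']
  rcases eq_or_ne q' q with rfl | hne
  · rw [val_locIdl_of_notMem q' _ fun hm => h ⟨rfl, hm⟩]
    simp only [Units.val_one, OneMemClass.coe_one]
  · rw [val_locIdl_of_ne q _ hne]
    simp only [Units.val_one, OneMemClass.coe_one]

omit [FiniteDimensional ℚ ↥L] in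
theorem semiProj_overPlace :
    PT.SemiProj ((toGlobal (q : ℕ) L').range.subgroupOf (decompPre q hL)) (Duality.locPart L' q)
      (overPlace q hL) where
  mem x := fun q' σ h => by
    rw [Duality.locPart_apply]
    rcases eq_or_ne q' q with rfl | hne
    · refine val_locIdl_of_notMem q' _ fun hm => h ⟨rfl, ?_⟩
      obtain ⟨t, rfl⟩ := MonoidHom.mem_range.1 hm
      exact resTo_toGlobal_mem q' hL t
    · exact val_locIdl_of_ne q _ hne σ
  smul_mem g x hx := fun q' σ h => by
    show val ((g : L' ≃ₐ[ℚ] L') • x).toMul q' σ = 1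
    rw [Duality.val_smul_J]
    refine hx q' _ fun ⟨e, hm⟩ => h ⟨e, ?_⟩
    simpa using mul_mem hm (inv_mem g.2)
  comm d hd x := Duality.locPart_smul q hd x
  idem x := by
    rw [Duality.locPart_apply, Duality.locPart_apply]
    congr 2
    rw [← map_one (toGlobal (q : ℕ) L')]
    exact (val_locIdl_self q _ 1).trans (one_smul _ _)
  off g hg x := by
    rw [Duality.locPart_apply]
    have e : val ((g : L' ≃ₐ[ℚ] L') • Duality.locPart L' q x).toMul q 1 = 1 := by
      rw [Duality.val_smul_J, one_mul, Duality.locPart_apply]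
      exact val_locIdl_of_notMem q _ hg
    show loc' L' q (Additive.ofMul (val ((g : L' ≃ₐ[ℚ] L') • Duality.locPart L' q x).toMul q 1)) = 0
    rw [e]
    exact map_zero _
  ext z hz h := Duality.J_ext fun q' σ => by
    rw [show val (0 : J L').toMul q' σ = 1 from val_one q' σ]
    by_cases hm : q' = q ∧ σ ∈ decompPre q hL
    · obtain ⟨rfl, hm⟩ := hm
      have e := congrArg (fun y : J L' => val y.toMul q' 1) (h ⟨σ, hm⟩)
      simp only [Duality.locPart_apply] at e
      rw [← map_one (toGlobal (q' : ℕ) L')] at e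
      replace e := (val_locIdl_self q' _ 1).symm.trans (e.trans (val_one q' _))
      rw [one_smul, map_one] at e
      change val ((σ : L' ≃ₐ[ℚ] L') • z).toMul q' 1 = 1 at e
      rw [Duality.val_smul_J, one_mul] at e
      exact e
    · exact hz q' σ hm

variable {n : ℕ} (a : Aux n) (hF : a.fixedChi ≤ L')

/-- A local comparison of a carry cocycle with an inflated cocycle extends to the preimage of the
decomposition group. -/
theorem exists_semilocal_eq [NeZero n]
    (c₀ : (E L q ≃ₐ[ℚ_[(q : ℕ)]] E L q) × (E L q ≃ₐ[ℚ_[(q : ℕ)]] E L q) → Additive (E L q)ˣ)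
    (hc₀ : IsCocycle₂ c₀) (B : (E L' q ≃ₐ[ℚ_[(q : ℕ)]] E L' q) → Additive (E L' q)ˣ)
    (hB : ∀ s t, s • B t - B (s * t) + B s = carryN (chiLoc q a hF) (primeUnit q L') (s, t) -
      inclLoc q hL (c₀ (resLoc q hL s, resLoc q hL t))) :
    ∃ T : decompPre q hL → J L', ∀ g h : decompPre q hL,
      (g : L' ≃ₐ[ℚ] L') • T h - T (g * h) + T g =
        carryN (chiUp a hF) (inclJ' hL (loc' L q (primeUnit q L)))
          ((g : L' ≃ₐ[ℚ] L'), (h : L' ≃ₐ[ℚ] L')) -
        inclJ' hL (loc' L q (c₀ (toLoc q hL g, toLoc q hL h))) := by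
  classical
  set X := inclJ' hL (loc' L q (primeUnit q L))
  set G := decompPre q hL
  let c : G × G → J L' := fun x =>
    carryN ((chiUp a hF).comp G.subtype) X x - inclJ' hL (loc' L q (c₀ (toLoc q hL x.1, toLoc q hL x.2)))
  have hc : IsCocycle₂ c := by
    refine CFT.isCocycle₂_sub (isCocycle₂_carryN fun g => inclJ'_loc'_primeUnit_fixed q hL g) ?_
    intro g h j
    show _ = (g : L' ≃ₐ[ℚ] L') • inclJ' hL (loc' L q (c₀ (toLoc q hL h, toLoc q hL j))) +
      inclJ' hL (loc' L q (c₀ (toLoc q hL g, toLoc q hL (h * j))))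
    rw [smul_inclJ', ← toGlobal_toLoc, ← loc'_smul, ← map_add, ← map_add, ← map_add, ← map_add]
    simp only [map_mul]
    rw [hc₀ (toLoc q hL g) (toLoc q hL h) (toLoc q hL j)]
  have hcs : ∀ x, c x ∈ overPlace q hL := fun x =>
    sub_mem (nsmul_mem (inclJ'_loc'_mem_overPlace q hL _) _) (inclJ'_loc'_mem_overPlace q hL _)
  set D := (toGlobal (q : ℕ) L').range.subgroupOf G
  have hmem : ∀ d : D, ∃ t, toGlobal (q : ℕ) L' t = ((d : G) : L' ≃ₐ[ℚ] L') := fun d => d.2
  choose t ht using hmem
  let m : D → J L' := fun d => loc' L' q (B (t d))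
  haveI : Fintype (G ⧸ D) := Fintype.ofFinite _
  obtain ⟨T, -, hT⟩ := (semiProj_overPlace q hL).exists_h2 c hc hcs m (fun d => by
      rw [Duality.locPart_apply]
      congr 1
      refine Additive.toMul.injective ?_
      rw [toMul_ofMul, ← map_one (toGlobal (q : ℕ) L')]
      exact (val_locIdl_self q _ 1).trans (one_smul _ _)) fun x y => by
    have hxy : t (x * y) = t x * t y := toGlobal_injective (q : ℕ) L' (by
      rw [map_mul, ht, ht, ht]; rfl)
    have hl : ∀ d : D, toLoc q hL (d : G) = resLoc q hL (t d) := fun d =>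
      toGlobal_injective (q : ℕ) L (by rw [toGlobal_toLoc, toGlobal_resLoc, ht])
    have hv : ∀ d : D, chiVal ((chiUp a hF).comp G.subtype) (d : G) = chiVal (chiLoc q a hF) (t d) :=
      fun d => by
        show chiVal (chiUp a hF) ((d : G) : L' ≃ₐ[ℚ] L') = _
        rw [← ht d]; rfl
    show ((x : G) : L' ≃ₐ[ℚ] L') • loc' L' q (B (t y)) - loc' L' q (B (t (x * y))) +
      loc' L' q (B (t x)) = _
    rw [← ht x, ← loc'_smul, hxy, ← map_sub, ← map_add, hB]
    simp only [c, map_sub, carryN, map_nsmul, hv, hl, X, locPart_inclJ'_loc', inclLoc_primeUnit]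
  exact ⟨T, fun g h => hT g h⟩

end Fermat.Agent.CFT.Idele
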